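import Fermat.Agent.Corollaries.Surj.Serre

/-!
# Independence of the `p`-adic images for different primes (helper62)

`G` a group, `M p : G → GL₂(ℤ_p)` homomorphisms for `p` in a set `S` of odd primes, each of them
surjective modulo all powers of `p`, with independent determinants.  Then the joint homomorphism
into `∏ GL₂(ℤ_p)` is surjective modulo every integer (`Serre.exists_joint`).

The proof is by induction on the largest prime `p`: the commutator subgroup of `G` acts through all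
transvections modulo `pⁿ`, and the order of the image modulo the smaller primes is prime to `p`.
-/

set_option autoImplicit false

noncomputable section

open Matrix
open scoped commutatorElement

namespace Fermat.Agent.Cor.Serre

/-! ### Generation by transvections -/

section Gen

variable {p : ℕ} [hp : Fact p.Prime]

/-- **Matrices of determinant one over `ℤ_p` are products of transvections.** -/
theorem sl_induction {P : Matrix (Fin 2) (Fin 2) ℤ_[p] → Prop} (hU : ∀ x, P (tU x))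
    (hL : ∀ x, P (tL x)) (hmul : ∀ a b, P a → P b → P (a * b))
    {g : Matrix (Fin 2) (Fin 2) ℤ_[p]} (hg : g.det = 1) : P g := by
  have key : ∀ g : Matrix (Fin 2) (Fin 2) ℤ_[p], g.det = 1 → IsUnit (g 1 0) → P g := by
    intro g hg hc
    obtain ⟨c', hc'⟩ := hc.exists_right_inv
    have h2 := hmul _ _ (hmul _ _ (hU ((g 0 0 - 1) * c')) (hL (g 1 0))) (hU ((g 1 1 - 1) * c'))
    have h3 : tU ((g 0 0 - 1) * c') * tL (g 1 0) * tU ((g 1 1 - 1) * c') = g := by
      rw [Matrix.det_fin_two] at hg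
      ext i j
      fin_cases i <;> fin_cases j
      · simp [tU, tL]
        linear_combination (g 0 0 - 1) * hc'
      · simp [tU, tL]
        linear_combination c' * hg + (g 0 1 + (g 0 0 - 1) * (g 1 1 - 1) * c') * hc'
      · simp [tU, tL]
      · simp [tU, tL]
        linear_combination (g 1 1 - 1) * hc'
    rwa [h3] at h2
  have hdet : IsUnit g.det := by rw [hg]; exact isUnit_one
  rcases isUnit_or (g 1 0) (g 0 0) (fun hc => by
    by_contra ha
    refine not_isUnit_iff.2 ?_ hdet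
    rw [Matrix.det_fin_two]
    exact dvd_sub ((not_isUnit_iff.1 ha).mul_right _) ((not_isUnit_iff.1 hc).mul_left _)) with h2 | h2
  · exact key g hg h2
  · have h3 : P (tL 1 * g) := by
      refine key _ ?_ ?_
      · rw [Matrix.det_mul, hg]
        simp [tL]
      · have : ((tL 1 : Matrix (Fin 2) (Fin 2) ℤ_[p]) * g) 1 0 = g 1 0 + g 0 0 := by
          simp [tL, Matrix.mul_apply, Fin.sum_univ_two, add_comm]
        rw [this]
        exact h2
    have h4 := hmul _ _ (hL (-1)) h3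
    rw [← mul_assoc] at h4
    have h5 : (tL (-1) * tL 1 : Matrix (Fin 2) (Fin 2) ℤ_[p]) = 1 := by
      ext i j; fin_cases i <;> fin_cases j <;> simp [tL]
    rwa [h5, one_mul] at h4

theorem tU_mul (x y : ℤ_[p]) : tU x * tU y = tU (x + y) := by
  ext i j; fin_cases i <;> fin_cases j <;> simp [tU, add_comm]

theorem tL_mul (x y : ℤ_[p]) : tL x * tL y = tL (x + y) := by
  ext i j; fin_cases i <;> fin_cases j <;> simp [tL]

theorem tU_zero : (tU 0 : Matrix (Fin 2) (Fin 2) ℤ_[p]) = 1 := by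
  ext i j; fin_cases i <;> fin_cases j <;> simp [tU]

theorem tL_zero : (tL 0 : Matrix (Fin 2) (Fin 2) ℤ_[p]) = 1 := by
  ext i j; fin_cases i <;> fin_cases j <;> simp [tL]

theorem tU_pow (x : ℤ_[p]) (m : ℕ) : tU x ^ m = tU ((m : ℤ_[p]) * x) := by
  induction m with
  | zero => simp [tU_zero]
  | succ m ih => rw [pow_succ, ih, tU_mul]; congr 1; push_cast; ring

theorem tL_pow (x : ℤ_[p]) (m : ℕ) : tL x ^ m = tL ((m : ℤ_[p]) * x) := by
  induction m with
  | zero => simp [tL_zero]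
  | succ m ih => rw [pow_succ, ih, tL_mul]; congr 1; push_cast; ring

theorem det_tU (x : ℤ_[p]) : (tU x).det = 1 := by simp [tU]

theorem det_tL (x : ℤ_[p]) : (tL x).det = 1 := by simp [tL]

end Gen

/-! ### The exponent of the image modulo `qⁿ` -/

section Exponent

variable {q : ℕ} [hq : Fact q.Prime]

theorem Cg.pow_q (hq3 : 3 ≤ q) {n : ℕ} (hn : 1 ≤ n) {a : Matrix (Fin 2) (Fin 2) ℤ_[q]}
    (h : Cg q n a 1) : Cg q (n + 1) (a ^ q) 1 := by
  obtain ⟨u, hu⟩ := h
  have h1 : Cg q (n + 1) a (1 + (q : Matrix (Fin 2) (Fin 2) ℤ_[q]) ^ n * u) := by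
    rw [← hu, add_sub_cancel]
    exact Cg.refl _ _
  have h2 := (h1.pow_of_pos hq.out hq3 hn).mono (Nat.le_succ (n + 1))
  refine h2.trans ⟨u, ?_⟩
  rw [add_sub_cancel_left]

theorem cg_one_iff_toZMod {A B : Matrix (Fin 2) (Fin 2) ℤ_[q]} :
    Cg q 1 A B ↔ A.map PadicInt.toZMod = B.map PadicInt.toZMod := by
  have h0 : ∀ a b : ℤ_[q], (q : ℤ_[q]) ^ 1 ∣ a - b ↔ PadicInt.toZMod a = PadicInt.toZMod b := by
    intro a b
    rw [pow_one, ← sub_eq_zero, ← map_sub, ← RingHom.mem_ker, PadicInt.ker_toZMod,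
      IsLocalRing.mem_maximalIdeal, mem_nonunits_iff, not_isUnit_iff]
  rw [cg_iff]
  constructor
  · intro h
    ext i j
    exact (h0 _ _).1 (h i j)
  · intro h i j
    exact (h0 _ _).2 (congrFun (congrFun h i) j)

/-- **The exponent of `GL₂(ℤ/qⁿ)`** divides `(q² - 1)(q² - q)qⁿ`. -/
theorem cg_pow_card (hq3 : 3 ≤ q) {A A' : Matrix (Fin 2) (Fin 2) ℤ_[q]} (hA : A * A' = 1) (n : ℕ) :
    Cg q n (A ^ ((q ^ 2 - 1) * (q ^ 2 - q) * q ^ n)) 1 := by
  have hA' : A' * A = 1 := mul_eq_one_comm.1 hA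
  have h1 : Cg q 1 (A ^ ((q ^ 2 - 1) * (q ^ 2 - q))) 1 := by
    let u : GL (Fin 2) (ZMod q) := ⟨A.map PadicInt.toZMod, A'.map PadicInt.toZMod, by
      rw [← RingHom.mapMatrix_apply, ← RingHom.mapMatrix_apply, ← map_mul, hA, map_one], by
      rw [← RingHom.mapMatrix_apply, ← RingHom.mapMatrix_apply, ← map_mul, hA', map_one]⟩
    have h2 : u ^ Nat.card (GL (Fin 2) (ZMod q)) = 1 := pow_card_eq_one'
    rw [Matrix.card_GL_field, Fin.prod_univ_two, ZMod.card] at h2
    simp only [Fin.val_zero, Fin.val_one, pow_zero, pow_one] at h2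
    rw [cg_one_iff_toZMod, ← RingHom.mapMatrix_apply, ← RingHom.mapMatrix_apply, map_pow, map_one]
    exact congrArg Units.val h2
  have h3 : ∀ n : ℕ, Cg q (n + 1) (A ^ ((q ^ 2 - 1) * (q ^ 2 - q) * q ^ n)) 1 := by
    intro n
    induction n with
    | zero => simpa using h1
    | succ n ih =>
      rw [pow_succ q n, ← mul_assoc, pow_mul]
      exact Cg.pow_q hq3 (Nat.le_add_left 1 n) ih
  exact (h3 n).mono n.le_succ

theorem coprime_card {p : ℕ} (hp : p.Prime) (hq3 : 3 ≤ q) (hqp : q < p) (n : ℕ) :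
    Nat.Coprime ((q ^ 2 - 1) * (q ^ 2 - q) * q ^ n) p := by
  have h1 : Nat.Coprime (q - 1) p :=
    (Nat.coprime_of_lt_prime (by omega) (by omega) hp).symm
  have h2 : Nat.Coprime q p := (Nat.coprime_of_lt_prime (by omega) hqp hp).symm
  have h3 : Nat.Coprime (q + 1) p := by
    refine (Nat.coprime_of_lt_prime (by omega) (lt_of_le_of_ne hqp ?_) hp).symm
    intro h
    have h4 := hq.out.eq_two_or_odd
    have h5 := hp.eq_two_or_odd
    omega
  have e1 : q ^ 2 - 1 = (q + 1) * (q - 1) := by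
    obtain ⟨k, rfl⟩ : ∃ k, q = k + 1 := ⟨q - 1, by omega⟩
    have : (k + 1) ^ 2 = (k + 1 + 1) * k + 1 := by ring
    rw [this]
    simp
  have e2 : q ^ 2 - q = q * (q - 1) := by rw [Nat.mul_sub, mul_one, sq]
  rw [e1, e2]
  exact (((h3.mul_left h1).mul_left (h2.mul_left h1)).mul_left (h2.pow_left n))

end Exponent

/-! ### The joint image -/

section Joint

variable {G : Type*} [Group G]
  (M : ∀ (p : ℕ) [Fact p.Prime], G →* Matrix (Fin 2) (Fin 2) ℤ_[p])

theorem det_commutator {p : ℕ} [Fact p.Prime] {σ : G} (hσ : σ ∈ commutator G) :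
    (M p σ).det = 1 := by
  have h := Abelianization.commutator_subset_ker
    ((Matrix.detMonoidHom.comp (M p)).toHomUnits) hσ
  rw [MonoidHom.mem_ker] at h
  exact congrArg Units.val h

variable {M}

theorem cg_commutatorElement {p : ℕ} [Fact p.Prime] {n : ℕ} {σ τ : G}
    {g g' k k' : Matrix (Fin 2) (Fin 2) ℤ_[p]} (hg : g * g' = 1) (hk : k * k' = 1)
    (hσ : Cg p n (M p σ) g) (hτ : Cg p n (M p τ) k) :
    Cg p n (M p ⁅σ, τ⁆) (g * k * g' * k') := by
  rw [commutatorElement_def, map_mul, map_mul, map_mul]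
  exact ((hσ.mul hτ).mul (hσ.inv' (M p) hg)).mul (hτ.inv' (M p) hk)

variable {S : ℕ → Prop}

/-- the commutator subgroup acts through all matrices of determinant one at the largest prime,
trivially at the smaller primes -/
theorem exists_top (hS : ∀ p, S p → 3 ≤ p)
    (hM : ∀ (p : ℕ) [Fact p.Prime], S p → ∀ (n : ℕ) (g : Matrix (Fin 2) (Fin 2) ℤ_[p]),
      IsUnit g.det → ∃ σ, Cg p n (M p σ) g) (n : ℕ) {p : ℕ} [hp : Fact p.Prime] (hSp : S p)
    {F : Finset ℕ} (hF : ∀ q ∈ F, q < p) {g : Matrix (Fin 2) (Fin 2) ℤ_[p]} (hg : g.det = 1) :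
    ∃ σ ∈ commutator G, (∀ q ∈ F, ∀ [Fact q.Prime], S q → Cg q n (M q σ) 1) ∧
      Cg p n (M p σ) g := by
  classical
  have hp3 : 3 ≤ p := hS p hSp
  have hM' := hM
  -- the exponent
  obtain ⟨m, hmp, hm⟩ : ∃ m : ℕ, Nat.Coprime m p ∧ ∀ q ∈ F, ∀ [Fact q.Prime], S q →
      ∀ σ : G, Cg q n (M q σ ^ m) 1 := by
    refine ⟨∏ q ∈ F.filter (fun q => q.Prime ∧ S q), ((q ^ 2 - 1) * (q ^ 2 - q) * q ^ n),
      Nat.Coprime.prod_left fun q hq => ?_, fun q hq hqp hSq σ => ?_⟩
    · rw [Finset.mem_filter] at hq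
      have : Fact q.Prime := ⟨hq.2.1⟩
      exact coprime_card hp.out (hS q hq.2.2) (hF q hq.1) n
    · have hq' : q ∈ F.filter (fun q => q.Prime ∧ S q) :=
        Finset.mem_filter.2 ⟨hq, hqp.out, hSq⟩
      obtain ⟨k, hk⟩ := Finset.dvd_prod_of_mem
        (fun q => (q ^ 2 - 1) * (q ^ 2 - q) * q ^ n) hq'
      rw [hk, pow_mul]
      simpa using (cg_pow_card (hS q hSq) (rho_mul_inv (M q) σ) n).pow k
  -- the unit
  obtain ⟨k, hk⟩ : ∃ k : ℤ_[p], (-2 * (m : ℤ_[p])) * k = 1 := by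
    refine IsUnit.exists_right_inv (IsUnit.mul ?_ ?_)
    · rw [IsUnit.neg_iff]
      by_contra h
      rw [not_isUnit_iff] at h
      have h2 : (p : ℤ_[p]) ∣ ((2 : ℕ) : ℤ_[p]) := by exact_mod_cast h
      have h3 : p ∣ 2 := by
        have := (PadicInt.norm_natCast_lt_one_iff (p := p) (n := 2)).1
          (PadicInt.norm_lt_one_iff_dvd _ |>.2 h2)
        exact this
      exact absurd (Nat.le_of_dvd two_pos h3) (by omega)
    · by_contra h
      rw [not_isUnit_iff] at h
      have h3 : p ∣ m := (PadicInt.norm_natCast_lt_one_iff (p := p) (n := m)).1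
        (PadicInt.norm_lt_one_iff_dvd _ |>.2 h)
      have h4 := Nat.dvd_gcd h3 (dvd_refl p)
      rw [hmp] at h4
      exact hp.out.one_lt.ne' (Nat.dvd_one.1 h4)
  have hD : (!![-1, 0; 0, 1] : Matrix (Fin 2) (Fin 2) ℤ_[p]) * !![-1, 0; 0, 1] = 1 := by
    ext i j; fin_cases i <;> fin_cases j <;> simp
  obtain ⟨δ, hδ⟩ := hM p hSp n !![-1, 0; 0, 1] (by simp)
  refine sl_induction (P := fun g => ∃ σ ∈ commutator G,
    (∀ q ∈ F, ∀ [Fact q.Prime], S q → Cg q n (M q σ) 1) ∧ Cg p n (M p σ) g) ?_ ?_ ?_ hg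
  · intro x
    have hT : tU (x * k) * tU (-(x * k)) = (1 : Matrix (Fin 2) (Fin 2) ℤ_[p]) := by
      rw [tU_mul, add_neg_cancel, tU_zero]
    obtain ⟨τ, hτ⟩ := hM p hSp n (tU (x * k)) (by rw [det_tU]; exact isUnit_one)
    refine ⟨⁅δ, τ⁆ ^ m, Subgroup.pow_mem _ (Subgroup.commutator_mem_commutator
      (Subgroup.mem_top _) (Subgroup.mem_top _)) m, ?_, ?_⟩
    · intro q hq hqp hSq
      rw [map_pow]
      exact hm q hq hSq _
    · rw [map_pow]
      have h1 := (cg_commutatorElement hD hT hδ hτ).pow m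
      have e : (!![-1, 0; 0, 1] * tU (x * k) * !![-1, 0; 0, 1] * tU (-(x * k)) :
          Matrix (Fin 2) (Fin 2) ℤ_[p]) = tU (-2 * (x * k)) := by
        ext i j; fin_cases i <;> fin_cases j <;> simp [tU]; ring
      rw [e, tU_pow] at h1
      have e2 : (m : ℤ_[p]) * (-2 * (x * k)) = x := by linear_combination x * hk
      rwa [e2] at h1
  · intro x
    have hT : tL (x * k) * tL (-(x * k)) = (1 : Matrix (Fin 2) (Fin 2) ℤ_[p]) := by
      rw [tL_mul, add_neg_cancel, tL_zero]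
    obtain ⟨τ, hτ⟩ := hM p hSp n (tL (x * k)) (by rw [det_tL]; exact isUnit_one)
    refine ⟨⁅δ, τ⁆ ^ m, Subgroup.pow_mem _ (Subgroup.commutator_mem_commutator
      (Subgroup.mem_top _) (Subgroup.mem_top _)) m, ?_, ?_⟩
    · intro q hq hqp hSq
      rw [map_pow]
      exact hm q hq hSq _
    · rw [map_pow]
      have h1 := (cg_commutatorElement hD hT hδ hτ).pow m
      have e : (!![-1, 0; 0, 1] * tL (x * k) * !![-1, 0; 0, 1] * tL (-(x * k)) :
          Matrix (Fin 2) (Fin 2) ℤ_[p]) = tL (-2 * (x * k)) := by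
        ext i j; fin_cases i <;> fin_cases j <;> simp [tL]; ring
      rw [e, tL_pow] at h1
      have e2 : (m : ℤ_[p]) * (-2 * (x * k)) = x := by linear_combination x * hk
      rwa [e2] at h1
  · rintro a b ⟨σ, h1, h2, h3⟩ ⟨τ, h4, h5, h6⟩
    refine ⟨σ * τ, Subgroup.mul_mem _ h1 h4, fun q hq hqp hSq => ?_, ?_⟩
    · rw [map_mul]
      simpa using (h2 q hq hSq).mul (h5 q hq hSq)
    · rw [map_mul]
      exact h3.mul h6

/-- **The joint image contains the matrices of determinant one.** -/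
theorem exists_joint_sl (hS : ∀ p, S p → 3 ≤ p)
    (hM : ∀ (p : ℕ) [Fact p.Prime], S p → ∀ (n : ℕ) (g : Matrix (Fin 2) (Fin 2) ℤ_[p]),
      IsUnit g.det → ∃ σ, Cg p n (M p σ) g) (n : ℕ)
    (g : ∀ (p : ℕ) [Fact p.Prime], Matrix (Fin 2) (Fin 2) ℤ_[p])
    (hg : ∀ (p : ℕ) [Fact p.Prime], S p → (g p).det = 1) (F : Finset ℕ) :
    ∃ σ ∈ commutator G, ∀ p ∈ F, ∀ [Fact p.Prime], S p → Cg p n (M p σ) (g p) := by
  induction F using Finset.induction_on_max with
  | empty => exact ⟨1, Subgroup.one_mem _, fun p hp => absurd hp (Finset.notMem_empty p)⟩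
  | insert p F hF ih =>
    obtain ⟨σ, hσ, h1⟩ := ih
    by_cases hp : p.Prime ∧ S p
    · have : Fact p.Prime := ⟨hp.1⟩
      obtain ⟨τ, hτ, h2, h3⟩ := exists_top hS hM n hp.2 hF (g := M p σ⁻¹ * g p) (by
        rw [Matrix.det_mul, det_commutator M (Subgroup.inv_mem _ hσ), hg p hp.2, one_mul])
      refine ⟨σ * τ, Subgroup.mul_mem _ hσ hτ, fun q hq hqp hSq => ?_⟩
      rw [map_mul]
      rcases Finset.mem_insert.1 hq with rfl | hq
      · have h4 := h3.mul_left (M q σ)
        rw [← mul_assoc, rho_mul_inv, one_mul] at h4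
        exact h4
      · simpa using (h1 q hq hSq).mul (h2 q hq hSq)
    · refine ⟨σ, hσ, fun q hq hqp hSq => ?_⟩
      rcases Finset.mem_insert.1 hq with rfl | hq
      · exact absurd ⟨hqp.out, hSq⟩ hp
      · exact h1 q hq hSq

/-- **The joint image is everything**, modulo `pⁿ` for finitely many primes `p`. -/
theorem exists_joint (hS : ∀ p, S p → 3 ≤ p)
    (hM : ∀ (p : ℕ) [Fact p.Prime], S p → ∀ (n : ℕ) (g : Matrix (Fin 2) (Fin 2) ℤ_[p]),
      IsUnit g.det → ∃ σ, Cg p n (M p σ) g) (n : ℕ)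
    (g : ∀ (p : ℕ) [Fact p.Prime], Matrix (Fin 2) (Fin 2) ℤ_[p])
    (hg : ∀ (p : ℕ) [Fact p.Prime], S p → IsUnit (g p).det) (F : Finset ℕ)
    (hdet : ∃ σ, ∀ p ∈ F, ∀ [Fact p.Prime], S p →
      (p : ℤ_[p]) ^ n ∣ (M p σ).det - (g p).det) :
    ∃ σ, ∀ p ∈ F, ∀ [Fact p.Prime], S p → Cg p n (M p σ) (g p) := by
  classical
  obtain ⟨σ, hσ⟩ := hdet
  -- correction of the determinant
  have h1 : ∀ (p : ℕ) [Fact p.Prime], ∃ h : Matrix (Fin 2) (Fin 2) ℤ_[p],
      (S p → h.det = 1) ∧ (S p → p ∈ F → Cg p n h (M p σ⁻¹ * g p)) := by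
    intro p hp
    by_cases hSp : S p
    · have hu1 : IsUnit (M p σ⁻¹).det := by
        have h := congrArg Matrix.det (rho_inv_mul (M p) σ)
        rw [Matrix.det_mul, Matrix.det_one] at h
        exact IsUnit.of_mul_eq_one _ h
      have hu : IsUnit (M p σ⁻¹ * g p).det := by
        rw [Matrix.det_mul]
        exact hu1.mul (hg p hSp)
      obtain ⟨d', hd'⟩ := hu.exists_right_inv
      refine ⟨!![d', 0; 0, 1] * (M p σ⁻¹ * g p), fun _ => ?_, fun _ hpF => ?_⟩
      · rw [Matrix.det_mul]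
        simp only [Matrix.det_fin_two_of, mul_one, mul_zero, sub_zero]
        rw [mul_comm]
        exact hd'
      · have h2 : Cg p n (!![d', 0; 0, 1] : Matrix (Fin 2) (Fin 2) ℤ_[p]) 1 := by
          rw [cg_iff]
          obtain ⟨t, ht⟩ := hσ p hpF hSp
          have h3 := congrArg Matrix.det (rho_inv_mul (M p) σ)
          rw [Matrix.det_mul, Matrix.det_one] at h3
          rw [Matrix.det_mul] at hd'
          intro i j
          fin_cases i <;> fin_cases j
          · refine ⟨t * (M p σ⁻¹).det * d', ?_⟩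
            simp
            linear_combination (-d') * h3 + (M p σ⁻¹).det * d' * ht + hd'
          · simp
          · simp
          · simp
        simpa using h2.mul_right (M p σ⁻¹ * g p)
    · exact ⟨1, fun h => absurd h hSp, fun h => absurd h hSp⟩
  choose h hh1 hh2 using h1
  obtain ⟨τ, -, hτ⟩ := exists_joint_sl hS hM n h (fun p _ hSp => hh1 p hSp) F
  refine ⟨σ * τ, fun p hpF hp hSp => ?_⟩
  rw [map_mul]
  have h4 := ((hτ p hpF hSp).trans (hh2 p hSp hpF)).mul_left (M p σ)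
  rw [← mul_assoc (M p σ), rho_mul_inv, one_mul] at h4
  exact h4

end Joint

end Fermat.Agent.Cor.Serre

end
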