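import Fermat.Agent.Corollaries.Surj.Open
import Fermat.Agent.Corollaries.Surj.Indep

/-!
# The adelic image of Galois (helper62)

`W` a Weierstrass curve over `ℤ` with `Δ ≠ 0`.

* `exists_cyc_joint`: the cyclotomic characters for different primes are independent.
* `exists_adelic`: let `e p` be an automorphism of the `ℤ_p`-module `T_p W`, for every prime `p`.
  Then there is **one** `σ ∈ Gal(ℚ̄/ℚ)` which acts on `T_p W` as `e p` for **all** primes `p ≥ 5` for
  which `Gal(ℚ̄/ℚ)` acts on `W[p]` through all automorphisms.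
* `SurjMod.of_dvd`: for `N` prime to `6` such that `Gal(ℚ̄/ℚ)` acts on `W[p]` through all
  automorphisms, for every prime divisor `p` of `N`, the group acts on `W[N]` through all
  automorphisms.
-/

set_option autoImplicit false

noncomputable section

open WeierstrassCurve WeierstrassCurve.Affine.Point Module
open scoped WeierstrassCurve.Affine Pointwise
open Fermat.Agent.Tate Fermat.Agent.S30aux

namespace Fermat.Agent.Cor

local notation "Γℚ" => (AlgebraicClosure ℚ ≃ₐ[ℚ] AlgebraicClosure ℚ)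

/-- `σ` acts on the roots of unity of order `N` as the `k`-th power. -/
theorem exists_conj_pow {N : ℕ} (hN : 0 < N) {k : ℕ} (hk : Nat.Coprime k N) :
    ∃ σ : Γℚ, ∀ ζ : AlgebraicClosure ℚ, ζ ^ N = 1 → σ ζ = ζ ^ k := by
  have : NeZero N := ⟨hN.ne'⟩
  have : NeZero ((N : ℕ) : AlgebraicClosure ℚ) := ⟨by exact_mod_cast hN.ne'⟩
  obtain ⟨ζ, hζ⟩ := HasEnoughRootsOfUnity.exists_primitiveRoot (AlgebraicClosure ℚ) N
  have h1 : IsConjRoot ℚ (ζ ^ k) ζ := by
    rw [IsConjRoot, ← Polynomial.cyclotomic_eq_minpoly_rat hζ hN,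
      ← Polynomial.cyclotomic_eq_minpoly_rat (hζ.pow_of_coprime _ hk) hN]
  obtain ⟨σ, hσ⟩ := (isConjRoot_iff_exists_algEquiv (K := ℚ) (L := AlgebraicClosure ℚ)).1 h1
  refine ⟨σ, fun x hx => ?_⟩
  obtain ⟨i, -, rfl⟩ := hζ.eq_pow_of_pow_eq_one hx
  have h2 : σ ζ = ζ ^ k := hσ
  rw [map_pow, h2, ← pow_mul, ← pow_mul, mul_comm]

/-- **The cyclotomic characters for different primes are independent.** -/
theorem exists_cyc_joint (n : ℕ) (u : ∀ (p : ℕ) [Fact p.Prime], ℤ_[p]) (F : Finset ℕ)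
    (hu : ∀ p ∈ F, ∀ [Fact p.Prime], IsUnit (u p)) :
    ∃ σ : Γℚ, ∀ p ∈ F, ∀ [Fact p.Prime],
      PadicInt.toZModPow n ((cyc p σ : ℤ_[p]ˣ) : ℤ_[p]) = PadicInt.toZModPow n (u p) := by
  classical
  let a : ℕ → ℕ := fun p => if h : p.Prime then
    (haveI : Fact p.Prime := ⟨h⟩; (PadicInt.toZModPow n (u p)).val) else 0
  have ha : ∀ (p : ℕ) [hp : Fact p.Prime], a p = (PadicInt.toZModPow n (u p)).val :=
    fun p hp => dif_pos hp.out
  obtain ⟨k, hk⟩ := Nat.chineseRemainderOfFinset a (fun p => p ^ n) (F.filter Nat.Prime)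
    (fun p hp => pow_ne_zero _ (Finset.mem_filter.1 hp).2.ne_zero)
    (fun p hp q hq hpq => Nat.Coprime.pow _ _
      ((Nat.coprime_primes (Finset.mem_filter.1 hp).2 (Finset.mem_filter.1 hq).2).2 hpq))
  have hkp : ∀ p ∈ F.filter Nat.Prime, Nat.Coprime k (p ^ n) := by
    intro p hp
    have h1 := Finset.mem_filter.1 hp
    have : Fact p.Prime := ⟨h1.2⟩
    have hpn : NeZero (p ^ n) := ⟨pow_ne_zero n h1.2.ne_zero⟩
    obtain ⟨v, hv⟩ : ∃ v : (ZMod (p ^ n))ˣ, (v : ZMod (p ^ n)) = PadicInt.toZModPow n (u p) :=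
      ((hu p h1.1).map (PadicInt.toZModPow n))
    have h2 := ZMod.val_coe_unit_coprime v
    rw [hv, ← ha p] at h2
    have h3 := Nat.ModEq.gcd_eq (hk p hp)
    rw [Nat.Coprime, h3]
    exact h2
  obtain ⟨σ, hσ⟩ := exists_conj_pow (N := ∏ p ∈ F.filter Nat.Prime, p ^ n)
    (Finset.prod_pos fun p hp => pow_pos (Finset.mem_filter.1 hp).2.pos n)
    (Nat.Coprime.prod_right hkp)
  refine ⟨σ, fun p hpF hp => ?_⟩
  have hpF' : p ∈ F.filter Nat.Prime := Finset.mem_filter.2 ⟨hpF, hp.out⟩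
  have hpn : NeZero (p ^ n) := ⟨pow_ne_zero n hp.out.ne_zero⟩
  obtain ⟨ζ, hζ⟩ := exists_primitive p n
  obtain ⟨c, hc⟩ := Finset.dvd_prod_of_mem (fun p => p ^ n) hpF'
  have h1 : σ ζ = ζ ^ k := hσ ζ (by rw [hc, pow_mul, hζ.pow_eq_one, one_pow])
  rw [← cast_cn, ← cn_unique p n σ k ζ hζ h1]
  have h2 := (ZMod.natCast_eq_natCast_iff _ _ _).2 (hk p hpF')
  rw [h2, ha p, ZMod.natCast_zmod_val]

variable {W : WeierstrassCurve ℤ}

/-- **Every family of automorphisms of the Tate modules comes from one element of the Galois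
group**: general form, at the odd primes with surjective `p`-adic representation. -/
theorem exists_adelic_of_pow (hΔ : W.Δ ≠ 0)
    (e : ∀ (p : ℕ) [Fact p.Prime],
      TMod p ((W.map (Int.castRingHom ℚ))⁄(AlgebraicClosure ℚ)).Point ≃ₗ[ℤ_[p]]
        TMod p ((W.map (Int.castRingHom ℚ))⁄(AlgebraicClosure ℚ)).Point) :
    ∃ σ : Γℚ, ∀ (p : ℕ) [Fact p.Prime], 3 ≤ p → (∀ n, SurjMod W (p ^ n)) →
      (tateRep (W.map (Int.castRingHom ℚ)) (map_Δ_ne_zero hΔ) p).ρ σ = (e p).toLinearMap := by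
  classical
  have hX : ∀ (p : ℕ) [Fact p.Prime], Nonempty (Tb W p) := fun p _ => exists_tb hΔ
  let X : ∀ (p : ℕ) [Fact p.Prime], Tb W p := fun p _ => (hX p).some
  let g : ∀ (p : ℕ) [Fact p.Prime], Matrix (Fin 2) (Fin 2) ℤ_[p] := fun p _ =>
    LinearMap.toMatrix (X p).b (X p).b (e p).toLinearMap
  have hg : ∀ (p : ℕ) [Fact p.Prime], IsUnit (g p).det := fun p _ =>
    LinearEquiv.isUnit_det (e p) (X p).b (X p).b
  let S : ℕ → Prop := fun p => 3 ≤ p ∧ ∀ n, SurjMod W (p ^ n)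
  let C : ℕ → Set Γℚ := fun k => {σ | ∀ p, p < k → ∀ [Fact p.Prime], S p →
    Serre.Cg p k ((X p).M σ) (g p)}
  have hclosed : ∀ k, IsClosed (C k) := by
    intro k
    simp only [C, Set.ofPred_forall]
    exact isClosed_iInter fun p => isClosed_iInter fun _ => isClosed_iInter fun _ =>
      isClosed_iInter fun _ => (X p).isClosed_cg _ _
  have hne : ∀ k, (C k).Nonempty := by
    intro k
    obtain ⟨σ, hσ⟩ := Serre.exists_joint (S := S) (M := fun p _ => (X p).M) (fun p hp => hp.1)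
      (fun p _ hp n g hg => (X p).exists_of_surjMod (hp.2 n) g hg) k g (fun p _ _ => hg p)
      (Finset.range k) (by
        obtain ⟨σ, hσ⟩ := exists_cyc_joint k (fun p _ => (g p).det) (Finset.range k)
          (fun p _ _ => hg p)
        refine ⟨σ, fun p hp _ _ => dvd_iff_toZModPow.2 ?_⟩
        rw [(X p).det_M σ]
        exact hσ p hp)
    exact ⟨σ, fun p hp _ hS => hσ p (Finset.mem_range.2 hp) hS⟩
  obtain ⟨σ, hσ⟩ := IsCompact.nonempty_iInter_of_sequence_nonempty_isCompact_isClosed C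
    (fun k σ hσ p hp _ hS => Serre.Cg.mono k.le_succ (hσ p (hp.trans k.lt_succ_self) hS)) hne (hclosed 0).isCompact hclosed
  refine ⟨σ, fun p hp hp3 hS => ?_⟩
  refine (LinearMap.toMatrix (X p).b (X p).b).injective ?_
  have h1 : ∀ n, Serre.Cg p n ((X p).M σ) (g p) := fun n => by
    have h2 : σ ∈ C (max (p + 1) n) := Set.mem_iInter.1 hσ _
    exact Serre.Cg.mono (le_max_right _ _)
      (h2 p (lt_of_lt_of_le p.lt_succ_self (le_max_left _ _)) ⟨hp3, hS⟩)
  ext1 i j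
  refine PadicInt.ext_of_toZModPow.1 fun n => ?_
  exact dvd_iff_toZModPow.1 (Serre.cg_iff.1 (h1 n) i j)

/-- **The adelic image of Galois.**  Let `W` be an elliptic curve over `ℚ` and `e p` an automorphism
of the Tate module `T_p W`, for every prime `p`.  There is **one** element `σ` of `Gal(ℚ̄/ℚ)` which
acts on `T_p W` as `e p` for all `p ≥ 5` for which `Gal(ℚ̄/ℚ)` acts on `W[p]` through all
automorphisms. -/
theorem exists_adelic (hΔ : W.Δ ≠ 0)
    (e : ∀ (p : ℕ) [Fact p.Prime],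
      TMod p ((W.map (Int.castRingHom ℚ))⁄(AlgebraicClosure ℚ)).Point ≃ₗ[ℤ_[p]]
        TMod p ((W.map (Int.castRingHom ℚ))⁄(AlgebraicClosure ℚ)).Point) :
    ∃ σ : Γℚ, ∀ (p : ℕ) [Fact p.Prime], 5 ≤ p → SurjMod W p →
      (tateRep (W.map (Int.castRingHom ℚ)) (map_Δ_ne_zero hΔ) p).ρ σ = (e p).toLinearMap := by
  obtain ⟨σ, hσ⟩ := exists_adelic_of_pow hΔ e
  exact ⟨σ, fun p _ hp5 h => hσ p (by omega) (h.pow hΔ hp5)⟩

end Fermat.Agent.Cor

end
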