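import Mathlib

/-!
# Counting matrices of given trace and determinant over a finite field

Let `F` be a finite field with `q` elements, `q` odd, and `χ` the quadratic character of `F`.

* `card_matrix_trace_det` : there are `q² + q χ(a² - 4 d)` matrices in `M₂(F)` of trace `a` and
  determinant `d`; `card_GL_trace_det` : the same in `GL₂(F)` (`d ≠ 0`);
* `card_GL_trace` : the number of elements of `GL₂(F)` of trace `a` is `q³ - q²` for `a = 0` and
  `q³ - q² - q` otherwise;
* `card_GL_eigen_one` : there are `q³ - 2 q` elements of `GL₂(F)` with the eigenvalue `1`.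
-/

set_option autoImplicit false

noncomputable section

open Matrix

namespace Fermat.Agent.Cor.Count

variable {F : Type*} [Field F] [Fintype F] [DecidableEq F]

local notation "q" => (Fintype.card F : ℤ)
local notation "M2" => Matrix (Fin 2) (Fin 2) F
local notation "GL2" => GL (Fin 2) F

/-- The number of pairs with a given product. -/
theorem card_mul_eq (c : F) : (Fintype.card {v : F × F // v.1 * v.2 = c} : ℤ) =
    q - 1 + if c = 0 then q else 0 := by
  have e : {v : F × F // v.1 * v.2 = c} ≃ Σ y : F, {z : F // y * z = c} :=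
    { toFun := fun v => ⟨v.1.1, v.1.2, v.2⟩
      invFun := fun s => ⟨(s.1, s.2.1), s.2.2⟩
      left_inv := fun v => rfl
      right_inv := fun s => rfl }
  rw [Fintype.card_congr e, Fintype.card_sigma, ← Finset.add_sum_erase _ _ (Finset.mem_univ (0 : F))]
  have h1 : ∑ y ∈ Finset.univ.erase (0 : F), Fintype.card {z : F // y * z = c} =
      ∑ y ∈ Finset.univ.erase (0 : F), 1 := by
    refine Finset.sum_congr rfl fun y hy => ?_
    have hy0 : y ≠ 0 := (Finset.mem_erase.mp hy).1
    rw [Fintype.card_eq_one_iff]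
    refine ⟨⟨y⁻¹ * c, by rw [mul_inv_cancel_left₀ hy0]⟩, fun z => Subtype.ext ?_⟩
    obtain ⟨z, hz⟩ := z
    change z = y⁻¹ * c
    rw [← hz, inv_mul_cancel_left₀ hy0]
  have h2 : Fintype.card {z : F // (0 : F) * z = c} = if c = 0 then Fintype.card F else 0 := by
    split_ifs with hc
    · subst hc
      exact Fintype.card_congr (Equiv.subtypeUnivEquiv fun z => zero_mul z)
    · rw [Fintype.card_eq_zero_iff]
      exact ⟨fun z => hc (z.2.symm.trans (zero_mul _))⟩
  rw [h1, h2, Finset.sum_const, Finset.card_erase_of_mem (Finset.mem_univ _), Finset.card_univ,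
    smul_eq_mul, mul_one]
  have h3 : 1 ≤ Fintype.card F := Fintype.card_pos
  push_cast [Nat.cast_sub h3]
  ring

/-- The matrices of trace `a` and determinant `d`. -/
def equivSigma (a d : F) : {M : M2 // M.trace = a ∧ M.det = d} ≃
    Σ x : F, {v : F × F // v.1 * v.2 = x * (a - x) - d} where
  toFun M := ⟨M.1 0 0, (M.1 0 1, M.1 1 0), by
    obtain ⟨M, h1, h2⟩ := M
    rw [Matrix.trace_fin_two] at h1
    rw [Matrix.det_fin_two] at h2
    change M 0 1 * M 1 0 = M 0 0 * (a - M 0 0) - d
    rw [← h2, ← h1]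
    ring⟩
  invFun s := ⟨!![s.1, s.2.1.1; s.2.1.2, a - s.1], by
    obtain ⟨x, ⟨y, z⟩, h⟩ := s
    rw [Matrix.trace_fin_two, Matrix.det_fin_two]
    simp only [Matrix.of_apply, Matrix.cons_val', Matrix.cons_val_zero, Matrix.cons_val_one,
      Matrix.cons_val_fin_one]
    change y * z = _ at h
    refine ⟨by ring, by rw [h]; ring⟩⟩
  left_inv M := by
    obtain ⟨M, h1, h2⟩ := M
    refine Subtype.ext ?_
    rw [Matrix.trace_fin_two] at h1
    ext i j
    fin_cases i <;> fin_cases j
    · rfl
    · rfl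
    · rfl
    · change a - M 0 0 = M 1 1
      rw [← h1]
      ring
  right_inv s := rfl

/-- The number of solutions of `x (a - x) = d`. -/
theorem card_roots (hF : ringChar F ≠ 2) (a d : F) :
    (Fintype.card {x : F // x * (a - x) = d} : ℤ) = quadraticChar F (a ^ 2 - 4 * d) + 1 := by
  have h2 : (2 : F) ≠ 0 := Ring.two_ne_zero hF
  rw [← quadraticChar_card_sqrts hF, Set.toFinset_card]
  have e : {x : F // x * (a - x) = d} ≃ {u : F | u ^ 2 = a ^ 2 - 4 * d} :=
    { toFun := fun x => ⟨2 * x.1 - a, by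
        obtain ⟨x, hx⟩ := x
        change (2 * x - a) ^ 2 = _
        rw [← hx]
        ring⟩
      invFun := fun u => ⟨(u.1 + a) / 2, by
        have h : u.1 ^ 2 = a ^ 2 - 4 * d := u.2
        have h4 : (4 : F) ≠ 0 := by
          rw [show (4 : F) = 2 * 2 by norm_num]
          exact mul_ne_zero h2 h2
        have h5 : (u.1 + a) / 2 * (a - (u.1 + a) / 2) = (a ^ 2 - u.1 ^ 2) / 4 := by
          field_simp
          ring
        rw [h5, h]
        field_simp
        ring⟩
      left_inv := fun x => Subtype.ext (by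
        change (2 * x.1 - a + a) / 2 = x.1
        field_simp
        ring)
      right_inv := fun u => Subtype.ext (by
        change 2 * ((u.1 + a) / 2) - a = u.1
        field_simp
        ring) }
  rw [Fintype.card_congr e]

/-- **The number of `2 × 2` matrices of trace `a` and determinant `d`.** -/
theorem card_matrix_trace_det (hF : ringChar F ≠ 2) (a d : F) :
    (Fintype.card {M : M2 // M.trace = a ∧ M.det = d} : ℤ) =
      q ^ 2 + q * quadraticChar F (a ^ 2 - 4 * d) := by
  rw [Fintype.card_congr (equivSigma a d), Fintype.card_sigma]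
  push_cast
  simp only [card_mul_eq, sub_eq_zero]
  rw [Finset.sum_add_distrib, Finset.sum_const, Finset.card_univ, nsmul_eq_mul,
    ← Finset.sum_filter, Finset.sum_const, nsmul_eq_mul, ← Fintype.card_subtype,
    card_roots hF]
  ring

/-- Matrices with non-zero determinant `d` are elements of `GL₂`. -/
def equivGL (a : F) {d : F} (hd : d ≠ 0) :
    {g : GL2 // (g : M2).trace = a ∧ (g : M2).det = d} ≃ {M : M2 // M.trace = a ∧ M.det = d} where
  toFun g := ⟨g.1, g.2⟩
  invFun M := ⟨Matrix.GeneralLinearGroup.mkOfDetNeZero M.1 (by rw [M.2.2]; exact hd), M.2⟩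
  left_inv g := Subtype.ext (Units.ext rfl)
  right_inv M := rfl

/-- **The number of elements of `GL₂(F)` of trace `a` and determinant `d`.** -/
theorem card_GL_trace_det (hF : ringChar F ≠ 2) (a : F) {d : F} (hd : d ≠ 0) :
    (Nat.card {g : GL2 | (g : M2).trace = a ∧ (g : M2).det = d} : ℤ) =
      q ^ 2 + q * quadraticChar F (a ^ 2 - 4 * d) := by
  have h := Nat.card_congr (equivGL a hd)
  rw [Nat.card_eq_fintype_card (α := {M : M2 // M.trace = a ∧ M.det = d})] at h
  rw [← card_matrix_trace_det hF a d, ← h]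
  rfl

/-- Fibres over the determinant. -/
theorem card_GL_trace_eq (hF : ringChar F ≠ 2) (f : Fˣ → F) :
    (Nat.card {g : GL2 | (g : M2).trace = f (Matrix.GeneralLinearGroup.det g)} : ℤ) =
      ∑ d : Fˣ, (q ^ 2 + q * quadraticChar F (f d ^ 2 - 4 * d)) := by
  have e : {g : GL2 | (g : M2).trace = f (Matrix.GeneralLinearGroup.det g)} ≃
      Σ d : Fˣ, {g : GL2 | (g : M2).trace = f d ∧ (g : M2).det = d} :=
    { toFun := fun g => ⟨Matrix.GeneralLinearGroup.det g.1, g.1, g.2, rfl⟩
      invFun := fun s => ⟨s.2.1, by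
        have h1 : Matrix.GeneralLinearGroup.det s.2.1 = s.1 := Units.ext s.2.2.2
        change (s.2.1 : M2).trace = _
        rw [h1]
        exact s.2.2.1⟩
      left_inv := fun g => rfl
      right_inv := fun s => by
        obtain ⟨d, g, h1, h2⟩ := s
        obtain rfl : Matrix.GeneralLinearGroup.det g = d := Units.ext h2
        rfl }
  rw [Nat.card_congr e, Nat.card_sigma]
  push_cast
  exact Finset.sum_congr rfl fun d _ => card_GL_trace_det hF (f d) d.ne_zero

lemma card_units_int : (Fintype.card Fˣ : ℤ) = q - 1 := by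
  rw [Fintype.card_units, Nat.cast_sub Fintype.card_pos, Nat.cast_one]

/-- Sums over the units. -/
lemma sum_units (f : F → ℤ) : ∑ d : Fˣ, f d = ∑ x : F, f x - f 0 := by
  rw [← Finset.add_sum_erase _ _ (Finset.mem_univ (0 : F)), add_sub_cancel_left]
  refine Finset.sum_bij (fun d _ => (d : F)) ?_ ?_ ?_ ?_
  · intro d _
    exact Finset.mem_erase.mpr ⟨d.ne_zero, Finset.mem_univ _⟩
  · intro d _ d' _ h
    exact Units.ext h
  · intro x hx
    exact ⟨Units.mk0 x (Finset.mem_erase.mp hx).1, Finset.mem_univ _, rfl⟩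
  · intro d _
    rfl

/-- **The number of elements of `GL₂(F)` of trace `a`.** -/
theorem card_GL_trace (hF : ringChar F ≠ 2) (a : F) :
    (Nat.card {g : GL2 | (g : M2).trace = a} : ℤ) = q ^ 3 - q ^ 2 - if a = 0 then 0 else q := by
  have h2 : (2 : F) ≠ 0 := Ring.two_ne_zero hF
  have h4 : (4 : F) ≠ 0 := by
    rw [show (4 : F) = 2 * 2 by norm_num]
    exact mul_ne_zero h2 h2
  refine (card_GL_trace_eq hF fun _ => a).trans ?_
  rw [Finset.sum_add_distrib, Finset.sum_const, Finset.card_univ, nsmul_eq_mul, card_units_int,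
    ← Finset.mul_sum, sum_units (fun x => quadraticChar F (a ^ 2 - 4 * x))]
  have h5 : ∑ x : F, quadraticChar F (a ^ 2 - 4 * x) = 0 := by
    rw [← quadraticChar_sum_zero hF]
    refine Fintype.sum_equiv ((Equiv.mulLeft₀ 4 h4).trans (Equiv.subLeft (a ^ 2))) _ _ fun x => ?_
    rfl
  rw [h5, mul_zero, sub_zero]
  split_ifs with h
  · subst h
    simp
    ring
  · rw [quadraticChar_sq_one' h]
    ring

/-- **The number of elements of `GL₂(F)` with the eigenvalue `1`.** -/
theorem card_GL_eigen_one (hF : ringChar F ≠ 2) :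
    (Nat.card {g : GL2 | (g : M2).trace = 1 + (g : M2).det} : ℤ) = q ^ 3 - 2 * q := by
  refine (card_GL_trace_eq hF fun d => 1 + (d : F)).trans ?_
  rw [Finset.sum_add_distrib, Finset.sum_const, Finset.card_univ, nsmul_eq_mul, card_units_int,
    ← Finset.mul_sum]
  have h1 : ∀ d : Fˣ, quadraticChar F ((1 + (d : F)) ^ 2 - 4 * d) = if d = 1 then 0 else 1 := by
    intro d
    rw [show (1 + (d : F)) ^ 2 - 4 * d = (1 - (d : F)) ^ 2 by ring]
    split_ifs with h
    · subst h
      simp
    · refine quadraticChar_sq_one' fun h' => h (Units.ext ?_)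
      rw [Units.val_one]
      exact (sub_eq_zero.mp h').symm
  simp only [h1]
  have h2 : ∑ d : Fˣ, (if d = 1 then (0 : ℤ) else 1) = q - 2 := by
    have h3 : ∀ d : Fˣ, (if d = 1 then (0 : ℤ) else 1) = 1 - if d = 1 then 1 else 0 := by
      intro d
      split_ifs <;> norm_num
    simp only [h3]
    rw [Finset.sum_sub_distrib, Finset.sum_const, Finset.card_univ, nsmul_eq_mul, card_units_int,
      Finset.sum_ite_eq']
    simp
    ring
  rw [h2]
  ring

omit [DecidableEq F] in
/-- The order of `GL₂(F)`. -/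
theorem card_GL2 : (Nat.card GL2 : ℤ) = q * (q - 1) ^ 2 * (q + 1) := by
  have h1 : 1 ≤ Fintype.card F := Fintype.card_pos
  rw [Matrix.card_GL_field, Fin.prod_univ_two]
  have h2 : Fintype.card F ^ ((1 : Fin 2) : ℕ) ≤ Fintype.card F ^ 2 :=
    Nat.pow_le_pow_right h1 (by decide)
  have h3 : Fintype.card F ^ ((0 : Fin 2) : ℕ) ≤ Fintype.card F ^ 2 :=
    Nat.pow_le_pow_right h1 (by decide)
  push_cast [Nat.cast_sub h2, Nat.cast_sub h3]
  simp
  ring

end Fermat.Agent.Cor.Count
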