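import Fermat.Agent.Corollaries.Surj.Dens
import Fermat.Agent.Corollaries.Surj.Count
import Fermat.Agent.LT.Period.Cheb
import Fermat.Agent.Classic.Rep3

/-!
# The distribution of `a_ℓ` and of `#W(𝔽_ℓ)` modulo `p`

Let `W` be an elliptic curve over `ℚ` whose mod `p` representation is surjective, `p` odd. By
Chebotarev's theorem, for the primes `ℓ` of good reduction:

* `dens_trace_det` : `a_ℓ ≡ a`, `ℓ ≡ d` mod `p` has density `(p + χ(a² - 4 d)) / ((p - 1)² (p + 1))`,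
  for every `a` and every `d ≠ 0` (`χ` the quadratic character mod `p`);
* `dens_dvd_ap` : `p ∣ a_ℓ` has density `p / (p² - 1)`;
* `dens_trace` : `a_ℓ ≡ a ≠ 0` mod `p` has density `(p² - p - 1) / ((p - 1)² (p + 1))`;
* `dens_dvd_card` : `p ∣ #W(𝔽_ℓ)` has density `(p² - 2) / ((p - 1)² (p + 1))`.

(Dirichlet densities.) All these sets of primes are infinite.
-/

set_option autoImplicit false

noncomputable section

open Filter Topology Matrix WeierstrassCurve

namespace Fermat.Agent.Cor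

open Fermat.Agent.Frob Fermat.Agent.FrobDensity Fermat.Agent.Classic

variable {W : WeierstrassCurve ℤ} (hΔ : W.Δ ≠ 0) {p : ℕ} [hp : Fact p.Prime]

local notation "M2" => Matrix (Fin 2) (Fin 2) (ZMod p)
local notation "GL2" => GL (Fin 2) (ZMod p)

/-- The set of elements of `GL₂(𝔽_p)` whose trace and determinant satisfy `P`. -/
def trDetSet (P : ZMod p → ZMod p → Prop) : Set GL2 := {g | P (g : M2).trace (g : M2).det}

lemma trDetSet_conj (P : ZMod p → ZMod p → Prop) (g c : GL2) (hc : c ∈ trDetSet P) :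
    g * c * g⁻¹ ∈ trDetSet P := by
  have h1 : ((g * c * g⁻¹ : GL2) : M2) = (g : M2) * (c : M2) * ((g⁻¹ : GL2) : M2) := rfl
  have h2 : ((g⁻¹ : GL2) : M2) * (g : M2) = 1 := by
    rw [← Units.val_mul, inv_mul_cancel, Units.val_one]
  have h3 : (g : M2) * ((g⁻¹ : GL2) : M2) = 1 := by
    rw [← Units.val_mul, mul_inv_cancel, Units.val_one]
  change P _ _
  rw [h1]
  have ht : ((g : M2) * (c : M2) * ((g⁻¹ : GL2) : M2)).trace = (c : M2).trace := by
    rw [Matrix.trace_mul_comm, ← Matrix.mul_assoc, h2, Matrix.one_mul]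
  have hd : ((g : M2) * (c : M2) * ((g⁻¹ : GL2) : M2)).det = (c : M2).det := by
    rw [Matrix.det_mul, Matrix.det_mul, mul_right_comm, ← Matrix.det_mul, h3, Matrix.det_one,
      one_mul]
  rw [ht, hd]
  exact hc

/-- The trace and the determinant of the Frobenius at `ℓ` are `a_ℓ` and `ℓ`. -/
theorem mem_FrobIn_repP (P : ZMod p → ZMod p → Prop) {ℓ : ℕ} (hℓ : ℓ.Prime)
    (hgood : W.IsGoodPrimeFor ℓ) (hne : ℓ ≠ p) :
    ℓ ∈ FrobIn (repP p hΔ) (trDetSet P) ↔ P (W.apOfModel ℓ : ZMod p) (ℓ : ZMod p) := by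
  obtain ⟨A, hA, σ, hσ⟩ := exists_frobenius ℓ hℓ
  rw [LT.Period.mem_FrobIn_iff (repP p hΔ) (trDetSet_conj P) hℓ hA
    (fun τ hτ => repP_inertia hΔ hℓ hgood hne hA hτ) hσ]
  change P _ _ ↔ _
  rw [trace_repP_frobenius hΔ hℓ hgood hne hA hσ, det_repP_frobenius hΔ hℓ hgood hne hA hσ]

/-- **The distribution of the pairs `(a_ℓ, ℓ)` modulo `p`** when the mod `p` representation is
surjective: the density of the primes `ℓ` for which `(a_ℓ, ℓ)` satisfies `P` is the proportion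
of the elements `g` of `GL₂(𝔽_p)` for which `(tr g, det g)` satisfies `P`. -/
theorem dens_of_surjective (hs : Function.Surjective (repP p hΔ)) (P : ZMod p → ZMod p → Prop) :
    HasDirichletDensity
      {ℓ | W.IsGoodPrimeFor ℓ ∧ P (W.apOfModel ℓ : ZMod p) (ℓ : ZMod p)}
      ((Nat.card {g : GL2 | P (g : M2).trace (g : M2).det} : ℝ) / Nat.card GL2) := by
  refine (chebotarev_dirichlet (repP p hΔ) hs (repP_factors p hΔ) (trDetSet P)
    (trDetSet_conj P)).congr_of_finset (insert p W.Δ.natAbs.primeFactors) ?_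
  intro ℓ hℓ hℓT
  rw [Finset.mem_insert, not_or] at hℓT
  obtain ⟨hne, hℓΔ⟩ := hℓT
  have hgood : W.IsGoodPrimeFor ℓ := fun h => hℓΔ (Nat.mem_primeFactors.mpr
    ⟨hℓ, Int.natCast_dvd.mp h, Int.natAbs_ne_zero.mpr hΔ⟩)
  rw [mem_FrobIn_repP hΔ P hℓ hgood hne]
  exact (and_iff_right hgood).symm

section odd

variable (hs : Function.Surjective (repP p hΔ)) (hp2 : p ≠ 2)

include hp2

lemma Cheb.ringChar_ne_two : ringChar (ZMod p) ≠ 2 := by
  rwa [ZMod.ringChar_zmod_n]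

lemma Cheb.real_pos : (2 : ℝ) < p := by
  have h1 : 2 < p := lt_of_le_of_ne hp.out.two_le (Ne.symm hp2)
  exact_mod_cast h1

omit hp2 in
lemma Cheb.card_GL2_real : (Nat.card GL2 : ℝ) = p * (p - 1) ^ 2 * (p + 1) := by
  have h := Count.card_GL2 (F := ZMod p)
  rw [ZMod.card] at h
  exact_mod_cast h

/-- **The density of the primes `ℓ` with `a_ℓ ≡ a` and `ℓ ≡ d` modulo `p`** is
`(p + χ(a² - 4 d)) / ((p - 1)² (p + 1))`. -/
theorem dens_trace_det (hs : Function.Surjective (repP p hΔ)) (a : ZMod p) {d : ZMod p}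
    (hd : d ≠ 0) : HasDirichletDensity
      {ℓ | W.IsGoodPrimeFor ℓ ∧ (W.apOfModel ℓ : ZMod p) = a ∧ (ℓ : ZMod p) = d}
      ((p + (quadraticChar (ZMod p) (a ^ 2 - 4 * d) : ℤ)) / ((p - 1) ^ 2 * (p + 1))) := by
  have h := dens_of_surjective hΔ hs fun x y => x = a ∧ y = d
  have h1 := Count.card_GL_trace_det (Cheb.ringChar_ne_two hp2) a hd
  rw [ZMod.card] at h1
  have h2 : (Nat.card {g : GL2 | (g : M2).trace = a ∧ (g : M2).det = d} : ℝ) =
      p ^ 2 + p * (quadraticChar (ZMod p) (a ^ 2 - 4 * d) : ℤ) := by exact_mod_cast h1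
  rw [h2, Cheb.card_GL2_real] at h
  have h3 := Cheb.real_pos (p := p) hp2
  have h4 : (p : ℝ) - 1 ≠ 0 := by linarith
  have h5 : (p : ℝ) + 1 ≠ 0 := by linarith
  have h6 : (p : ℝ) ≠ 0 := by linarith
  convert h using 1
  field_simp

/-- **The density of the primes `ℓ` with `p ∣ a_ℓ`** is `p / (p² - 1)`. -/
theorem dens_dvd_ap (hs : Function.Surjective (repP p hΔ)) : HasDirichletDensity
      {ℓ | W.IsGoodPrimeFor ℓ ∧ (p : ℤ) ∣ W.apOfModel ℓ} (p / (p ^ 2 - 1)) := by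
  have h := dens_of_surjective hΔ hs fun x _ => x = 0
  have h1 := Count.card_GL_trace (Cheb.ringChar_ne_two hp2) (0 : ZMod p)
  rw [ZMod.card, if_pos rfl] at h1
  have h2 : (Nat.card {g : GL2 | (g : M2).trace = 0} : ℝ) = p ^ 3 - p ^ 2 - 0 := by
    exact_mod_cast h1
  rw [h2, Cheb.card_GL2_real] at h
  have h3 := Cheb.real_pos (p := p) hp2
  have h4 : (p : ℝ) - 1 ≠ 0 := by linarith
  have h5 : (p : ℝ) + 1 ≠ 0 := by linarith
  have h6 : (p : ℝ) ≠ 0 := by linarith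
  have h7 : (p : ℝ) ^ 2 - 1 ≠ 0 := by
    rw [show (p : ℝ) ^ 2 - 1 = (p - 1) * (p + 1) by ring]
    exact mul_ne_zero h4 h5
  convert h using 1
  · ext ℓ
    simp only [Set.mem_ofPred_eq, ZMod.intCast_zmod_eq_zero_iff_dvd]
  · field_simp
    ring

/-- **The density of the primes `ℓ` with `a_ℓ ≡ a` modulo `p`**, `a ≠ 0`. -/
theorem dens_trace (hs : Function.Surjective (repP p hΔ)) {a : ZMod p} (ha : a ≠ 0) :
    HasDirichletDensity {ℓ | W.IsGoodPrimeFor ℓ ∧ (W.apOfModel ℓ : ZMod p) = a}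
      ((p ^ 2 - p - 1) / ((p - 1) ^ 2 * (p + 1))) := by
  have h := dens_of_surjective hΔ hs fun x _ => x = a
  have h1 := Count.card_GL_trace (Cheb.ringChar_ne_two hp2) a
  rw [ZMod.card, if_neg ha] at h1
  have h2 : (Nat.card {g : GL2 | (g : M2).trace = a} : ℝ) = p ^ 3 - p ^ 2 - p := by
    exact_mod_cast h1
  rw [h2, Cheb.card_GL2_real] at h
  have h3 := Cheb.real_pos (p := p) hp2
  have h4 : (p : ℝ) - 1 ≠ 0 := by linarith
  have h5 : (p : ℝ) + 1 ≠ 0 := by linarith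
  have h6 : (p : ℝ) ≠ 0 := by linarith
  convert h using 1
  field_simp

/-- **The density of the primes `ℓ` for which the number of points of `W` over `𝔽_ℓ` is divisible
by `p`** is `(p² - 2) / ((p - 1)² (p + 1))`. -/
theorem dens_dvd_card (hs : Function.Surjective (repP p hΔ)) : HasDirichletDensity
      {ℓ | W.IsGoodPrimeFor ℓ ∧ p ∣ (W.reductionMod ℓ).card}
      ((p ^ 2 - 2) / ((p - 1) ^ 2 * (p + 1))) := by
  have h := dens_of_surjective hΔ hs fun x y => x = 1 + y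
  have h1 := Count.card_GL_eigen_one (Cheb.ringChar_ne_two hp2)
  rw [ZMod.card] at h1
  have h2 : (Nat.card {g : GL2 | (g : M2).trace = 1 + (g : M2).det} : ℝ) = p ^ 3 - 2 * p := by
    exact_mod_cast h1
  rw [h2, Cheb.card_GL2_real] at h
  have h3 := Cheb.real_pos (p := p) hp2
  have h4 : (p : ℝ) - 1 ≠ 0 := by linarith
  have h5 : (p : ℝ) + 1 ≠ 0 := by linarith
  have h6 : (p : ℝ) ≠ 0 := by linarith
  refine HasDirichletDensity.congr_of_finset (S := {ℓ | W.IsGoodPrimeFor ℓ ∧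
    (W.apOfModel ℓ : ZMod p) = 1 + (ℓ : ZMod p)}) ?_ ∅ ?_
  · convert h using 1
    field_simp
  · intro ℓ hℓ _
    refine and_congr_right fun _ => ?_
    have h7 : W.apOfModel ℓ = (ℓ : ℤ) + 1 - ((W.reductionMod ℓ).card : ℤ) := by
      unfold apOfModel traceOfFrobenius
      rw [Nat.card_zmod]
    rw [h7, ← ZMod.natCast_eq_zero_iff]
    push_cast
    constructor
    · intro h8
      linear_combination -h8
    · intro h8
      linear_combination -h8

/-- The density of the primes `ℓ` for which the number of points of `W` over `𝔽_ℓ` is prime to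
`p`. -/
theorem dens_not_dvd_card (hs : Function.Surjective (repP p hΔ)) : HasDirichletDensity
      {ℓ | W.IsGoodPrimeFor ℓ ∧ ¬ p ∣ (W.reductionMod ℓ).card}
      (1 - (p ^ 2 - 2) / ((p - 1) ^ 2 * (p + 1))) := by
  refine (dens_dvd_card hΔ hp2 hs).compl.congr_of_finset W.Δ.natAbs.primeFactors ?_
  intro ℓ hℓ hℓΔ
  have hgood : W.IsGoodPrimeFor ℓ := fun h => hℓΔ (Nat.mem_primeFactors.mpr
    ⟨hℓ, Int.natCast_dvd.mp h, Int.natAbs_ne_zero.mpr hΔ⟩)
  simp only [Set.mem_compl_iff, Set.mem_ofPred_eq, hgood, true_and]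

/-! ### Infinity -/

/-- **For all `a` and `d ≠ 0` modulo `p` there are infinitely many primes `ℓ` with `a_ℓ ≡ a` and
`ℓ ≡ d` modulo `p`.** -/
theorem infinite_apOfModel_of_surjective (hs : Function.Surjective (repP p hΔ)) (a : ZMod p)
    {d : ZMod p} (hd : d ≠ 0) :
    {ℓ : ℕ | ℓ.Prime ∧ W.IsGoodPrimeFor ℓ ∧ (W.apOfModel ℓ : ZMod p) = a ∧
      (ℓ : ZMod p) = d}.Infinite := by
  refine (dens_trace_det hΔ hp2 hs a hd).infinite ?_
  have h3 := Cheb.real_pos (p := p) hp2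
  have h4 : (p : ℝ) - 1 ≠ 0 := by linarith
  have h5 : (p : ℝ) + 1 ≠ 0 := by linarith
  refine div_ne_zero ?_ (mul_ne_zero (pow_ne_zero 2 h4) h5)
  have h6 : (-1 : ℤ) ≤ quadraticChar (ZMod p) (a ^ 2 - 4 * d) := by
    by_cases h0 : a ^ 2 - 4 * d = 0
    · rw [h0, MulChar.map_zero]
      norm_num
    · rcases quadraticChar_dichotomy h0 with h | h
      · rw [h]
        norm_num
      · rw [h]
  have h7 : (-1 : ℝ) ≤ (quadraticChar (ZMod p) (a ^ 2 - 4 * d) : ℤ) := by exact_mod_cast h6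
  have h8 : (0 : ℝ) < p + (quadraticChar (ZMod p) (a ^ 2 - 4 * d) : ℤ) := by linarith
  exact h8.ne'

/-- Infinitely many `#W(𝔽_ℓ)` are divisible by `p`. -/
theorem infinite_dvd_card_of_surjective (hs : Function.Surjective (repP p hΔ)) :
    {ℓ : ℕ | ℓ.Prime ∧ W.IsGoodPrimeFor ℓ ∧ p ∣ (W.reductionMod ℓ).card}.Infinite := by
  refine (dens_dvd_card hΔ hp2 hs).infinite ?_
  have h3 := Cheb.real_pos (p := p) hp2
  have h4 : (p : ℝ) - 1 ≠ 0 := by linarith
  have h5 : (p : ℝ) + 1 ≠ 0 := by linarith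
  refine div_ne_zero ?_ (mul_ne_zero (pow_ne_zero 2 h4) h5)
  have h6 : (0 : ℝ) < p ^ 2 - 2 := by nlinarith
  exact h6.ne'

/-- Infinitely many `#W(𝔽_ℓ)` are prime to `p`. -/
theorem infinite_not_dvd_card_of_surjective (hs : Function.Surjective (repP p hΔ)) :
    {ℓ : ℕ | ℓ.Prime ∧ W.IsGoodPrimeFor ℓ ∧ ¬ p ∣ (W.reductionMod ℓ).card}.Infinite := by
  refine (dens_not_dvd_card hΔ hp2 hs).infinite ?_
  have h3 := Cheb.real_pos (p := p) hp2
  have h4 : (0 : ℝ) < (p - 1) ^ 2 * (p + 1) := by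
    have : (0 : ℝ) < (p : ℝ) - 1 := by linarith
    positivity
  have h5 : ((p : ℝ) ^ 2 - 2) / ((p - 1) ^ 2 * (p + 1)) < 1 := by
    rw [div_lt_one h4]
    have h6 : (3 : ℝ) ≤ p := by
      have h1 : 2 < p := lt_of_le_of_ne hp.out.two_le (Ne.symm hp2)
      exact_mod_cast h1
    nlinarith [mul_nonneg (sub_nonneg.mpr h6) (sub_nonneg.mpr h6)]
  have h7 : (0 : ℝ) < 1 - ((p : ℝ) ^ 2 - 2) / ((p - 1) ^ 2 * (p + 1)) := by linarith
  exact h7.ne'

end odd

end Fermat.Agent.Cor
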