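import Mathlib

/-!
# Serre's lemma: lifting surjectivity from `GL₂(𝔽_p)` to `GL₂(ℤ_p)`, `p ≥ 5` (helper62)

`ρ : G → GL₂(ℤ_p)` a homomorphism of groups (no topology).  If `ρ` is surjective modulo `p` and
`det ρ` is surjective modulo all powers of `p`, then `ρ` is surjective modulo all powers of `p`
(`Serre.exists_congr`).  (Serre, *Abelian ℓ-adic representations*, IV.3.4.)
-/

set_option autoImplicit false

noncomputable section

open Matrix

namespace Fermat.Agent.Cor.Serre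

/-! ### Congruences modulo `p ^ n` in a ring -/

section Ring

variable {A : Type*} [Ring A] (p : ℕ)

/-- `a ≡ b` modulo `p ^ n` -/
def Cg (n : ℕ) (a b : A) : Prop := ((p : A) ^ n) ∣ a - b

variable {p}

theorem Cg.refl (n : ℕ) (a : A) : Cg p n a a := by simp [Cg]

theorem Cg.symm {n : ℕ} {a b : A} (h : Cg p n a b) : Cg p n b a := by
  rw [Cg, ← neg_sub, dvd_neg]
  exact h

theorem Cg.trans {n : ℕ} {a b c : A} (h : Cg p n a b) (h' : Cg p n b c) : Cg p n a c := by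
  rw [Cg, ← sub_add_sub_cancel a b c]
  exact dvd_add h h'

theorem Cg.mono {m n : ℕ} (hmn : m ≤ n) {a b : A} (h : Cg p n a b) : Cg p m a b :=
  (pow_dvd_pow _ hmn).trans h

theorem pow_commute (n : ℕ) (a : A) : Commute ((p : A) ^ n) a := (Nat.cast_commute p a).pow_left n

theorem dvd_mul_of_dvd_right' {n : ℕ} {a : A} (b : A) (h : (p : A) ^ n ∣ a) :
    (p : A) ^ n ∣ b * a := by
  obtain ⟨c, rfl⟩ := h
  exact ⟨b * c, by rw [← mul_assoc, ← (pow_commute n b).eq, mul_assoc]⟩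

theorem Cg.mul {n : ℕ} {a b a' b' : A} (h : Cg p n a b) (h' : Cg p n a' b') :
    Cg p n (a * a') (b * b') := by
  have e : a * a' - b * b' = (a - b) * a' + b * (a' - b') := by noncomm_ring
  rw [Cg, e]
  exact dvd_add (Dvd.dvd.mul_right h _) (dvd_mul_of_dvd_right' _ h')

theorem Cg.mul_right {n : ℕ} {a b : A} (h : Cg p n a b) (c : A) : Cg p n (a * c) (b * c) :=
  h.mul (Cg.refl n c)

theorem Cg.mul_left {n : ℕ} {a b : A} (c : A) (h : Cg p n a b) : Cg p n (c * a) (c * b) :=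
  (Cg.refl n c).mul h

theorem Cg.pow {n : ℕ} {a b : A} (h : Cg p n a b) (k : ℕ) : Cg p n (a ^ k) (b ^ k) := by
  induction k with
  | zero => simpa using Cg.refl n 1
  | succ k ih => rw [pow_succ, pow_succ]; exact ih.mul h

theorem dvd_choose_mul (hp : p.Prime) {n k m : ℕ} (hk0 : 0 < k) (hk : k < p) {x : A}
    (hx : (p : A) ^ n ∣ x) (hm : m ≤ n + 1) : (p : A) ^ m ∣ x * (p.choose k : A) := by
  obtain ⟨c, hc⟩ := hp.dvd_choose_self hk0.ne' hk
  obtain ⟨d, rfl⟩ := hx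
  refine (pow_dvd_pow _ hm).trans ⟨d * (c : A), ?_⟩
  rw [hc, Nat.cast_mul, mul_assoc, ← mul_assoc d, ← (Nat.cast_commute p d).eq, pow_succ]
  noncomm_ring

/-- The `p`-th power of an element congruent to `1 + u` with `u² = 0`, `p ≥ 5`. -/
theorem Cg.pow_of_sq_zero (hp : p.Prime) (hp5 : 5 ≤ p) {a u : A} (hu : u * u = 0)
    (h : Cg p 1 a (1 + u)) : Cg p 2 (a ^ p) (1 + (p : A) * u) := by
  obtain ⟨v, hv⟩ := h
  rw [pow_one] at hv
  obtain ⟨x, hx⟩ : ∃ x, x = u + (p : A) * v := ⟨_, rfl⟩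
  have ha : a = x + 1 := by
    rw [hx, ← sub_eq_zero]
    have : a - (1 + u) - (p : A) * v = 0 := by rw [hv, sub_self]
    rw [← this]
    abel
  have hx2 : (p : A) ^ 1 ∣ x ^ 2 := by
    refine ⟨u * v + v * u + (p : A) * (v * v), ?_⟩
    have h1 : x ^ 2 = u * u + u * ((p : A) * v) + (p : A) * v * u + (p : A) * v * ((p : A) * v) := by
      rw [hx, pow_two]
      noncomm_ring
    have h2 : u * ((p : A) * v) = (p : A) * (u * v) := by
      rw [← mul_assoc, ← (Nat.cast_commute p u).eq, mul_assoc]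
    have h3 : (p : A) * v * ((p : A) * v) = (p : A) * ((p : A) * (v * v)) := by
      rw [mul_assoc, ← mul_assoc v, ← (Nat.cast_commute p v).eq, mul_assoc]
    rw [h1, h2, h3, hu, pow_one]
    noncomm_ring
  have hx2' : ∀ k, 2 ≤ k → (p : A) ^ 1 ∣ x ^ k := by
    intro k hk
    obtain ⟨m, rfl⟩ := Nat.exists_eq_add_of_le hk
    rw [pow_add]
    exact Dvd.dvd.mul_right hx2 _
  have hx4 : (p : A) ^ 2 ∣ x ^ p := by
    obtain ⟨s, hs⟩ := hx2
    obtain ⟨m, hm⟩ := Nat.exists_eq_add_of_le (show 4 ≤ p by omega)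
    have h4 : x ^ 4 = (p : A) ^ 2 * (s * s) := by
      rw [show (4 : ℕ) = 2 + 2 from rfl, pow_add, hs, pow_one, mul_assoc, ← mul_assoc s,
        ← (Nat.cast_commute p s).eq, pow_two]
      noncomm_ring
    have h5 : x ^ p = x ^ 4 * x ^ m := by rw [← pow_add, ← hm]
    rw [h5, h4]
    exact Dvd.dvd.mul_right (Dvd.intro _ rfl) _
  rw [Cg, ha, (Commute.one_right x).add_pow, Finset.sum_range_succ,
    Finset.sum_range_eq_add_Ico _ hp.pos]
  simp only [one_pow, mul_one, pow_zero, Nat.choose_zero_right, Nat.cast_one, Nat.choose_self]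
  have h1p : 1 < p := hp.one_lt
  rw [Finset.sum_eq_sum_Ico_succ_bot h1p]
  have e : 1 + (x ^ 1 * (p.choose 1 : A) + ∑ k ∈ Finset.Ico (1 + 1) p, x ^ k * (p.choose k : A)) +
      x ^ p - (1 + (p : A) * u) = (p : A) ^ 2 * v +
      ∑ k ∈ Finset.Ico (1 + 1) p, x ^ k * (p.choose k : A) + x ^ p := by
    rw [pow_one, Nat.choose_one_right, ← (Nat.cast_commute p x).eq, hx]
    noncomm_ring
  rw [e]
  refine dvd_add (dvd_add (Dvd.intro _ rfl) (Finset.dvd_sum fun k hk => ?_)) hx4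
  rw [Finset.mem_Ico] at hk
  exact dvd_choose_mul hp (by omega) hk.2 (hx2' k (by omega)) le_rfl

/-- The `p`-th power of an element congruent to `1 + pⁿ u`, `n ≥ 1`, `p ≥ 3`. -/
theorem Cg.pow_of_pos (hp : p.Prime) (hp3 : 3 ≤ p) {n : ℕ} (hn : 1 ≤ n) {a u : A}
    (h : Cg p (n + 1) a (1 + (p : A) ^ n * u)) :
    Cg p (n + 2) (a ^ p) (1 + (p : A) ^ (n + 1) * u) := by
  obtain ⟨v, hv⟩ := h
  obtain ⟨y, hy⟩ : ∃ y, y = u + (p : A) * v := ⟨_, rfl⟩
  have ha : a = (p : A) ^ n * y + 1 := by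
    rw [hy, ← sub_eq_zero]
    have : a - (1 + (p : A) ^ n * u) - (p : A) ^ (n + 1) * v = 0 := by rw [hv, sub_self]
    rw [← this, pow_succ]
    noncomm_ring
  have hpow : ∀ k, ((p : A) ^ n * y) ^ k = (p : A) ^ (n * k) * y ^ k := by
    intro k
    rw [(pow_commute n y).mul_pow, pow_mul]
  rw [Cg, ha, (Commute.one_right _).add_pow, Finset.sum_range_succ,
    Finset.sum_range_eq_add_Ico _ hp.pos]
  simp only [one_pow, mul_one, pow_zero, Nat.choose_zero_right, Nat.cast_one, Nat.choose_self]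
  have h1p : 1 < p := hp.one_lt
  rw [Finset.sum_eq_sum_Ico_succ_bot h1p]
  have e : 1 + (((p : A) ^ n * y) ^ 1 * (p.choose 1 : A) +
      ∑ k ∈ Finset.Ico (1 + 1) p, ((p : A) ^ n * y) ^ k * (p.choose k : A)) +
      ((p : A) ^ n * y) ^ p - (1 + (p : A) ^ (n + 1) * u) = (p : A) ^ (n + 2) * v +
      ∑ k ∈ Finset.Ico (1 + 1) p, ((p : A) ^ n * y) ^ k * (p.choose k : A) +
        ((p : A) ^ n * y) ^ p := by
    have h7 : (p : A) * ((p : A) ^ n * y) = (p : A) ^ n * ((p : A) * y) := by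
      rw [← mul_assoc, ← mul_assoc, (pow_commute n (p : A)).eq]
    rw [pow_one, Nat.choose_one_right, ← (Nat.cast_commute p _).eq, h7, hy,
      pow_succ (p : A) (n + 1), pow_succ (p : A) n]
    noncomm_ring
  rw [e]
  refine dvd_add (dvd_add (Dvd.intro _ rfl) (Finset.dvd_sum fun k hk => ?_)) ?_
  · rw [Finset.mem_Ico] at hk
    rw [hpow]
    refine dvd_choose_mul hp (by omega) hk.2 (n := n * k) (Dvd.intro _ rfl) ?_
    nlinarith [hk.1]
  · rw [hpow]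
    refine Dvd.dvd.mul_right (pow_dvd_pow _ ?_) _
    nlinarith

end Ring

/-! ### Matrices over `ℤ_p` -/

section Matrices

variable {p : ℕ} [hp : Fact p.Prime]

theorem pow_mul_apply (n : ℕ) (X : Matrix (Fin 2) (Fin 2) ℤ_[p]) (i j : Fin 2) :
    ((p : Matrix (Fin 2) (Fin 2) ℤ_[p]) ^ n * X) i j = (p : ℤ_[p]) ^ n * X i j := by
  rw [← Nat.cast_pow, ← nsmul_eq_mul, Matrix.smul_apply, nsmul_eq_mul, Nat.cast_pow]

theorem cg_iff {n : ℕ} {X Y : Matrix (Fin 2) (Fin 2) ℤ_[p]} :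
    Cg p n X Y ↔ ∀ i j, (p : ℤ_[p]) ^ n ∣ X i j - Y i j := by
  constructor
  · rintro ⟨Z, hZ⟩ i j
    have h := congrFun (congrFun hZ i) j
    rw [pow_mul_apply, Matrix.sub_apply] at h
    exact ⟨_, h⟩
  · intro h
    choose Z hZ using h
    refine ⟨Matrix.of Z, ?_⟩
    ext i j
    rw [pow_mul_apply, Matrix.sub_apply, hZ, Matrix.of_apply]

theorem Cg.det {n : ℕ} {X Y : Matrix (Fin 2) (Fin 2) ℤ_[p]} (h : Cg p n X Y) :
    (p : ℤ_[p]) ^ n ∣ X.det - Y.det := by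
  rw [cg_iff] at h
  rw [Matrix.det_fin_two, Matrix.det_fin_two]
  obtain ⟨a, ha⟩ := h 0 0
  obtain ⟨b, hb⟩ := h 0 1
  obtain ⟨c, hc⟩ := h 1 0
  obtain ⟨d, hd⟩ := h 1 1
  refine ⟨a * X 1 1 + Y 0 0 * d - b * X 1 0 - Y 0 1 * c, ?_⟩
  linear_combination X 1 1 * ha + Y 0 0 * hd - X 1 0 * hb - Y 0 1 * hc

/-- upper triangular -/
def tU (x : ℤ_[p]) : Matrix (Fin 2) (Fin 2) ℤ_[p] := !![1, x; 0, 1]

/-- lower triangular -/
def tL (x : ℤ_[p]) : Matrix (Fin 2) (Fin 2) ℤ_[p] := !![1, 0; x, 1]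

theorem det_one_add (n : ℕ) (u : Matrix (Fin 2) (Fin 2) ℤ_[p]) :
    (1 + (p : Matrix (Fin 2) (Fin 2) ℤ_[p]) ^ n * u).det =
      1 + (p : ℤ_[p]) ^ n * (u.trace + (p : ℤ_[p]) ^ n * u.det) := by
  rw [Matrix.det_fin_two, Matrix.det_fin_two, Matrix.trace_fin_two]
  simp only [Matrix.add_apply, pow_mul_apply, Matrix.one_apply_eq]
  rw [Matrix.one_apply_ne (by decide : (0 : Fin 2) ≠ 1),
    Matrix.one_apply_ne (by decide : (1 : Fin 2) ≠ 0)]
  ring

end Matrices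

/-! ### The group -/

section Group

variable {G : Type*} [Group G] {p : ℕ} [hp : Fact p.Prime]
  (ρ : G →* Matrix (Fin 2) (Fin 2) ℤ_[p])

theorem rho_mul_inv (σ : G) : ρ σ * ρ σ⁻¹ = 1 := by rw [← map_mul, mul_inv_cancel, map_one]

theorem rho_inv_mul (σ : G) : ρ σ⁻¹ * ρ σ = 1 := by rw [← map_mul, inv_mul_cancel, map_one]

theorem det_inv {σ : G} (h : (ρ σ).det = 1) : (ρ σ⁻¹).det = 1 := by
  have h1 := congrArg Matrix.det (rho_mul_inv ρ σ)
  rwa [Matrix.det_mul, h, one_mul, Matrix.det_one] at h1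

theorem Cg.inv' {n : ℕ} {σ : G} {g g' : Matrix (Fin 2) (Fin 2) ℤ_[p]} (h : Cg p n (ρ σ) g)
    (hg : g * g' = 1) : Cg p n (ρ σ⁻¹) g' := by
  have h1 : Cg p n (ρ σ⁻¹ * (ρ σ * g')) (ρ σ⁻¹ * (g * g')) := (h.mul_right g').mul_left _
  rw [hg, mul_one, ← mul_assoc, rho_inv_mul, one_mul] at h1
  exact h1.symm

/-- `g` is congruent modulo `p ^ n` to an element of the image, of determinant one. -/
def App (n : ℕ) (g : Matrix (Fin 2) (Fin 2) ℤ_[p]) : Prop :=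
  ∃ σ, (ρ σ).det = 1 ∧ Cg p n (ρ σ) g

variable {ρ}

theorem App.congr {n : ℕ} {g g' : Matrix (Fin 2) (Fin 2) ℤ_[p]} (h : App ρ n g)
    (hg : Cg p n g g') : App ρ n g' := by
  obtain ⟨σ, h1, h2⟩ := h
  exact ⟨σ, h1, h2.trans hg⟩

theorem App.mul {n : ℕ} {g g' : Matrix (Fin 2) (Fin 2) ℤ_[p]} (h : App ρ n g)
    (h' : App ρ n g') : App ρ n (g * g') := by
  obtain ⟨σ, h1, h2⟩ := h
  obtain ⟨τ, h3, h4⟩ := h'
  refine ⟨σ * τ, ?_, ?_⟩
  · rw [map_mul, Matrix.det_mul, h1, h3, one_mul]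
  · rw [map_mul]
    exact h2.mul h4

/-- A commutator. -/
theorem app_commutator {g g' k k' : Matrix (Fin 2) (Fin 2) ℤ_[p]} (hg : g * g' = 1)
    (hk : k * k' = 1) {n : ℕ} (h : ∃ σ, Cg p n (ρ σ) g) (h' : ∃ σ, Cg p n (ρ σ) k) :
    App ρ n (g * k * g' * k') := by
  obtain ⟨σ, h1⟩ := h
  obtain ⟨τ, h2⟩ := h'
  refine ⟨σ * τ * σ⁻¹ * τ⁻¹, ?_, ?_⟩
  · have e1 := congrArg Matrix.det (rho_mul_inv ρ σ)
    have e2 := congrArg Matrix.det (rho_mul_inv ρ τ)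
    rw [Matrix.det_mul, Matrix.det_one] at e1 e2
    rw [map_mul, map_mul, map_mul, Matrix.det_mul, Matrix.det_mul, Matrix.det_mul]
    linear_combination (ρ τ).det * (ρ τ⁻¹).det * e1 + e2
  · rw [map_mul, map_mul, map_mul]
    exact ((h1.mul h2).mul (h1.inv' ρ hg)).mul (h2.inv' ρ hk)

variable (h1 : ∀ g : Matrix (Fin 2) (Fin 2) ℤ_[p], IsUnit g.det → ∃ σ, Cg p 1 (ρ σ) g)

theorem two_mul_half (hp2 : p ≠ 2) : ∃ m : ℕ, 2 * m = p + 1 := by
  have h := hp.out.eq_two_or_odd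
  exact ⟨(p + 1) / 2, by omega⟩

include h1 in
theorem app_tU (hp2 : p ≠ 2) (y : ℤ_[p]) : App ρ 1 (tU y) := by
  obtain ⟨m, hm⟩ := two_mul_half hp2
  have hm' : (2 : ℤ_[p]) * m = p + 1 := by exact_mod_cast congrArg (Nat.cast (R := ℤ_[p])) hm
  have hD : (!![-1, 0; 0, 1] : Matrix (Fin 2) (Fin 2) ℤ_[p]) * !![-1, 0; 0, 1] = 1 := by
    ext i j; fin_cases i <;> fin_cases j <;> simp
  have hT : tU (-((m : ℤ_[p]) * y)) * tU ((m : ℤ_[p]) * y) = (1 : Matrix (Fin 2) (Fin 2) ℤ_[p]) := by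
    ext i j; fin_cases i <;> fin_cases j <;> simp [tU]
  refine (app_commutator hD hT (h1 _ ?_) (h1 _ ?_)).congr ?_
  · simp
  · simp [tU]
  · rw [cg_iff]
    intro i j
    fin_cases i <;> fin_cases j
    · simp [tU]
    · refine ⟨y, ?_⟩
      simp [tU]
      linear_combination y * hm'
    · simp [tU]
    · simp [tU]

include h1 in
theorem app_tL (hp2 : p ≠ 2) (y : ℤ_[p]) : App ρ 1 (tL y) := by
  obtain ⟨m, hm⟩ := two_mul_half hp2
  have hm' : (2 : ℤ_[p]) * m = p + 1 := by exact_mod_cast congrArg (Nat.cast (R := ℤ_[p])) hm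
  have hD : (!![-1, 0; 0, 1] : Matrix (Fin 2) (Fin 2) ℤ_[p]) * !![-1, 0; 0, 1] = 1 := by
    ext i j; fin_cases i <;> fin_cases j <;> simp
  have hT : tL (-((m : ℤ_[p]) * y)) * tL ((m : ℤ_[p]) * y) = (1 : Matrix (Fin 2) (Fin 2) ℤ_[p]) := by
    ext i j; fin_cases i <;> fin_cases j <;> simp [tL]
  refine (app_commutator hD hT (h1 _ ?_) (h1 _ ?_)).congr ?_
  · simp
  · simp [tL]
  · rw [cg_iff]
    intro i j
    fin_cases i <;> fin_cases j
    · simp [tL]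
    · simp [tL]
    · refine ⟨y, ?_⟩
      simp [tL]
      linear_combination y * hm'
    · simp [tL]

theorem isUnit_or (c a : ℤ_[p]) (ha : ¬ IsUnit c → IsUnit a) : IsUnit c ∨ IsUnit (c + a) := by
  by_cases hc : IsUnit c
  · exact Or.inl hc
  · refine Or.inr ?_
    by_contra h
    have h2 := IsLocalRing.nonunits_add (a := c + a) (b := -c) h fun h' => hc (by
      simpa using h'.neg)
    rw [add_neg_cancel_comm] at h2
    exact h2 (ha hc)

theorem not_isUnit_iff {c : ℤ_[p]} : ¬ IsUnit c ↔ (p : ℤ_[p]) ∣ c := by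
  rw [PadicInt.isUnit_iff, ← PadicInt.norm_lt_one_iff_dvd]
  exact ⟨fun h => lt_of_le_of_ne (PadicInt.norm_le_one c) h, fun h => h.ne⟩

theorem isUnit_of_dvd_sub_one {c : ℤ_[p]} (h : (p : ℤ_[p]) ∣ c - 1) : IsUnit c := by
  by_contra hc
  have h1 := dvd_sub (not_isUnit_iff.1 hc) h
  rw [sub_sub_cancel] at h1
  exact not_isUnit_iff.2 h1 isUnit_one

include h1 in
/-- every matrix of determinant one modulo `p` -/
theorem app_one (hp2 : p ≠ 2) {g : Matrix (Fin 2) (Fin 2) ℤ_[p]}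
    (hg : (p : ℤ_[p]) ∣ g.det - 1) : App ρ 1 g := by
  -- the case where the lower left entry is a unit
  have key : ∀ g : Matrix (Fin 2) (Fin 2) ℤ_[p], (p : ℤ_[p]) ∣ g.det - 1 → IsUnit (g 1 0) →
      App ρ 1 g := by
    intro g hg hc
    obtain ⟨c', hc'⟩ := hc.exists_right_inv
    have h2 := ((app_tU h1 hp2 ((g 0 0 - 1) * c')).mul (app_tL h1 hp2 (g 1 0))).mul
      (app_tU h1 hp2 ((g 1 1 - 1) * c'))
    refine h2.congr ?_
    rw [cg_iff, pow_one]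
    obtain ⟨e, he⟩ := hg
    rw [Matrix.det_fin_two] at he
    intro i j
    fin_cases i <;> fin_cases j
    · refine ⟨0, ?_⟩
      simp [tU, tL]
      linear_combination (g 0 0 - 1) * hc'
    · refine ⟨e * c', ?_⟩
      simp [tU, tL]
      linear_combination c' * he + (g 0 1 + (g 0 0 - 1) * (g 1 1 - 1) * c') * hc'
    · refine ⟨0, ?_⟩
      simp [tU, tL]
    · refine ⟨0, ?_⟩
      simp [tU, tL]
      linear_combination (g 1 1 - 1) * hc'
  have hdet : IsUnit g.det := isUnit_of_dvd_sub_one hg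
  rcases isUnit_or (g 1 0) (g 0 0) (fun hc => by
    by_contra ha
    refine not_isUnit_iff.2 ?_ hdet
    rw [Matrix.det_fin_two]
    exact dvd_sub ((not_isUnit_iff.1 ha).mul_right _) ((not_isUnit_iff.1 hc).mul_left _)) with h2 | h2
  · exact key g hg h2
  · have h3 : App ρ 1 (tL 1 * g) := by
      refine key _ ?_ ?_
      · rw [Matrix.det_mul]
        simpa [tL] using hg
      · have : ((tL 1 : Matrix (Fin 2) (Fin 2) ℤ_[p]) * g) 1 0 = g 1 0 + g 0 0 := by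
          simp [tL, Matrix.mul_apply, Fin.sum_univ_two, add_comm]
        rw [this]
        exact h2
    have h4 := (app_tL h1 hp2 (-1)).mul h3
    rw [← mul_assoc] at h4
    have h5 : (tL (-1) * tL 1 : Matrix (Fin 2) (Fin 2) ℤ_[p]) = 1 := by
      ext i j; fin_cases i <;> fin_cases j <;> simp [tL]
    rwa [h5, one_mul] at h4

/-! ### The congruence subgroups -/

variable (ρ) in
/-- `1 + pⁿ u` modulo `p ^ (n + 1)` is in the image. -/
def Tn (n : ℕ) (u : Matrix (Fin 2) (Fin 2) ℤ_[p]) : Prop :=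
  App ρ (n + 1) (1 + (p : Matrix (Fin 2) (Fin 2) ℤ_[p]) ^ n * u)

theorem Tn.add {n : ℕ} (hn : 1 ≤ n) {u u' : Matrix (Fin 2) (Fin 2) ℤ_[p]} (h : Tn ρ n u)
    (h' : Tn ρ n u') : Tn ρ n (u + u') := by
  refine (App.mul h h').congr ?_
  refine (pow_dvd_pow _ (show n + 1 ≤ n + n by omega)).trans ⟨u * u', ?_⟩
  have e : (p : Matrix (Fin 2) (Fin 2) ℤ_[p]) ^ n * u * ((p : Matrix (Fin 2) (Fin 2) ℤ_[p]) ^ n * u')
      = (p : Matrix (Fin 2) (Fin 2) ℤ_[p]) ^ (n + n) * (u * u') := by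
    rw [mul_assoc, ← mul_assoc u, ← (pow_commute n u).eq, pow_add]
    noncomm_ring
  rw [← e]
  noncomm_ring

theorem Tn.congr {n : ℕ} {u u' : Matrix (Fin 2) (Fin 2) ℤ_[p]} (h : Tn ρ n u)
    (hu : Cg p 1 u u') : Tn ρ n u' := by
  refine App.congr h ?_
  obtain ⟨c, hc⟩ := hu
  refine ⟨c, ?_⟩
  rw [pow_one] at hc
  rw [pow_succ, mul_assoc, ← hc]
  noncomm_ring

include h1 in
theorem Tn_one_of_sq_zero (hp5 : 5 ≤ p) {u : Matrix (Fin 2) (Fin 2) ℤ_[p]} (hu : u * u = 0)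
    (hdet : (1 + u).det = 1) : Tn ρ 1 u := by
  obtain ⟨σ, h2, h3⟩ := app_one h1 (by omega) (g := 1 + u) (by rw [hdet, sub_self]; exact dvd_zero _)
  refine ⟨σ ^ p, ?_, ?_⟩
  · rw [map_pow, Matrix.det_pow, h2, one_pow]
  · rw [map_pow, pow_one]
    exact h3.pow_of_sq_zero hp.out hp5 hu

include h1 in
theorem Tn_one (hp5 : 5 ≤ p) {u : Matrix (Fin 2) (Fin 2) ℤ_[p]} (hu : (p : ℤ_[p]) ∣ u.trace) :
    Tn ρ 1 u := by
  have hA : Tn ρ 1 (!![u 0 0, -u 0 0; u 0 0, -u 0 0]) := by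
    refine Tn_one_of_sq_zero h1 hp5 ?_ ?_
    · ext i j; fin_cases i <;> fin_cases j <;> simp
    · rw [Matrix.det_fin_two]
      simp
      ring
  have hB : Tn ρ 1 (!![0, u 0 1 + u 0 0; 0, 0]) := by
    refine Tn_one_of_sq_zero h1 hp5 ?_ ?_
    · ext i j; fin_cases i <;> fin_cases j <;> simp
    · rw [Matrix.det_fin_two]
      simp
  have hC : Tn ρ 1 (!![0, 0; u 1 0 - u 0 0, 0]) := by
    refine Tn_one_of_sq_zero h1 hp5 ?_ ?_
    · ext i j; fin_cases i <;> fin_cases j <;> simp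
    · rw [Matrix.det_fin_two]
      simp
  refine (((hA.add le_rfl hB).add le_rfl hC)).congr ?_
  rw [cg_iff, pow_one]
  rw [Matrix.trace_fin_two] at hu
  intro i j
  fin_cases i <;> fin_cases j
  · simp
  · simp
  · simp
  · simp
    have h2 := dvd_neg.2 hu
    rwa [neg_add, ← sub_eq_add_neg] at h2

theorem Tn.succ (hp3 : 3 ≤ p) {n : ℕ} (hn : 1 ≤ n) {u : Matrix (Fin 2) (Fin 2) ℤ_[p]}
    (h : Tn ρ n u) : Tn ρ (n + 1) u := by
  obtain ⟨σ, h2, h3⟩ := h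
  refine ⟨σ ^ p, ?_, ?_⟩
  · rw [map_pow, Matrix.det_pow, h2, one_pow]
  · rw [map_pow]
    exact h3.pow_of_pos hp.out hp3 hn

include h1 in
theorem Tn_all (hp5 : 5 ≤ p) {u : Matrix (Fin 2) (Fin 2) ℤ_[p]} (hu : (p : ℤ_[p]) ∣ u.trace)
    {n : ℕ} (hn : 1 ≤ n) : Tn ρ n u := by
  induction n, hn using Nat.le_induction with
  | base => exact Tn_one h1 hp5 hu
  | succ n hn ih => exact ih.succ (by omega) hn

include h1 in
/-- every matrix of determinant one modulo `p ^ N` -/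
theorem app_all (hp5 : 5 ≤ p) {N : ℕ} {g : Matrix (Fin 2) (Fin 2) ℤ_[p]}
    (hg : (p : ℤ_[p]) ^ N ∣ g.det - 1) {n : ℕ} (hn : 1 ≤ n) (hnN : n ≤ N) : App ρ n g := by
  induction n, hn using Nat.le_induction with
  | base => exact app_one h1 (by omega) ((dvd_pow_self _ (by omega)).trans hg)
  | succ n hn ih =>
    obtain ⟨σ, h2, w, hw⟩ := ih (by omega)
    obtain ⟨u, hu⟩ : ∃ u, u = -(ρ σ⁻¹ * w) := ⟨_, rfl⟩
    have h3 : ρ σ⁻¹ * g = 1 + (p : Matrix (Fin 2) (Fin 2) ℤ_[p]) ^ n * u := by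
      have h4 : g = ρ σ - (p : Matrix (Fin 2) (Fin 2) ℤ_[p]) ^ n * w := by
        rw [← hw]
        abel
      rw [h4, mul_sub, rho_inv_mul, hu, ← mul_assoc, ← (pow_commute n (ρ σ⁻¹)).eq]
      noncomm_ring
    have h5 : (p : ℤ_[p]) ∣ u.trace := by
      have h6 : (1 + (p : Matrix (Fin 2) (Fin 2) ℤ_[p]) ^ n * u).det = g.det := by
        rw [← h3, Matrix.det_mul, det_inv ρ h2, one_mul]
      have h7 : (p : ℤ_[p]) ^ (n + 1) ∣ (p : ℤ_[p]) ^ n * (u.trace + (p : ℤ_[p]) ^ n * u.det) := by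
        have h8 := (pow_dvd_pow (p : ℤ_[p]) hnN).trans hg
        rwa [← h6, det_one_add, add_sub_cancel_left] at h8
      rw [pow_succ] at h7
      have hp0 : (p : ℤ_[p]) ^ n ≠ 0 := pow_ne_zero _ (by exact_mod_cast hp.out.ne_zero)
      have h9 := (mul_dvd_mul_iff_left hp0).1 h7
      exact (dvd_add_left ((dvd_pow_self _ (by omega)).mul_right _)).1 h9
    obtain ⟨τ, h6, h7⟩ := Tn_all (ρ := ρ) h1 hp5 h5 hn
    refine ⟨σ * τ, ?_, ?_⟩
    · rw [map_mul, Matrix.det_mul, h2, h6, one_mul]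
    · rw [map_mul]
      have h8 := h7.mul_left (ρ σ)
      rwa [← h3, ← mul_assoc, rho_mul_inv, one_mul] at h8

include h1 in
/-- **Serre's lemma.** -/
theorem exists_congr (hp5 : 5 ≤ p)
    (hdet : ∀ (n : ℕ) (u : ℤ_[p]), IsUnit u → ∃ σ, (p : ℤ_[p]) ^ n ∣ (ρ σ).det - u)
    (n : ℕ) {g : Matrix (Fin 2) (Fin 2) ℤ_[p]} (hg : IsUnit g.det) : ∃ σ, Cg p n (ρ σ) g := by
  rcases Nat.eq_zero_or_pos n with rfl | hn
  · exact ⟨1, by rw [Cg, pow_zero]; exact one_dvd _⟩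
  obtain ⟨σ, hσ⟩ := hdet n g.det hg
  have h2 : (p : ℤ_[p]) ^ n ∣ (ρ σ⁻¹ * g).det - 1 := by
    have h3 := congrArg Matrix.det (rho_mul_inv ρ σ)
    rw [Matrix.det_mul, Matrix.det_one] at h3
    obtain ⟨c, hc⟩ := hσ
    rw [Matrix.det_mul]
    exact ⟨-c * (ρ σ⁻¹).det, by linear_combination h3 - (ρ σ⁻¹).det * hc⟩
  obtain ⟨τ, -, hτ⟩ := app_all (ρ := ρ) h1 hp5 h2 hn le_rfl
  refine ⟨σ * τ, ?_⟩
  have h4 := hτ.mul_left (ρ σ)
  rwa [← mul_assoc, rho_mul_inv, one_mul, ← map_mul] at h4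

end Group

end Fermat.Agent.Cor.Serre

end
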