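import Fermat.Agent.EC.TateDet
import Fermat.Agent.Corollaries.Surj.Serre

/-!
# From surjectivity modulo `p` to surjectivity on the Tate module, `p ≥ 5` (helper62)

`W` a Weierstrass curve over `ℤ` with `Δ ≠ 0`, `p ≥ 5` a prime such that `Gal(ℚ̄/ℚ)` acts on
`W[p]` through all automorphisms.  Then it acts through all automorphisms on `W[pⁿ]`
(`SurjMod.pow`) and on `T_p W` (`SurjMod.tate`).
-/

set_option autoImplicit false

noncomputable section

open WeierstrassCurve WeierstrassCurve.Affine.Point Module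
open scoped WeierstrassCurve.Affine Pointwise
open Fermat.Agent.Tate Fermat.Agent.S30aux

namespace Fermat.Agent.Cor

/-- `Gal(ℚ̄/ℚ)` acts on the `N`-torsion through all automorphisms. -/
def SurjMod (W : WeierstrassCurve ℤ) (N : ℕ) : Prop :=
  ∀ g : Submodule.torsionBy ℤ ((W.map (Int.castRingHom ℚ))⁄(AlgebraicClosure ℚ)).Point N
    ≃ₗ[ZMod N] Submodule.torsionBy ℤ ((W.map (Int.castRingHom ℚ))⁄(AlgebraicClosure ℚ)).Point N,
    ∃ σ : AlgebraicClosure ℚ ≃ₐ[ℚ] AlgebraicClosure ℚ,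
      ∀ x : Submodule.torsionBy ℤ ((W.map (Int.castRingHom ℚ))⁄(AlgebraicClosure ℚ)).Point N,
        σ • x = g x

/-- **The cyclotomic character modulo `pⁿ` is surjective.** -/
theorem exists_cyc {p : ℕ} [hp : Fact p.Prime] (n : ℕ) {u : ℤ_[p]} (hu : IsUnit u) :
    ∃ σ : AlgebraicClosure ℚ ≃ₐ[ℚ] AlgebraicClosure ℚ,
      PadicInt.toZModPow n ((cyc p σ : ℤ_[p]ˣ) : ℤ_[p]) = PadicInt.toZModPow n u := by
  have hpn : 0 < p ^ n := pow_pos hp.out.pos n
  have : NeZero (p ^ n) := ⟨hpn.ne'⟩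
  obtain ⟨ζ, hζ⟩ := exists_primitive p n
  obtain ⟨v, hv⟩ : ∃ v : (ZMod (p ^ n))ˣ, (v : ZMod (p ^ n)) = PadicInt.toZModPow n u :=
    (hu.map (PadicInt.toZModPow n))
  have hcop : Nat.Coprime (v : ZMod (p ^ n)).val (p ^ n) := ZMod.val_coe_unit_coprime v
  have h1 : IsConjRoot ℚ (ζ ^ (v : ZMod (p ^ n)).val) ζ := by
    rw [IsConjRoot, ← Polynomial.cyclotomic_eq_minpoly_rat hζ hpn,
      ← Polynomial.cyclotomic_eq_minpoly_rat (hζ.pow_of_coprime _ hcop) hpn]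
  obtain ⟨σ, hσ⟩ := (isConjRoot_iff_exists_algEquiv (K := ℚ) (L := AlgebraicClosure ℚ)).1 h1
  refine ⟨σ, ?_⟩
  have h2 : σ ζ = ζ ^ (v : ZMod (p ^ n)).val := hσ
  rw [← cast_cn, ← cn_unique p n σ _ ζ hζ h2, ZMod.natCast_zmod_val, hv]

section

variable {W : WeierstrassCurve ℤ} {p : ℕ} [hp : Fact p.Prime]

theorem dvd_iff_toZModPow {n : ℕ} {a b : ℤ_[p]} :
    (p : ℤ_[p]) ^ n ∣ a - b ↔ PadicInt.toZModPow n a = PadicInt.toZModPow n b := by
  rw [← sub_eq_zero, ← map_sub, toZModPow_eq_zero_iff, Ideal.mem_span_singleton, Nat.cast_pow]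

/-- the data on the Tate module -/
structure Tb (W : WeierstrassCurve ℤ) (p : ℕ) [Fact p.Prime] where
  hE : (W.map (Int.castRingHom ℚ)).Δ ≠ 0
  f : TMod p ((W.map (Int.castRingHom ℚ))⁄(AlgebraicClosure ℚ)).Point
  g : TMod p ((W.map (Int.castRingHom ℚ))⁄(AlgebraicClosure ℚ)).Point
  h : Indep f g

theorem exists_tb (hΔ : W.Δ ≠ 0) : Nonempty (Tb W p) := by
  have hE := Fermat.Agent.Tate.map_Δ_ne_zero hΔ
  obtain ⟨f, g, h⟩ := (hasTwoRank_curve hE p).exists_indep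
  exact ⟨⟨hE, f, g, h⟩⟩

namespace Tb

variable (X : Tb W p)

/-- the basis of the Tate module -/
def b : Basis (Fin 2) ℤ_[p] (TMod p ((W.map (Int.castRingHom ℚ))⁄(AlgebraicClosure ℚ)).Point) :=
  X.h.basis (hasTwoRank_curve X.hE p)

/-- the basis of the `pⁿ`-torsion -/
def bn (n : ℕ) : Basis (Fin 2) (ZMod (p ^ n)) (Submodule.torsionBy ℤ
    ((W.map (Int.castRingHom ℚ))⁄(AlgebraicClosure ℚ)).Point ((p ^ n : ℕ) : ℤ)) :=
  levelBasis n (hasTwoRank_curve X.hE p) X.h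

/-- the matrix of the action on the Tate module -/
def M : (AlgebraicClosure ℚ ≃ₐ[ℚ] AlgebraicClosure ℚ) →* Matrix (Fin 2) (Fin 2) ℤ_[p] where
  toFun σ := LinearMap.toMatrix X.b X.b (TMod.rep p _ _ σ)
  map_one' := by rw [map_one, LinearMap.toMatrix_one]
  map_mul' σ τ := by rw [map_mul, LinearMap.toMatrix_mul]

theorem map_M (σ : AlgebraicClosure ℚ ≃ₐ[ℚ] AlgebraicClosure ℚ) (n : ℕ) :
    LinearMap.toMatrix (X.bn n) (X.bn n) (galoisRepModuleEnd (K := AlgebraicClosure ℚ) ℚ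
      (W.map (Int.castRingHom ℚ)) (p ^ n) σ) = (X.M σ).map (PadicInt.toZModPow n) :=
  toMatrix_level n (hasTwoRank_curve X.hE p) X.h _ _ fun v => proj_tateRep X.hE p σ v n

theorem det_M (σ : AlgebraicClosure ℚ ≃ₐ[ℚ] AlgebraicClosure ℚ) :
    (X.M σ).det = ((cyc p σ : ℤ_[p]ˣ) : ℤ_[p]) := by
  rw [← det_tateRep X.hE p σ]
  exact LinearMap.det_toMatrix X.b _

theorem cg_iff_map {n : ℕ} {A B : Matrix (Fin 2) (Fin 2) ℤ_[p]} :
    Serre.Cg p n A B ↔ A.map (PadicInt.toZModPow n) = B.map (PadicInt.toZModPow n) := by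
  rw [Serre.cg_iff]
  constructor
  · intro h
    ext i j
    exact dvd_iff_toZModPow.1 (h i j)
  · intro h i j
    exact dvd_iff_toZModPow.2 (congrFun (congrFun h i) j)

theorem exists_of_surjMod {n : ℕ} (h : SurjMod W (p ^ n)) (g : Matrix (Fin 2) (Fin 2) ℤ_[p])
    (hg : IsUnit g.det) : ∃ σ, Serre.Cg p n (X.M σ) g := by
  have h1 : IsUnit (LinearMap.toMatrix (X.bn n) (X.bn n)
      (Matrix.toLin (X.bn n) (X.bn n) (g.map (PadicInt.toZModPow n)))).det := by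
    rw [LinearMap.toMatrix_toLin]
    have h2 := hg.map (PadicInt.toZModPow n)
    rwa [RingHom.map_det] at h2
  obtain ⟨σ, hσ⟩ := h (LinearEquiv.ofIsUnitDet h1)
  refine ⟨σ, cg_iff_map.2 ?_⟩
  rw [← X.map_M σ n]
  have h2 : galoisRepModuleEnd (K := AlgebraicClosure ℚ) ℚ (W.map (Int.castRingHom ℚ)) (p ^ n) σ =
      Matrix.toLin (X.bn n) (X.bn n) (g.map (PadicInt.toZModPow n)) := LinearMap.ext hσ
  rw [h2, LinearMap.toMatrix_toLin]

/-- **Every invertible matrix is congruent modulo `pⁿ` to a matrix of the image.** -/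
theorem exists_congr_M (hp5 : 5 ≤ p) (h : SurjMod W p) (n : ℕ)
    {g : Matrix (Fin 2) (Fin 2) ℤ_[p]} (hg : IsUnit g.det) : ∃ σ, Serre.Cg p n (X.M σ) g := by
  have h' : SurjMod W (p ^ 1) := by rwa [pow_one]
  refine Serre.exists_congr (ρ := X.M) (fun g hg => X.exists_of_surjMod h' g hg) hp5
    (fun n u hu => ?_) n hg
  obtain ⟨σ, hσ⟩ := exists_cyc n hu
  refine ⟨σ, dvd_iff_toZModPow.2 ?_⟩
  rw [X.det_M σ, hσ]

/-- the action modulo `pⁿ` factors through a finite level -/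
theorem exists_level (n : ℕ) : ∃ L : IntermediateField ℚ (AlgebraicClosure ℚ),
    FiniteDimensional ℚ L ∧ ∀ σ ∈ L.fixingSubgroup, Serre.Cg p n (X.M σ) 1 := by
  obtain ⟨L, hL, h1⟩ := Fermat.Agent.Torsion.galoisRep_factors X.hE
    (n := p ^ n) (pow_ne_zero n hp.out.ne_zero)
  refine ⟨L, hL, fun σ hσ => cg_iff_map.2 ?_⟩
  rw [← X.map_M σ n, h1 σ (fun x hx => (IntermediateField.mem_fixingSubgroup_iff L σ).1 hσ x hx)]
  rw [Module.End.one_eq_id, LinearMap.toMatrix_id]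
  exact (Matrix.map_one _ (_root_.map_zero _) (_root_.map_one _)).symm

theorem isClosed_cg (n : ℕ) (G : Matrix (Fin 2) (Fin 2) ℤ_[p]) :
    IsClosed {σ : AlgebraicClosure ℚ ≃ₐ[ℚ] AlgebraicClosure ℚ | Serre.Cg p n (X.M σ) G} := by
  obtain ⟨L, hL, h1⟩ := X.exists_level n
  rw [← isOpen_compl_iff, isOpen_iff_forall_mem_open]
  intro σ hσ
  refine ⟨σ • (L.fixingSubgroup : Set (AlgebraicClosure ℚ ≃ₐ[ℚ] AlgebraicClosure ℚ)), ?_,
    (L.fixingSubgroup_isOpen).leftCoset σ, ⟨1, one_mem _, mul_one σ⟩⟩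
  rintro _ ⟨τ, hτ, rfl⟩ h2
  refine hσ (?_ : Serre.Cg p n (X.M σ) G)
  have h3 : Serre.Cg p n (X.M (σ * τ)) G := h2
  rw [map_mul] at h3
  have h4 := (h1 τ hτ).mul_left (X.M σ)
  rw [mul_one] at h4
  exact h4.symm.trans h3

/-- **Every invertible matrix over `ℤ_p` is a matrix of the image.** -/
theorem exists_M_eq (hp5 : 5 ≤ p) (h : SurjMod W p)
    {g : Matrix (Fin 2) (Fin 2) ℤ_[p]} (hg : IsUnit g.det) : ∃ σ, X.M σ = g := by
  obtain ⟨σ, hσ⟩ := IsCompact.nonempty_iInter_of_sequence_nonempty_isCompact_isClosed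
    (fun n => {σ : AlgebraicClosure ℚ ≃ₐ[ℚ] AlgebraicClosure ℚ | Serre.Cg p n (X.M σ) g})
    (fun n σ hσ => Serre.Cg.mono n.le_succ hσ) (fun n => X.exists_congr_M hp5 h n hg)
    (X.isClosed_cg 0 g).isCompact (fun n => X.isClosed_cg n g)
  refine ⟨σ, ?_⟩
  ext1 i j
  refine PadicInt.ext_of_toZModPow.1 fun n => ?_
  exact dvd_iff_toZModPow.1 (Serre.cg_iff.1 (Set.mem_iInter.1 hσ n) i j)

/-- every automorphism of `W[pⁿ]` is given by an invertible matrix over `ℤ_p`. -/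
theorem exists_lift (n : ℕ) (e : Submodule.torsionBy ℤ
      ((W.map (Int.castRingHom ℚ))⁄(AlgebraicClosure ℚ)).Point ((p ^ n : ℕ) : ℤ)
    ≃ₗ[ZMod (p ^ n)] Submodule.torsionBy ℤ
      ((W.map (Int.castRingHom ℚ))⁄(AlgebraicClosure ℚ)).Point ((p ^ n : ℕ) : ℤ)) :
    ∃ G : Matrix (Fin 2) (Fin 2) ℤ_[p], IsUnit G.det ∧
      ∀ σ : AlgebraicClosure ℚ ≃ₐ[ℚ] AlgebraicClosure ℚ, Serre.Cg p n (X.M σ) G →
        ∀ x : Submodule.torsionBy ℤ ((W.map (Int.castRingHom ℚ))⁄(AlgebraicClosure ℚ)).Point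
          ((p ^ n : ℕ) : ℤ), σ • x = e x := by
  obtain ⟨A, hA⟩ : ∃ A : Matrix (Fin 2) (Fin 2) (ZMod (p ^ n)),
      A = LinearMap.toMatrix (X.bn n) (X.bn n) e.toLinearMap := ⟨_, rfl⟩
  have hdet : IsUnit A.det := by
    rw [hA]
    exact LinearEquiv.isUnit_det e (X.bn n) (X.bn n)
  have key : ∃ G : Matrix (Fin 2) (Fin 2) ℤ_[p], IsUnit G.det ∧
      G.map (PadicInt.toZModPow n) = A := by
    rcases Nat.eq_zero_or_pos n with rfl | hn
    · have : Subsingleton (ZMod (p ^ 0)) := by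
        rw [pow_zero]
        infer_instance
      exact ⟨1, by rw [Matrix.det_one]; exact isUnit_one, Subsingleton.elim _ _⟩
    · have hs : Function.Surjective (PadicInt.toZModPow (p := p) n) := ZMod.ringHom_surjective _
      choose f hf using hs
      have hB : (A.map f).map (PadicInt.toZModPow n) = A := by
        ext i j
        exact hf (A i j)
      refine ⟨A.map f, ?_, hB⟩
      by_contra hc
      rw [Serre.not_isUnit_iff] at hc
      have h1 : PadicInt.toZModPow n (A.map f).det = A.det := by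
        rw [RingHom.map_det]
        exact congrArg Matrix.det hB
      rw [← h1] at hdet
      obtain ⟨c, hc⟩ := hc
      rw [hc, map_mul, map_natCast] at hdet
      have h2 : IsUnit ((p : ℕ) : ZMod (p ^ n)) := isUnit_of_mul_isUnit_left hdet
      rw [ZMod.isUnit_iff_coprime, Nat.coprime_pow_right_iff hn, Nat.coprime_self] at h2
      exact hp.out.one_lt.ne' h2
  obtain ⟨G, hG, hGA⟩ := key
  refine ⟨G, hG, fun σ hσ x => ?_⟩
  rw [cg_iff_map, ← X.map_M σ n, hGA, hA] at hσ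
  exact LinearMap.congr_fun ((LinearMap.toMatrix (X.bn n) (X.bn n)).injective hσ) x

end Tb

/-- **Serre's lifting theorem.**  Let `p ≥ 5`.  If `Gal(ℚ̄/ℚ)` acts on `E[p]` through all
automorphisms, then it acts on `E[pⁿ]` through all automorphisms, for every `n`. -/
theorem SurjMod.pow (hΔ : W.Δ ≠ 0) (hp5 : 5 ≤ p) (h : SurjMod W p) (n : ℕ) :
    SurjMod W (p ^ n) := by
  obtain ⟨X⟩ := exists_tb (W := W) (p := p) hΔ
  intro e
  obtain ⟨G, hG, h1⟩ := X.exists_lift n e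
  obtain ⟨σ, hσ⟩ := X.exists_congr_M hp5 h n hG
  exact ⟨σ, h1 σ hσ⟩

/-- **Surjectivity on the Tate module.**  Let `p ≥ 5`.  If `Gal(ℚ̄/ℚ)` acts on `E[p]` through all
automorphisms, then it acts on `T_p E` through all `ℤ_p`-linear automorphisms. -/
theorem SurjMod.tate (hΔ : W.Δ ≠ 0) (hp5 : 5 ≤ p) (h : SurjMod W p)
    (e : TMod p ((W.map (Int.castRingHom ℚ))⁄(AlgebraicClosure ℚ)).Point
      ≃ₗ[ℤ_[p]] TMod p ((W.map (Int.castRingHom ℚ))⁄(AlgebraicClosure ℚ)).Point) :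
    ∃ σ : AlgebraicClosure ℚ ≃ₐ[ℚ] AlgebraicClosure ℚ,
      (tateRep (W.map (Int.castRingHom ℚ)) (map_Δ_ne_zero hΔ) p).ρ σ = e.toLinearMap := by
  obtain ⟨X⟩ := exists_tb (W := W) (p := p) hΔ
  obtain ⟨σ, hσ⟩ := X.exists_M_eq hp5 h (LinearEquiv.isUnit_det e X.b X.b)
  exact ⟨σ, (LinearMap.toMatrix X.b X.b).injective hσ⟩

end

end Fermat.Agent.Cor

end
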