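import Fermat.Agent.Corollaries.Surj.Main
import Fermat.Agent.Corollaries.Surj.Open
import Fermat.Agent.Corollaries.InvGal.Eis
import Fermat.Agent.S58.Reduction

/-!
# Serre's open image theorem for semistable curves: explicit surjectivity for large `p`

Let `W` be a semistable elliptic curve over `ℚ` and `ℓ` a prime of good reduction. For every prime
`p > 2 ℓ + 1` the representation of `Gal(ℚ̄/ℚ)` on `W[p]`, on `W[p ^ n]` and on `T_p W` is
surjective.  In fact it suffices that `p ≠ 2, ℓ` does not divide `#W(𝔽_ℓ) = ℓ + 1 - a_ℓ`.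
-/

set_option autoImplicit false

noncomputable section

namespace Fermat.Agent.Cor

open WeierstrassCurve WeierstrassCurve.Affine WeierstrassCurve.Affine.Point
open Fermat.Agent.Classic

variable {W : WeierstrassCurve ℤ} (hΔ : W.Δ ≠ 0) {p : ℕ} [hp : Fact p.Prime]

/-- **`ρ_{W,p}` is surjective if the odd prime `p ≠ ℓ` does not divide `#W(𝔽_ℓ)`** for one prime
`ℓ` of good reduction (`W` semistable). -/
theorem repP_surjective_of_not_dvd (hW : W.IsSemistableModel) (hp2 : p ≠ 2) {ℓ : ℕ}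
    (hℓ : ℓ.Prime) (hgood : W.IsGoodPrimeFor ℓ) (hne : ℓ ≠ p)
    (h : ¬ (p : ℤ) ∣ (ℓ : ℤ) + 1 - W.apOfModel ℓ) : Function.Surjective (repP p hΔ) :=
  repP_surjective hΔ hW hp2
    (InvGal.irreducible_of_not_dvd hΔ hW hp.out hp2 hℓ hgood hne h)

/-- A prime `p > 2 ℓ + 1` does not divide `#W(𝔽_ℓ)`. -/
theorem not_dvd_card_of_lt {ℓ p : ℕ} (hℓ : ℓ.Prime) (h : 2 * ℓ + 1 < p) :
    ¬ (p : ℤ) ∣ (ℓ : ℤ) + 1 - W.apOfModel ℓ := by
  have : Fact ℓ.Prime := ⟨hℓ⟩
  obtain ⟨h1, h2⟩ := S58aux.card_bounds ℓ (W.reductionMod ℓ)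
  have e : (ℓ : ℤ) + 1 - W.apOfModel ℓ = ((W.reductionMod ℓ).card : ℤ) := by
    rw [apOfModel, traceOfFrobenius, Nat.card_zmod]
    ring
  rw [e]
  intro hd
  have h3 := Nat.le_of_dvd (by omega) (Int.natCast_dvd_natCast.mp hd)
  omega

/-- **Serre's theorem for semistable curves, explicit**: `ρ_{W,p}` is surjective for every prime
`p > 2 ℓ + 1`, `ℓ` any prime of good reduction. -/
theorem repP_surjective_of_lt (hW : W.IsSemistableModel) {ℓ : ℕ} (hℓ : ℓ.Prime)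
    (hgood : W.IsGoodPrimeFor ℓ) (h : 2 * ℓ + 1 < p) : Function.Surjective (repP p hΔ) := by
  have h2 := hℓ.two_le
  exact repP_surjective_of_not_dvd hΔ hW (by omega) hℓ hgood (by omega)
    (not_dvd_card_of_lt hℓ h)

include hΔ in
/-- All automorphisms of `W[p]` come from Galois for `p > 2 ℓ + 1`. -/
theorem surjMod_of_lt (hW : W.IsSemistableModel) {ℓ : ℕ} (hℓ : ℓ.Prime)
    (hgood : W.IsGoodPrimeFor ℓ) (h : 2 * ℓ + 1 < p) : SurjMod W p := fun g =>
  exists_smul_eq_of_repP_surjective hΔ (repP_surjective_of_lt hΔ hW hℓ hgood h) g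

include hΔ in
/-- The same for `W[p ^ n]`. -/
theorem surjMod_pow_of_lt (hW : W.IsSemistableModel) {ℓ : ℕ} (hℓ : ℓ.Prime)
    (hgood : W.IsGoodPrimeFor ℓ) (h : 2 * ℓ + 1 < p) (n : ℕ) : SurjMod W (p ^ n) :=
  (surjMod_of_lt hΔ hW hℓ hgood h).pow hΔ (by have := hℓ.two_le; omega) n

/-- **The `p`-adic representation of a semistable elliptic curve is surjective for
`p > 2 ℓ + 1`**, `ℓ` any prime of good reduction. -/
theorem tate_surjective_of_lt (hW : W.IsSemistableModel) {ℓ : ℕ} (hℓ : ℓ.Prime)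
    (hgood : W.IsGoodPrimeFor ℓ) (h : 2 * ℓ + 1 < p)
    (e : Tate.TMod p ((W.map (Int.castRingHom ℚ))⁄(AlgebraicClosure ℚ)).Point
      ≃ₗ[ℤ_[p]] Tate.TMod p ((W.map (Int.castRingHom ℚ))⁄(AlgebraicClosure ℚ)).Point) :
    ∃ σ : AlgebraicClosure ℚ ≃ₐ[ℚ] AlgebraicClosure ℚ,
      (Tate.tateRep (W.map (Int.castRingHom ℚ)) (Tate.map_Δ_ne_zero hΔ) p).ρ σ = e.toLinearMap :=
  (surjMod_of_lt hΔ hW hℓ hgood h).tate hΔ (by have := hℓ.two_le; omega) e

/-- **For almost all `p`** the representation on `W[p]` is surjective (Serre, the semistable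
case). -/
theorem exists_bound_surjective (hW : W.IsSemistableModel) :
    ∃ B : ℕ, ∀ (p : ℕ) [Fact p.Prime], B < p → Function.Surjective (repP p hΔ) := by
  obtain ⟨ℓ, hℓge, hℓ⟩ := Nat.exists_infinite_primes (W.Δ.natAbs + 1)
  have hgood : W.IsGoodPrimeFor ℓ := by
    intro h
    have h1 := Nat.le_of_dvd (Int.natAbs_pos.mpr hΔ) (Int.natCast_dvd.mp h)
    omega
  exact ⟨2 * ℓ + 1, fun p _ hp => repP_surjective_of_lt hΔ hW hℓ hgood hp⟩

end Fermat.Agent.Cor
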