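import Fermat.Agent.Corollaries.Cheb.NatMain

/-!
# Natural densities of sets of prime numbers

* `HasNaturalDensity S δ` : the proportion of the primes `p ≤ x` which lie in `S` among all primes
  `p ≤ x` tends to `δ`;
* `HasNaturalDensity.infinite` : a set of primes of density `δ ≠ 0` is infinite;
* `chebotarev_nat` : Chebotarev's theorem in this form (from `Cheb.chebotarev_natural`).
-/

set_option autoImplicit false

noncomputable section

open Filter Topology

open scoped Classical

namespace Fermat.Agent.Cor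

open Fermat.Agent.Frob Fermat.Agent.FrobDensity

local notation "GQ" => (AlgebraicClosure ℚ ≃ₐ[ℚ] AlgebraicClosure ℚ)

/-- The number of primes `p ≤ x` which lie in `S`. -/
def NatDens.cnt (S : Set ℕ) (x : ℕ) : ℕ :=
  ((Finset.range (x + 1)).filter fun p => p.Prime ∧ p ∈ S).card

/-- **The primes in `S` have natural density `δ`**: the number of primes `p ≤ x` which lie in `S`
divided by the number of all primes `p ≤ x` tends to `δ`. -/
def HasNaturalDensity (S : Set ℕ) (δ : ℝ) : Prop :=
  Tendsto (fun x : ℕ => (((Finset.range (x + 1)).filter fun p => p.Prime ∧ p ∈ S).card : ℝ) /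
    Nat.primeCounting x) atTop (𝓝 δ)

namespace NatDens

lemma tendsto_const_div (B : ℝ) :
    Tendsto (fun x : ℕ => B / (Nat.primeCounting x : ℝ)) atTop (𝓝 0) :=
  (tendsto_natCast_atTop_atTop.comp Nat.tendsto_primeCounting).const_div_atTop B

lemma eventually_pos : ∀ᶠ x : ℕ in atTop, (0 : ℝ) < Nat.primeCounting x :=
  (tendsto_natCast_atTop_atTop.comp Nat.tendsto_primeCounting).eventually_gt_atTop 0

lemma cnt_univ (x : ℕ) : cnt Set.univ x = Nat.primeCounting x := by
  rw [cnt, Nat.primeCounting, Nat.primeCounting', Nat.count_eq_card_filter_range]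
  simp

lemma cnt_mono {S S' : Set ℕ} (h : S ⊆ S') (x : ℕ) : cnt S x ≤ cnt S' x :=
  Finset.card_le_card fun p hp => by
    rw [Finset.mem_filter] at hp ⊢
    exact ⟨hp.1, hp.2.1, h hp.2.2⟩

lemma cnt_compl (S : Set ℕ) (x : ℕ) : cnt S x + cnt Sᶜ x = cnt Set.univ x := by
  have hd : Disjoint ((Finset.range (x + 1)).filter fun p => p.Prime ∧ p ∈ S)
      ((Finset.range (x + 1)).filter fun p => p.Prime ∧ p ∉ S) := by
    rw [Finset.disjoint_left]
    intro p hp hp'
    exact (Finset.mem_filter.mp hp').2.2 (Finset.mem_filter.mp hp).2.2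
  have h1 : cnt Sᶜ x = ((Finset.range (x + 1)).filter fun p => p.Prime ∧ p ∉ S).card := by
    refine congrArg Finset.card ?_
    ext p
    simp only [Finset.mem_filter, Set.mem_compl_iff]
  rw [h1, cnt, cnt, ← Finset.card_union_of_disjoint hd]
  congr 1
  ext p
  simp only [Finset.mem_union, Finset.mem_filter, Set.mem_univ]
  tauto

lemma cnt_le_of_finset {S S' : Set ℕ} (T : Finset ℕ)
    (hT : ∀ p : ℕ, p.Prime → p ∉ T → (p ∈ S ↔ p ∈ S')) (x : ℕ) :
    cnt S x ≤ cnt S' x + T.card := by
  unfold cnt
  refine (Finset.card_le_card fun p hp => ?_).trans (Finset.card_union_le _ T)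
  rw [Finset.mem_filter] at hp
  rw [Finset.mem_union, Finset.mem_filter]
  by_cases hpT : p ∈ T
  · exact Or.inr hpT
  · exact Or.inl ⟨hp.1, hp.2.1, (hT p hp.2.1 hpT).mp hp.2.2⟩

end NatDens

open NatDens

namespace HasNaturalDensity

variable {S S' : Set ℕ} {δ δ' : ℝ}

/-- The density only depends on the primes outside a finite set. -/
theorem congr_of_finset (h : HasNaturalDensity S δ) (T : Finset ℕ)
    (hT : ∀ p : ℕ, p.Prime → p ∉ T → (p ∈ S ↔ p ∈ S')) : HasNaturalDensity S' δ := by
  have h1 : Tendsto (fun x : ℕ => ((cnt S' x : ℝ) - cnt S x) / Nat.primeCounting x) atTop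
      (𝓝 0) := by
    refine squeeze_zero_norm' ?_ (tendsto_const_div T.card)
    filter_upwards [eventually_pos] with x hx
    rw [norm_div, Real.norm_eq_abs, Real.norm_eq_abs, abs_of_pos hx]
    refine div_le_div_of_nonneg_right (abs_sub_le_iff.mpr ⟨?_, ?_⟩) hx.le
    · have h2 := cnt_le_of_finset T (fun p hp hpT => (hT p hp hpT).symm) x
      have h3 : (cnt S' x : ℝ) ≤ cnt S x + T.card := by exact_mod_cast h2
      linarith
    · have h2 := cnt_le_of_finset T hT x
      have h3 : (cnt S x : ℝ) ≤ cnt S' x + T.card := by exact_mod_cast h2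
      linarith
  have h2 : Tendsto (fun x : ℕ => (cnt S x : ℝ) / Nat.primeCounting x) atTop (𝓝 δ) := h
  have h3 := h2.add h1
  rw [add_zero] at h3
  refine h3.congr fun x => ?_
  rw [← add_div]
  congr 1
  unfold cnt
  ring

theorem unique (h : HasNaturalDensity S δ) (h' : HasNaturalDensity S δ') : δ = δ' :=
  tendsto_nhds_unique h h'

/-- A finite set has density zero. -/
theorem of_finite (h : {p : ℕ | p.Prime ∧ p ∈ S}.Finite) : HasNaturalDensity S 0 := by
  have h0 : HasNaturalDensity ∅ 0 := by
    unfold HasNaturalDensity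
    simp
  refine h0.congr_of_finset h.toFinset fun p hp hpT => ?_
  have : ¬ (p.Prime ∧ p ∈ S) := fun h' => hpT (h.mem_toFinset.mpr h')
  simp only [Set.mem_empty_iff_false, false_iff]
  exact fun h' => this ⟨hp, h'⟩

/-- **A set of primes of density `δ ≠ 0` is infinite.** -/
theorem infinite (h : HasNaturalDensity S δ) (hδ : δ ≠ 0) :
    {p : ℕ | p.Prime ∧ p ∈ S}.Infinite := fun hfin => hδ (h.unique (of_finite hfin))

theorem mono (h : HasNaturalDensity S δ) (h' : HasNaturalDensity S' δ') (hSS : S ⊆ S') :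
    δ ≤ δ' := by
  refine le_of_tendsto_of_tendsto' h h' fun x => ?_
  exact div_le_div_of_nonneg_right (by exact_mod_cast cnt_mono hSS x) (Nat.cast_nonneg _)

theorem univ : HasNaturalDensity Set.univ 1 := by
  refine (tendsto_const_nhds (x := (1 : ℝ))).congr' ?_
  filter_upwards [eventually_pos] with x hx
  have h1 : ((cnt Set.univ x : ℕ) : ℝ) / Nat.primeCounting x = 1 := by
    rw [cnt_univ, div_self hx.ne']
  exact h1.symm

/-- Additivity. -/
theorem union (h : HasNaturalDensity S δ) (h' : HasNaturalDensity S' δ')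
    (hd : Disjoint S S') : HasNaturalDensity (S ∪ S') (δ + δ') := by
  refine (h.add h').congr fun x => ?_
  rw [← add_div]
  congr 1
  rw [← Nat.cast_add, ← Finset.card_union_of_disjoint]
  · congr 2
    ext p
    simp only [Finset.mem_union, Finset.mem_filter, Set.mem_union]
    tauto
  · rw [Finset.disjoint_left]
    intro p hp hp'
    exact Set.disjoint_left.mp hd (Finset.mem_filter.mp hp).2.2 (Finset.mem_filter.mp hp').2.2

theorem compl (h : HasNaturalDensity S δ) : HasNaturalDensity Sᶜ (1 - δ) := by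
  have h0 := univ
  refine (h0.sub h).congr fun x => ?_
  rw [← sub_div]
  congr 1
  have h1 := cnt_compl S x
  have h2 : (cnt S x : ℝ) + cnt Sᶜ x = cnt Set.univ x := by exact_mod_cast h1
  exact (eq_sub_of_add_eq' h2).symm

/-- A subset of a set of density zero has density zero. -/
theorem zero_mono (h : HasNaturalDensity S' 0) (hSS : S ⊆ S') : HasNaturalDensity S 0 := by
  refine squeeze_zero (fun x => by positivity) (fun x => ?_) h
  exact div_le_div_of_nonneg_right (by exact_mod_cast cnt_mono hSS x) (Nat.cast_nonneg _)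

end HasNaturalDensity

/-- **Chebotarev's density theorem** (natural density). -/
theorem chebotarev_nat {G : Type*} [Group G] [Finite G] (ψ : GQ →* G)
    (hsurj : Function.Surjective ψ)
    (hlevel : ∃ L : IntermediateField ℚ (AlgebraicClosure ℚ), FiniteDimensional ℚ L ∧
      ∀ σ : GQ, (∀ x ∈ L, σ x = x) → ψ σ = 1) (C : Set G)
    (hC : ∀ g c : G, c ∈ C → g * c * g⁻¹ ∈ C) :
    HasNaturalDensity (FrobIn ψ C) ((Nat.card C : ℝ) / Nat.card G) := by
  refine (Cheb.chebotarev_natural hsurj hlevel hC).congr fun x => ?_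
  congr 2
  refine congrArg Finset.card (Finset.filter_congr fun p _ => ?_)
  exact ⟨fun h => ⟨h.1, h⟩, fun h => h.2⟩

end Fermat.Agent.Cor
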