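import Fermat.Agent.EC.MultInertia
import Fermat.Agent.EC.MultOrdA
import Fermat.Agent.EC.MultFrob
import Fermat.Agent.Mazur.Val
import Mathlib.GroupTheory.Perm.Cycle.Type

/-!
# Inertia at a prime of multiplicative reduction is not of order prime to `p`

Let `W` be a Weierstrass equation over `ℤ`, `q` a prime of multiplicative reduction of `W` and
`p` an odd prime (`q = p` and `q = 2` are allowed).

* `dvd_of_fixed_point` : if a point of order `p` outside the identity component at a place `A`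
  above `q` is fixed by the inertia group of `A`, then `p ∣ v_q(Δ)`;
* `exists_inertia_order` : if `p ∤ v_q(Δ)`, then some element of the inertia group acts on the
  `p`-torsion by a permutation of order exactly `p`.
-/

set_option autoImplicit false

open WeierstrassCurve WeierstrassCurve.Affine FermatAgent.ECVal Fermat.Agent.ECRed
open scoped WeierstrassCurve.Affine

namespace Fermat.Agent.Cor

variable {W : WeierstrassCurve ℤ} {A : ValuationSubring (AlgebraicClosure ℚ)} {q : ℕ}

/-- An element of `ℚ̄` fixed by the inertia group of `A` has integral valuation. -/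
theorem val_int_of_inertia_fixed (hq : q.Prime) (hA : A.LiesOverPrime q)
    {z : AlgebraicClosure ℚ} (hz : z ≠ 0) (hfix : ∀ σ ∈ A.inertiaSubgroupIn ℚ, σ z = z) :
    ∃ n : ℤ, (valOf hq hA).Is n z := by
  obtain ⟨k, w, hw, hw', hw0, hx⟩ :=
    Fermat.Agent.Mazur.exists_zpow_of_inertia_fixed hq hA hz hfix
  refine ⟨k, ?_⟩
  have hp := valOf_prime hq hA
  have hpm : (valOf hq hA).Is k ((q : AlgebraicClosure ℚ) ^ k) := by
    obtain ⟨n, rfl | rfl⟩ := k.eq_nat_or_neg
    · rw [zpow_natCast]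
      exact (hp.pow n).congr (by push_cast; ring)
    · rw [zpow_neg, zpow_natCast]
      exact ((hp.pow n).inv).congr (by push_cast; ring)
  have hw1 : (valOf hq hA).Is 0 w := by
    refine ⟨hw0, le_antisymm ?_ ?_⟩
    · have h1 : (valOf hq hA).Ge 0 w⁻¹ := (valOf_ge_zero_iff hq hA).mpr hw'
      have h2 : (valOf hq hA).Is (-((valOf hq hA).val w)) w⁻¹ := (QVal.Is.of_ne hw0).inv
      have := h2.le_of_ge h1
      linarith
    · exact ((valOf_ge_zero_iff hq hA).mpr hw).resolve_left hw0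
  rw [hx]
  exact (hpm.mul hw1).congr (add_zero _)

/-- The value of the discriminant is twice the value of `D`. -/
theorem two_mul_valOf_nodeD (hW : IsMultAt W q) (hA : A.LiesOverPrime q) {e D : AlgebraicClosure ℚ}
    (N : NodeRoot A.valuation (EQ W) e D) :
    2 * (valOf hW.prime hA).val D = (padicValInt q W.Δ : ℚ) := by
  have ND := N.nodeData hW.prime hA hW.ne
  set w := valOf hW.prime hA with hw
  have h64 : w.Gt 0 (64 * D) := by
    have h1 : w.Ge 0 (64 : AlgebraicClosure ℚ) := by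
      exact_mod_cast QVal.ge_natCast (w := w) 64
    have := h1.mul_gt (ND.hD.gt ND.hh)
    rwa [zero_add] at this
  have hB : w.Is 0 (((EQ W).b₂ + 12 * e) ^ 2 - 64 * D) :=
    (ND.hB.sq.congr (by ring)).sub_gt h64
  have h2 : w.Is (2 * w.val D) (D ^ 2 * (((EQ W).b₂ + 12 * e) ^ 2 - 64 * D)) :=
    (ND.hD.sq.mul hB).congr (by ring)
  rw [← N.hΔ] at h2
  have h3 := valOf_ratCast hW.prime hA (r := ((W.Δ : ℤ) : ℚ)) (by exact_mod_cast hW.ne)
  rw [map_intCast, ← EQ_Δ] at h3
  have h4 := h2.unique h3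
  rw [h4, padicValRat.of_int]
  norm_cast

section fixed

variable [DecidableEq (IsLocalRing.ResidueField A)]

/-- **A point of order `p` off the identity component which is fixed by inertia forces
`p ∣ v_q(Δ)`** (`p` odd; `q = p` and `q = 2` allowed). -/
theorem dvd_of_fixed_point (hW : IsMultAt W q) {p : ℕ} (hp : p.Prime) (hp2 : p ≠ 2)
    (hA : A.LiesOverPrime q) {P : (EQ W).Point} (hP : p • P = 0)
    (hPE : P ∉ E0 (redEk W A) (isPlace_valuationSubring A))
    (hfix : ∀ σ ∈ A.inertiaSubgroupIn ℚ, σ • P = P) : p ∣ padicValInt q W.Δ := by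
  classical
  obtain ⟨e, D, NR⟩ := hW.exists_nodeRoot hA
  have N := NR.nodeData hW.prime hA hW.ne
  have h2D := two_mul_valOf_nodeD hW hA NR
  have hp0 : (0 : ℚ) < p := by exact_mod_cast hp.pos
  rw [mem_E0_iff_pcomp hW.prime hA hW.ne NR] at hPE
  have hP0 : P ≠ 0 := by
    rintro rfl
    exact hPE pcomp_zero
  set w := valOf hW.prime hA with hw
  set h := w.val D with hh
  -- the component value
  have hc0 : 0 < pcomp w e h P := lt_of_le_of_ne (pcomp_nonneg N P) (Ne.symm hPE)
  obtain ⟨hPn, eP⟩ := exists_eq_some hP0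
  have hgt : w.Gt 0 (xc P - e) := by
    by_contra hcon
    apply hPE
    rw [eP, pcomp_some]
    exact QVal.comp_of_not_gt hcon
  obtain ⟨j, hj0, hjp, hX⟩ := torsion_val (hxy := hPn) N (hp.odd_of_ne_two hp2)
    (by rw [← eP]; exact hP) hgt
  have hjQ : (0 : ℚ) < j := by exact_mod_cast hj0
  have hjpQ : (2 : ℚ) * j < p := by exact_mod_cast hjp
  have hc1 : 0 < (2 * j / p : ℚ) * h := mul_pos (div_pos (by linarith) hp0) N.hh
  have hc2 : (2 * j / p : ℚ) * h < h := by
    have : (2 * j / p : ℚ) < 1 := by rw [div_lt_one hp0]; exact hjpQ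
    nlinarith [N.hh]
  have hψ := psi_is N hP0 hc1 hc2 hX
  obtain ⟨n, hn⟩ := val_int_of_inertia_fixed hW.prime hA hψ.1 (fun σ hσ => by
    rw [← psi_smul, hfix σ hσ])
  have h3 := hψ.unique hn
  -- `j * v_q(Δ) = p * n`
  have h4 : (j : ℚ) * (padicValInt q W.Δ : ℚ) = p * n := by
    rw [← h3, ← h2D]
    field_simp
  have h5 : j * (padicValInt q W.Δ : ℤ) = p * n := by exact_mod_cast h4
  have h6 : (p : ℤ) ∣ j * (padicValInt q W.Δ : ℤ) := ⟨n, h5⟩
  rcases (Nat.prime_iff_prime_int.mp hp).dvd_or_dvd h6 with h7 | h7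
  · have := Int.le_of_dvd hj0 h7
    omega
  · exact_mod_cast h7

/-- **Inertia acts trivially on `W[p] / E₀[p]`**, for every prime `q` of multiplicative reduction
(`q = 2` included). -/
theorem inertia_smul_sub_mem (hW : IsMultAt W q) {p : ℕ} (hp : p.Prime) (hp2 : p ≠ 2)
    (hA : A.LiesOverPrime q) {σ : AlgebraicClosure ℚ ≃ₐ[ℚ] AlgebraicClosure ℚ}
    (hσ : σ ∈ A.inertiaSubgroupIn ℚ) {P : (EQ W).Point} (hP : p • P = 0) :
    σ • P - P ∈ E0 (redEk W A) (isPlace_valuationSubring A) := by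
  classical
  by_cases hq2 : q = 2
  swap
  · exact inertia_smul_sub_mem_E0 hW hq2 hA hσ P
  have hne : q ≠ p := fun h => hp2 (h.symm.trans hq2)
  have : Fact p.Prime := ⟨hp⟩
  rcases smul_sub_or_add_mem_E0 hW hA (mem_decomposition_of_mem_inertia hσ) P with h1 | h1
  · exact h1
  have hΔ : (W.map (Int.castRingHom ℚ)).Δ ≠ 0 := by
    rw [WeierstrassCurve.map_Δ, eq_intCast, Int.cast_ne_zero]
    exact hW.ne
  set B := E0 (redEk W A) (isPlace_valuationSubring A) with hB
  -- the point `Q = σ P + P` is fixed by inertia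
  set Q := σ • P + P with hQ
  have hpQ : p • Q = 0 := by
    rw [hQ, nsmul_add, hP, add_zero, ← natCast_zsmul, ← Point.algEquiv_smul_zsmul,
      natCast_zsmul, hP, smul_zero]
  have hσQ : σ • Q = Q := by
    obtain ⟨R, hR⟩ := h1
    have h2 := Fermat.Agent.Tate.val_prime_eq_one p hp hW.prime hne hA 1
    exact smul_eq_of_torsion_of_mem_E0 (W' := W.map (Int.castRingHom ℚ)) hσ h2 (redEk W A) hR
      (by rw [pow_one]; exact hpQ)
  -- `(σ - 1)² = 0` on `W[p]`
  have hT := Fermat.Agent.Tate.hasTwoRank_curve hΔ p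
  obtain ⟨g, hg⟩ := hT.exists_apply_eq (n := 1) (x := P) (by rw [pow_one]; exact hP)
  have hch := Fermat.Agent.Tate.tateRep_unipotent hΔ p hW hne hp2 A hA σ hσ
  have hCH := LinearMap.aeval_self_charpoly ((Fermat.Agent.Tate.tateRep
    (W.map (Int.castRingHom ℚ)) hΔ p).ρ σ)
  rw [hch] at hCH
  rw [map_pow, map_sub, Polynomial.aeval_X, map_one, sq] at hCH
  have h3 : σ • (σ • P - P) - (σ • P - P) = 0 := by
    rw [← hg]
    exact congrArg (fun f : Fermat.Agent.Tate.TMod p (EQ W).Point => f 1)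
      (LinearMap.congr_fun hCH g)
  have h4 : σ • P = Q - P := by rw [hQ, add_sub_cancel_right]
  have h5 : σ • (σ • P - P) - (σ • P - P) = 4 • P - 2 • Q := by
    have h6 : σ • (σ • P - P) = Q - (Q - P) - (Q - P) := by
      rw [h4, smul_sub, smul_sub, hσQ, h4]
    rw [h6, h4]
    abel
  rw [h5, sub_eq_zero] at h3
  -- hence `P ∈ E₀`
  have h7 : (4 : ℤ) • P ∈ B := by
    have : (4 : ℤ) • P = 2 • Q := by rw [← h3]; exact ofNat_zsmul P 4
    rw [this]
    exact B.nsmul_mem h1 2
  have hcop : IsCoprime (4 : ℤ) (p : ℤ) := by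
    have h8 : IsCoprime (2 : ℤ) (p : ℤ) := by
      have := (Nat.coprime_primes Nat.prime_two hp).mpr (Ne.symm hp2)
      exact_mod_cast Nat.isCoprime_iff_coprime.mpr this
    have := h8.pow_left (m := 2)
    norm_num at this
    exact this
  obtain ⟨a, b, hab⟩ := hcop
  have hPB : P ∈ B := by
    have h8 : P = a • ((4 : ℤ) • P) + b • ((p : ℤ) • P) := by
      rw [smul_smul, smul_smul, ← add_zsmul, hab, one_zsmul]
    rw [h8, natCast_zsmul, hP, zsmul_zero, add_zero]
    exact B.zsmul_mem h7 a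
  have h9 : σ • P - P = Q - 2 • P := by rw [h4, two_smul]; abel
  rw [h9]
  exact B.sub_mem h1 (B.nsmul_mem hPB 2)

end fixed

/-- **Inertia at a prime `q` of multiplicative reduction with `p ∤ v_q(Δ)` contains an element
which acts on the `p`-torsion by a permutation of order exactly `p`** (`p` odd; `q = p` and `q = 2`
allowed). -/
theorem exists_inertia_order (hW : IsMultAt W q) {p : ℕ} (hp : p.Prime) (hp2 : p ≠ 2)
    (hv : ¬ p ∣ padicValInt q W.Δ) (hA : A.LiesOverPrime q) :
    ∃ σ ∈ A.inertiaSubgroupIn ℚ,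
      orderOf (MulAction.toPermHom (AlgebraicClosure ℚ ≃ₐ[ℚ] AlgebraicClosure ℚ)
        (Submodule.torsionBy ℤ (EQ W).Point (p : ℤ)) σ) = p := by
  classical
  have hfact : Fact p.Prime := ⟨hp⟩
  have hfin : Finite (Submodule.torsionBy ℤ (EQ W).Point (p : ℤ)) :=
    finite_torsionBy_EQ hW.ne hp.ne_zero
  let φ := MulAction.toPermHom (AlgebraicClosure ℚ ≃ₐ[ℚ] AlgebraicClosure ℚ)
    (Submodule.torsionBy ℤ (EQ W).Point (p : ℤ))
  let H : Subgroup (Equiv.Perm (Submodule.torsionBy ℤ (EQ W).Point (p : ℤ))) :=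
    (A.inertiaSubgroupIn ℚ).map φ
  have hHfin : Finite H := inferInstance
  by_cases hdvd : p ∣ Nat.card H
  · obtain ⟨g, hg⟩ := exists_prime_orderOf_dvd_card' (G := H) p hdvd
    obtain ⟨σ, hσ, hσg⟩ := g.2
    refine ⟨σ, hσ, ?_⟩
    change orderOf (φ σ) = p
    rw [hσg, Subgroup.orderOf_coe, hg]
  · exfalso
    apply hv
    obtain ⟨P, hP, hPE⟩ : ∃ P : (EQ W).Point, p • P = 0 ∧
        P ∉ E0 (redEk W A) (isPlace_valuationSubring A) := by
      by_cases hqp : q = p
      · subst hqp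
        exact exists_torsion_notMem_E0 hW hp2 hA
      · exact exists_torsion_notMem_E0_of_ne hW hqp hp2 hA
    have hft := Fintype.ofFinite H
    let x : Submodule.torsionBy ℤ (EQ W).Point (p : ℤ) :=
      ⟨P, Fermat.Agent.Tate.mem_torsionBy_nat.mpr hP⟩
    let S : Submodule.torsionBy ℤ (EQ W).Point (p : ℤ) := ∑ h : H, (h : Equiv.Perm _) x
    have hS : ∀ σ ∈ A.inertiaSubgroupIn ℚ, σ • S = S := by
      intro σ hσ
      have hφ : φ σ ∈ H := ⟨σ, hσ, rfl⟩
      change σ • (∑ h : H, (h : Equiv.Perm _) x) = ∑ h : H, (h : Equiv.Perm _) x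
      rw [Finset.smul_sum]
      exact Fintype.sum_equiv (Equiv.mulLeft (⟨φ σ, hφ⟩ : H)) _ _ (fun h => rfl)
    have hpS : p • (S : (EQ W).Point) = 0 := Fermat.Agent.Tate.mem_torsionBy_nat.mp S.2
    have hS2 : (S : (EQ W).Point) - Fintype.card H • P ∈
        E0 (redEk W A) (isPlace_valuationSubring A) := by
      have h1 : (S : (EQ W).Point) - Fintype.card H • P =
          ∑ h : H, ((((h : Equiv.Perm _) x :
            Submodule.torsionBy ℤ (EQ W).Point (p : ℤ)) : (EQ W).Point) - P) := by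
        rw [Finset.sum_sub_distrib, Finset.sum_const, Finset.card_univ]
        congr 1
        exact AddSubmonoidClass.coe_finsetSum _ _
      rw [h1]
      refine AddSubgroup.sum_mem _ fun h _ => ?_
      obtain ⟨σ, hσ, hσg⟩ := h.2
      have h2 : (((h : Equiv.Perm _) x : Submodule.torsionBy ℤ (EQ W).Point (p : ℤ)) :
          (EQ W).Point) = σ • P := by rw [← hσg]; rfl
      rw [h2]
      exact inertia_smul_sub_mem hW hp hp2 hA hσ hP
    refine dvd_of_fixed_point hW hp hp2 hA hpS (fun hSE => hPE ?_)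
      (fun σ hσ => congrArg Subtype.val (hS σ hσ))
    have hm : Fintype.card H • P ∈ E0 (redEk W A) (isPlace_valuationSubring A) := by
      have := AddSubgroup.sub_mem _ hSE hS2
      rwa [sub_sub_cancel] at this
    rw [← Nat.card_eq_fintype_card] at hm
    have hcop : IsCoprime ((Nat.card H : ℕ) : ℤ) (p : ℤ) :=
      Nat.isCoprime_iff_coprime.mpr ((Nat.Prime.coprime_iff_not_dvd hp).mpr hdvd).symm
    obtain ⟨a, b, hab⟩ := hcop
    have h8 : P = a • (((Nat.card H : ℕ) : ℤ) • P) + b • ((p : ℤ) • P) := by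
      rw [smul_smul, smul_smul, ← add_zsmul, hab, one_zsmul]
    rw [h8, natCast_zsmul, natCast_zsmul, hP, zsmul_zero, add_zero]
    exact AddSubgroup.zsmul_mem _ hm a

end Fermat.Agent.Cor
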