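import Fermat.Agent.ECFrob.DetCyc

/-!
# The determinant of the representation on the `p`-torsion is surjective (helper62)

`det` of the action of `Gal(ℚ̄/ℚ)` on `W[p]` is the cyclotomic character modulo `p`
(`ECFrob.det_rho`), which is surjective by the irreducibility of the cyclotomic polynomial. Hence
the representation is surjective as soon as its image contains `SL(W[p])`.
-/

set_option autoImplicit false

open WeierstrassCurve WeierstrassCurve.Affine WeierstrassCurve.Affine.Point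
open Fermat.Agent.ECFrob

namespace Fermat.Agent.Cor

/-- **The cyclotomic character modulo `p` is surjective.** -/
theorem exists_cycMod {p : ℕ} [hp : Fact p.Prime] (u : (ZMod p)ˣ) :
    ∃ σ : AlgebraicClosure ℚ ≃ₐ[ℚ] AlgebraicClosure ℚ, cycMod p σ = u := by
  obtain ⟨ζ, hζ⟩ := exists_primitiveRoot p
  have hcop : Nat.Coprime (u : ZMod p).val p := ZMod.val_coe_unit_coprime u
  have h1 : IsConjRoot ℚ (ζ ^ (u : ZMod p).val) ζ := by
    rw [IsConjRoot, ← Polynomial.cyclotomic_eq_minpoly_rat hζ hp.out.pos,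
      ← Polynomial.cyclotomic_eq_minpoly_rat (hζ.pow_of_coprime _ hcop) hp.out.pos]
  obtain ⟨σ, hσ⟩ := (isConjRoot_iff_exists_algEquiv (K := ℚ) (L := AlgebraicClosure ℚ)).1 h1
  refine ⟨σ, ?_⟩
  have h2 : σ ζ = ζ ^ (u : ZMod p).val := hσ
  have h3 := cycMod_unique hζ h2
  rwa [ZMod.natCast_zmod_val] at h3

section

variable {W : WeierstrassCurve ℤ} (hΔ : W.Δ ≠ 0) {p : ℕ} [hp : Fact p.Prime]

include hΔ

/-- **The determinant of the action on `W[p]` is surjective.** -/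
theorem exists_det (u : (ZMod p)ˣ) :
    ∃ σ : AlgebraicClosure ℚ ≃ₐ[ℚ] AlgebraicClosure ℚ, LinearMap.det (rho W p σ) = u := by
  obtain ⟨σ, hσ⟩ := exists_cycMod u
  exact ⟨σ, (det_rho hΔ σ).trans hσ⟩

/-- The representation on `W[p]` is surjective as soon as its image contains all automorphisms of
determinant one. -/
theorem surjective_of_sl
    (h : ∀ g : Module.End (ZMod p) (Submodule.torsionBy ℤ
      ((W.map (Int.castRingHom ℚ))⁄(AlgebraicClosure ℚ)).Point p), LinearMap.det g = 1 →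
      ∃ σ : AlgebraicClosure ℚ ≃ₐ[ℚ] AlgebraicClosure ℚ, rho W p σ = g)
    (g : Submodule.torsionBy ℤ ((W.map (Int.castRingHom ℚ))⁄(AlgebraicClosure ℚ)).Point p
      ≃ₗ[ZMod p] Submodule.torsionBy ℤ
        ((W.map (Int.castRingHom ℚ))⁄(AlgebraicClosure ℚ)).Point p) :
    ∃ σ : AlgebraicClosure ℚ ≃ₐ[ℚ] AlgebraicClosure ℚ, rho W p σ = (g : Module.End (ZMod p) _) := by
  obtain ⟨σ, hσ⟩ := exists_det hΔ (LinearEquiv.det g)
  have h1 : rho W p σ * rho W p σ⁻¹ = 1 := by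
    rw [← map_mul, mul_inv_cancel, map_one]
  have h2 : LinearMap.det (rho W p σ⁻¹ * (g : Module.End (ZMod p) _)) = 1 := by
    have h3 : LinearMap.det (rho W p σ⁻¹) * LinearMap.det (rho W p σ) = 1 := by
      rw [← map_mul, ← map_mul, inv_mul_cancel, map_one, map_one]
    rw [map_mul, ← LinearEquiv.coe_det, ← hσ, h3]
  obtain ⟨τ, hτ⟩ := h _ h2
  refine ⟨σ * τ, ?_⟩
  rw [map_mul, hτ, ← mul_assoc, h1, one_mul]

/-- The same, pointwise. -/
theorem surjective_of_sl'
    (h : ∀ g : Module.End (ZMod p) (Submodule.torsionBy ℤ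
      ((W.map (Int.castRingHom ℚ))⁄(AlgebraicClosure ℚ)).Point p), LinearMap.det g = 1 →
      ∃ σ : AlgebraicClosure ℚ ≃ₐ[ℚ] AlgebraicClosure ℚ, ∀ x : Submodule.torsionBy ℤ
        ((W.map (Int.castRingHom ℚ))⁄(AlgebraicClosure ℚ)).Point p, σ • x = g x)
    (g : Submodule.torsionBy ℤ ((W.map (Int.castRingHom ℚ))⁄(AlgebraicClosure ℚ)).Point p
      ≃ₗ[ZMod p] Submodule.torsionBy ℤ
        ((W.map (Int.castRingHom ℚ))⁄(AlgebraicClosure ℚ)).Point p) :
    ∃ σ : AlgebraicClosure ℚ ≃ₐ[ℚ] AlgebraicClosure ℚ, ∀ x : Submodule.torsionBy ℤ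
      ((W.map (Int.castRingHom ℚ))⁄(AlgebraicClosure ℚ)).Point p, σ • x = g x := by
  obtain ⟨σ, hσ⟩ := surjective_of_sl hΔ (fun g' hg' => by
    obtain ⟨σ, hσ⟩ := h g' hg'
    exact ⟨σ, LinearMap.ext hσ⟩) g
  exact ⟨σ, fun x => LinearMap.congr_fun hσ x⟩

end

end Fermat.Agent.Cor
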