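import Fermat.Agent.Corollaries.Surj.Main
import Fermat.Agent.Corollaries.Mazur.Main

/-!
# Surjectivity of the Galois representations of semistable elliptic curves (Serre, Mazur)

Let `W` be a semistable elliptic curve over `ℚ` and `p = 11` or `p ≥ 17` a prime. Then
`Gal(ℚ̄/ℚ)` acts on `W[p]` through the full group `GL(W[p]) ≅ GL₂(𝔽_p)`: the representation is
irreducible by Mazur's theorem (`modRepIsIrreducible`), hence surjective
(`repP_surjective`).
-/

set_option autoImplicit false

noncomputable section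

namespace Fermat.Agent.Cor

open WeierstrassCurve WeierstrassCurve.Affine WeierstrassCurve.Affine.Point
open Fermat.Agent.Classic

local notation "Γℚ" => (AlgebraicClosure ℚ ≃ₐ[ℚ] AlgebraicClosure ℚ)

variable {W : WeierstrassCurve ℤ} (hΔ : W.Δ ≠ 0) {p : ℕ} [hp : Fact p.Prime]

/-- **The mod `p` representation of a semistable elliptic curve over `ℚ` is surjective for
`p = 11` and for every prime `p ≥ 17`**, matrix form. -/
theorem repP_surjective_of_ge (h : p = 11 ∨ 17 ≤ p) (hW : W.IsSemistableModel) :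
    Function.Surjective (repP p hΔ) :=
  repP_surjective hΔ hW (by omega) (modRepIsIrreducible hp.out h hΔ hW)

include hΔ in
/-- **The mod `p` representation of a semistable elliptic curve over `ℚ` is surjective for
`p = 11` and for every prime `p ≥ 17`** (Serre, Mazur): every automorphism of the `p`-torsion is
the action of an element of `Gal(ℚ̄/ℚ)`. -/
theorem surjective_of_semistable_of_ge (h : p = 11 ∨ 17 ≤ p) (hW : W.IsSemistableModel)
    (g : Submodule.torsionBy ℤ ((W.map (Int.castRingHom ℚ))⁄(AlgebraicClosure ℚ)).Point (p : ℕ)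
      ≃ₗ[ZMod p] Submodule.torsionBy ℤ
        ((W.map (Int.castRingHom ℚ))⁄(AlgebraicClosure ℚ)).Point (p : ℕ)) :
    ∃ σ : Γℚ, ∀ x : Submodule.torsionBy ℤ
      ((W.map (Int.castRingHom ℚ))⁄(AlgebraicClosure ℚ)).Point (p : ℕ), σ • x = g x :=
  exists_smul_eq_of_repP_surjective hΔ (repP_surjective_of_ge hΔ h hW) g

/-- **Surjective or a rational isogeny** (semistable curves, `p` odd): the mod `p` representation
is surjective unless some subgroup of order `p` of `W(ℚ̄)` is stable under Galois. -/
theorem repP_surjective_iff_not_exists_stable (hW : W.IsSemistableModel) (hp2 : p ≠ 2) :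
    Function.Surjective (repP p hΔ) ↔
      ¬ ∃ L : AddSubgroup ((W.map (Int.castRingHom ℚ))⁄(AlgebraicClosure ℚ)).Point,
        Nat.card L = p ∧ ∀ σ : Γℚ, ∀ x ∈ L, σ • x ∈ L := by
  rw [← modRepIsIrreducible_iff_surjective hΔ hW hp2]
  refine ⟨fun hirr ⟨L, hL, hst⟩ => Mazur.not_stable_of_irreducible hp.out hΔ hirr L hL hst,
    fun hno => ?_⟩
  rw [noInvLine_range_iff p hΔ]
  intro v hv
  by_contra hcon
  push Not at hcon
  apply hno
  obtain ⟨e, he⟩ := exists_equiv p hΔ
  -- the subgroup generated by `e⁻¹ v`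
  set P : ((W.map (Int.castRingHom ℚ))⁄(AlgebraicClosure ℚ)).Point := (e.symm v).1 with hP
  have hP0 : P ≠ 0 := by
    intro h
    apply hv
    have h1 : e.symm v = 0 := Subtype.ext h
    exact (LinearEquiv.map_eq_zero_iff _).mp h1
  have hpP : p • P = 0 := (Fermat.Agent.Torsion.mem_torsionBy_nat_iff p _).mp (e.symm v).2
  have hord : addOrderOf P = p := addOrderOf_eq_prime hpP hP0
  refine ⟨AddSubgroup.zmultiples P, by rw [Nat.card_zmultiples, hord], fun σ x hx => ?_⟩
  obtain ⟨n, rfl⟩ := AddSubgroup.mem_zmultiples_iff.mp hx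
  obtain ⟨c, hc⟩ := hcon (repP p hΔ σ) ⟨σ, rfl⟩
  have h1 : σ • e.symm v = c • e.symm v := by
    apply e.injective
    rw [he, e.apply_symm_apply, hc, map_smul, e.apply_symm_apply]
  have h2 : σ • P = c.val • P := by
    have h3 := congrArg Subtype.val h1
    have h4 : c • e.symm v = c.val • e.symm v := by
      conv_lhs => rw [← ZMod.natCast_zmod_val c]
      rw [Nat.cast_smul_eq_nsmul]
    rw [h4] at h3
    exact h3
  rw [algEquiv_smul_zsmul (W' := W.map (Int.castRingHom ℚ)) σ n P, h2]
  exact AddSubgroup.zsmul_mem _ (AddSubgroup.nsmul_mem _ (AddSubgroup.mem_zmultiples P) _) _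

end Fermat.Agent.Cor
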