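import Fermat.Agent.Corollaries.Surj.Core

/-!
# The mod `2` representation of an elliptic curve

`W` an elliptic curve over `ℚ` (integral model). The nonzero points of `W[2]` are the three roots
`x, y, z` of `4 t³ + b₂ t² + 2 b₄ t + b₆`, and `(4 (x - y) (x - z) (y - z))² = Δ`. Hence `Gal(ℚ̄/ℚ)`
acts on `W[2]` through all of `GL₂(𝔽₂) ≅ S₃` if and only if `W[2]` is irreducible and `Δ` is not a
square (`repP_two_surjective_iff`).
-/

set_option autoImplicit false

noncomputable section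

namespace Fermat.Agent.Cor

open WeierstrassCurve WeierstrassCurve.Affine WeierstrassCurve.Affine.Point
open Fermat.Agent.ECFrob Fermat.Agent.Classic Fermat.Agent.ECRed
open Matrix

local notation "Qbar" => AlgebraicClosure ℚ
local notation "Γℚ" => (AlgebraicClosure ℚ ≃ₐ[ℚ] AlgebraicClosure ℚ)

variable {W : WeierstrassCurve ℤ}

/-- The `2`-division polynomial over `ℚ̄`. -/
def psiTwo (W : WeierstrassCurve ℤ) (t : Qbar) : Qbar :=
  4 * t ^ 3 + (EQ W).b₂ * t ^ 2 + 2 * (EQ W).b₄ * t + (EQ W).b₆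

/-- The three roots of the `2`-division polynomial, and the discriminant. -/
theorem exists_two_roots (hΔ : W.Δ ≠ 0) : ∃ x y z : Qbar,
    (x ≠ y ∧ x ≠ z ∧ y ≠ z) ∧ (4 * ((x - y) * (x - z) * (y - z))) ^ 2 = ((W.Δ : ℤ) : Qbar) ∧
    ∀ t, psiTwo W t = 4 * ((t - x) * (t - y) * (t - z)) := by
  set P : Cubic Qbar := (EQ W).twoTorsionPolynomial with hP
  have ha : P.a ≠ 0 := by
    change (4 : Qbar) ≠ 0
    norm_num
  obtain ⟨x, y, z, h3⟩ := (Cubic.splits_iff_roots_eq_three (φ := RingHom.id Qbar) ha).mp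
    (IsAlgClosed.splits _)
  have hd := Cubic.discr_eq_prod_three_roots ha h3
  have hb := Cubic.b_eq_three_roots ha h3
  have hc := Cubic.c_eq_three_roots ha h3
  have hd' := Cubic.d_eq_three_roots ha h3
  rw [RingHom.id_apply, RingHom.id_apply] at hb hc hd'
  have hΔ' := EQ_Δ W
  have e2 : (EQ W).b₂ = 4 * -(x + y + z) := hb
  have e4 : 2 * (EQ W).b₄ = 4 * (x * y + x * z + y * z) := hc
  have e6 : (EQ W).b₆ = 4 * -(x * y * z) := hd'
  rw [RingHom.id_apply, RingHom.id_apply, hP, twoTorsionPolynomial_discr, hΔ'] at hd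
  have hd2 : 16 * ((W.Δ : ℤ) : Qbar) = (4 * 4 * (x - y) * (x - z) * (y - z)) ^ 2 := hd
  have hd3 : (4 * ((x - y) * (x - z) * (y - z))) ^ 2 = ((W.Δ : ℤ) : Qbar) := by
    linear_combination -(1 / 16 : Qbar) * hd2
  refine ⟨x, y, z, ?_, hd3, fun t => ?_⟩
  · have h0 : ((W.Δ : ℤ) : Qbar) ≠ 0 := by exact_mod_cast hΔ
    refine ⟨?_, ?_, ?_⟩ <;>
    · rintro rfl
      apply h0
      rw [← hd3]
      ring
  · rw [psiTwo, e2, e4, e6]
    ring

/-- A root of the `2`-division polynomial is the abscissa of a point of order two. -/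
theorem exists_point_of_psiTwo (hΔ : W.Δ ≠ 0) {t : Qbar} (ht : psiTwo W t = 0) :
    ∃ (u : Qbar) (h : (EQ W).Nonsingular t u), 2 • some t u h = 0 := by
  have hΔ' : (EQ W).Δ ≠ 0 := by
    rw [EQ_Δ]
    exact_mod_cast hΔ
  set u : Qbar := -((EQ W).a₁ * t + (EQ W).a₃) / 2 with hu
  have hu2 : 2 * u + (EQ W).a₁ * t + (EQ W).a₃ = 0 := by
    rw [hu]
    ring
  have heq : (EQ W).Equation t u := by
    rw [equation_iff]
    have h1 : psiTwo W t = 4 * t ^ 3 + (EQ W).b₂ * t ^ 2 + 2 * (EQ W).b₄ * t + (EQ W).b₆ := rfl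
    rw [ht, b₂, b₄, b₆] at h1
    linear_combination (1 / 4 : Qbar) * h1 +
      (1 / 4 : Qbar) * (2 * u + (EQ W).a₁ * t + (EQ W).a₃) * hu2
  have hns : (EQ W).Nonsingular t u := (equation_iff_nonsingular_of_Δ_ne_zero hΔ').mp heq
  refine ⟨u, hns, ?_⟩
  rw [two_nsmul, add_eq_zero_iff_eq_neg, neg_some, some.injEq]
  refine ⟨rfl, ?_⟩
  rw [negY]
  linear_combination hu2

/-- The abscissa of a point of order two is a root of the `2`-division polynomial. -/
theorem psiTwo_eq_zero {t u : Qbar} {h : (EQ W).Nonsingular t u} (h2 : 2 • some t u h = 0) :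
    psiTwo W t = 0 ∧ 2 * u + (EQ W).a₁ * t + (EQ W).a₃ = 0 := by
  rw [two_nsmul, add_eq_zero_iff_eq_neg, neg_some, some.injEq, negY] at h2
  have hu2 : 2 * u + (EQ W).a₁ * t + (EQ W).a₃ = 0 := by linear_combination h2.2
  refine ⟨?_, hu2⟩
  have heq := h.1
  rw [equation_iff] at heq
  rw [psiTwo, b₂, b₄, b₆]
  linear_combination (-4 : Qbar) * heq + (2 * u + (EQ W).a₁ * t + (EQ W).a₃) * hu2

theorem psiTwo_map (σ : Γℚ) (t : Qbar) : σ (psiTwo W t) = psiTwo W (σ t) := by
  simp only [psiTwo, EQ_b₂, EQ_b₄, EQ_b₆, map_add, map_mul, map_pow, map_intCast, map_ofNat]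

/-- `σ` fixes `W[2]` iff it fixes the roots of the `2`-division polynomial. -/
theorem forall_smul_iff (hΔ : W.Δ ≠ 0) (σ : Γℚ) :
    (∀ x : Submodule.torsionBy ℤ
      ((W.map (Int.castRingHom ℚ))⁄(AlgebraicClosure ℚ)).Point ((2 : ℕ) : ℤ), σ • x = x) ↔
      ∀ t, psiTwo W t = 0 → σ t = t := by
  constructor
  · intro h t ht
    obtain ⟨u, hns, h2⟩ := exists_point_of_psiTwo hΔ ht
    have h3 := congrArg Subtype.val (h ⟨some t u hns,
      (Fermat.Agent.Torsion.mem_torsionBy_nat_iff 2 _).mpr h2⟩)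
    have h4 : σ • some t u hns = some t u hns := h3
    have h5 := congrArg xc h4
    rw [xc_smul] at h5
    exact h5
  · intro h x
    apply Subtype.ext
    change σ • (x : (EQ W).Point) = x
    have hx := (Fermat.Agent.Torsion.mem_torsionBy_nat_iff 2 _).mp x.2
    rcases hP : (x : (EQ W).Point) with _ | ⟨t, u, hns⟩
    · rfl
    · rw [hP] at hx
      obtain ⟨h1, h2⟩ := psiTwo_eq_zero hx
      have ht := h t h1
      have hu : σ u = u := by
        have h3 : u = -((EQ W).a₁ * t + (EQ W).a₃) / 2 := by linear_combination (1 / 2 : Qbar) * h2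
        rw [h3, EQ_a₁, EQ_a₃]
        simp only [map_div₀, map_neg, map_add, map_mul, map_intCast, map_ofNat, ht]
      have h4 : σ • some t u hns = some (σ t) (σ u)
        (((W.map (Int.castRingHom ℚ)).toAffine.baseChange_nonsingular (f := (σ : Qbar →ₐ[ℚ] Qbar))
          σ.injective ..).mpr hns) := rfl
      exact h4.trans ((some.injEq ..).mpr ⟨ht, hu⟩)

/-- In `GL₂(𝔽₂)` the cube of an element is trivial or of order two. -/
theorem pow_three_GL2_two (g : GL (Fin 2) (ZMod 2)) : g ^ 3 = 1 ∨ orderOf (g ^ 3) = 2 := by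
  have h6 : g ^ 6 = 1 := by
    revert g
    decide
  have h1 : (g ^ 3) ^ 2 = 1 := by rw [← pow_mul, h6]
  by_cases h : g ^ 3 = 1
  · exact Or.inl h
  · exact Or.inr (orderOf_eq_prime h1 h)

/-- **There is an element of order two in the image of the mod `2` representation iff the
discriminant is not a square.** -/
theorem exists_orderOf_two_iff (hΔ : W.Δ ≠ 0) :
    (∃ σ : Γℚ, orderOf (repP 2 hΔ σ) = 2) ↔ ¬ IsSquare W.Δ := by
  obtain ⟨x, y, z, ⟨hxy, hxz, hyz⟩, hd, hroot⟩ := exists_two_roots hΔ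
  have hx0 : psiTwo W x = 0 := by rw [hroot]; ring
  have hy0 : psiTwo W y = 0 := by rw [hroot]; ring
  have hz0 : psiTwo W z = 0 := by rw [hroot]; ring
  have hmem : ∀ t, psiTwo W t = 0 ↔ t = x ∨ t = y ∨ t = z := by
    intro t
    rw [hroot, mul_eq_zero, mul_eq_zero, mul_eq_zero, sub_eq_zero, sub_eq_zero, sub_eq_zero]
    constructor
    · rintro (h | (h | h) | h)
      · norm_num at h
      all_goals tauto
    · tauto
  set δ : Qbar := 4 * ((x - y) * (x - z) * (y - z)) with hδ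
  have hδ0 : δ ≠ 0 := by
    rw [hδ]
    exact mul_ne_zero (by norm_num) (mul_ne_zero (mul_ne_zero (sub_ne_zero.mpr hxy)
      (sub_ne_zero.mpr hxz)) (sub_ne_zero.mpr hyz))
  have hσδ : ∀ σ : Γℚ, σ δ = δ ∨ σ δ = -δ := by
    intro σ
    have h1 : σ δ ^ 2 = δ ^ 2 := by rw [← map_pow, hd, map_intCast]
    exact sq_eq_sq_iff_eq_or_eq_neg.mp h1
  have hfix : ∀ σ : Γℚ, repP 2 hΔ σ = 1 ↔ (σ x = x ∧ σ y = y ∧ σ z = z) := by
    intro σ
    rw [repP_eq_one_iff hΔ, forall_smul_iff hΔ]
    constructor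
    · intro h
      exact ⟨h x hx0, h y hy0, h z hz0⟩
    · rintro ⟨h1, h2, h3⟩ t ht
      rcases (hmem t).mp ht with rfl | rfl | rfl
      exacts [h1, h2, h3]
  constructor
  · rintro ⟨σ, hσ⟩ ⟨m, hm⟩
    -- `δ` is rational
    have h1 : σ δ = δ := by
      have h2 : δ ^ 2 = ((m : ℤ) : Qbar) ^ 2 := by
        rw [hd, hm]
        push_cast
        ring
      rcases sq_eq_sq_iff_eq_or_eq_neg.mp h2 with h3 | h3
      · rw [h3, map_intCast]
      · rw [h3, map_neg, map_intCast]
    have hσ2 : repP 2 hΔ (σ * σ) = 1 := by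
      rw [map_mul, ← sq]
      exact orderOf_dvd_iff_pow_eq_one.mp (dvd_of_eq hσ)
    obtain ⟨hx2, hy2, hz2⟩ := (hfix _).mp hσ2
    rw [AlgEquiv.mul_apply] at hx2 hy2 hz2
    have hne : ¬ (σ x = x ∧ σ y = y ∧ σ z = z) := by
      intro h
      rw [(hfix σ).mpr h, orderOf_one] at hσ
      omega
    have hsx := (hmem (σ x)).mp (by rw [← psiTwo_map, hx0, _root_.map_zero])
    have hsy := (hmem (σ y)).mp (by rw [← psiTwo_map, hy0, _root_.map_zero])
    have hsz := (hmem (σ z)).mp (by rw [← psiTwo_map, hz0, _root_.map_zero])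
    have hneg : σ δ = -δ := by
      have h5 : σ δ = 4 * ((σ x - σ y) * (σ x - σ z) * (σ y - σ z)) := by
        rw [hδ]
        simp only [map_mul, map_sub, map_ofNat]
      rw [h5, hδ]
      rcases hsx with h | h | h
      · rcases hsy with h' | h' | h'
        · exact absurd (σ.injective (h'.trans h.symm)) hxy.symm
        · rcases hsz with h'' | h'' | h''
          · exact absurd (σ.injective (h''.trans h.symm)) hxz.symm
          · exact absurd (σ.injective (h''.trans h'.symm)) hyz.symm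
          · exact absurd ⟨h, h', h''⟩ hne
        · rw [h'] at hy2
          rw [h, h', hy2]
          ring
      · rw [h] at hx2
        rcases hsz with h'' | h'' | h''
        · exact absurd (σ.injective (h''.trans hx2.symm)) hyz.symm
        · exact absurd (σ.injective (h''.trans h.symm)) hxz.symm
        · rw [h, hx2, h'']
          ring
      · rw [h] at hx2
        rcases hsy with h' | h' | h'
        · exact absurd (σ.injective (h'.trans hx2.symm)) hyz
        · rw [h, hx2, h']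
          ring
        · exact absurd (σ.injective (h'.trans h.symm)) hxy.symm
    rw [h1] at hneg
    exact hδ0 (self_eq_neg.mp hneg)
  · intro hsq
    by_contra hcon
    push Not at hcon
    -- every `σ³` acts trivially
    have h3 : ∀ σ : Γℚ, repP 2 hΔ (σ * (σ * σ)) = 1 := by
      intro σ
      have h4 : repP 2 hΔ (σ * (σ * σ)) = repP 2 hΔ σ ^ 3 := by
        rw [map_mul, map_mul, pow_succ', sq]
      rw [h4]
      refine (pow_three_GL2_two _).resolve_right fun h => ?_
      rw [← h4] at h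
      exact hcon _ h
    have hδfix : ∀ σ : Γℚ, σ δ = δ := by
      intro σ
      refine (hσδ σ).resolve_right fun h => ?_
      obtain ⟨h1, h2, h4⟩ := (hfix _).mp (h3 σ)
      have h5 : (σ * (σ * σ)) δ = δ := by
        rw [hδ]
        simp only [map_mul (σ * (σ * σ)), map_sub (σ * (σ * σ)), map_ofNat (σ * (σ * σ)), h1, h2,
          h4]
      rw [AlgEquiv.mul_apply, AlgEquiv.mul_apply, h, map_neg, map_neg, h, map_neg, h, neg_neg]
        at h5
      exact hδ0 (self_eq_neg.mp h5.symm)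
    have h6 : δ ∈ (⊥ : IntermediateField ℚ Qbar) := (InfiniteGalois.mem_bot_iff_fixed δ).mpr hδfix
    obtain ⟨r, hr⟩ := IntermediateField.mem_bot.mp h6
    apply hsq
    rw [← Rat.isSquare_intCast_iff]
    refine ⟨r, ?_⟩
    apply (algebraMap ℚ Qbar).injective
    rw [map_mul, hr, map_intCast, ← hd]
    ring

/-- **The mod `2` representation of an elliptic curve over `ℚ` is surjective iff it is irreducible
and the discriminant is not a square.** -/
theorem repP_two_surjective_iff (hΔ : W.Δ ≠ 0) :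
    Function.Surjective (repP 2 hΔ) ↔ W.ModRepIsIrreducible 2 ∧ ¬ IsSquare W.Δ := by
  refine ⟨fun h => ⟨modRepIsIrreducible_of_surjective hΔ h, ?_⟩,
    fun h => repP_surjective_of_orderOf hΔ h.1 ((exists_orderOf_two_iff hΔ).mpr h.2)⟩
  rw [← exists_orderOf_two_iff hΔ]
  obtain ⟨σ, hσ⟩ := h (Matrix.GeneralLinearGroup.mkOfDetNeZero !![1, 1; 0, 1] (by simp))
  refine ⟨σ, ?_⟩
  rw [hσ]
  refine orderOf_eq_prime (Units.ext ?_) fun h => ?_
  · rw [Units.val_pow_eq_pow_val, Units.val_one]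
    change (!![1, 1; 0, 1] : Matrix (Fin 2) (Fin 2) (ZMod 2)) ^ 2 = 1
    decide
  · have h1 := congrArg Units.val h
    change (!![1, 1; 0, 1] : Matrix (Fin 2) (Fin 2) (ZMod 2)) = 1 at h1
    revert h1
    decide

end Fermat.Agent.Cor
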