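import Fermat.Agent.Corollaries.Surj.Core

/-!
# Surjective mod `p` representations restricted to number fields

If `Gal(ℚ̄/ℚ)` acts on `W[p]` through all of `GL₂(𝔽_p)` then

* a subgroup `H` of `Gal(ℚ̄/ℚ)` of index `< p` acts through a group containing `SL₂(𝔽_p)`
  (`exists_mem_of_index_lt`);
* for `p ≥ 3` the commutator subgroup of `Gal(ℚ̄/ℚ)` acts through a group containing `SL₂(𝔽_p)`
  (`exists_mem_commutator`), for `p ≥ 3` exactly through `SL₂(𝔽_p)` (`map_commutator`).

In both cases `W[p]` is absolutely irreducible as a representation of `H`. Hence `W` has no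
isogeny of degree `p` over a number field of degree `< p` and over an abelian extension of `ℚ`
(`not_exists_stable_over`, `not_exists_stable_over_abelian`).
-/

set_option autoImplicit false

noncomputable section

namespace Fermat.Agent.Cor

open WeierstrassCurve WeierstrassCurve.Affine WeierstrassCurve.Affine.Point
open Fermat.Agent.ECFrob Fermat.Agent.Classic
open Matrix
open scoped commutatorElement

local notation "Γℚ" => (AlgebraicClosure ℚ ≃ₐ[ℚ] AlgebraicClosure ℚ)

section Group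

variable {p : ℕ} [hp : Fact p.Prime]

/-- the upper transvection -/
def upT (c : ZMod p) : GL (Fin 2) (ZMod p) :=
  Matrix.GeneralLinearGroup.mkOfDetNeZero !![1, c; 0, 1] (by simp)

/-- the lower transvection -/
def loT (c : ZMod p) : GL (Fin 2) (ZMod p) :=
  Matrix.GeneralLinearGroup.mkOfDetNeZero !![1, 0; c, 1] (by simp)

theorem upT_val (c : ZMod p) :
    (upT c : Matrix (Fin 2) (Fin 2) (ZMod p)) = !![1, c; 0, 1] := rfl

theorem loT_val (c : ZMod p) :
    (loT c : Matrix (Fin 2) (Fin 2) (ZMod p)) = !![1, 0; c, 1] := rfl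

theorem upT_pow (c : ZMod p) : upT c ^ p = 1 := by
  refine Units.ext ?_
  rw [Units.val_pow_eq_pow_val, upT_val, upper_pow, CharP.cast_eq_zero, zero_mul, Units.val_one,
    Matrix.one_fin_two]

theorem loT_pow (c : ZMod p) : loT c ^ p = 1 := by
  refine Units.ext ?_
  rw [Units.val_pow_eq_pow_val, loT_val, lower_pow, CharP.cast_eq_zero, zero_mul, Units.val_one,
    Matrix.one_fin_two]

/-- The two transvections generate `SL₂(𝔽_p)`. -/
theorem mem_of_upT_loT {G : Subgroup (GL (Fin 2) (ZMod p))} {c d : ZMod p} (hc : c ≠ 0)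
    (hd : d ≠ 0) (h1 : upT c ∈ G) (h2 : loT d ∈ G) {x : GL (Fin 2) (ZMod p)}
    (hx : (x : Matrix (Fin 2) (Fin 2) (ZMod p)).det = 1) : x ∈ G :=
  mem_of_mem_gmats (mem_gmats_of_det_one hc hd ⟨_, h1, rfl⟩ ⟨_, h2, rfl⟩ _ hx)

/-- An element killed by `p` is in every subgroup of index `< p`. -/
theorem mem_of_pow_eq_one {G₀ : Type*} [Group G₀] {G : Subgroup G₀} (h0 : G.index ≠ 0)
    (hlt : G.index < p) {g : G₀} (hg : g ^ p = 1) : g ∈ G := by
  obtain ⟨n, hn0, hn, hmem⟩ := Subgroup.exists_pow_mem_of_index_ne_zero h0 g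
  have hcop : Nat.Coprime n p := by
    rw [Nat.coprime_comm, Nat.Prime.coprime_iff_not_dvd hp.out]
    intro hd
    exact absurd (Nat.le_of_dvd hn0 hd) (not_le.mpr (lt_of_le_of_lt hn hlt))
  have h1 : (1 : ℤ) = n * Nat.gcdA n p + p * Nat.gcdB n p := by
    have := Nat.gcd_eq_gcd_ab n p
    rw [Nat.Coprime.gcd_eq_one hcop] at this
    exact_mod_cast this
  have h2 : g = (g ^ n) ^ (Nat.gcdA n p) := by
    have h3 : g ^ (1 : ℤ) = g ^ ((n : ℤ) * Nat.gcdA n p + p * Nat.gcdB n p) := by rw [← h1]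
    rw [zpow_one, _root_.zpow_add, _root_.zpow_mul, _root_.zpow_mul, zpow_natCast, zpow_natCast,
      hg, _root_.one_zpow, mul_one] at h3
    exact h3
  rw [h2]
  exact zpow_mem hmem _

/-- **A subgroup of `GL₂(𝔽_p)` of index `< p` contains `SL₂(𝔽_p)`.** -/
theorem mem_of_index_lt {G : Subgroup (GL (Fin 2) (ZMod p))} (hlt : G.index < p)
    {x : GL (Fin 2) (ZMod p)} (hx : (x : Matrix (Fin 2) (Fin 2) (ZMod p)).det = 1) : x ∈ G := by
  have h0 : G.index ≠ 0 := Subgroup.index_ne_zero_of_finite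
  exact mem_of_upT_loT one_ne_zero one_ne_zero (mem_of_pow_eq_one h0 hlt (upT_pow 1))
    (mem_of_pow_eq_one h0 hlt (loT_pow 1)) hx

/-- **The commutator subgroup of `GL₂(𝔽_p)` contains `SL₂(𝔽_p)`**, `p` odd. -/
theorem mem_commutator_of_det (hp2 : p ≠ 2) {x : GL (Fin 2) (ZMod p)}
    (hx : (x : Matrix (Fin 2) (Fin 2) (ZMod p)).det = 1) :
    x ∈ commutator (GL (Fin 2) (ZMod p)) := by
  have h2 : (2 : ZMod p) ≠ 0 := by
    intro h
    have h1 : p ∣ 2 := (ZMod.natCast_eq_zero_iff 2 p).mp (by exact_mod_cast h)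
    exact hp2 ((Nat.prime_dvd_prime_iff_eq hp.out Nat.prime_two).mp h1)
  -- `diag(2, 1)`
  let D : GL (Fin 2) (ZMod p) :=
    Matrix.GeneralLinearGroup.mkOfDetNeZero !![2, 0; 0, 1] (by simpa using h2)
  have hD : (D : Matrix (Fin 2) (Fin 2) (ZMod p)) = !![2, 0; 0, 1] := rfl
  have e1 : D * upT 1 = upT 1 * (upT 1 * D) := by
    refine Units.ext ?_
    rw [Units.val_mul, Units.val_mul, Units.val_mul, hD, upT_val, Matrix.mul_fin_two,
      Matrix.mul_fin_two, Matrix.mul_fin_two]
    ext i j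
    fin_cases i <;> fin_cases j <;> simp
    norm_num
  have e2 : loT 1 * D = D * (loT 1 * loT 1) := by
    refine Units.ext ?_
    rw [Units.val_mul, Units.val_mul, Units.val_mul, hD, loT_val, Matrix.mul_fin_two,
      Matrix.mul_fin_two, Matrix.mul_fin_two]
    ext i j
    fin_cases i <;> fin_cases j <;> simp
    norm_num
  have h3 : upT 1 ∈ commutator (GL (Fin 2) (ZMod p)) := by
    have : upT (1 : ZMod p) = ⁅D, (upT 1)⁆ := by
      rw [commutatorElement_def, e1]
      group
    rw [this]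
    exact Subgroup.commutator_mem_commutator (Subgroup.mem_top _) (Subgroup.mem_top _)
  have h4 : loT 1 ∈ commutator (GL (Fin 2) (ZMod p)) := by
    have : loT (1 : ZMod p) = ⁅D⁻¹, loT 1⁆ := by
      rw [commutatorElement_def, inv_inv, mul_assoc (D⁻¹), e2]
      group
    rw [this]
    exact Subgroup.commutator_mem_commutator (Subgroup.mem_top _) (Subgroup.mem_top _)
  exact mem_of_upT_loT one_ne_zero one_ne_zero h3 h4 hx

end Group

variable {W : WeierstrassCurve ℤ} (hΔ : W.Δ ≠ 0) {p : ℕ} [hp : Fact p.Prime]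

/-- **A subgroup of index `< p` acts on `W[p]` through a group containing `SL₂(𝔽_p)`** if the
mod `p` representation is surjective. -/
theorem exists_mem_of_index_lt (hs : Function.Surjective (repP p hΔ)) {H : Subgroup Γℚ}
    (h0 : H.index ≠ 0) (hlt : H.index < p) {x : GL (Fin 2) (ZMod p)}
    (hx : (x : Matrix (Fin 2) (Fin 2) (ZMod p)).det = 1) : ∃ σ ∈ H, repP p hΔ σ = x := by
  have h1 : (H.map (repP p hΔ)).index ∣ H.index :=
    Subgroup.index_map_dvd H hs
  have h2 : (H.map (repP p hΔ)).index < p :=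
    lt_of_le_of_lt (Nat.le_of_dvd (Nat.pos_of_ne_zero h0) h1) hlt
  exact mem_of_index_lt h2 hx

/-- **The commutator subgroup of `Gal(ℚ̄/ℚ)` acts on `W[p]` through `SL₂(𝔽_p)`** if the mod `p`
representation is surjective, `p` odd. -/
theorem map_commutator (hs : Function.Surjective (repP p hΔ)) (hp2 : p ≠ 2) :
    (commutator Γℚ).map (repP p hΔ) = (Matrix.GeneralLinearGroup.det
      (n := Fin 2) (R := ZMod p)).ker := by
  ext x
  have h1 : (commutator Γℚ).map (repP p hΔ) = commutator (GL (Fin 2) (ZMod p)) := by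
    rw [commutator_def, commutator_def, Subgroup.map_commutator,
      ← MonoidHom.range_eq_map, MonoidHom.range_eq_top.mpr hs]
  rw [h1, MonoidHom.mem_ker]
  constructor
  · intro hx
    exact Abelianization.commutator_subset_ker _ hx
  · intro hx
    exact mem_commutator_of_det hp2 (congrArg Units.val hx)

theorem exists_mem_commutator (hs : Function.Surjective (repP p hΔ)) (hp2 : p ≠ 2)
    {x : GL (Fin 2) (ZMod p)} (hx : (x : Matrix (Fin 2) (Fin 2) (ZMod p)).det = 1) :
    ∃ σ ∈ commutator Γℚ, repP p hΔ σ = x := by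
  have h1 : x ∈ (commutator Γℚ).map (repP p hΔ) := by
    rw [map_commutator hΔ hs hp2, MonoidHom.mem_ker]
    exact Units.ext hx
  exact h1

/-- A subgroup acting through a group containing `SL₂(𝔽_p)` has no stable line over any extension
field of `𝔽_p`: `W[p]` is absolutely irreducible. -/
theorem noInvLine_of_SL {K : Type} [Field K] [Algebra (ZMod p) K] {H : Subgroup Γℚ}
    (hSL : ∀ x : GL (Fin 2) (ZMod p), (x : Matrix (Fin 2) (Fin 2) (ZMod p)).det = 1 →
      ∃ σ ∈ H, repP p hΔ σ = x) {v : Fin 2 → K} (hv : v ≠ 0) :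
    ∃ σ ∈ H, ∀ c : K, ((repP p hΔ σ : Matrix (Fin 2) (Fin 2) (ZMod p)).map
      (algebraMap (ZMod p) K)) *ᵥ v ≠ c • v := by
  by_contra hcon
  push Not at hcon
  obtain ⟨σ, hσ, hσu⟩ := hSL (upT 1) (by rw [upT_val, Matrix.det_fin_two_of]; ring)
  obtain ⟨τ, hτ, hτl⟩ := hSL (loT 1) (by rw [loT_val, Matrix.det_fin_two_of]; ring)
  obtain ⟨c, hc⟩ := hcon σ hσ
  obtain ⟨d, hd⟩ := hcon τ hτ
  rw [hσu, upT_val] at hc
  rw [hτl, loT_val] at hd
  have c0 := congrFun hc 0
  have c1 := congrFun hc 1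
  have d1 := congrFun hd 1
  simp only [Matrix.mulVec, dotProduct, Fin.sum_univ_two, Pi.smul_apply, smul_eq_mul,
    Matrix.map_apply, Matrix.of_apply, Matrix.cons_val', Matrix.cons_val_zero,
    Matrix.cons_val_one, Matrix.cons_val_fin_one, _root_.map_one, _root_.map_zero, one_mul,
    zero_mul, zero_add] at c0 c1 d1
  have h1 : v 1 = 0 := by
    by_contra h2
    have h3 : c = 1 := mul_right_cancel₀ h2 (c1.symm.trans (one_mul _).symm)
    rw [h3, one_mul] at c0
    exact h2 (add_eq_left.mp c0)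
  have h2 : v 0 = 0 := by
    rw [h1, mul_zero, add_zero] at d1
    exact d1
  exact hv (funext fun i => by fin_cases i; exacts [h2, h1])

/-- A subgroup acting through a group containing `SL₂(𝔽_p)` stabilises no subgroup of order `p` of
`W(ℚ̄)`. -/
theorem not_exists_stable_of_SL {H : Subgroup Γℚ}
    (hSL : ∀ x : GL (Fin 2) (ZMod p), (x : Matrix (Fin 2) (Fin 2) (ZMod p)).det = 1 →
      ∃ σ ∈ H, repP p hΔ σ = x) :
    ¬ ∃ L : AddSubgroup ((W.map (Int.castRingHom ℚ))⁄(AlgebraicClosure ℚ)).Point,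
      Nat.card L = p ∧ ∀ σ ∈ H, ∀ x ∈ L, σ • x ∈ L := by
  rintro ⟨L, hL, hst⟩
  obtain ⟨e, he⟩ := exists_equiv p hΔ
  have hfin : Finite L := Nat.finite_of_card_ne_zero (by rw [hL]; exact hp.out.ne_zero)
  -- a generator of `L`
  have hnt : Nontrivial L := by
    rw [← Finite.one_lt_card_iff_nontrivial, hL]
    exact hp.out.one_lt
  obtain ⟨P, hP0⟩ := exists_ne (0 : L)
  have hPp : p • P.1 = 0 := by
    have h1 : Nat.card L • P = 0 := card_nsmul_eq_zero'
    rw [hL] at h1
    exact congrArg Subtype.val h1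
  have hgen : AddSubgroup.zmultiples P = ⊤ := zmultiples_eq_top_of_prime_card hL hP0
  let x : Submodule.torsionBy ℤ ((W.map (Int.castRingHom ℚ))⁄(AlgebraicClosure ℚ)).Point
      ((p : ℕ) : ℤ) := ⟨P.1, (Fermat.Agent.Torsion.mem_torsionBy_nat_iff p _).mpr hPp⟩
  have hx0 : e x ≠ 0 := by
    intro h
    apply hP0
    have h1 : x = 0 := (LinearEquiv.map_eq_zero_iff _).mp h
    have h2 : P.1 = 0 := congrArg Subtype.val h1
    exact Subtype.ext h2
  obtain ⟨σ, hσ, hno⟩ := noInvLine_of_SL (K := ZMod p) hΔ hSL hx0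
  have h1 : σ • P.1 ∈ L := hst σ hσ P.1 P.2
  have h2 : (⟨σ • P.1, h1⟩ : L) ∈ AddSubgroup.zmultiples P := by rw [hgen]; trivial
  obtain ⟨n, hn⟩ := AddSubgroup.mem_zmultiples_iff.mp h2
  have h3 : n • P.1 = σ • P.1 := congrArg Subtype.val hn
  have h4 : σ • x = (n : ZMod p) • x := by
    rw [Int.cast_smul_eq_zsmul]
    exact Subtype.ext h3.symm
  apply hno (n : ZMod p)
  have h5 := he σ x
  rw [h4, map_smul] at h5
  rw [Algebra.algebraMap_self, RingHom.coe_id, Matrix.map_id]
  exact h5.symm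

/-- **No isogeny of degree `p` over a number field of degree `< p`** if the mod `p` representation
is surjective: no subgroup of order `p` of `W(ℚ̄)` is stable under `Gal(ℚ̄/F)`. -/
theorem not_exists_stable_over (hs : Function.Surjective (repP p hΔ))
    (F : IntermediateField ℚ (AlgebraicClosure ℚ)) [FiniteDimensional ℚ F]
    (hF : Module.finrank ℚ F < p) :
    ¬ ∃ L : AddSubgroup ((W.map (Int.castRingHom ℚ))⁄(AlgebraicClosure ℚ)).Point,
      Nat.card L = p ∧ ∀ σ ∈ F.fixingSubgroup, ∀ x ∈ L, σ • x ∈ L := by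
  have h1 : Module.finrank ℚ F = F.fixingSubgroup.index :=
    IntermediateField.finrank_eq_fixingSubgroup_index (AlgebraicClosure ℚ) F
  have h2 : 0 < Module.finrank ℚ F := Module.finrank_pos
  rw [h1] at h2 hF
  exact not_exists_stable_of_SL hΔ fun x hx => exists_mem_of_index_lt hΔ hs h2.ne' hF hx

/-- The group fixing an abelian extension of `ℚ` contains the commutators. -/
theorem commutator_le_fixingSubgroup (F : IntermediateField ℚ (AlgebraicClosure ℚ)) [IsGalois ℚ F]
    (hF : ∀ σ τ : F ≃ₐ[ℚ] F, σ * τ = τ * σ) : commutator Γℚ ≤ F.fixingSubgroup := by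
  rw [commutator_def, Subgroup.commutator_le]
  intro σ _ τ _
  rw [IntermediateField.mem_fixingSubgroup_iff]
  intro x hx
  have h1 : AlgEquiv.restrictNormalHom F ⁅σ, τ⁆ = 1 := by
    rw [map_commutatorElement, commutatorElement_def,
      hF (AlgEquiv.restrictNormalHom F σ), mul_assoc, mul_assoc, mul_inv_cancel_left,
      mul_inv_cancel]
  have h2 := AlgEquiv.restrictNormal_commutes ⁅σ, τ⁆ F ⟨x, hx⟩
  have h3 : AlgEquiv.restrictNormal ⁅σ, τ⁆ F ⟨x, hx⟩ = ⟨x, hx⟩ := by
    have h4 := congrArg (fun f : F ≃ₐ[ℚ] F => f ⟨x, hx⟩) h1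
    exact h4
  rw [h3] at h2
  exact h2.symm

/-- **No isogeny of degree `p` over an abelian extension of `ℚ`**, `p` odd, if the mod `p`
representation is surjective: no subgroup of order `p` of `W(ℚ̄)` is stable under `Gal(ℚ̄/F)`,
if `F/ℚ` is abelian (of finite or infinite degree). -/
theorem not_exists_stable_over_abelian (hs : Function.Surjective (repP p hΔ)) (hp2 : p ≠ 2)
    (F : IntermediateField ℚ (AlgebraicClosure ℚ)) [IsGalois ℚ F]
    (hF : ∀ σ τ : F ≃ₐ[ℚ] F, σ * τ = τ * σ) :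
    ¬ ∃ L : AddSubgroup ((W.map (Int.castRingHom ℚ))⁄(AlgebraicClosure ℚ)).Point,
      Nat.card L = p ∧ ∀ σ ∈ F.fixingSubgroup, ∀ x ∈ L, σ • x ∈ L := by
  refine not_exists_stable_of_SL hΔ fun x hx => ?_
  obtain ⟨σ, hσ, hσx⟩ := exists_mem_commutator hΔ hs hp2 hx
  exact ⟨σ, commutator_le_fixingSubgroup F hF hσ, hσx⟩

end Fermat.Agent.Cor
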