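import Fermat.Agent.Corollaries.Surj.Composite
import Fermat.Agent.Corollaries.InvGal.Gal

/-!
# Bases of `W[N]` for composite `N`, and `GL₂(ℤ/N)` as a Galois group (helper62)

* `exists_basis_torsionBy`: `W[N]` has a basis with two elements over `ℤ/N`, for every `N ≥ 1`.
* `exists_galois_GL2_of_surjMod`: if `Gal(ℚ̄/ℚ)` acts on `W[N]` through all automorphisms, then
  `GL₂(ℤ/N)` is the Galois group of a Galois extension of `ℚ`.
-/

set_option autoImplicit false

noncomputable section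

open WeierstrassCurve WeierstrassCurve.Affine.Point Module
open scoped WeierstrassCurve.Affine
open Fermat.Agent.Tate Fermat.Agent.S30aux

namespace Fermat.Agent.Cor

local notation "Γℚ" => (AlgebraicClosure ℚ ≃ₐ[ℚ] AlgebraicClosure ℚ)

section Abstract

variable {A : Type*} [AddCommGroup A]

/-- two independent points of order `N` -/
theorem exists_indep (hA : ∀ (p : ℕ) [Fact p.Prime], HasTwoRank p A) {N : ℕ} (hN : N ≠ 0) :
    ∃ P Q : A, N • P = 0 ∧ N • Q = 0 ∧
      ∀ a b : ℤ, a • P + b • Q = 0 → (N : ℤ) ∣ a ∧ (N : ℤ) ∣ b := by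
  classical
  have h1 : ∀ p : ℕ, ∃ P Q : A, p ∈ N.primeFactors → p ^ N.factorization p • P = 0 ∧
      p ^ N.factorization p • Q = 0 ∧ ∀ a b : ℤ, a • P + b • Q = 0 →
        ((p : ℤ) ^ N.factorization p) ∣ a ∧ ((p : ℤ) ^ N.factorization p) ∣ b := by
    intro p
    by_cases hp : p.Prime
    · have : Fact p.Prime := ⟨hp⟩
      obtain ⟨f, g, h⟩ := (hA p).exists_indep
      exact ⟨f (N.factorization p), g (N.factorization p), fun _ =>
        ⟨TMod.pow_smul_apply f _, TMod.pow_smul_apply g _, h.dvd _⟩⟩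
    · exact ⟨0, 0, fun h => absurd (Nat.prime_of_mem_primeFactors h) hp⟩
  choose P Q hPQ using h1
  have h2 : ∀ p ∈ N.primeFactors, ∀ q ∈ N.primeFactors, q ≠ p → ∀ x : A,
      q ^ N.factorization q • x = 0 → (N / p ^ N.factorization p) • x = 0 := by
    intro p hp q hq hqp x hx
    have hpp := Nat.prime_of_mem_primeFactors hp
    have hqq := Nat.prime_of_mem_primeFactors hq
    have h3 : q ^ N.factorization q ∣ N / p ^ N.factorization p := by
      have h4 : q ^ N.factorization q ∣ p ^ N.factorization p * (N / p ^ N.factorization p) := by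
        rw [Nat.ordProj_mul_ordCompl_eq_self]
        exact Nat.ordProj_dvd N q
      exact (Nat.Coprime.pow _ _ ((Nat.coprime_primes hqq hpp).2 hqp)).dvd_of_dvd_mul_left h4
    obtain ⟨k, hk⟩ := h3
    rw [hk, mul_comm, mul_smul, hx, smul_zero]
  have h3 : ∀ R : ℕ → A, (∀ q ∈ N.primeFactors, q ^ N.factorization q • R q = 0) →
      N • ∑ q ∈ N.primeFactors, R q = 0 ∧ ∀ p ∈ N.primeFactors,
        (N / p ^ N.factorization p) • ∑ q ∈ N.primeFactors, R q =
          (N / p ^ N.factorization p) • R p := by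
    intro R hR
    constructor
    · rw [Finset.smul_sum]
      refine Finset.sum_eq_zero fun q hq => ?_
      rw [← Nat.ordProj_mul_ordCompl_eq_self N q, mul_comm, mul_smul, hR q hq, smul_zero]
    · intro p hp
      rw [Finset.smul_sum]
      exact Finset.sum_eq_single_of_mem p hp fun q hq hqp => h2 p hp q hq hqp _ (hR q hq)
  refine ⟨∑ q ∈ N.primeFactors, P q, ∑ q ∈ N.primeFactors, Q q,
    (h3 P fun q hq => (hPQ q hq).1).1, (h3 Q fun q hq => (hPQ q hq).2.1).1, fun a b hab => ?_⟩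
  have key : ∀ p ∈ N.primeFactors, ((p : ℤ) ^ N.factorization p) ∣ a ∧
      ((p : ℤ) ^ N.factorization p) ∣ b := by
    intro p hp
    have hpp := Nat.prime_of_mem_primeFactors hp
    have h4 := congrArg (fun x : A => (N / p ^ N.factorization p) • x) hab
    simp only [smul_add, smul_zero] at h4
    rw [smul_comm _ a, smul_comm _ b, (h3 P fun q hq => (hPQ q hq).1).2 p hp,
      (h3 Q fun q hq => (hPQ q hq).2.1).2 p hp, ← natCast_zsmul, ← natCast_zsmul, smul_smul,
      smul_smul] at h4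
    have h5 := (hPQ p hp).2.2 _ _ h4
    have h6 : IsCoprime ((p : ℤ) ^ N.factorization p) ((N / p ^ N.factorization p : ℕ) : ℤ) := by
      have h7 : Nat.Coprime (p ^ N.factorization p) (N / p ^ N.factorization p) :=
        Nat.Coprime.pow_left _ (Nat.coprime_ordCompl hpp hN)
      exact_mod_cast Nat.isCoprime_iff_coprime.2 h7
    exact ⟨h6.dvd_of_dvd_mul_right h5.1, h6.dvd_of_dvd_mul_right h5.2⟩
  have h8 : (N : ℤ) = ∏ p ∈ N.primeFactors, (p : ℤ) ^ N.factorization p := by
    conv_lhs => rw [← Nat.prod_factorization_pow_eq_self hN]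
    rw [Finsupp.prod, Nat.support_factorization, Nat.cast_prod]
    simp
  have h9 : (N.primeFactors : Set ℕ).Pairwise
      (Function.onFun IsCoprime fun p : ℕ => (p : ℤ) ^ N.factorization p) := by
    intro p hp q hq hpq
    have h10 : Nat.Coprime (p ^ N.factorization p) (q ^ N.factorization q) :=
      Nat.Coprime.pow _ _ ((Nat.coprime_primes (Nat.prime_of_mem_primeFactors hp)
        (Nat.prime_of_mem_primeFactors hq)).2 hpq)
    change IsCoprime ((p : ℤ) ^ N.factorization p) ((q : ℤ) ^ N.factorization q)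
    exact_mod_cast Nat.isCoprime_iff_coprime.2 h10
  rw [h8]
  exact ⟨Finset.prod_dvd_of_coprime h9 fun p hp => (key p hp).1,
    Finset.prod_dvd_of_coprime h9 fun p hp => (key p hp).2⟩

/-- **A basis of the `N`-torsion.** -/
theorem exists_basis_of_card (hA : ∀ (p : ℕ) [Fact p.Prime], HasTwoRank p A) {N : ℕ} (hN : N ≠ 0)
    [Module (ZMod N) (Submodule.torsionBy ℤ A (N : ℤ))]
    (hcard : Nat.card (Submodule.torsionBy ℤ A (N : ℤ)) = N ^ 2) :
    Nonempty (Basis (Fin 2) (ZMod N) (Submodule.torsionBy ℤ A (N : ℤ))) := by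
  classical
  have : NeZero N := ⟨hN⟩
  obtain ⟨P, Q, hP, hQ, hPQ⟩ := exists_indep hA hN
  have hfin : Finite (Submodule.torsionBy ℤ A (N : ℤ)) := Nat.finite_of_card_ne_zero (by
    rw [hcard]
    exact pow_ne_zero 2 hN)
  let x : Submodule.torsionBy ℤ A (N : ℤ) :=
    ⟨P, (Fermat.Agent.Torsion.mem_torsionBy_nat_iff N P).2 hP⟩
  let y : Submodule.torsionBy ℤ A (N : ℤ) :=
    ⟨Q, (Fermat.Agent.Torsion.mem_torsionBy_nat_iff N Q).2 hQ⟩
  let φ : (Fin 2 → ZMod N) →ₗ[ZMod N] Submodule.torsionBy ℤ A (N : ℤ) :=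
    Fintype.linearCombination (ZMod N) ![x, y]
  have hφ : ∀ c : Fin 2 → ZMod N, φ c = c 0 • x + c 1 • y := by
    intro c
    simp [φ, Fintype.linearCombination_apply, Fin.sum_univ_two]
  have hinj : Function.Injective φ := by
    rw [injective_iff_map_eq_zero]
    intro c hc
    rw [hφ] at hc
    have h1 : ∀ (z : ZMod N) (w : Submodule.torsionBy ℤ A (N : ℤ)), z • w = (z.val : ℤ) • w := by
      intro z w
      conv_lhs => rw [← ZMod.natCast_zmod_val z]
      rw [Nat.cast_smul_eq_nsmul, natCast_zsmul]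
    rw [h1, h1] at hc
    have h2 := hPQ _ _ (congrArg Subtype.val hc)
    have h3 : ∀ z : ZMod N, (N : ℤ) ∣ (z.val : ℤ) → z = 0 := by
      intro z hz
      rw [← ZMod.natCast_zmod_val z, ZMod.natCast_eq_zero_iff]
      exact_mod_cast hz
    ext i
    fin_cases i
    · exact h3 _ h2.1
    · exact h3 _ h2.2
  have hbij : Function.Bijective φ := by
    rw [Nat.bijective_iff_injective_and_card]
    refine ⟨hinj, ?_⟩
    rw [hcard, Nat.card_fun, Nat.card_zmod]
    simp
  exact ⟨Module.Basis.ofEquivFun (LinearEquiv.ofBijective φ hbij).symm⟩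

end Abstract

variable {W : WeierstrassCurve ℤ}

/-- **`W[N]` is free of rank two over `ℤ/N`**, for every `N ≥ 1`. -/
theorem exists_basis_torsionBy (hΔ : W.Δ ≠ 0) {N : ℕ} (hN : N ≠ 0) :
    Nonempty (Basis (Fin 2) (ZMod N) (Submodule.torsionBy ℤ
      ((W.map (Int.castRingHom ℚ))⁄(AlgebraicClosure ℚ)).Point (N : ℤ))) :=
  exists_basis_of_card (fun p _ => hasTwoRank_curve (map_Δ_ne_zero hΔ) p) hN
    (Fermat.Agent.Torsion.card_torsionBy_rat (map_Δ_ne_zero hΔ) hN)

section Rep

variable {N : ℕ} (b : Basis (Fin 2) (ZMod N) (Submodule.torsionBy ℤ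
      ((W.map (Int.castRingHom ℚ))⁄(AlgebraicClosure ℚ)).Point (N : ℤ)))

/-- the representation on `W[N]` in a basis -/
def repZ : Γℚ →* GL (Fin 2) (ZMod N) :=
  (((LinearMap.toMatrixAlgEquiv b).toRingEquiv.toMonoidHom).comp
    (galoisRepModuleEnd (K := AlgebraicClosure ℚ) ℚ (W.map (Int.castRingHom ℚ)) N)).toHomUnits

theorem repZ_val (σ : Γℚ) : ((repZ b σ : GL (Fin 2) (ZMod N)) : Matrix (Fin 2) (Fin 2) (ZMod N)) =
    LinearMap.toMatrix b b
      (galoisRepModuleEnd (K := AlgebraicClosure ℚ) ℚ (W.map (Int.castRingHom ℚ)) N σ) := rfl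

theorem continuous_repZ (hΔ : W.Δ ≠ 0) (hN : N ≠ 0) : Continuous (repZ b) := by
  obtain ⟨L, hL, h⟩ := Fermat.Agent.Torsion.galoisRep_factors (map_Δ_ne_zero hΔ) hN
  refine continuous_of_continuousAt_one (repZ b) ?_
  have h1 : (L.fixingSubgroup : Set Γℚ) ∈ nhds (1 : Γℚ) :=
    (IntermediateField.fixingSubgroup_isOpen L).mem_nhds (one_mem _)
  have h2 : (fun _ : Γℚ => (1 : GL (Fin 2) (ZMod N))) =ᶠ[nhds 1] repZ b := by
    filter_upwards [h1] with σ hσ
    refine (Units.ext ?_).symm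
    rw [repZ_val, h σ (fun x hx => (IntermediateField.mem_fixingSubgroup_iff L σ).1 hσ x hx),
      LinearMap.toMatrix_one, Units.val_one]
  exact continuousAt_const.congr h2

theorem repZ_surjective (h : SurjMod W N) : Function.Surjective (repZ b) := by
  intro g
  have h1 : IsUnit (LinearMap.toMatrix b b
      (Matrix.toLin b b (g : Matrix (Fin 2) (Fin 2) (ZMod N)))).det := by
    rw [LinearMap.toMatrix_toLin]
    exact (Matrix.isUnit_iff_isUnit_det _).1 g.isUnit
  obtain ⟨σ, hσ⟩ := h (LinearEquiv.ofIsUnitDet h1)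
  refine ⟨σ, Units.ext ?_⟩
  have h2 : galoisRepModuleEnd (K := AlgebraicClosure ℚ) ℚ (W.map (Int.castRingHom ℚ)) N σ =
      Matrix.toLin b b (g : Matrix (Fin 2) (Fin 2) (ZMod N)) := LinearMap.ext hσ
  rw [repZ_val, h2, LinearMap.toMatrix_toLin]

end Rep

/-- If `Gal(ℚ̄/ℚ)` acts on `W[N]` through all automorphisms, then **`GL₂(ℤ/N)` is a Galois group
over `ℚ`**. -/
theorem exists_galois_GL2_of_surjMod (hΔ : W.Δ ≠ 0) {N : ℕ} (hN : N ≠ 0) (h : SurjMod W N) :
    ∃ (L : Type) (_ : Field L) (_ : NumberField L) (_ : IsGalois ℚ L),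
      Nonempty ((L ≃ₐ[ℚ] L) ≃* GL (Fin 2) (ZMod N)) := by
  obtain ⟨b⟩ := exists_basis_torsionBy hΔ hN
  exact exists_galois_of_continuous (repZ b) (continuous_repZ b hΔ hN) (repZ_surjective b h)

end Fermat.Agent.Cor

end
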