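import Fermat.Agent.Corollaries.Surj.Adelic

/-!
# The action of Galois on the `N`-torsion for composite `N` (helper62)

`surjMod_of_primes`, `surjMod_of_dvd`: let `N` be prime to `6` such that `Gal(ℚ̄/ℚ)` acts on `W[p]`
through all automorphisms, for every prime divisor `p` of `N`.  Then the group acts on `W[N]`
through all automorphisms.
-/

set_option autoImplicit false

noncomputable section

open WeierstrassCurve WeierstrassCurve.Affine.Point Module
open scoped WeierstrassCurve.Affine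
open Fermat.Agent.Tate Fermat.Agent.S30aux

namespace Fermat.Agent.Cor

local notation "Γℚ" => (AlgebraicClosure ℚ ≃ₐ[ℚ] AlgebraicClosure ℚ)

/-- An element is in a subgroup if all its primary parts are. -/
theorem mem_of_ordCompl {B : Type*} [AddCommGroup B] (H : AddSubgroup B) {N : ℕ} (hN : N ≠ 0)
    {x : B} (hx : N • x = 0)
    (h : ∀ p, p.Prime → p ∣ N → (N / p ^ N.factorization p) • x ∈ H) : x ∈ H := by
  by_contra hxH
  have hd : addOrderOf (x : B ⧸ H) ∣ N := addOrderOf_dvd_of_nsmul_eq_zero (by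
    rw [← QuotientAddGroup.mk_nsmul, hx, QuotientAddGroup.mk_zero])
  have hd1 : addOrderOf (x : B ⧸ H) ≠ 1 := by
    rw [Ne, AddMonoid.addOrderOf_eq_one_iff, QuotientAddGroup.eq_zero_iff]
    exact hxH
  obtain ⟨p, hp, hpd⟩ := Nat.exists_prime_and_dvd hd1
  have h1 : addOrderOf (x : B ⧸ H) ∣ N / p ^ N.factorization p :=
    addOrderOf_dvd_of_nsmul_eq_zero (by
      rw [← QuotientAddGroup.mk_nsmul, QuotientAddGroup.eq_zero_iff]
      exact h p hp (hpd.trans hd))
  exact Nat.not_dvd_ordCompl hp hN (hpd.trans h1)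

section Restr

variable {A : Type*} [AddCommGroup A] {d N : ℕ}

theorem mem_torsionBy_of_dvd (hd : d ∣ N) {x : A} (hx : x ∈ Submodule.torsionBy ℤ A (d : ℤ)) :
    x ∈ Submodule.torsionBy ℤ A (N : ℤ) := by
  obtain ⟨k, rfl⟩ := hd
  rw [Submodule.mem_torsionBy_iff] at hx ⊢
  rw [Nat.cast_mul, mul_comm, mul_smul, hx, smul_zero]

/-- the restriction of an endomorphism of the `N`-torsion to the `d`-torsion -/
def restr (hd : d ∣ N) (g : Submodule.torsionBy ℤ A (N : ℤ) →+ Submodule.torsionBy ℤ A (N : ℤ)) :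
    Submodule.torsionBy ℤ A (d : ℤ) →+ Submodule.torsionBy ℤ A (d : ℤ) where
  toFun x := ⟨(g ⟨x.1, mem_torsionBy_of_dvd hd x.2⟩ : A), by
    rw [Submodule.mem_torsionBy_iff, ← Submodule.coe_smul, ← map_zsmul]
    have h : (d : ℤ) • (⟨x.1, mem_torsionBy_of_dvd hd x.2⟩ : Submodule.torsionBy ℤ A (N : ℤ)) = 0 :=
      Subtype.ext ((Submodule.mem_torsionBy_iff _ _).1 x.2)
    rw [h, _root_.map_zero]
    rfl⟩
  map_zero' := by
    refine Subtype.ext ?_
    have h : (⟨(0 : Submodule.torsionBy ℤ A (d : ℤ)).1,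
      mem_torsionBy_of_dvd hd (0 : Submodule.torsionBy ℤ A (d : ℤ)).2⟩ :
        Submodule.torsionBy ℤ A (N : ℤ)) = 0 := rfl
    have h2 := congrArg (Subtype.val) ((congrArg g h).trans (_root_.map_zero g))
    exact h2
  map_add' x y := by
    refine Subtype.ext ?_
    have h : (⟨(x + y).1, mem_torsionBy_of_dvd hd (x + y).2⟩ :
        Submodule.torsionBy ℤ A (N : ℤ)) = ⟨x.1, mem_torsionBy_of_dvd hd x.2⟩ +
          ⟨y.1, mem_torsionBy_of_dvd hd y.2⟩ := rfl
    have h2 := congrArg (Subtype.val) ((congrArg g h).trans (map_add g _ _))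
    exact h2

theorem coe_restr (hd : d ∣ N)
    (g : Submodule.torsionBy ℤ A (N : ℤ) →+ Submodule.torsionBy ℤ A (N : ℤ))
    (x : Submodule.torsionBy ℤ A (d : ℤ)) :
    (restr hd g x : A) = g ⟨x.1, mem_torsionBy_of_dvd hd x.2⟩ := rfl

theorem restr_restr (hd : d ∣ N)
    (f g : Submodule.torsionBy ℤ A (N : ℤ) →+ Submodule.torsionBy ℤ A (N : ℤ))
    (h : ∀ x, f (g x) = x) (x : Submodule.torsionBy ℤ A (d : ℤ)) :
    restr hd f (restr hd g x) = x := by
  refine Subtype.ext ?_
  rw [coe_restr]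
  have h1 : (⟨(restr hd g x : A), mem_torsionBy_of_dvd hd (restr hd g x).2⟩ :
      Submodule.torsionBy ℤ A (N : ℤ)) = g ⟨x.1, mem_torsionBy_of_dvd hd x.2⟩ := rfl
  rw [h1, h]

end Restr

variable {W : WeierstrassCurve ℤ}

/-- **The image of Galois in `Aut(W[N])`**, general form: if `N` is odd and the `p`-adic
representation is surjective modulo all powers of `p`, for every prime divisor `p` of `N`, then
`Gal(ℚ̄/ℚ)` acts on `W[N]` through all automorphisms. -/
theorem surjMod_of_primes (hΔ : W.Δ ≠ 0) {N : ℕ} (hN : N ≠ 0)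
    (h : ∀ p, p.Prime → p ∣ N → 3 ≤ p ∧ ∀ n, SurjMod W (p ^ n)) : SurjMod W N := by
  classical
  intro g
  have hX : ∀ (p : ℕ) [Fact p.Prime], Nonempty (Tb W p) := fun p _ => exists_tb hΔ
  -- the automorphisms of the primary parts
  have hE : ∀ (p : ℕ) [Fact p.Prime],
      ∃ E : TMod p ((W.map (Int.castRingHom ℚ))⁄(AlgebraicClosure ℚ)).Point ≃ₗ[ℤ_[p]]
        TMod p ((W.map (Int.castRingHom ℚ))⁄(AlgebraicClosure ℚ)).Point,
      ∀ σ : Γℚ, (tateRep (W.map (Int.castRingHom ℚ)) (map_Δ_ne_zero hΔ) p).ρ σ =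
        E.toLinearMap →
      ∀ x : Submodule.torsionBy ℤ ((W.map (Int.castRingHom ℚ))⁄(AlgebraicClosure ℚ)).Point
          ((p ^ N.factorization p : ℕ) : ℤ),
        σ • x = restr (N.ordProj_dvd p) (g : _ →+ _) x := by
    intro p hp
    obtain ⟨X⟩ := hX p
    let e : Submodule.torsionBy ℤ ((W.map (Int.castRingHom ℚ))⁄(AlgebraicClosure ℚ)).Point
          ((p ^ N.factorization p : ℕ) : ℤ) ≃ₗ[ZMod (p ^ N.factorization p)]
        Submodule.torsionBy ℤ ((W.map (Int.castRingHom ℚ))⁄(AlgebraicClosure ℚ)).Point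
          ((p ^ N.factorization p : ℕ) : ℤ) :=
      LinearEquiv.ofLinearMap ((restr (N.ordProj_dvd p) (g : _ →+ _)).toZModLinearMap _)
        ((restr (N.ordProj_dvd p) (g.symm : _ →+ _)).toZModLinearMap _)
        (LinearMap.ext fun x => restr_restr (N.ordProj_dvd p) _ _
          (fun x => g.apply_symm_apply x) x)
        (LinearMap.ext fun x => restr_restr (N.ordProj_dvd p) _ _
          (fun x => g.symm_apply_apply x) x)
    obtain ⟨G, hG, h1⟩ := X.exists_lift (N.factorization p) e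
    have hG' : IsUnit (LinearMap.toMatrix X.b X.b (Matrix.toLin X.b X.b G)).det := by
      rw [LinearMap.toMatrix_toLin]
      exact hG
    refine ⟨LinearEquiv.ofIsUnitDet hG', fun σ hσ x => h1 σ ?_ x⟩
    have h2 : X.M σ = G := by
      have h3 : LinearMap.toMatrix X.b X.b ((tateRep (W.map (Int.castRingHom ℚ))
          (map_Δ_ne_zero hΔ) p).ρ σ) = LinearMap.toMatrix X.b X.b (Matrix.toLin X.b X.b G) := by
        rw [hσ]
        rfl
      rw [LinearMap.toMatrix_toLin] at h3
      exact h3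
    rw [h2]
    exact Serre.Cg.refl _ _
  choose E hE using hE
  obtain ⟨σ, hσ⟩ := exists_adelic_of_pow hΔ E
  refine ⟨σ, fun x => ?_⟩
  -- the subgroup of the elements where the two maps agree
  let φ : Submodule.torsionBy ℤ ((W.map (Int.castRingHom ℚ))⁄(AlgebraicClosure ℚ)).Point (N : ℤ) →+
      Submodule.torsionBy ℤ ((W.map (Int.castRingHom ℚ))⁄(AlgebraicClosure ℚ)).Point (N : ℤ) :=
    DistribSMul.toAddMonoidHom _ σ
  have key : x ∈ φ.eqLocus (g : _ →+ _) := by
    refine mem_of_ordCompl _ hN ?_ fun p hp hpN => ?_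
    · refine Subtype.ext ?_
      have := (Submodule.mem_torsionBy_iff _ _).1 x.2
      rwa [natCast_zsmul] at this
    · have : Fact p.Prime := ⟨hp⟩
      have hmem : (N / p ^ N.factorization p) • (x : ((W.map (Int.castRingHom ℚ))⁄(AlgebraicClosure
          ℚ)).Point) ∈ Submodule.torsionBy ℤ
          ((W.map (Int.castRingHom ℚ))⁄(AlgebraicClosure ℚ)).Point
          ((p ^ N.factorization p : ℕ) : ℤ) := by
        rw [Submodule.mem_torsionBy_iff, natCast_zsmul, ← mul_smul,
          Nat.ordProj_mul_ordCompl_eq_self]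
        have := (Submodule.mem_torsionBy_iff _ _).1 x.2
        rwa [natCast_zsmul] at this
      have h1 := hE p σ (hσ p (h p hp hpN).1 (h p hp hpN).2) ⟨_, hmem⟩
      have h2 := congrArg Subtype.val h1
      change φ _ = g _
      exact Subtype.ext h2
  exact key

/-- **The image of Galois in `Aut(W[N])`.**  Let `W` be an elliptic curve over `ℚ` and `N` prime to
`6` such that `Gal(ℚ̄/ℚ)` acts on `W[p]` through all automorphisms, for every prime divisor `p` of
`N`. Then the group acts on `W[N]` through all automorphisms. -/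
theorem surjMod_of_dvd (hΔ : W.Δ ≠ 0) {N : ℕ} (hN : N ≠ 0)
    (h : ∀ p, p.Prime → p ∣ N → 5 ≤ p ∧ SurjMod W p) : SurjMod W N :=
  surjMod_of_primes hΔ hN fun p hp hpN => by
    have : Fact p.Prime := ⟨hp⟩
    have h1 := h p hp hpN
    exact ⟨by omega, h1.2.pow hΔ h1.1⟩

end Fermat.Agent.Cor

end
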