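import Fermat.Agent.Corollaries.Surj.OpenFull
import Fermat.Agent.Corollaries.Isog.LiftCongr
import Fermat.Agent.Corollaries.Surj.Composite

/-!
# Serre's open image theorem on the torsion points (helper62)

`W` a semistable elliptic curve over `ℚ`.  There is an integer `m ≥ 1` such that for every `n ≥ 1`
every automorphism of `W[n]` which is the identity on the points killed by `m` is the action of an
element of `Gal(ℚ̄/ℚ)` (`exists_open_torsion`).  The passage from the Tate modules to `W[n]` holds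
for every elliptic curve over `ℚ` and every set of primes (`exists_smul_of_open`).
-/

set_option autoImplicit false

noncomputable section

open WeierstrassCurve WeierstrassCurve.Affine.Point Module
open scoped WeierstrassCurve.Affine
open Fermat.Agent.Tate

namespace Fermat.Agent.Cor

local notation "Γℚ" => (AlgebraicClosure ℚ ≃ₐ[ℚ] AlgebraicClosure ℚ)

/-- `p ^ v`, `v` the exponent of `p` in `N`, is a multiple of `N` in `ℤ_p`. -/
theorem exists_mul_eq_pow_factorization {p : ℕ} [hp : Fact p.Prime] {N : ℕ} (hN : N ≠ 0) :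
    ∃ c : ℤ_[p], (N : ℤ_[p]) * c = (p : ℤ_[p]) ^ N.factorization p := by
  have h1 : IsUnit ((N / p ^ N.factorization p : ℕ) : ℤ_[p]) := by
    rw [PadicInt.isUnit_iff, PadicInt.norm_natCast_eq_one_iff]
    exact Nat.coprime_ordCompl hp.out hN
  obtain ⟨u, hu⟩ := h1
  refine ⟨((u⁻¹ : ℤ_[p]ˣ) : ℤ_[p]), ?_⟩
  conv_lhs => rw [← Nat.ordProj_mul_ordCompl_eq_self N p]
  rw [Nat.cast_mul, ← hu, mul_assoc, Units.mul_inv, mul_one, Nat.cast_pow]

variable {W : WeierstrassCurve ℤ}

/-- **From the Tate modules to the torsion points.**  If every family of automorphisms of the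
modules `T_p W`, `P p`, which are `≡ 1` modulo `m` comes from `Gal(ℚ̄/ℚ)`, and `P` holds for all
prime divisors of `n`, then every automorphism of `W[n]` which is the identity on the points killed
by `m` comes from `Gal(ℚ̄/ℚ)`. -/
theorem exists_smul_of_open (hΔ : W.Δ ≠ 0) (P : ℕ → Prop) {m : ℕ} (hm : m ≠ 0)
    (hopen : ∀ e : ∀ (p : ℕ) [Fact p.Prime],
      TMod p ((W.map (Int.castRingHom ℚ))⁄(AlgebraicClosure ℚ)).Point ≃ₗ[ℤ_[p]]
        TMod p ((W.map (Int.castRingHom ℚ))⁄(AlgebraicClosure ℚ)).Point,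
      (∀ (p : ℕ) [Fact p.Prime], P p → ∀ x, ∃ y, e p x - x = (m : ℤ_[p]) • y) →
      ∃ σ : Γℚ, ∀ (p : ℕ) [Fact p.Prime], P p →
        (tateRep (W.map (Int.castRingHom ℚ)) (map_Δ_ne_zero hΔ) p).ρ σ = (e p).toLinearMap)
    {n : ℕ} (hn : n ≠ 0) (hP : ∀ p, p.Prime → p ∣ n → P p)
    (g : Tors W n ≃ₗ[ZMod n] Tors W n) (hg : ∀ x, m • x = 0 → g x = x) :
    ∃ σ : Γℚ, ∀ x : Tors W n, σ • x = g x := by
  classical
  have hX : ∀ (p : ℕ) [Fact p.Prime], Nonempty (Tb W p) := fun p _ => exists_tb hΔ
  -- the automorphisms of the primary parts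
  have hE : ∀ (p : ℕ) [Fact p.Prime],
      ∃ E : TMod p ((W.map (Int.castRingHom ℚ))⁄(AlgebraicClosure ℚ)).Point ≃ₗ[ℤ_[p]]
        TMod p ((W.map (Int.castRingHom ℚ))⁄(AlgebraicClosure ℚ)).Point,
      (∀ x, ∃ y, E x - x = (m : ℤ_[p]) • y) ∧
      ∀ σ : Γℚ, (tateRep (W.map (Int.castRingHom ℚ)) (map_Δ_ne_zero hΔ) p).ρ σ =
        E.toLinearMap →
      ∀ x : Tors W (p ^ n.factorization p), σ • x = restr (n.ordProj_dvd p) (g : _ →+ _) x := by
    intro p hp
    obtain ⟨X⟩ := hX p
    let e : Tors W (p ^ n.factorization p) ≃ₗ[ZMod (p ^ n.factorization p)]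
        Tors W (p ^ n.factorization p) :=
      LinearEquiv.ofLinearMap ((restr (n.ordProj_dvd p) (g : _ →+ _)).toZModLinearMap _)
        ((restr (n.ordProj_dvd p) (g.symm : _ →+ _)).toZModLinearMap _)
        (LinearMap.ext fun x => restr_restr (n.ordProj_dvd p) _ _
          (fun x => g.apply_symm_apply x) x)
        (LinearMap.ext fun x => restr_restr (n.ordProj_dvd p) _ _
          (fun x => g.symm_apply_apply x) x)
    have he : ∀ x : Tors W (p ^ n.factorization p),
        (p ^ min (m.factorization p) (n.factorization p) : ℕ) • x = 0 → e x = x := by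
      intro x hx
      have h1 : (p ^ m.factorization p : ℕ) • x = 0 := by
        have h2 : p ^ min (m.factorization p) (n.factorization p) ∣ p ^ m.factorization p :=
          pow_dvd_pow p (min_le_left _ _)
        obtain ⟨c, hc⟩ := h2
        rw [hc, mul_comm, mul_smul, hx, nsmul_zero]
      have h2 : m • (⟨x.1, mem_torsionBy_of_dvd (n.ordProj_dvd p) x.2⟩ : Tors W n) = 0 := by
        refine Subtype.ext ?_
        change m • (x : ((W.map (Int.castRingHom ℚ))⁄(AlgebraicClosure ℚ)).Point) = 0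
        obtain ⟨c, hc⟩ := m.ordProj_dvd p
        have h3 : (p ^ m.factorization p : ℕ) •
            (x : ((W.map (Int.castRingHom ℚ))⁄(AlgebraicClosure ℚ)).Point) = 0 :=
          congrArg Subtype.val h1
        conv_lhs => rw [hc]
        rw [mul_comm, mul_smul, h3, nsmul_zero]
      have h4 := congrArg (Subtype.val : Tors W n →
        ((W.map (Int.castRingHom ℚ))⁄(AlgebraicClosure ℚ)).Point) (hg _ h2)
      exact Subtype.ext h4
    obtain ⟨G, hG, hG1, h1⟩ := X.exists_lift_congr (min_le_right _ _) e he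
    -- the matrix which is `≡ 1` modulo `m` and `≡ G` modulo `n`
    obtain ⟨G', hG', hG1', hGG'⟩ : ∃ G' : Matrix (Fin 2) (Fin 2) ℤ_[p], IsUnit G'.det ∧
        Serre.Cg p (m.factorization p) G' 1 ∧ Serre.Cg p (n.factorization p) G' G := by
      rcases le_total (m.factorization p) (n.factorization p) with h | h
      · rw [min_eq_left h] at hG1
        exact ⟨G, hG, hG1, Serre.Cg.refl _ _⟩
      · rw [min_eq_right h] at hG1
        exact ⟨1, by rw [Matrix.det_one]; exact isUnit_one, Serre.Cg.refl _ _, hG1.symm⟩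
    have hG2 : IsUnit (LinearMap.toMatrix X.b X.b (Matrix.toLin X.b X.b G')).det := by
      rw [LinearMap.toMatrix_toLin]
      exact hG'
    refine ⟨LinearEquiv.ofIsUnitDet hG2, fun x => ?_, fun σ hσ x => h1 σ ?_ x⟩
    · obtain ⟨Z, hZ⟩ := hG1'
      obtain ⟨c, hc⟩ := exists_mul_eq_pow_factorization (p := p) hm
      have h5 : G' = 1 + (p : ℤ_[p]) ^ m.factorization p • Z := by
        rw [← sub_eq_iff_eq_add', hZ]
        ext i j
        rw [Serre.pow_mul_apply, Matrix.smul_apply, smul_eq_mul]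
      have h6 : Matrix.toLin X.b X.b G' = LinearMap.id +
          (p : ℤ_[p]) ^ m.factorization p • Matrix.toLin X.b X.b Z := by
        rw [h5, map_add, Matrix.toLin_one, map_smul]
      have h7 : Matrix.toLin X.b X.b G' x = x +
          (p : ℤ_[p]) ^ m.factorization p • Matrix.toLin X.b X.b Z x := by
        rw [h6]
        rfl
      refine ⟨c • Matrix.toLin X.b X.b Z x, ?_⟩
      change Matrix.toLin X.b X.b G' x - x = _
      rw [h7, add_sub_cancel_left, smul_smul, hc]
    · have h2 : X.M σ = G' := by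
        have h3 : LinearMap.toMatrix X.b X.b ((tateRep (W.map (Int.castRingHom ℚ))
            (map_Δ_ne_zero hΔ) p).ρ σ) = LinearMap.toMatrix X.b X.b (Matrix.toLin X.b X.b G') := by
          rw [hσ]
          rfl
        rw [LinearMap.toMatrix_toLin] at h3
        exact h3
      rw [h2]
      exact hGG'
  choose E hE1 hE using hE
  obtain ⟨σ, hσ⟩ := hopen E fun p _ _ => hE1 p
  refine ⟨σ, fun x => ?_⟩
  -- the subgroup of the elements where the two maps agree
  let φ : Tors W n →+ Tors W n := DistribSMul.toAddMonoidHom _ σ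
  have key : x ∈ φ.eqLocus (g : _ →+ _) := by
    refine mem_of_ordCompl _ hn ?_ fun p hp hpn => ?_
    · refine Subtype.ext ?_
      have := (Submodule.mem_torsionBy_iff _ _).1 x.2
      rwa [natCast_zsmul] at this
    · have : Fact p.Prime := ⟨hp⟩
      have hmem : (n / p ^ n.factorization p) • (x : ((W.map (Int.castRingHom ℚ))⁄(AlgebraicClosure
          ℚ)).Point) ∈ Submodule.torsionBy ℤ
          ((W.map (Int.castRingHom ℚ))⁄(AlgebraicClosure ℚ)).Point
          ((p ^ n.factorization p : ℕ) : ℤ) := by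
        rw [Submodule.mem_torsionBy_iff, natCast_zsmul, ← mul_smul,
          Nat.ordProj_mul_ordCompl_eq_self]
        have := (Submodule.mem_torsionBy_iff _ _).1 x.2
        rwa [natCast_zsmul] at this
      have h1 := hE p σ (hσ p (hP p hp hpn)) ⟨_, hmem⟩
      have h2 := congrArg Subtype.val h1
      change φ _ = g _
      exact Subtype.ext h2
  exact key

/-- **Serre's open image theorem on the torsion points**, semistable elliptic curves over `ℚ`: there
is an integer `m ≥ 1` such that for every `n ≥ 1` every automorphism of `W[n]` which is the identity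
on the points killed by `m` is the action of an element of `Gal(ℚ̄/ℚ)`. -/
theorem exists_open_torsion (hΔ : W.Δ ≠ 0) (hW : W.IsSemistableModel) :
    ∃ m : ℕ, m ≠ 0 ∧ ∀ n : ℕ, n ≠ 0 → ∀ g : Tors W n ≃ₗ[ZMod n] Tors W n,
      (∀ x, m • x = 0 → g x = x) → ∃ σ : Γℚ, ∀ x : Tors W n, σ • x = g x := by
  obtain ⟨m, hm, h⟩ := exists_open_adelic_all hΔ hW
  refine ⟨m, hm, fun n hn g hg => ?_⟩
  refine exists_smul_of_open hΔ (fun _ => True) hm (fun e he => ?_) hn (fun _ _ _ => trivial) g hg
  obtain ⟨σ, hσ⟩ := h e fun p _ => he p trivial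
  exact ⟨σ, fun p _ _ => hσ p⟩

/-- **A semistable elliptic curve over `ℚ` has an integer `m ≥ 1` such that `Gal(ℚ̄/ℚ)` acts on
`W[n]` through all automorphisms, for every `n` prime to `m`.** -/
theorem exists_surjMod_of_coprime (hΔ : W.Δ ≠ 0) (hW : W.IsSemistableModel) :
    ∃ m : ℕ, m ≠ 0 ∧ ∀ n : ℕ, n ≠ 0 → n.Coprime m → SurjMod W n := by
  obtain ⟨m, hm, h⟩ := exists_open_torsion hΔ hW
  refine ⟨m, hm, fun n hn hnm g => ?_⟩
  refine h n hn g fun x hx => ?_
  have h1 : n • x = 0 := by
    refine Subtype.ext ?_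
    have := (Submodule.mem_torsionBy_iff _ _).1 x.2
    rwa [natCast_zsmul] at this
  have h2 : addOrderOf x ∣ 1 := by
    rw [← hnm]
    exact Nat.dvd_gcd (addOrderOf_dvd_of_nsmul_eq_zero h1) (addOrderOf_dvd_of_nsmul_eq_zero hx)
  have h3 : x = 0 := AddMonoid.addOrderOf_eq_one_iff.1 (Nat.dvd_one.1 h2)
  rw [h3, _root_.map_zero]

end Fermat.Agent.Cor

end
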