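import Fermat.Agent.Corollaries.Surj.Group
import Fermat.Agent.Corollaries.Surj.Inertia
import Fermat.Agent.Corollaries.Surj.Det
import Fermat.Agent.EC.ResRep

/-!
# Surjectivity of the mod `p` representation of a semistable elliptic curve: the core

Let `W` be a semistable elliptic curve over `ℚ` and `p` an odd prime such that `W[p]` is
irreducible and `p ∤ v_q(Δ)` for some prime `q` of bad reduction. Then `Gal(ℚ̄/ℚ)` acts on `W[p]`
through the full group `GL(W[p]) ≅ GL₂(𝔽_p)`.

An inertia group at `q` contains an element acting by an element of order `p`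
(`exists_inertia_order`), and an irreducible subgroup of `GL₂(𝔽_p)` with an element of order `p`
contains `SL₂(𝔽_p)` (`mem_of_orderOf`). The determinant is the cyclotomic character, which is
surjective. (No modularity is used here.)
-/

set_option autoImplicit false

noncomputable section

namespace Fermat.Agent.Cor

open WeierstrassCurve WeierstrassCurve.Affine WeierstrassCurve.Affine.Point
open Fermat.Agent.ECFrob Fermat.Agent.Classic Fermat.Agent.Tate
open Matrix

local notation "Γℚ" => (AlgebraicClosure ℚ ≃ₐ[ℚ] AlgebraicClosure ℚ)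

variable {W : WeierstrassCurve ℤ} (hΔ : W.Δ ≠ 0) {p : ℕ} [hp : Fact p.Prime]

/-- `repP σ = 1` iff `σ` fixes the `p`-torsion. -/
theorem repP_eq_one_iff (σ : Γℚ) : repP p hΔ σ = 1 ↔ ∀ x : Submodule.torsionBy ℤ
    ((W.map (Int.castRingHom ℚ))⁄(AlgebraicClosure ℚ)).Point (p : ℕ), σ • x = x := by
  obtain ⟨e, he⟩ := exists_equiv p hΔ
  constructor
  · intro h x
    apply e.injective
    rw [he, h, Units.val_one, Matrix.one_mulVec]
  · intro h
    refine Units.ext (GalW.mulVec_ext fun v => ?_)
    rw [Units.val_one, Matrix.one_mulVec]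
    have h1 := he σ (e.symm v)
    rw [h, e.apply_symm_apply] at h1
    exact h1.symm

/-- The order of `repP σ` is the order of the permutation of the `p`-torsion. -/
theorem orderOf_repP (σ : Γℚ) : orderOf (repP p hΔ σ) =
    orderOf (MulAction.toPermHom Γℚ (Submodule.torsionBy ℤ
      ((W.map (Int.castRingHom ℚ))⁄(AlgebraicClosure ℚ)).Point (p : ℤ)) σ) := by
  rw [orderOf_eq_orderOf_iff]
  intro n
  rw [← map_pow, ← map_pow, repP_eq_one_iff hΔ, Equiv.Perm.ext_iff]
  rfl

/-- **Inertia at a prime `q` of multiplicative reduction with `p ∤ v_q(Δ)` has an element of order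
`p` in its image** (`q = p` and `q = 2` included). -/
theorem exists_orderOf_repP_of_val (hW : W.IsSemistableModel) (hp2 : p ≠ 2) {q : ℕ} (hq : q.Prime)
    (hdvd : (q : ℤ) ∣ W.Δ) (hv : ¬ p ∣ padicValInt q W.Δ)
    {A : ValuationSubring (AlgebraicClosure ℚ)} (hA : A.LiesOverPrime q) :
    ∃ σ ∈ A.inertiaSubgroupIn ℚ, orderOf (repP p hΔ σ) = p := by
  obtain ⟨σ, hσI, hσ⟩ :=
    exists_inertia_order (isMultAt_of_semistable hW hΔ hq hdvd) hp.out hp2 hv hA
  exact ⟨σ, hσI, (orderOf_repP hΔ σ).trans hσ⟩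

/-- The determinant is surjective on the image of Galois. -/
theorem exists_det_repP (c : (ZMod p)ˣ) : ∃ g ∈ (repP p hΔ).range,
    (g : Matrix (Fin 2) (Fin 2) (ZMod p)).det = c := by
  obtain ⟨τ, hτ⟩ := exists_cycMod c
  exact ⟨repP p hΔ τ, ⟨τ, rfl⟩, (det_repP p hΔ τ).trans hτ⟩

/-- **An irreducible mod `p` representation with an element of order `p` in the image is
surjective** (any elliptic curve over `ℚ`, any prime `p`). -/
theorem repP_surjective_of_orderOf (hirr : W.ModRepIsIrreducible p)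
    (h : ∃ σ : Γℚ, orderOf (repP p hΔ σ) = p) : Function.Surjective (repP p hΔ) := by
  obtain ⟨σ, hσ⟩ := h
  rw [← MonoidHom.range_eq_top]
  exact eq_top_of_orderOf ((noInvLine_range_iff p hΔ).mp hirr) ⟨σ, rfl⟩ hσ (exists_det_repP hΔ)

/-- **The mod `p` representation of a semistable elliptic curve is surjective if it is
irreducible and `p ∤ v_q(Δ)` for some prime `q` of bad reduction**, matrix form. -/
theorem repP_surjective_of_exists_val (hW : W.IsSemistableModel) (hp2 : p ≠ 2)
    (hirr : W.ModRepIsIrreducible p)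
    (h : ∃ q : ℕ, q.Prime ∧ (q : ℤ) ∣ W.Δ ∧ ¬ p ∣ padicValInt q W.Δ) :
    Function.Surjective (repP p hΔ) := by
  obtain ⟨q, hq, hdvd, hv⟩ := h
  obtain ⟨A, hA⟩ := Fermat.Agent.Frob.exists_liesOverPrime q hq
  obtain ⟨σ, -, hσ⟩ := exists_orderOf_repP_of_val hΔ hW hp2 hq hdvd hv hA
  exact repP_surjective_of_orderOf hΔ hirr ⟨σ, hσ⟩

/-- Surjectivity does not depend on a basis: every automorphism of the `p`-torsion is the action
of an element of `Gal(ℚ̄/ℚ)`. -/
theorem exists_smul_eq_of_repP_surjective (h : Function.Surjective (repP p hΔ))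
    (g : Submodule.torsionBy ℤ ((W.map (Int.castRingHom ℚ))⁄(AlgebraicClosure ℚ)).Point (p : ℕ)
      ≃ₗ[ZMod p] Submodule.torsionBy ℤ
        ((W.map (Int.castRingHom ℚ))⁄(AlgebraicClosure ℚ)).Point (p : ℕ)) :
    ∃ σ : Γℚ, ∀ x : Submodule.torsionBy ℤ
      ((W.map (Int.castRingHom ℚ))⁄(AlgebraicClosure ℚ)).Point (p : ℕ), σ • x = g x := by
  obtain ⟨e, he⟩ := exists_equiv p hΔ
  obtain ⟨σ, hσ⟩ := h (Matrix.GeneralLinearGroup.toLin.symm
    (LinearMap.GeneralLinearGroup.ofLinearEquiv (e.symm.trans (g.trans e))))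
  refine ⟨σ, fun x => e.injective ?_⟩
  rw [he, hσ]
  have h1 := congrArg (fun f : LinearMap.GeneralLinearGroup (ZMod p) (Fin 2 → ZMod p) =>
    (f : (Fin 2 → ZMod p) →ₗ[ZMod p] (Fin 2 → ZMod p)) (e x))
    (Matrix.GeneralLinearGroup.toLin.apply_symm_apply
      (LinearMap.GeneralLinearGroup.ofLinearEquiv (e.symm.trans (g.trans e))))
  refine Eq.trans ?_ (h1.trans ?_)
  · rfl
  · change e (g (e.symm (e x))) = e (g x)
    rw [e.symm_apply_apply]

include hΔ in
/-- **The mod `p` representation of a semistable elliptic curve is surjective if it is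
irreducible and `p ∤ v_q(Δ)` for some prime `q` of bad reduction.** -/
theorem surjective_of_exists_val (hW : W.IsSemistableModel) (hp2 : p ≠ 2)
    (hirr : W.ModRepIsIrreducible p)
    (h : ∃ q : ℕ, q.Prime ∧ (q : ℤ) ∣ W.Δ ∧ ¬ p ∣ padicValInt q W.Δ)
    (g : Submodule.torsionBy ℤ ((W.map (Int.castRingHom ℚ))⁄(AlgebraicClosure ℚ)).Point (p : ℕ)
      ≃ₗ[ZMod p] Submodule.torsionBy ℤ
        ((W.map (Int.castRingHom ℚ))⁄(AlgebraicClosure ℚ)).Point (p : ℕ)) :
    ∃ σ : Γℚ, ∀ x : Submodule.torsionBy ℤ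
      ((W.map (Int.castRingHom ℚ))⁄(AlgebraicClosure ℚ)).Point (p : ℕ), σ • x = g x :=
  exists_smul_eq_of_repP_surjective hΔ (repP_surjective_of_exists_val hΔ hW hp2 hirr h) g

/-- If the mod `p` representation is surjective then it is irreducible (any `W`, any `p`). -/
theorem modRepIsIrreducible_of_surjective (h : Function.Surjective (repP p hΔ)) :
    W.ModRepIsIrreducible p := by
  rw [noInvLine_range_iff p hΔ, MonoidHom.range_eq_top.mpr h]
  intro v hv
  by_contra hcon
  push Not at hcon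
  -- the transvections move every line
  have h1 : v 1 = 0 := by
    obtain ⟨c, hc⟩ := hcon (Matrix.GeneralLinearGroup.mkOfDetNeZero !![1, 1; 0, 1] (by simp))
      (Subgroup.mem_top _)
    change (!![1, 1; 0, 1] : Matrix (Fin 2) (Fin 2) (ZMod p)).mulVec v = c • v at hc
    have e0 := congrFun hc 0
    have e1 := congrFun hc 1
    simp only [Matrix.mulVec, dotProduct, Fin.sum_univ_two, Pi.smul_apply, smul_eq_mul,
      Matrix.of_apply, Matrix.cons_val', Matrix.cons_val_zero, Matrix.cons_val_one,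
      Matrix.cons_val_fin_one, one_mul, zero_mul, zero_add] at e0 e1
    by_contra h2
    have h3 : c = 1 := by
      have := mul_right_cancel₀ h2 (e1.symm.trans (one_mul _).symm)
      exact this
    rw [h3, one_mul] at e0
    exact h2 (add_eq_left.mp e0)
  have h2 : v 0 = 0 := by
    obtain ⟨c, hc⟩ := hcon (Matrix.GeneralLinearGroup.mkOfDetNeZero !![1, 0; 1, 1] (by simp))
      (Subgroup.mem_top _)
    change (!![1, 0; 1, 1] : Matrix (Fin 2) (Fin 2) (ZMod p)).mulVec v = c • v at hc
    have e1 := congrFun hc 1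
    simp only [Matrix.mulVec, dotProduct, Fin.sum_univ_two, Pi.smul_apply, smul_eq_mul,
      Matrix.of_apply, Matrix.cons_val', Matrix.cons_val_zero, Matrix.cons_val_one,
      Matrix.cons_val_fin_one, one_mul, h1, mul_zero, add_zero] at e1
    exact e1
  exact hv (funext fun i => by fin_cases i; exacts [h2, h1])

end Fermat.Agent.Cor
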