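import Fermat.Agent.Corollaries.LevelLower
import Fermat.Agent.Corollaries.Surj.Core

/-!
# The Galois representations of semistable elliptic curves are surjective (Serre, Mazur)

Let `W` be a semistable elliptic curve over `ℚ` and `p` an odd prime such that `W[p]` is
irreducible. Then `Gal(ℚ̄/ℚ)` acts on `W[p]` through the full group `GL(W[p]) ≅ GL₂(𝔽_p)`.

By Ribet's theorem (`exists_prime_not_dvd_val`) there is a prime `q` of multiplicative reduction
with `p ∤ v_q(Δ)`, otherwise `W[p]` would be modular of level one. The rest is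
`repP_surjective_of_exists_val`.
-/

set_option autoImplicit false

noncomputable section

namespace Fermat.Agent.Cor

open WeierstrassCurve WeierstrassCurve.Affine WeierstrassCurve.Affine.Point
open Fermat.Agent.Classic

local notation "Γℚ" => (AlgebraicClosure ℚ ≃ₐ[ℚ] AlgebraicClosure ℚ)

variable {W : WeierstrassCurve ℤ} (hΔ : W.Δ ≠ 0) {p : ℕ} [hp : Fact p.Prime]

/-- **The mod `p` representation of a semistable elliptic curve is surjective if it is
irreducible** (`p` an odd prime), matrix form. -/
theorem repP_surjective (hW : W.IsSemistableModel) (hp2 : p ≠ 2)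
    (hirr : W.ModRepIsIrreducible p) : Function.Surjective (repP p hΔ) :=
  repP_surjective_of_exists_val hΔ hW hp2 hirr (exists_prime_not_dvd_val hΔ hW hp.out hp2 hirr)

/-- **There is an element of order `p` in the image of Galois.** -/
theorem exists_orderOf_repP (hW : W.IsSemistableModel) (hp2 : p ≠ 2)
    (hirr : W.ModRepIsIrreducible p) : ∃ σ : Γℚ, orderOf (repP p hΔ σ) = p := by
  obtain ⟨q, hq, hdvd, hv⟩ := exists_prime_not_dvd_val hΔ hW hp.out hp2 hirr
  obtain ⟨A, hA⟩ := Fermat.Agent.Frob.exists_liesOverPrime q hq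
  obtain ⟨σ, -, hσ⟩ := exists_orderOf_repP_of_val hΔ hW hp2 hq hdvd hv hA
  exact ⟨σ, hσ⟩

include hΔ in
/-- **The mod `p` representation of a semistable elliptic curve is surjective if it is
irreducible** (`p` an odd prime): every automorphism of the `p`-torsion is the action of an element
of `Gal(ℚ̄/ℚ)`. -/
theorem surjective_of_semistable (hW : W.IsSemistableModel) (hp2 : p ≠ 2)
    (hirr : W.ModRepIsIrreducible p)
    (g : Submodule.torsionBy ℤ ((W.map (Int.castRingHom ℚ))⁄(AlgebraicClosure ℚ)).Point (p : ℕ)
      ≃ₗ[ZMod p] Submodule.torsionBy ℤ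
        ((W.map (Int.castRingHom ℚ))⁄(AlgebraicClosure ℚ)).Point (p : ℕ)) :
    ∃ σ : Γℚ, ∀ x : Submodule.torsionBy ℤ
      ((W.map (Int.castRingHom ℚ))⁄(AlgebraicClosure ℚ)).Point (p : ℕ), σ • x = g x :=
  exists_smul_eq_of_repP_surjective hΔ (repP_surjective hΔ hW hp2 hirr) g

include hΔ in
/-- **Irreducible iff surjective** for the mod `p` representation of a semistable elliptic curve,
`p` an odd prime. -/
theorem modRepIsIrreducible_iff_surjective (hW : W.IsSemistableModel) (hp2 : p ≠ 2) :
    W.ModRepIsIrreducible p ↔ Function.Surjective (repP p hΔ) :=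
  ⟨repP_surjective hΔ hW hp2, modRepIsIrreducible_of_surjective hΔ⟩

end Fermat.Agent.Cor
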