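import Fermat.Agent.Corollaries.Surj.Mazur
import Fermat.Agent.Corollaries.Surj.Composite
import Fermat.Agent.Corollaries.K4.Small.Surj

/-!
# The adelic image of Galois for semistable elliptic curves over `ℚ` (helper62)

Let `W` be a semistable elliptic curve over `ℚ`.

* `exists_adelic_of_semistable`: for every family `e p` of automorphisms of the Tate modules `T_p W`
  there is **one** `σ ∈ Gal(ℚ̄/ℚ)` which acts on `T_p W` as `e p` for **all** primes `p ≥ 5` for
  which `W[p]` is irreducible.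
* `exists_adelic_of_ge`: in particular for `p = 11` and all primes `p ≥ 17` together.
* `exists_adelic_of_two`, `FreyTriple.exists_adelic`: if the points of order two are rational, for
  instance for the Frey curve of a coprime triple, for all primes `p ≥ 5` together.
* `surjMod_of_semistable`, `surjMod_of_ge`, `surjMod_of_two'`: the same for `W[N]`, `N` composite.
-/

set_option autoImplicit false

noncomputable section

open WeierstrassCurve WeierstrassCurve.Affine.Point Module
open scoped WeierstrassCurve.Affine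
open Fermat.Agent.Tate Fermat.Agent.S30aux

namespace Fermat.Agent.Cor

local notation "Γℚ" => (AlgebraicClosure ℚ ≃ₐ[ℚ] AlgebraicClosure ℚ)

variable {W : WeierstrassCurve ℤ}

/-- `W` semistable, `p` odd, `W[p]` irreducible: all automorphisms of `W[p]` come from
`Gal(ℚ̄/ℚ)`. -/
theorem surjMod_of_irreducible (hΔ : W.Δ ≠ 0) (hW : W.IsSemistableModel) {p : ℕ} [Fact p.Prime]
    (hp2 : p ≠ 2) (hirr : W.ModRepIsIrreducible p) : SurjMod W p := fun g =>
  surjective_of_semistable hΔ hW hp2 hirr g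

/-- **The adelic image of a semistable elliptic curve**: every family of automorphisms of the Tate
modules `T_p W` comes from one element of `Gal(ℚ̄/ℚ)`, at all `p ≥ 5` for which `W[p]` is
irreducible. -/
theorem exists_adelic_of_semistable (hΔ : W.Δ ≠ 0) (hW : W.IsSemistableModel)
    (e : ∀ (p : ℕ) [Fact p.Prime],
      TMod p ((W.map (Int.castRingHom ℚ))⁄(AlgebraicClosure ℚ)).Point ≃ₗ[ℤ_[p]]
        TMod p ((W.map (Int.castRingHom ℚ))⁄(AlgebraicClosure ℚ)).Point) :
    ∃ σ : Γℚ, ∀ (p : ℕ) [Fact p.Prime], 5 ≤ p → W.ModRepIsIrreducible p →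
      (tateRep (W.map (Int.castRingHom ℚ)) (map_Δ_ne_zero hΔ) p).ρ σ = (e p).toLinearMap := by
  obtain ⟨σ, hσ⟩ := exists_adelic hΔ e
  exact ⟨σ, fun p _ hp5 hirr => hσ p hp5 (surjMod_of_irreducible hΔ hW (by omega) hirr)⟩

/-- **The adelic image of a semistable elliptic curve**, unconditional: every family of
automorphisms of the Tate modules `T_p W` comes from one element of `Gal(ℚ̄/ℚ)`, at `p = 11` and all
primes `p ≥ 17` together (Serre, Mazur). -/
theorem exists_adelic_of_ge (hΔ : W.Δ ≠ 0) (hW : W.IsSemistableModel)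
    (e : ∀ (p : ℕ) [Fact p.Prime],
      TMod p ((W.map (Int.castRingHom ℚ))⁄(AlgebraicClosure ℚ)).Point ≃ₗ[ℤ_[p]]
        TMod p ((W.map (Int.castRingHom ℚ))⁄(AlgebraicClosure ℚ)).Point) :
    ∃ σ : Γℚ, ∀ (p : ℕ) [Fact p.Prime], p = 11 ∨ 17 ≤ p →
      (tateRep (W.map (Int.castRingHom ℚ)) (map_Δ_ne_zero hΔ) p).ρ σ = (e p).toLinearMap := by
  obtain ⟨σ, hσ⟩ := exists_adelic hΔ e
  exact ⟨σ, fun p _ hp => hσ p (by omega) fun g => surjective_of_semistable_of_ge hΔ hp hW g⟩

/-- **The adelic image of a semistable elliptic curve with rational points of order two**: every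
family of automorphisms of the Tate modules `T_p W` comes from one element of `Gal(ℚ̄/ℚ)`, at all
primes `p ≥ 5` together. -/
theorem exists_adelic_of_two (hΔ : W.Δ ≠ 0) (hW : W.IsSemistableModel)
    (h2 : ∀ x : Mazur.Pt W, 2 • x = 0 → ∀ σ : K1.Gam, σ • x = x)
    (e : ∀ (p : ℕ) [Fact p.Prime],
      TMod p ((W.map (Int.castRingHom ℚ))⁄(AlgebraicClosure ℚ)).Point ≃ₗ[ℤ_[p]]
        TMod p ((W.map (Int.castRingHom ℚ))⁄(AlgebraicClosure ℚ)).Point) :
    ∃ σ : Γℚ, ∀ (p : ℕ) [Fact p.Prime], 5 ≤ p →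
      (tateRep (W.map (Int.castRingHom ℚ)) (map_Δ_ne_zero hΔ) p).ρ σ = (e p).toLinearMap := by
  obtain ⟨σ, hσ⟩ := exists_adelic hΔ e
  exact ⟨σ, fun p _ hp5 => hσ p hp5 (surjMod_of_two hΔ hp5 hW h2)⟩

/-- **The adelic image of a Frey curve**: for every coprime triple `A + B + C = 0`, normalised by
`A ≡ -1 mod 4` and `16 ∣ B`, every family of automorphisms of the Tate modules of the Frey curve
comes from one element of `Gal(ℚ̄/ℚ)`, at all primes `p ≥ 5` together. -/
theorem FreyTriple.exists_adelic {A B C : ℤ} (h : FreyTriple A B C)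
    (e : ∀ (p : ℕ) [Fact p.Prime],
      TMod p (((fA A B).map (Int.castRingHom ℚ))⁄(AlgebraicClosure ℚ)).Point ≃ₗ[ℤ_[p]]
        TMod p (((fA A B).map (Int.castRingHom ℚ))⁄(AlgebraicClosure ℚ)).Point) :
    ∃ σ : Γℚ, ∀ (p : ℕ) [Fact p.Prime], 5 ≤ p →
      (tateRep ((fA A B).map (Int.castRingHom ℚ)) (map_Δ_ne_zero h.Δ_ne_zero) p).ρ σ =
        (e p).toLinearMap :=
  exists_adelic_of_two h.Δ_ne_zero h.isSemistableModel h.two_torsion_fixed e

/-- **The image of Galois in `Aut(W[N])`**, `W` semistable, `N` prime to `6` and `W[p]` irreducible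
for every prime divisor `p` of `N`. -/
theorem surjMod_of_semistable (hΔ : W.Δ ≠ 0) (hW : W.IsSemistableModel) {N : ℕ} (hN : N ≠ 0)
    (h : ∀ p, p.Prime → p ∣ N → 5 ≤ p ∧ W.ModRepIsIrreducible p) : SurjMod W N :=
  surjMod_of_dvd hΔ hN fun p hp hpN => by
    have : Fact p.Prime := ⟨hp⟩
    have h1 := h p hp hpN
    exact ⟨h1.1, surjMod_of_irreducible hΔ hW (by omega) h1.2⟩

/-- **The image of Galois in `Aut(W[N])`**, `W` semistable, `N` prime to `2·3·5·7·13`. -/
theorem surjMod_of_ge (hΔ : W.Δ ≠ 0) (hW : W.IsSemistableModel) {N : ℕ} (hN : N ≠ 0)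
    (h : ∀ p, p.Prime → p ∣ N → p = 11 ∨ 17 ≤ p) : SurjMod W N :=
  surjMod_of_dvd hΔ hN fun p hp hpN => by
    have : Fact p.Prime := ⟨hp⟩
    have h1 := h p hp hpN
    exact ⟨by omega, fun g => surjective_of_semistable_of_ge hΔ h1 hW g⟩

/-- **The image of Galois in `Aut(W[N])`**, `W` semistable with rational points of order two and `N`
prime to `6`. -/
theorem surjMod_of_two_of_coprime (hΔ : W.Δ ≠ 0) (hW : W.IsSemistableModel)
    (h2 : ∀ x : Mazur.Pt W, 2 • x = 0 → ∀ σ : K1.Gam, σ • x = x) {N : ℕ}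
    (h : Nat.Coprime N 6) : SurjMod W N := by
  have hN : N ≠ 0 := by
    rintro rfl
    exact absurd h (by decide)
  refine surjMod_of_dvd hΔ hN fun p hp hpN => ?_
  have : Fact p.Prime := ⟨hp⟩
  have h5 : 5 ≤ p := by
    have h6 : Nat.Coprime p 6 := Nat.Coprime.coprime_dvd_left hpN h
    by_contra hlt
    have h7 := hp.two_le
    interval_cases p
    · exact absurd h6 (by decide)
    · exact absurd h6 (by decide)
    · exact absurd hp (by decide)
  exact ⟨h5, surjMod_of_two hΔ h5 hW h2⟩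

end Fermat.Agent.Cor

end
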