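import Fermat.Agent.Corollaries.Surj.NatDens
import Fermat.Agent.Corollaries.Surj.Cheb

/-!
# The distribution of `a_ℓ` and of `#W(𝔽_ℓ)` modulo `p`: natural densities

The theorems of `Surj/Cheb.lean` with natural density instead of Dirichlet density: let `W` be an
elliptic curve over `ℚ` whose mod `p` representation is surjective, `p` odd. For the primes `ℓ` of
good reduction:

* `nat_dens_trace_det` : `a_ℓ ≡ a`, `ℓ ≡ d` mod `p` has density
  `(p + χ(a² - 4 d)) / ((p - 1)² (p + 1))`, for every `a` and every `d ≠ 0`;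
* `nat_dens_dvd_ap` : `p ∣ a_ℓ` has density `p / (p² - 1)`;
* `nat_dens_trace` : `a_ℓ ≡ a ≠ 0` mod `p` has density `(p² - p - 1) / ((p - 1)² (p + 1))`;
* `nat_dens_dvd_card` : `p ∣ #W(𝔽_ℓ)` has density `(p² - 2) / ((p - 1)² (p + 1))`.
-/

set_option autoImplicit false

noncomputable section

open Filter Topology Matrix WeierstrassCurve

namespace Fermat.Agent.Cor

open Fermat.Agent.Frob Fermat.Agent.FrobDensity Fermat.Agent.Classic

variable {W : WeierstrassCurve ℤ} (hΔ : W.Δ ≠ 0) {p : ℕ} [hp : Fact p.Prime]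

local notation "M2" => Matrix (Fin 2) (Fin 2) (ZMod p)
local notation "GL2" => GL (Fin 2) (ZMod p)

/-- **The distribution of the pairs `(a_ℓ, ℓ)` modulo `p`** when the mod `p` representation is
surjective: the density of the primes `ℓ` for which `(a_ℓ, ℓ)` satisfies `P` is the proportion
of the elements `g` of `GL₂(𝔽_p)` for which `(tr g, det g)` satisfies `P`. -/
theorem nat_dens_of_surjective (hs : Function.Surjective (repP p hΔ)) (P : ZMod p → ZMod p → Prop) :
    HasNaturalDensity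
      {ℓ | W.IsGoodPrimeFor ℓ ∧ P (W.apOfModel ℓ : ZMod p) (ℓ : ZMod p)}
      ((Nat.card {g : GL2 | P (g : M2).trace (g : M2).det} : ℝ) / Nat.card GL2) := by
  refine (chebotarev_nat (repP p hΔ) hs (repP_factors p hΔ) (trDetSet P)
    (trDetSet_conj P)).congr_of_finset (insert p W.Δ.natAbs.primeFactors) ?_
  intro ℓ hℓ hℓT
  rw [Finset.mem_insert, not_or] at hℓT
  obtain ⟨hne, hℓΔ⟩ := hℓT
  have hgood : W.IsGoodPrimeFor ℓ := fun h => hℓΔ (Nat.mem_primeFactors.mpr
    ⟨hℓ, Int.natCast_dvd.mp h, Int.natAbs_ne_zero.mpr hΔ⟩)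
  rw [mem_FrobIn_repP hΔ P hℓ hgood hne]
  exact (and_iff_right hgood).symm

section odd

variable (hs : Function.Surjective (repP p hΔ)) (hp2 : p ≠ 2)

include hp2

/-- **The density of the primes `ℓ` with `a_ℓ ≡ a` and `ℓ ≡ d` modulo `p`** is
`(p + χ(a² - 4 d)) / ((p - 1)² (p + 1))`. -/
theorem nat_dens_trace_det (hs : Function.Surjective (repP p hΔ)) (a : ZMod p) {d : ZMod p}
    (hd : d ≠ 0) : HasNaturalDensity
      {ℓ | W.IsGoodPrimeFor ℓ ∧ (W.apOfModel ℓ : ZMod p) = a ∧ (ℓ : ZMod p) = d}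
      ((p + (quadraticChar (ZMod p) (a ^ 2 - 4 * d) : ℤ)) / ((p - 1) ^ 2 * (p + 1))) := by
  have h := nat_dens_of_surjective hΔ hs fun x y => x = a ∧ y = d
  have h1 := Count.card_GL_trace_det (Cheb.ringChar_ne_two hp2) a hd
  rw [ZMod.card] at h1
  have h2 : (Nat.card {g : GL2 | (g : M2).trace = a ∧ (g : M2).det = d} : ℝ) =
      p ^ 2 + p * (quadraticChar (ZMod p) (a ^ 2 - 4 * d) : ℤ) := by exact_mod_cast h1
  rw [h2, Cheb.card_GL2_real] at h
  have h3 := Cheb.real_pos (p := p) hp2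
  have h4 : (p : ℝ) - 1 ≠ 0 := by linarith
  have h5 : (p : ℝ) + 1 ≠ 0 := by linarith
  have h6 : (p : ℝ) ≠ 0 := by linarith
  convert h using 1
  field_simp

/-- **The density of the primes `ℓ` with `p ∣ a_ℓ`** is `p / (p² - 1)`. -/
theorem nat_dens_dvd_ap (hs : Function.Surjective (repP p hΔ)) : HasNaturalDensity
      {ℓ | W.IsGoodPrimeFor ℓ ∧ (p : ℤ) ∣ W.apOfModel ℓ} (p / (p ^ 2 - 1)) := by
  have h := nat_dens_of_surjective hΔ hs fun x _ => x = 0
  have h1 := Count.card_GL_trace (Cheb.ringChar_ne_two hp2) (0 : ZMod p)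
  rw [ZMod.card, if_pos rfl] at h1
  have h2 : (Nat.card {g : GL2 | (g : M2).trace = 0} : ℝ) = p ^ 3 - p ^ 2 - 0 := by
    exact_mod_cast h1
  rw [h2, Cheb.card_GL2_real] at h
  have h3 := Cheb.real_pos (p := p) hp2
  have h4 : (p : ℝ) - 1 ≠ 0 := by linarith
  have h5 : (p : ℝ) + 1 ≠ 0 := by linarith
  have h6 : (p : ℝ) ≠ 0 := by linarith
  have h7 : (p : ℝ) ^ 2 - 1 ≠ 0 := by
    rw [show (p : ℝ) ^ 2 - 1 = (p - 1) * (p + 1) by ring]
    exact mul_ne_zero h4 h5
  convert h using 1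
  · ext ℓ
    simp only [Set.mem_ofPred_eq, ZMod.intCast_zmod_eq_zero_iff_dvd]
  · field_simp
    ring

/-- **The density of the primes `ℓ` with `a_ℓ ≡ a` modulo `p`**, `a ≠ 0`. -/
theorem nat_dens_trace (hs : Function.Surjective (repP p hΔ)) {a : ZMod p} (ha : a ≠ 0) :
    HasNaturalDensity {ℓ | W.IsGoodPrimeFor ℓ ∧ (W.apOfModel ℓ : ZMod p) = a}
      ((p ^ 2 - p - 1) / ((p - 1) ^ 2 * (p + 1))) := by
  have h := nat_dens_of_surjective hΔ hs fun x _ => x = a
  have h1 := Count.card_GL_trace (Cheb.ringChar_ne_two hp2) a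
  rw [ZMod.card, if_neg ha] at h1
  have h2 : (Nat.card {g : GL2 | (g : M2).trace = a} : ℝ) = p ^ 3 - p ^ 2 - p := by
    exact_mod_cast h1
  rw [h2, Cheb.card_GL2_real] at h
  have h3 := Cheb.real_pos (p := p) hp2
  have h4 : (p : ℝ) - 1 ≠ 0 := by linarith
  have h5 : (p : ℝ) + 1 ≠ 0 := by linarith
  have h6 : (p : ℝ) ≠ 0 := by linarith
  convert h using 1
  field_simp

/-- **The density of the primes `ℓ` for which the number of points of `W` over `𝔽_ℓ` is divisible
by `p`** is `(p² - 2) / ((p - 1)² (p + 1))`. -/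
theorem nat_dens_dvd_card (hs : Function.Surjective (repP p hΔ)) : HasNaturalDensity
      {ℓ | W.IsGoodPrimeFor ℓ ∧ p ∣ (W.reductionMod ℓ).card}
      ((p ^ 2 - 2) / ((p - 1) ^ 2 * (p + 1))) := by
  have h := nat_dens_of_surjective hΔ hs fun x y => x = 1 + y
  have h1 := Count.card_GL_eigen_one (Cheb.ringChar_ne_two hp2)
  rw [ZMod.card] at h1
  have h2 : (Nat.card {g : GL2 | (g : M2).trace = 1 + (g : M2).det} : ℝ) = p ^ 3 - 2 * p := by
    exact_mod_cast h1
  rw [h2, Cheb.card_GL2_real] at h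
  have h3 := Cheb.real_pos (p := p) hp2
  have h4 : (p : ℝ) - 1 ≠ 0 := by linarith
  have h5 : (p : ℝ) + 1 ≠ 0 := by linarith
  have h6 : (p : ℝ) ≠ 0 := by linarith
  refine HasNaturalDensity.congr_of_finset (S := {ℓ | W.IsGoodPrimeFor ℓ ∧
    (W.apOfModel ℓ : ZMod p) = 1 + (ℓ : ZMod p)}) ?_ ∅ ?_
  · convert h using 1
    field_simp
  · intro ℓ hℓ _
    refine and_congr_right fun _ => ?_
    have h7 : W.apOfModel ℓ = (ℓ : ℤ) + 1 - ((W.reductionMod ℓ).card : ℤ) := by
      unfold apOfModel traceOfFrobenius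
      rw [Nat.card_zmod]
    rw [h7, ← ZMod.natCast_eq_zero_iff]
    push_cast
    constructor
    · intro h8
      linear_combination -h8
    · intro h8
      linear_combination -h8

/-- The density of the primes `ℓ` for which the number of points of `W` over `𝔽_ℓ` is prime to
`p`. -/
theorem nat_dens_not_dvd_card (hs : Function.Surjective (repP p hΔ)) : HasNaturalDensity
      {ℓ | W.IsGoodPrimeFor ℓ ∧ ¬ p ∣ (W.reductionMod ℓ).card}
      (1 - (p ^ 2 - 2) / ((p - 1) ^ 2 * (p + 1))) := by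
  refine (nat_dens_dvd_card hΔ hp2 hs).compl.congr_of_finset W.Δ.natAbs.primeFactors ?_
  intro ℓ hℓ hℓΔ
  have hgood : W.IsGoodPrimeFor ℓ := fun h => hℓΔ (Nat.mem_primeFactors.mpr
    ⟨hℓ, Int.natCast_dvd.mp h, Int.natAbs_ne_zero.mpr hΔ⟩)
  simp only [Set.mem_compl_iff, Set.mem_ofPred_eq, hgood, true_and]

end odd

end Fermat.Agent.Cor
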