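import Fermat.Agent.Frob.Chebotarev

/-!
# Dirichlet densities of sets of prime numbers

* `HasDirichletDensity S δ` : the set of primes in `S` has Dirichlet density `δ`;
* `HasDirichletDensity.infinite` : a set of primes of density `δ ≠ 0` is infinite;
* `chebotarev_dirichlet` : Chebotarev's theorem in this form.
-/

set_option autoImplicit false

noncomputable section

open Filter Topology

open scoped Classical

namespace Fermat.Agent.Cor

open Fermat.Agent.Frob Fermat.Agent.FrobDensity

local notation "GQ" => (AlgebraicClosure ℚ ≃ₐ[ℚ] AlgebraicClosure ℚ)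

/-- **The primes in `S` have Dirichlet density `δ`**: the quotient
`(∑_{p ∈ S} p⁻ˢ) / (∑_p p⁻ˢ)` tends to `δ` as `s → 1⁺` (sums over prime numbers). -/
def HasDirichletDensity (S : Set ℕ) (δ : ℝ) : Prop :=
  Tendsto (fun s : ℝ => (∑' p : Nat.Primes, if (p : ℕ) ∈ S then ((p : ℕ) : ℝ) ^ (-s) else 0) /
    ∑' p : Nat.Primes, ((p : ℕ) : ℝ) ^ (-s)) (𝓝[>] 1) (𝓝 δ)

namespace Dens

/-- The characteristic function of a set of natural numbers. -/
def chi (S : Set ℕ) (n : ℕ) : ℝ := if n ∈ S then 1 else 0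

lemma abs_chi_le (S : Set ℕ) (n : ℕ) : |chi S n| ≤ 1 := by
  unfold chi
  split_ifs <;> simp

lemma chi_nonneg (S : Set ℕ) (n : ℕ) : 0 ≤ chi S n := by
  unfold chi
  split_ifs <;> simp

lemma tsum_ite (S : Set ℕ) (s : ℝ) :
    (∑' p : Nat.Primes, if (p : ℕ) ∈ S then ((p : ℕ) : ℝ) ^ (-s) else 0) = PS (chi S) s := by
  refine tsum_congr fun p => ?_
  unfold chi
  split_ifs <;> simp

lemma tsum_one (s : ℝ) :
    (∑' p : Nat.Primes, ((p : ℕ) : ℝ) ^ (-s)) = PS (fun _ => 1) s := by
  refine tsum_congr fun p => ?_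
  simp

end Dens

open Dens

/-- The density in terms of `log (1 / (s - 1))`. -/
theorem hasDirichletDensity_iff {S : Set ℕ} {δ : ℝ} : HasDirichletDensity S δ ↔
    Tendsto (fun s : ℝ => PS (chi S) s / Real.log (1 / (s - 1))) (𝓝[>] 1) (𝓝 δ) := by
  unfold HasDirichletDensity
  simp only [tsum_ite, tsum_one]
  have h1 := tendsto_PS_one
  have h2 : ∀ᶠ s in 𝓝[>] (1 : ℝ), PS (fun _ => 1) s / Real.log (1 / (s - 1)) ≠ 0 := by
    filter_upwards [h1.eventually_const_lt (show (0 : ℝ) < 1 by norm_num)] with s hs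
    exact hs.ne'
  have h3 := tendsto_log_atTop.eventually_gt_atTop 0
  constructor
  · intro h
    have h4 := h.mul h1
    rw [mul_one] at h4
    refine h4.congr' ?_
    filter_upwards [h2, h3] with s h5 h6
    have h7 : PS (fun _ => 1) s ≠ 0 := fun h0 => h5 (by rw [h0, zero_div])
    field_simp
  · intro h
    have h4 := h.div h1 one_ne_zero
    rw [div_one] at h4
    refine h4.congr' ?_
    filter_upwards [h2, h3] with s h5 h6
    have h7 : PS (fun _ => 1) s ≠ 0 := fun h0 => h5 (by rw [h0, zero_div])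
    rw [Pi.div_apply]
    field_simp

/-- Two bounded functions which agree outside a finite set of primes have the same mean value. -/
lemma Dens.tendsto_PS_congr {a b : ℕ → ℝ} {C δ : ℝ} (ha : ∀ n, |a n| ≤ C) (hb : ∀ n, |b n| ≤ C)
    {T : Finset ℕ} (h : ∀ p : ℕ, p.Prime → p ∉ T → a p = b p)
    (hlim : Tendsto (fun s : ℝ => PS a s / Real.log (1 / (s - 1))) (𝓝[>] 1) (𝓝 δ)) :
    Tendsto (fun s : ℝ => PS b s / Real.log (1 / (s - 1))) (𝓝[>] 1) (𝓝 δ) := by
  obtain ⟨B, hB⟩ := exists_PS_sub_le ha hb h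
  have h5 : Tendsto (fun s : ℝ => (PS a s - PS b s) / Real.log (1 / (s - 1))) (𝓝[>] 1)
      (𝓝 0) := by
    refine squeeze_zero_norm' (a := fun s => B / Real.log (1 / (s - 1))) ?_
      (tendsto_log_atTop.const_div_atTop B)
    filter_upwards [self_mem_nhdsWithin, tendsto_log_atTop.eventually_gt_atTop 0] with s h1 h2
    rw [norm_div, Real.norm_eq_abs, Real.norm_eq_abs, abs_of_pos h2]
    exact div_le_div_of_nonneg_right (hB s h1) h2.le
  have h6 := hlim.sub h5
  rw [sub_zero] at h6
  refine h6.congr fun s => ?_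
  rw [← sub_div]
  congr 1
  ring

namespace HasDirichletDensity

variable {S S' : Set ℕ} {δ δ' : ℝ}

/-- The density only depends on the primes outside a finite set. -/
theorem congr_of_finset (h : HasDirichletDensity S δ) (T : Finset ℕ)
    (hT : ∀ p : ℕ, p.Prime → p ∉ T → (p ∈ S ↔ p ∈ S')) : HasDirichletDensity S' δ := by
  rw [hasDirichletDensity_iff] at h ⊢
  refine tendsto_PS_congr (abs_chi_le S) (abs_chi_le S') (T := T) ?_ h
  intro p hp hpT
  unfold chi
  simp only [hT p hp hpT]

theorem unique (h : HasDirichletDensity S δ) (h' : HasDirichletDensity S δ') : δ = δ' :=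
  tendsto_nhds_unique h h'

/-- A finite set has density zero. -/
theorem of_finite (h : {p : ℕ | p.Prime ∧ p ∈ S}.Finite) : HasDirichletDensity S 0 := by
  have h0 : HasDirichletDensity ∅ 0 := by
    rw [hasDirichletDensity_iff]
    have : ∀ s, PS (chi ∅) s = 0 := by
      intro s
      unfold PS chi
      simp
    simp only [this, zero_div]
    exact tendsto_const_nhds
  refine h0.congr_of_finset h.toFinset fun p hp hpT => ?_
  have : ¬ (p.Prime ∧ p ∈ S) := fun h' => hpT (h.mem_toFinset.mpr h')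
  simp only [Set.mem_empty_iff_false, false_iff]
  exact fun h' => this ⟨hp, h'⟩

/-- **A set of primes of density `δ ≠ 0` is infinite.** -/
theorem infinite (h : HasDirichletDensity S δ) (hδ : δ ≠ 0) :
    {p : ℕ | p.Prime ∧ p ∈ S}.Infinite := fun hfin => hδ (h.unique (of_finite hfin))

theorem mono (h : HasDirichletDensity S δ) (h' : HasDirichletDensity S' δ') (hSS : S ⊆ S') :
    δ ≤ δ' := by
  rw [hasDirichletDensity_iff] at h h'
  refine le_of_tendsto_of_tendsto h h' ?_
  filter_upwards [self_mem_nhdsWithin, tendsto_log_atTop.eventually_gt_atTop 0] with s h1 h2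
  refine div_le_div_of_nonneg_right (PS_mono (abs_chi_le S) (abs_chi_le S') ?_ h1) h2.le
  intro n hn
  unfold chi
  split_ifs with h3 h4
  · exact le_rfl
  · exact absurd (hSS h3) h4
  · exact zero_le_one
  · exact le_rfl

theorem univ : HasDirichletDensity Set.univ 1 := by
  rw [hasDirichletDensity_iff]
  have : chi Set.univ = fun _ => 1 := by
    funext n
    simp [chi]
  rw [this]
  exact tendsto_PS_one

/-- Additivity. -/
theorem union (h : HasDirichletDensity S δ) (h' : HasDirichletDensity S' δ')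
    (hd : Disjoint S S') : HasDirichletDensity (S ∪ S') (δ + δ') := by
  rw [hasDirichletDensity_iff] at h h' ⊢
  refine (h.add h').congr' ?_
  filter_upwards [self_mem_nhdsWithin] with s hs
  rw [← add_div]
  congr 1
  unfold PS
  rw [← (summable_PS (abs_chi_le S) hs).tsum_add (summable_PS (abs_chi_le S') hs)]
  refine tsum_congr fun p => ?_
  rw [← add_mul]
  congr 1
  unfold chi
  by_cases h1 : (p : ℕ) ∈ S
  · have h2 : (p : ℕ) ∉ S' := fun h2 => Set.disjoint_left.mp hd h1 h2
    simp [h1, h2]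
  · simp [h1]

theorem compl (h : HasDirichletDensity S δ) : HasDirichletDensity Sᶜ (1 - δ) := by
  have h0 := univ
  rw [hasDirichletDensity_iff] at h h0 ⊢
  refine (h0.sub h).congr' ?_
  filter_upwards [self_mem_nhdsWithin] with s hs
  rw [← sub_div]
  congr 1
  unfold PS
  rw [← (summable_PS (abs_chi_le Set.univ) hs).tsum_sub (summable_PS (abs_chi_le S) hs)]
  refine tsum_congr fun p => ?_
  rw [← sub_mul]
  congr 1
  unfold chi
  by_cases h1 : (p : ℕ) ∈ S
  · simp [h1]
  · simp [h1]

end HasDirichletDensity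

/-- **Chebotarev's density theorem.** -/
theorem chebotarev_dirichlet {G : Type*} [Group G] [Finite G] (ψ : GQ →* G)
    (hsurj : Function.Surjective ψ)
    (hlevel : ∃ L : IntermediateField ℚ (AlgebraicClosure ℚ), FiniteDimensional ℚ L ∧
      ∀ σ : GQ, (∀ x ∈ L, σ x = x) → ψ σ = 1) (C : Set G)
    (hC : ∀ g c : G, c ∈ C → g * c * g⁻¹ ∈ C) :
    HasDirichletDensity (FrobIn ψ C) ((Nat.card C : ℝ) / Nat.card G) :=
  hasDirichletDensity_iff.mpr (chebotarev_PS ψ hsurj hlevel C hC)

end Fermat.Agent.Cor
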