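import Fermat.Agent.Corollaries.Surj.Fields
import Fermat.Agent.Corollaries.InvGal.Main37
import Fermat.Agent.LocE.TorsProd

/-!
# Fields of definition of the points of order `p`, and division polynomials

`W` a Weierstrass curve over `ℤ` with `Δ ≠ 0` and `p` a prime for which `Gal(ℚ̄/ℚ)` acts on `W[p]`
through the full group `GL₂(𝔽_p)`.

* `dvd_finrank_of_addOrderOf`: if `W` has a point of order `p` over the number field `K`, then
  `p² - 1` divides `[K : ℚ]`;
* `irreducible_preΨ`: for odd `p` the `p`-division polynomial of `W`, of degree `(p² - 1) / 2`, is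
  irreducible over `ℚ`.

This applies to all semistable `W` for `p = 11` and all primes `p ≥ 17`
(`sq_sub_one_dvd_finrank`, `irreducible_preΨ_of_ge`), and to the curve `37a : y² + y = x³ - x` for
all `p` (`InvGal.sq_sub_one_dvd_finrank37`, `InvGal.irreducible_preΨ37`).
-/

set_option autoImplicit false

noncomputable section

namespace Fermat.Agent.Cor

open Polynomial WeierstrassCurve WeierstrassCurve.Affine WeierstrassCurve.Affine.Point
open Fermat.Agent.Classic Fermat.Agent.ECRed Fermat.Agent.Torsion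
open Matrix

local notation "Qbar" => AlgebraicClosure ℚ
local notation "Γℚ" => (AlgebraicClosure ℚ ≃ₐ[ℚ] AlgebraicClosure ℚ)

/-- `GL₂(F)` is transitive on the non-zero vectors. -/
theorem exists_GL_mulVec_eq {F : Type*} [Field F] {v w : Fin 2 → F} (hv : v ≠ 0) (hw : w ≠ 0) :
    ∃ g : GL (Fin 2) F, (g : Matrix (Fin 2) (Fin 2) F) *ᵥ v = w := by
  have key : ∀ u : Fin 2 → F, u ≠ 0 →
      ∃ g : GL (Fin 2) F, (g : Matrix (Fin 2) (Fin 2) F) *ᵥ ![1, 0] = u := by
    intro u hu
    by_cases h0 : u 0 = 0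
    · have h1 : u 1 ≠ 0 := fun h1 => hu (by ext i; fin_cases i; exacts [h0, h1])
      refine ⟨Matrix.GeneralLinearGroup.mkOfDetNeZero !![u 0, 1; u 1, 0]
        (by simpa [Matrix.det_fin_two_of] using h1), ?_⟩
      change !![u 0, 1; u 1, 0] *ᵥ ![1, 0] = u
      ext i
      fin_cases i <;> simp [Matrix.mulVec, dotProduct, Fin.sum_univ_two]
    · refine ⟨Matrix.GeneralLinearGroup.mkOfDetNeZero !![u 0, 0; u 1, 1]
        (by simpa [Matrix.det_fin_two_of] using h0), ?_⟩
      change !![u 0, 0; u 1, 1] *ᵥ ![1, 0] = u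
      ext i
      fin_cases i <;> simp [Matrix.mulVec, dotProduct, Fin.sum_univ_two]
  obtain ⟨a, ha⟩ := key v hv
  obtain ⟨b, hb⟩ := key w hw
  refine ⟨b * a⁻¹, ?_⟩
  rw [← ha, Matrix.mulVec_mulVec, ← Units.val_mul, inv_mul_cancel_right, hb]

variable {W : WeierstrassCurve ℤ} (hΔ : W.Δ ≠ 0) {p : ℕ} [hp : Fact p.Prime]

/-- **The points of order `p` are conjugate** if the mod `p` representation is surjective. -/
theorem exists_smul_point_eq (hs : Function.Surjective (repP p hΔ)) {P Q : (EQ W).Point}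
    (hP : p • P = 0) (hP0 : P ≠ 0) (hQ : p • Q = 0) (hQ0 : Q ≠ 0) : ∃ σ : Γℚ, σ • P = Q := by
  obtain ⟨e, he⟩ := exists_equiv p hΔ
  let x : Submodule.torsionBy ℤ ((W.map (Int.castRingHom ℚ))⁄(AlgebraicClosure ℚ)).Point (p : ℕ) :=
    ⟨P, (mem_torsionBy_nat_iff p _).mpr hP⟩
  let y : Submodule.torsionBy ℤ ((W.map (Int.castRingHom ℚ))⁄(AlgebraicClosure ℚ)).Point (p : ℕ) :=
    ⟨Q, (mem_torsionBy_nat_iff p _).mpr hQ⟩
  have hx : e x ≠ 0 := fun h => hP0 (congrArg Subtype.val (e.map_eq_zero_iff.mp h))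
  have hy : e y ≠ 0 := fun h => hQ0 (congrArg Subtype.val (e.map_eq_zero_iff.mp h))
  obtain ⟨g, hg⟩ := exists_GL_mulVec_eq hx hy
  obtain ⟨σ, hσ⟩ := hs g
  refine ⟨σ, ?_⟩
  have h1 : σ • x = y := by
    apply e.injective
    rw [he, hσ, hg]
  exact congrArg Subtype.val h1

include hΔ in
theorem EQ_Δ_ne : WeierstrassCurve.Δ (EQ W) ≠ 0 := by
  rw [EQ_Δ]
  exact_mod_cast hΔ

theorem natCast_ne_zero_Qbar : ((p : ℕ) : Qbar) ≠ 0 := by exact_mod_cast hp.out.ne_zero

/-- The orbit of a point of order `p` has `p² - 1` elements. -/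
theorem ncard_orbit (hs : Function.Surjective (repP p hΔ)) {P : (EQ W).Point}
    (hP : p • P = 0) (hP0 : P ≠ 0) : (MulAction.orbit Γℚ P).ncard = p ^ 2 - 1 := by
  classical
  have h1 : MulAction.orbit Γℚ P =
      (LocE.tors (EQ_Δ_ne hΔ) (natCast_ne_zero_Qbar (p := p)) : Set (EQ W).Point) := by
    ext Q
    rw [Finset.mem_coe, LocE.mem_tors]
    constructor
    · rintro ⟨σ, rfl⟩
      refine ⟨?_, fun h => hP0 ?_⟩
      · have h2 : σ • (p • P) = p • (σ • P) := (Point.map σ.toAlgHom).map_nsmul p P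
        change p • (σ • P) = 0
        rw [← h2, hP]
        rfl
      · have h2 := congrArg (fun z => σ⁻¹ • z) h
        simp only [inv_smul_smul, smul_zero] at h2
        exact h2
    · rintro ⟨hQ, hQ0⟩
      obtain ⟨σ, hσ⟩ := exists_smul_point_eq hΔ hs hP hP0 hQ hQ0
      exact ⟨σ, hσ⟩
  rw [h1, Set.ncard_coe_finset, LocE.card_tors]

/-- A subgroup of finite index fixing a point of order `p` has index divisible by `p² - 1`. -/
theorem dvd_index_of_fixed (hs : Function.Surjective (repP p hΔ)) {H : Subgroup Γℚ}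
    {P : (EQ W).Point} (hP : p • P = 0) (hP0 : P ≠ 0) (hfix : ∀ σ ∈ H, σ • P = P) :
    p ^ 2 - 1 ∣ H.index := by
  rw [← ncard_orbit hΔ hs hP hP0, ← MulAction.index_stabilizer]
  exact Subgroup.index_dvd_of_le fun σ hσ => MulAction.mem_stabilizer_iff.mpr (hfix σ hσ)

include hΔ in
/-- **The field of definition of a point of order `p`** has degree divisible by `p² - 1`
(surjective mod `p` representation). -/
theorem dvd_finrank_of_fixed (hs : Function.Surjective (repP p hΔ))
    (F : IntermediateField ℚ (AlgebraicClosure ℚ)) {P : (EQ W).Point} (hP : p • P = 0)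
    (hP0 : P ≠ 0) (hfix : ∀ σ ∈ F.fixingSubgroup, σ • P = P) :
    p ^ 2 - 1 ∣ Module.finrank ℚ F := by
  rw [IntermediateField.finrank_eq_fixingSubgroup_index (AlgebraicClosure ℚ) F]
  exact dvd_index_of_fixed hΔ hs hP hP0 hfix

include hΔ in
/-- **A number field over which `W` has a point of order `p` has degree divisible by `p² - 1`**,
if the mod `p` representation is surjective. -/
theorem dvd_finrank_of_addOrderOf (hs : Function.Surjective (repP p hΔ)) {K : Type*} [Field K]
    [NumberField K] [DecidableEq K] {P : ((W.map (Int.castRingHom ℚ))⁄K).Point}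
    (hP : addOrderOf P = p) :
    p ^ 2 - 1 ∣ Module.finrank ℚ K := by
  let i : K →ₐ[ℚ] AlgebraicClosure ℚ := IsAlgClosed.lift
  have hinj : Function.Injective (Point.map (W' := W.map (Int.castRingHom ℚ)) i) :=
    Point.map_injective i
  have h1 : p • Point.map i P = 0 := by
    rw [← map_nsmul, ← hP, addOrderOf_nsmul_eq_zero, _root_.map_zero]
  have h2 : Point.map i P ≠ 0 := by
    intro h
    have h3 : P = 0 := hinj (by rw [h, _root_.map_zero])
    rw [h3, addOrderOf_zero] at hP
    exact hp.out.one_lt.ne hP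
  have h3 : Module.finrank ℚ K = Module.finrank ℚ i.fieldRange :=
    (LinearEquiv.finrank_eq (AlgEquiv.ofInjectiveField i).toLinearEquiv)
  rw [h3]
  refine dvd_finrank_of_fixed hΔ hs i.fieldRange h1 h2 fun σ hσ => ?_
  have h4 : ∀ x : K, σ (i x) = i x := fun x =>
    (IntermediateField.mem_fixingSubgroup_iff _ _).mp hσ _ ⟨x, rfl⟩
  rcases P with _ | ⟨x, y, h⟩
  · rfl
  · rw [algEquiv_smul_def]
    change Point.some (σ (i x)) (σ (i y)) _ = Point.some (i x) (i y) _
    simp only [h4]

/-! ### The division polynomial -/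

theorem xOf_smul (σ : Γℚ) {P : (EQ W).Point} (hP0 : P ≠ 0) : xOf (σ • P) = σ (xOf P) := by
  rcases P with _ | ⟨x, y, h⟩
  · exact absurd rfl hP0
  · rfl

include hΔ in
/-- **The `p`-division polynomial is irreducible over `ℚ`** (of degree `(p² - 1) / 2`), if the
mod `p` representation is surjective, `p` odd. -/
theorem irreducible_preΨ (hp2 : p ≠ 2) (hs : Function.Surjective (repP p hΔ)) :
    Irreducible ((W.map (Int.castRingHom ℚ)).preΨ' p) := by
  classical
  have hodd : ¬ Even p := fun h => hp2 (hp.out.even_iff.mp h)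
  set f := (W.map (Int.castRingHom ℚ)).preΨ' p with hf
  have hpQ : ((p : ℕ) : ℚ) ≠ 0 := by exact_mod_cast hp.out.ne_zero
  have hp1 := hp.out.one_lt
  have hdeg : f.natDegree = (p ^ 2 - 1) / 2 := by
    rw [hf, natDegree_preΨ' _ hpQ, if_neg hodd]
  have hf0 : f ≠ 0 := preΨ'_ne_zero _ hpQ
  set T := LocE.tors (EQ_Δ_ne hΔ) (natCast_ne_zero_Qbar (p := p)) with hT
  have hTcard : T.card = p ^ 2 - 1 := LocE.card_tors _ _
  have hsq : 1 < p ^ 2 := Nat.one_lt_pow two_ne_zero hp1
  have hTne : T.Nonempty := by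
    rw [← Finset.card_pos, hTcard]
    omega
  obtain ⟨P, hPT⟩ := hTne
  obtain ⟨hP, hP0⟩ := (LocE.mem_tors _ _).mp hPT
  -- the abscissae are roots
  have hroot : aeval (xOf P) f = 0 := by
    rcases P with _ | ⟨x, y, h⟩
    · exact absurd rfl hP0
    have h1 := (nsmul_eq_zero_iff h p).mp hP
    rw [WeierstrassCurve.ΨSq_ofNat, if_neg hodd, mul_one, eval_pow, sq_eq_zero_iff] at h1
    change aeval x f = 0
    rw [aeval_def, ← eval_map, hf, ← map_preΨ']
    exact h1
  have hint : IsIntegral ℚ (xOf P) := Algebra.IsIntegral.isIntegral _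
  set m := minpoly ℚ (xOf P) with hm
  have hdvd : m ∣ f := minpoly.dvd ℚ _ hroot
  have hm0 : m ≠ 0 := minpoly.ne_zero hint
  -- all the abscissae are roots of the minimal polynomial
  have hS : (T.image xOf).val ≤ (m.map (algebraMap ℚ Qbar)).roots := by
    rw [Multiset.le_iff_subset (T.image xOf).nodup]
    intro s hs'
    rw [Finset.mem_val, Finset.mem_image] at hs'
    obtain ⟨Q, hQT, rfl⟩ := hs'
    obtain ⟨hQ, hQ0⟩ := (LocE.mem_tors _ _).mp hQT
    obtain ⟨σ, rfl⟩ := exists_smul_point_eq hΔ hs hP hP0 hQ hQ0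
    rw [mem_roots (Polynomial.map_ne_zero hm0), IsRoot, eval_map, ← aeval_def, xOf_smul σ hP0,
      ← AlgEquiv.coe_toAlgHom, aeval_algHom_apply, minpoly.aeval, _root_.map_zero]
  have hScard : (T.image xOf).card ≤ m.natDegree := by
    calc (T.image xOf).card ≤ Multiset.card (m.map (algebraMap ℚ Qbar)).roots :=
          Multiset.card_le_card hS
      _ ≤ (m.map (algebraMap ℚ Qbar)).natDegree := card_roots' _
      _ = m.natDegree := natDegree_map _
  have h2 : T.card ≤ 2 * (T.image xOf).card := by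
    refine Finset.card_le_mul_card_image T 2 fun s hs' => ?_
    rw [Finset.mem_image] at hs'
    obtain ⟨Q, hQT, rfl⟩ := hs'
    obtain ⟨-, hQ0⟩ := (LocE.mem_tors _ _).mp hQT
    refine (Finset.card_le_card (t := {Q, -Q}) fun R hR => ?_).trans Finset.card_le_two
    rw [Finset.mem_filter] at hR
    obtain ⟨-, hR0⟩ := (LocE.mem_tors _ _).mp hR.1
    rw [Finset.mem_insert, Finset.mem_singleton]
    exact LocE.eq_or_eq_neg_of_xOf_eq hR0 hQ0 hR.2
  have h3 : f.natDegree ≤ m.natDegree := by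
    rw [hdeg]
    omega
  obtain ⟨c, hc⟩ := hdvd
  have hc0 : c ≠ 0 := by
    rintro rfl
    rw [mul_zero] at hc
    exact hf0 hc
  have hcdeg : c.natDegree = 0 := by
    have h4 := natDegree_mul hm0 hc0
    rw [← hc] at h4
    omega
  have hcu : IsUnit c := by
    rw [isUnit_iff_degree_eq_zero, degree_eq_natDegree hc0, hcdeg]
    rfl
  have hass : Associated m f := by
    rw [hc]
    exact (associated_mul_unit_right m c hcu)
  exact hass.irreducible (minpoly.irreducible hint)

/-! ### Semistable curves -/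

/-- **A number field over which the semistable elliptic curve `W/ℚ` has a point of order `p`, has
degree divisible by `p² - 1`**, for `p = 11` and for every prime `p ≥ 17`. -/
theorem sq_sub_one_dvd_finrank {p : ℕ} (hp : p.Prime) (h : p = 11 ∨ 17 ≤ p) (hΔ : W.Δ ≠ 0)
    (hW : W.IsSemistableModel) {K : Type*} [Field K] [NumberField K] [DecidableEq K]
    {P : ((W.map (Int.castRingHom ℚ))⁄K).Point} (hP : addOrderOf P = p) :
    p ^ 2 - 1 ∣ Module.finrank ℚ K := by
  have : Fact p.Prime := ⟨hp⟩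
  exact dvd_finrank_of_addOrderOf hΔ (repP_surjective_of_ge hΔ h hW) hP

/-- **The `p`-division polynomial of a semistable elliptic curve over `ℚ` is irreducible** for
`p = 11` and for every prime `p ≥ 17`. -/
theorem irreducible_preΨ_of_ge {p : ℕ} (hp : p.Prime) (h : p = 11 ∨ 17 ≤ p) (hΔ : W.Δ ≠ 0)
    (hW : W.IsSemistableModel) : Irreducible ((W.map (Int.castRingHom ℚ)).preΨ' p) := by
  have : Fact p.Prime := ⟨hp⟩
  exact irreducible_preΨ hΔ (by omega) (repP_surjective_of_ge hΔ h hW)

/-- `W` semistable, `p` odd: the `p`-division polynomial is irreducible if `W[p]` is. -/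
theorem irreducible_preΨ_of_semistable {p : ℕ} (hp : p.Prime) (hp2 : p ≠ 2) (hΔ : W.Δ ≠ 0)
    (hW : W.IsSemistableModel) (hirr : W.ModRepIsIrreducible p) :
    Irreducible ((W.map (Int.castRingHom ℚ)).preΨ' p) := by
  have : Fact p.Prime := ⟨hp⟩
  exact irreducible_preΨ hΔ hp2 (repP_surjective hΔ hW hp2 hirr)

/-- **No point of order `p` over an abelian extension of `ℚ`** (finite or infinite), `W`
semistable, `p = 11` or `p ≥ 17` prime. -/
theorem eq_zero_of_fixed_abelian {p : ℕ} (hp : p.Prime) (h : p = 11 ∨ 17 ≤ p) (hΔ : W.Δ ≠ 0)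
    (hW : W.IsSemistableModel) (F : IntermediateField ℚ (AlgebraicClosure ℚ)) [IsGalois ℚ F]
    (hF : ∀ σ τ : F ≃ₐ[ℚ] F, σ * τ = τ * σ) {P : (EQ W).Point} (hP : p • P = 0)
    (hfix : ∀ σ ∈ F.fixingSubgroup, σ • P = P) : P = 0 := by
  by_contra hP0
  refine not_exists_stable_subgroup_over_abelian hΔ hp h hW F hF
    ⟨AddSubgroup.zmultiples P, ?_, fun σ hσ x hx => ?_⟩
  · have : Fact p.Prime := ⟨hp⟩
    rw [Nat.card_zmultiples, addOrderOf_eq_prime hP hP0]
  · obtain ⟨n, rfl⟩ := AddSubgroup.mem_zmultiples_iff.mp hx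
    have h1 : σ • (n • P) = n • (σ • P) := (Point.map σ.toAlgHom).map_zsmul n P
    rw [h1, hfix σ hσ]
    exact AddSubgroup.zsmul_mem _ (AddSubgroup.mem_zmultiples P) n

namespace InvGal

/-- **A number field over which `y² + y = x³ - x` has a point of order `p` has degree divisible by
`p² - 1`**, for every prime `p`. -/
theorem sq_sub_one_dvd_finrank37 {p : ℕ} (hp : p.Prime) {K : Type*} [Field K] [NumberField K]
    [DecidableEq K]
    {P : ((W37.map (Int.castRingHom ℚ))⁄K).Point} (hP : addOrderOf P = p) :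
    p ^ 2 - 1 ∣ Module.finrank ℚ K := by
  have : Fact p.Prime := ⟨hp⟩
  exact dvd_finrank_of_addOrderOf W37_Δ_ne (repP37_surjective_all p) hP

/-- **The `p`-division polynomial of `y² + y = x³ - x` is irreducible for every odd prime `p`.** -/
theorem irreducible_preΨ37 {p : ℕ} (hp : p.Prime) (hp2 : p ≠ 2) :
    Irreducible ((W37.map (Int.castRingHom ℚ)).preΨ' p) := by
  have : Fact p.Prime := ⟨hp⟩
  exact irreducible_preΨ W37_Δ_ne hp2 (repP37_surjective hp2)

end InvGal

end Fermat.Agent.Cor
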