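import Fermat.Agent.Corollaries.Surj.Fields

/-!
# Fields of definition of points of prime order

If `Gal(ℚ̄/ℚ)` acts on `W[p]` through all of `GL₂(𝔽_p)`, it permutes the `p² - 1` points of order
`p` transitively (`orbit_eq`). Hence a point of order `p` is defined only over number fields of
degree `≥ p² - 1` (`le_finrank_of_fixed`). For a semistable elliptic curve over `ℚ` this applies to
`p = 11` and to all primes `p ≥ 17` (`le_finrank_of_fixed_of_ge`); moreover there are no points of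
order `p` over abelian extensions of `ℚ` (`addOrderOf_ne_of_fixed_abelian`).
-/

set_option autoImplicit false

noncomputable section

namespace Fermat.Agent.Cor

open WeierstrassCurve WeierstrassCurve.Affine WeierstrassCurve.Affine.Point
open Fermat.Agent.ECFrob Fermat.Agent.Classic
open Matrix

local notation "Γℚ" => (AlgebraicClosure ℚ ≃ₐ[ℚ] AlgebraicClosure ℚ)

/-- A matrix with given first column `v ≠ 0`. -/
theorem exists_GL_mulVec_single {K : Type*} [Field K] {v : Fin 2 → K} (hv : v ≠ 0) :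
    ∃ g : GL (Fin 2) K, (g : Matrix (Fin 2) (Fin 2) K) *ᵥ (Pi.single 0 1) = v := by
  by_cases h0 : v 0 = 0
  · have h1 : v 1 ≠ 0 := by
      intro h1
      exact hv (funext fun i => by fin_cases i; exacts [h0, h1])
    refine ⟨Matrix.GeneralLinearGroup.mkOfDetNeZero !![0, 1; v 1, 0] (by simpa using h1), ?_⟩
    change (!![0, 1; v 1, 0] : Matrix (Fin 2) (Fin 2) K) *ᵥ (Pi.single 0 1) = v
    rw [Matrix.mulVec_single_one]
    ext i
    fin_cases i
    · simp [h0]
    · simp
  · refine ⟨Matrix.GeneralLinearGroup.mkOfDetNeZero !![v 0, 0; v 1, 1] (by simpa using h0), ?_⟩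
    change (!![v 0, 0; v 1, 1] : Matrix (Fin 2) (Fin 2) K) *ᵥ (Pi.single 0 1) = v
    rw [Matrix.mulVec_single_one]
    ext i
    fin_cases i <;> simp

/-- `GL₂(K)` acts transitively on the nonzero vectors. -/
theorem exists_GL_mulVec {K : Type*} [Field K] {v w : Fin 2 → K} (hv : v ≠ 0) (hw : w ≠ 0) :
    ∃ g : GL (Fin 2) K, (g : Matrix (Fin 2) (Fin 2) K) *ᵥ v = w := by
  obtain ⟨a, ha⟩ := exists_GL_mulVec_single hv
  obtain ⟨b, hb⟩ := exists_GL_mulVec_single hw
  refine ⟨b * a⁻¹, ?_⟩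
  rw [← ha, Matrix.mulVec_mulVec, ← Units.val_mul, mul_assoc, inv_mul_cancel, mul_one, hb]

variable {W : WeierstrassCurve ℤ} (hΔ : W.Δ ≠ 0) {p : ℕ} [hp : Fact p.Prime]

include hΔ

/-- **The points of order `p` form one orbit** if the mod `p` representation is surjective. -/
theorem orbit_eq (hs : Function.Surjective (repP p hΔ))
    {P : ((W.map (Int.castRingHom ℚ))⁄(AlgebraicClosure ℚ)).Point} (hP : p • P = 0)
    (hP0 : P ≠ 0) : MulAction.orbit Γℚ P =
      {Q : ((W.map (Int.castRingHom ℚ))⁄(AlgebraicClosure ℚ)).Point | p • Q = 0 ∧ Q ≠ 0} := by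
  obtain ⟨e, he⟩ := exists_equiv p hΔ
  ext Q
  constructor
  · rintro ⟨σ, rfl⟩
    refine ⟨?_, fun h => hP0 ?_⟩
    · have h1 := algEquiv_smul_zsmul (W' := W.map (Int.castRingHom ℚ)) σ (p : ℤ) P
      rw [natCast_zsmul, natCast_zsmul, hP, smul_zero] at h1
      exact h1.symm
    · exact (smul_eq_zero_iff_eq σ).mp h
  · rintro ⟨hQ, hQ0⟩
    let x : Submodule.torsionBy ℤ ((W.map (Int.castRingHom ℚ))⁄(AlgebraicClosure ℚ)).Point
      ((p : ℕ) : ℤ) := ⟨P, (Fermat.Agent.Torsion.mem_torsionBy_nat_iff p _).mpr hP⟩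
    let y : Submodule.torsionBy ℤ ((W.map (Int.castRingHom ℚ))⁄(AlgebraicClosure ℚ)).Point
      ((p : ℕ) : ℤ) := ⟨Q, (Fermat.Agent.Torsion.mem_torsionBy_nat_iff p _).mpr hQ⟩
    have hx0 : e x ≠ 0 := fun h =>
      hP0 (congrArg Subtype.val ((LinearEquiv.map_eq_zero_iff e).mp h))
    have hy0 : e y ≠ 0 := fun h =>
      hQ0 (congrArg Subtype.val ((LinearEquiv.map_eq_zero_iff e).mp h))
    obtain ⟨g, hg⟩ := exists_GL_mulVec hx0 hy0
    obtain ⟨σ, hσ⟩ := hs g
    refine ⟨σ, ?_⟩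
    have h1 : σ • x = y := by
      apply e.injective
      rw [he, hσ, hg]
    exact congrArg Subtype.val h1

/-- The number of points of order `p`. -/
theorem ncard_order_p :
    {Q : ((W.map (Int.castRingHom ℚ))⁄(AlgebraicClosure ℚ)).Point | p • Q = 0 ∧ Q ≠ 0}.ncard =
      p ^ 2 - 1 := by
  have hΔ' : ((W.map (Int.castRingHom ℚ))⁄(AlgebraicClosure ℚ) :
      WeierstrassCurve (AlgebraicClosure ℚ)).Δ ≠ 0 := by
    rw [Fermat.Agent.ECRed.EQ_Δ]
    exact_mod_cast hΔ
  have hc : Nat.card {P : ((W.map (Int.castRingHom ℚ))⁄(AlgebraicClosure ℚ)).Point //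
      p • P = 0} = p ^ 2 :=
    Torsion.card_torsion hΔ' (by exact_mod_cast hp.out.ne_zero)
  have h1 : {Q : ((W.map (Int.castRingHom ℚ))⁄(AlgebraicClosure ℚ)).Point | p • Q = 0}.ncard =
      p ^ 2 := hc
  have h2 : {Q : ((W.map (Int.castRingHom ℚ))⁄(AlgebraicClosure ℚ)).Point | p • Q = 0 ∧ Q ≠ 0} =
      {Q : ((W.map (Int.castRingHom ℚ))⁄(AlgebraicClosure ℚ)).Point | p • Q = 0} \ {0} := by
    ext Q
    simp
  rw [h2, Set.ncard_sdiff_singleton_of_mem (by simp), h1]

/-- **A point of order `p` is defined only over number fields of degree `≥ p² - 1`** if the mod `p`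
representation is surjective. -/
theorem le_finrank_of_fixed (hs : Function.Surjective (repP p hΔ))
    (F : IntermediateField ℚ (AlgebraicClosure ℚ)) [FiniteDimensional ℚ F]
    {P : ((W.map (Int.castRingHom ℚ))⁄(AlgebraicClosure ℚ)).Point} (hP : p • P = 0)
    (hP0 : P ≠ 0) (hfix : ∀ σ ∈ F.fixingSubgroup, σ • P = P) :
    p ^ 2 - 1 ≤ Module.finrank ℚ F := by
  have h1 : Module.finrank ℚ F = F.fixingSubgroup.index :=
    IntermediateField.finrank_eq_fixingSubgroup_index (AlgebraicClosure ℚ) F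
  have h2 : 0 < Module.finrank ℚ F := Module.finrank_pos
  have h3 : (MulAction.stabilizer Γℚ P).index = p ^ 2 - 1 := by
    rw [MulAction.index_stabilizer, orbit_eq hΔ hs hP hP0, ncard_order_p hΔ]
  have h4 : (MulAction.stabilizer Γℚ P).index ∣ F.fixingSubgroup.index :=
    Subgroup.index_dvd_of_le fun σ hσ => hfix σ hσ
  rw [← h3, h1]
  rw [h1] at h2
  exact Nat.le_of_dvd h2 h4

/-- **A semistable elliptic curve over `ℚ` has no point of order `p` over a number field of degree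
`< p² - 1`**, for `p = 11` and for every prime `p ≥ 17`. -/
theorem le_finrank_of_fixed_of_ge (h : p = 11 ∨ 17 ≤ p) (hW : W.IsSemistableModel)
    (F : IntermediateField ℚ (AlgebraicClosure ℚ)) [FiniteDimensional ℚ F]
    {P : ((W.map (Int.castRingHom ℚ))⁄(AlgebraicClosure ℚ)).Point} (hP : addOrderOf P = p)
    (hfix : ∀ σ ∈ F.fixingSubgroup, σ • P = P) : p ^ 2 - 1 ≤ Module.finrank ℚ F := by
  refine le_finrank_of_fixed hΔ (repP_surjective_of_ge hΔ h hW) F ?_ ?_ hfix
  · exact addOrderOf_dvd_iff_nsmul_eq_zero.mp (dvd_of_eq hP)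
  · rintro rfl
    rw [addOrderOf_zero] at hP
    exact hp.out.one_lt.ne hP

/-- **A semistable elliptic curve over `ℚ` has no point of order `p` over an abelian extension of
`ℚ`** (finite or infinite), for `p = 11` and for every prime `p ≥ 17`. -/
theorem addOrderOf_ne_of_fixed_abelian (h : p = 11 ∨ 17 ≤ p) (hW : W.IsSemistableModel)
    (F : IntermediateField ℚ (AlgebraicClosure ℚ)) [IsGalois ℚ F]
    (hF : ∀ σ τ : F ≃ₐ[ℚ] F, σ * τ = τ * σ)
    {P : ((W.map (Int.castRingHom ℚ))⁄(AlgebraicClosure ℚ)).Point}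
    (hfix : ∀ σ ∈ F.fixingSubgroup, σ • P = P) : addOrderOf P ≠ p := by
  intro hP
  refine not_exists_stable_subgroup_over_abelian hΔ hp.out h hW F hF
    ⟨AddSubgroup.zmultiples P, by rw [Nat.card_zmultiples, hP], fun σ hσ x hx => ?_⟩
  obtain ⟨n, rfl⟩ := AddSubgroup.mem_zmultiples_iff.mp hx
  rw [algEquiv_smul_zsmul (W' := W.map (Int.castRingHom ℚ)) σ n P, hfix σ hσ]
  exact AddSubgroup.zsmul_mem _ (AddSubgroup.mem_zmultiples P) _

end Fermat.Agent.Cor
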