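import Fermat.Agent.Corollaries.Surj.SerreUnip
import Fermat.Agent.Corollaries.Surj.Adelic
import Fermat.Agent.Corollaries.Surj.Composite
import Fermat.Agent.Corollaries.Surj.TwoTors
import Fermat.Agent.Corollaries.Surj.Mazur

/-!
# Surjectivity on the Tate module for every prime `p`, `p = 2` and `p = 3` included

Let `W` be a Weierstrass equation over `ℤ`, `p` a prime such that `W[p]` is irreducible, and
`q ≠ p` a prime of multiplicative reduction with `p ∤ v_q(Δ)`.  Then `Gal(ℚ̄/ℚ)` acts on `T_p W`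
through all automorphisms (`tate_surjective_of_isMultAt`) and on `W[pⁿ]` through all automorphisms
(`surjMod_pow_of_isMultAt`).  No modularity is used.

For `p ≥ 5` the lifting from `W[p]` to `T_p W` is Serre's lemma; for `p = 2, 3` that lemma is false
and the unipotent element of the inertia group at `q` is used
(`Serre.exists_congr_of_unipotent_all`).

For semistable `W` and odd `p` such a prime `q` always exists (Ribet and Wiles), hence
`tate_surjective_of_semistable`: irreducible modulo `p` implies surjective on `T_p W`, `p = 3`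
included.
-/

set_option autoImplicit false

noncomputable section

open WeierstrassCurve WeierstrassCurve.Affine WeierstrassCurve.Affine.Point Module
open FermatAgent.ECVal Fermat.Agent.ECRed Fermat.Agent.Tate Fermat.Agent.Classic
open scoped WeierstrassCurve.Affine

namespace Fermat.Agent.Cor

local notation "Γℚ" => (AlgebraicClosure ℚ ≃ₐ[ℚ] AlgebraicClosure ℚ)

variable {W : WeierstrassCurve ℤ} {p q : ℕ}

/-! ### Inertia at `q` is unipotent -/

/-- **Inertia at an odd prime `q` of multiplicative reduction is unipotent** on the points of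
`p`-power order, every prime `p ≠ q` (`p = 2` included). -/
theorem inertia_smul_smul_sub (hW : IsMultAt W q) (hq2 : q ≠ 2) (hp : p.Prime) (hqp : q ≠ p)
    {A : ValuationSubring (AlgebraicClosure ℚ)} (hA : A.LiesOverPrime q) {σ : Γℚ}
    (hσ : σ ∈ A.inertiaSubgroupIn ℚ) {n : ℕ} {P : (EQ W).Point} (hP : p ^ n • P = 0) :
    σ • (σ • P - P) = σ • P - P := by
  classical
  obtain ⟨Q, hQ⟩ := inertia_smul_sub_mem_E0 hW hq2 hA hσ P
  refine smul_eq_of_torsion_of_mem_E0 (W' := W.map (Int.castRingHom ℚ)) hσ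
    (val_prime_eq_one p hp hW.prime hqp hA n) (redEk W A) hQ ?_
  rw [nsmul_sub, hP, sub_zero, ← natCast_zsmul, ← Point.algEquiv_smul_zsmul, natCast_zsmul, hP,
    smul_zero]

/-- **Inertia at a prime `q ≠ p` of multiplicative reduction is unipotent** on `T_p W`, for all
primes `p` and `q`. -/
theorem tateRep_sub_one_sq [hp : Fact p.Prime] (hΔ : (W.map (Int.castRingHom ℚ)).Δ ≠ 0)
    (hW : IsMultAt W q) (hqp : q ≠ p)
    {A : ValuationSubring (AlgebraicClosure ℚ)} (hA : A.LiesOverPrime q) {σ : Γℚ}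
    (hσ : σ ∈ A.inertiaSubgroupIn ℚ) :
    ((tateRep (W.map (Int.castRingHom ℚ)) hΔ p).ρ σ - 1) *
      ((tateRep (W.map (Int.castRingHom ℚ)) hΔ p).ρ σ - 1) = 0 := by
  by_cases hp2 : p = 2
  · have hq2 : q ≠ 2 := fun h => hqp (h.trans hp2.symm)
    refine LinearMap.ext fun (v : TMod p (EQ W).Point) => TMod.ext fun n => ?_
    have h1 := inertia_smul_smul_sub hW hq2 hp.out hqp hA hσ (TMod.pow_smul_apply v n)
    have h2 : σ • (σ • v n - v n) - (σ • v n - v n) = 0 := sub_eq_zero.mpr h1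
    exact h2
  · have hch := tateRep_unipotent hΔ p hW hqp hp2 A hA σ hσ
    have hCH := LinearMap.aeval_self_charpoly ((tateRep (W.map (Int.castRingHom ℚ)) hΔ p).ρ σ)
    rw [hch] at hCH
    rwa [map_pow, map_sub, Polynomial.aeval_X, map_one, sq] at hCH

/-! ### Inertia at `q` moves a point of order `p` if `p ∤ v_q(Δ)` -/

/-- Some element of inertia at `q` moves a point of order two if `v_q(Δ)` is odd. -/
theorem exists_inertia_ne_two_of_odd (hW : IsMultAt W q)
    (hv : ¬ 2 ∣ padicValInt q W.Δ) {A : ValuationSubring (AlgebraicClosure ℚ)}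
    (hA : A.LiesOverPrime q) :
    ∃ σ ∈ A.inertiaSubgroupIn ℚ, ¬ ∀ x : Submodule.torsionBy ℤ
      ((W.map (Int.castRingHom ℚ))⁄(AlgebraicClosure ℚ)).Point ((2 : ℕ) : ℤ), σ • x = x := by
  by_contra hcon
  push Not at hcon
  obtain ⟨x, y, z, -, hd, hroot⟩ := exists_two_roots hW.ne
  have hx0 : psiTwo W x = 0 := by rw [hroot]; ring
  have hy0 : psiTwo W y = 0 := by rw [hroot]; ring
  have hz0 : psiTwo W z = 0 := by rw [hroot]; ring
  obtain ⟨δ, hδ⟩ : ∃ δ, δ = 4 * ((x - y) * (x - z) * (y - z)) := ⟨_, rfl⟩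
  have h0 : ((W.Δ : ℤ) : AlgebraicClosure ℚ) ≠ 0 := by exact_mod_cast hW.ne
  have hδ0 : δ ≠ 0 := by
    rintro h
    apply h0
    rw [← hd, ← hδ, h]
    ring
  have hfix : ∀ σ ∈ A.inertiaSubgroupIn ℚ, σ δ = δ := by
    intro σ hσ
    have h1 := (forall_smul_iff hW.ne σ).mp (hcon σ hσ)
    rw [hδ]
    simp only [map_mul, map_sub, map_ofNat, h1 x hx0, h1 y hy0, h1 z hz0]
  obtain ⟨n, hn⟩ := val_int_of_inertia_fixed hW.prime hA hδ0 hfix
  have h3 := valOf_ratCast hW.prime hA (r := ((W.Δ : ℤ) : ℚ)) (by exact_mod_cast hW.ne)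
  rw [map_intCast, ← hd, ← hδ, padicValRat.of_int] at h3
  have h4 := hn.sq.unique h3
  have h5 : 2 * n = (padicValInt q W.Δ : ℤ) := by exact_mod_cast h4
  have h6 : ((2 : ℕ) : ℤ) ∣ ((padicValInt q W.Δ : ℕ) : ℤ) := ⟨n, h5.symm⟩
  exact hv (Int.natCast_dvd_natCast.mp h6)

/-- **Some element of inertia at `q` moves a point of order `p`**, if the reduction at `q ≠ p` is
multiplicative and `p ∤ v_q(Δ)`, all primes `p` and `q`. -/
theorem exists_inertia_ne_of_not_dvd [hp : Fact p.Prime] (hW : IsMultAt W q)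
    (hv : ¬ p ∣ padicValInt q W.Δ) {A : ValuationSubring (AlgebraicClosure ℚ)}
    (hA : A.LiesOverPrime q) :
    ∃ σ ∈ A.inertiaSubgroupIn ℚ, ¬ ∀ x : Submodule.torsionBy ℤ
      ((W.map (Int.castRingHom ℚ))⁄(AlgebraicClosure ℚ)).Point ((p : ℕ) : ℤ), σ • x = x := by
  by_cases hp2 : p = 2
  · subst hp2
    exact exists_inertia_ne_two_of_odd hW hv hA
  · obtain ⟨σ, hσI, hσ⟩ := exists_inertia_order hW hp.out hp2 hv hA
    refine ⟨σ, hσI, fun h => ?_⟩
    have h1 : MulAction.toPermHom Γℚ (Submodule.torsionBy ℤ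
        ((W.map (Int.castRingHom ℚ))⁄(AlgebraicClosure ℚ)).Point (p : ℤ)) σ = 1 :=
      Equiv.Perm.ext fun x => h x
    have h2 : orderOf (MulAction.toPermHom Γℚ (Submodule.torsionBy ℤ
        ((W.map (Int.castRingHom ℚ))⁄(AlgebraicClosure ℚ)).Point (p : ℤ)) σ) = p := hσ
    rw [h1, orderOf_one] at h2
    exact hp.out.one_lt.ne h2

/-! ### Surjectivity modulo `p` -/

/-- `W[p]` irreducible, `q` a prime of multiplicative reduction with `p ∤ v_q(Δ)`: the
representation on `W[p]` is surjective. Every prime `p`. -/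
theorem repP_surjective_of_isMultAt [hp : Fact p.Prime] (hW : IsMultAt W q)
    (hv : ¬ p ∣ padicValInt q W.Δ) (hirr : W.ModRepIsIrreducible p) :
    Function.Surjective (repP p hW.ne) := by
  by_cases hp2 : p = 2
  · subst hp2
    refine (repP_two_surjective_iff hW.ne).mpr ⟨hirr, ?_⟩
    rintro ⟨m, hm⟩
    apply hv
    have : Fact q.Prime := ⟨hW.prime⟩
    have hm0 : m ≠ 0 := by
      rintro rfl
      exact hW.ne (by rw [hm, mul_zero])
    rw [hm, padicValInt.mul hm0 hm0]
    exact ⟨padicValInt q m, (two_mul _).symm⟩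
  · obtain ⟨A, hA⟩ := Fermat.Agent.Frob.exists_liesOverPrime q hW.prime
    obtain ⟨σ, -, hσ⟩ := exists_inertia_order hW hp.out hp2 hv hA
    exact repP_surjective_of_orderOf hW.ne hirr ⟨σ, (orderOf_repP hW.ne σ).trans hσ⟩

theorem surjMod_of_isMultAt [hp : Fact p.Prime] (hW : IsMultAt W q)
    (hv : ¬ p ∣ padicValInt q W.Δ) (hirr : W.ModRepIsIrreducible p) : SurjMod W p := fun g =>
  exists_smul_eq_of_repP_surjective hW.ne (repP_surjective_of_isMultAt hW hv hirr) g

/-! ### Surjectivity on the Tate module -/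

section tate

variable [hp : Fact p.Prime]

/-- `σ` acts trivially on `W[p]` if its matrix is congruent to `1` modulo `p`. -/
theorem Tb.smul_eq_of_cg (X : Tb W p) {σ : Γℚ} (h : Serre.Cg p 1 (X.M σ) 1)
    (x : Submodule.torsionBy ℤ
      ((W.map (Int.castRingHom ℚ))⁄(AlgebraicClosure ℚ)).Point ((p : ℕ) : ℤ)) : σ • x = x := by
  rw [Tb.cg_iff_map, ← X.map_M σ 1, Matrix.map_one _ (_root_.map_zero _) (_root_.map_one _),
    ← LinearMap.toMatrix_one (X.bn 1)] at h
  have h1 := (LinearMap.toMatrix (X.bn 1) (X.bn 1)).injective h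
  have hx : (x : (EQ W).Point) ∈ Submodule.torsionBy ℤ (EQ W).Point ((p ^ 1 : ℕ) : ℤ) := by
    rw [pow_one]
    exact x.2
  have h2 := congrArg Subtype.val (LinearMap.congr_fun h1 ⟨x, hx⟩)
  exact Subtype.ext h2

/-- **The image of Galois modulo `pⁿ` is everything**, for every prime `p`: `W[p]` irreducible and
`q ≠ p` a prime of multiplicative reduction with `p ∤ v_q(Δ)`. -/
theorem Tb.exists_congr_of_isMultAt (X : Tb W p) (hW : IsMultAt W q) (hqp : q ≠ p)
    (hv : ¬ p ∣ padicValInt q W.Δ) (hirr : W.ModRepIsIrreducible p) (n : ℕ)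
    {g : Matrix (Fin 2) (Fin 2) ℤ_[p]} (hg : IsUnit g.det) : ∃ σ, Serre.Cg p n (X.M σ) g := by
  obtain ⟨A, hA⟩ := Fermat.Agent.Frob.exists_liesOverPrime q hW.prime
  obtain ⟨τ, hτI, hτ⟩ := exists_inertia_ne_of_not_dvd (p := p) hW hv hA
  have h' : SurjMod W (p ^ 1) := by
    rw [pow_one]
    exact surjMod_of_isMultAt hW hv hirr
  have hN : (X.M τ - 1) * (X.M τ - 1) = 0 := by
    have h1 : (TMod.rep p Γℚ ((W.map (Int.castRingHom ℚ))⁄(AlgebraicClosure ℚ)).Point τ - 1) *
        (TMod.rep p Γℚ ((W.map (Int.castRingHom ℚ))⁄(AlgebraicClosure ℚ)).Point τ - 1) = 0 :=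
      tateRep_sub_one_sq X.hE hW hqp hA hτI
    have h2 := congrArg (LinearMap.toMatrix X.b X.b) h1
    rw [LinearMap.toMatrix_mul, map_sub, LinearMap.toMatrix_one, _root_.map_zero] at h2
    exact h2
  refine Serre.exists_congr_of_unipotent_all (ρ := X.M) (τ := τ) (N := X.M τ - 1)
    (fun g hg => X.exists_of_surjMod h' g hg) hN (by rw [add_sub_cancel]) (fun h0 => ?_)
    (fun n u hu => ?_) n hg
  · apply hτ
    refine X.smul_eq_of_cg ?_
    rwa [Serre.Cg, sub_zero] at h0
  · obtain ⟨σ, hσ⟩ := exists_cyc n hu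
    exact ⟨σ, dvd_iff_toZModPow.2 (by rw [X.det_M σ, hσ])⟩

/-- **`Gal(ℚ̄/ℚ)` acts on `W[pⁿ]` through all automorphisms**, for every prime `p` (`p = 2` and
`p = 3` included), if `W[p]` is irreducible and there is a prime `q ≠ p` of multiplicative reduction
with `p ∤ v_q(Δ)`. -/
theorem surjMod_pow_of_isMultAt (hW : IsMultAt W q) (hqp : q ≠ p)
    (hv : ¬ p ∣ padicValInt q W.Δ) (hirr : W.ModRepIsIrreducible p) (n : ℕ) :
    SurjMod W (p ^ n) := by
  obtain ⟨X⟩ := exists_tb (W := W) (p := p) hW.ne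
  intro e
  obtain ⟨G, hG, h1⟩ := X.exists_lift n e
  obtain ⟨σ, hσ⟩ := X.exists_congr_of_isMultAt hW hqp hv hirr n hG
  exact ⟨σ, h1 σ hσ⟩

/-- If `Gal(ℚ̄/ℚ)` acts through all automorphisms on `W[pⁿ]` for all `n`, then also on `T_p W`,
every prime `p`. -/
theorem tate_surjective_of_pow (hΔ : W.Δ ≠ 0) (h : ∀ n, SurjMod W (p ^ n))
    (e : TMod p ((W.map (Int.castRingHom ℚ))⁄(AlgebraicClosure ℚ)).Point
      ≃ₗ[ℤ_[p]] TMod p ((W.map (Int.castRingHom ℚ))⁄(AlgebraicClosure ℚ)).Point) :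
    ∃ σ : Γℚ, (tateRep (W.map (Int.castRingHom ℚ)) (map_Δ_ne_zero hΔ) p).ρ σ =
      e.toLinearMap := by
  obtain ⟨X⟩ := exists_tb (W := W) (p := p) hΔ
  obtain ⟨g, hg⟩ : ∃ g, g = LinearMap.toMatrix X.b X.b e.toLinearMap := ⟨_, rfl⟩
  have hdet : IsUnit g.det := by
    rw [hg]
    exact LinearEquiv.isUnit_det e X.b X.b
  obtain ⟨σ, hσ⟩ := IsCompact.nonempty_iInter_of_sequence_nonempty_isCompact_isClosed
    (fun n => {σ : Γℚ | Serre.Cg p n (X.M σ) g})
    (fun n σ hσ => Serre.Cg.mono n.le_succ hσ) (fun n => X.exists_of_surjMod (h n) g hdet)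
    (X.isClosed_cg 0 g).isCompact (fun n => X.isClosed_cg n g)
  refine ⟨σ, (LinearMap.toMatrix X.b X.b).injective ?_⟩
  rw [← hg]
  ext1 i j
  refine PadicInt.ext_of_toZModPow.1 fun n => ?_
  exact dvd_iff_toZModPow.1 (Serre.cg_iff.1 (Set.mem_iInter.1 hσ n) i j)

/-- **`Gal(ℚ̄/ℚ)` acts on the Tate module `T_p W` through all automorphisms**, for every prime `p`
(`p = 2` and `p = 3` included), if `W[p]` is irreducible and there is a prime `q ≠ p` of
multiplicative reduction with `p ∤ v_q(Δ)`. -/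
theorem tate_surjective_of_isMultAt (hW : IsMultAt W q) (hqp : q ≠ p)
    (hv : ¬ p ∣ padicValInt q W.Δ) (hirr : W.ModRepIsIrreducible p)
    (e : TMod p ((W.map (Int.castRingHom ℚ))⁄(AlgebraicClosure ℚ)).Point
      ≃ₗ[ℤ_[p]] TMod p ((W.map (Int.castRingHom ℚ))⁄(AlgebraicClosure ℚ)).Point) :
    ∃ σ : Γℚ, (tateRep (W.map (Int.castRingHom ℚ)) (map_Δ_ne_zero hW.ne) p).ρ σ =
      e.toLinearMap :=
  tate_surjective_of_pow hW.ne (surjMod_pow_of_isMultAt hW hqp hv hirr) e

end tate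

/-! ### Semistable curves: irreducible modulo `p` implies surjective on the Tate module -/

section semistable

variable [hp : Fact p.Prime]

/-- **A prime `q ≠ p` of bad reduction with `p ∤ v_q(Δ)`**: `W` semistable, `W[p]` irreducible,
`p = 3, 5, 7` or `13`.  Otherwise the Serre level would be `1` or `p`, and there is no cusp form of
weight two of that level. -/
theorem exists_prime_ne_not_dvd_val_of_mem (hΔ : W.Δ ≠ 0) (hW : W.IsSemistableModel) (hp2 : p ≠ 2)
    (hp0 : p ∈ zeroLevels) (hirr : W.ModRepIsIrreducible p) :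
    ∃ q : ℕ, q.Prime ∧ q ≠ p ∧ (q : ℤ) ∣ W.Δ ∧ ¬ p ∣ padicValInt q W.Δ := by
  by_contra hcon
  push Not at hcon
  have h1 : serreLevel W p ∣ p := by
    rw [← Nat.prod_primeFactors_of_squarefree (squarefree_serreLevel W p)]
    have h2 : (serreLevel W p).primeFactors ⊆ {p} := by
      intro q hq
      rw [Finset.mem_singleton]
      by_contra hqp
      have hq' := Nat.prime_of_mem_primeFactors hq
      have h3 := (prime_dvd_serreLevel_iff hΔ hq').1 (Nat.dvd_of_mem_primeFactors hq)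
      exact h3.2 (hcon q hq' hqp h3.1)
    refine (Finset.prod_dvd_prod_of_subset _ _ _ h2).trans ?_
    rw [Finset.prod_singleton]
  have h2 := serreLevel_notMem hΔ hW hp.out hp2 hirr
  rcases (Nat.dvd_prime hp.out).mp h1 with h3 | h3
  · rw [h3] at h2
    exact h2 (by decide)
  · rw [h3] at h2
    exact h2 hp0

/-- **`Gal(ℚ̄/ℚ)` acts on `W[pⁿ]` through all automorphisms**: `W` semistable, `p` odd, `W[p]`
irreducible (`p = 3` included). -/
theorem surjMod_pow_of_semistable (hΔ : W.Δ ≠ 0) (hW : W.IsSemistableModel) (hp2 : p ≠ 2)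
    (hirr : W.ModRepIsIrreducible p) (n : ℕ) : SurjMod W (p ^ n) := by
  by_cases hp5 : 5 ≤ p
  · exact SurjMod.pow hΔ hp5 (fun g => surjective_of_semistable hΔ hW hp2 hirr g) n
  · have hp3 : p = 3 := by
      have h1 := hp.out.two_le
      have h2 : p ≠ 4 := fun h => by
        have := hp.out
        rw [h] at this
        exact absurd this (by decide)
      omega
    obtain ⟨q, hq, hqp, hqΔ, hv⟩ :=
      exists_prime_ne_not_dvd_val_of_mem hΔ hW hp2 (by rw [hp3]; decide) hirr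
    exact surjMod_pow_of_isMultAt (isMultAt_of_semistable hW hΔ hq hqΔ) hqp hv hirr n

/-- **Irreducible modulo `p` implies surjective on the Tate module**: `W` semistable, `p` odd
(`p = 3` included). -/
theorem tate_surjective_of_semistable (hΔ : W.Δ ≠ 0) (hW : W.IsSemistableModel) (hp2 : p ≠ 2)
    (hirr : W.ModRepIsIrreducible p)
    (e : TMod p ((W.map (Int.castRingHom ℚ))⁄(AlgebraicClosure ℚ)).Point
      ≃ₗ[ℤ_[p]] TMod p ((W.map (Int.castRingHom ℚ))⁄(AlgebraicClosure ℚ)).Point) :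
    ∃ σ : Γℚ, (tateRep (W.map (Int.castRingHom ℚ)) (map_Δ_ne_zero hΔ) p).ρ σ =
      e.toLinearMap :=
  tate_surjective_of_pow hΔ (surjMod_pow_of_semistable hΔ hW hp2 hirr) e

end semistable

/-- **The prime two**: `W` semistable, no rational point of order two, and an odd prime `q` with
`v_q(Δ)` odd.  Then `Gal(ℚ̄/ℚ)` acts on `T_2 W` through all automorphisms. -/
theorem tate_surjective_two [Fact (Nat.Prime 2)] (hΔ : W.Δ ≠ 0) (hW : W.IsSemistableModel)
    (hq : q.Prime) (hq2 : q ≠ 2) (hv : ¬ 2 ∣ padicValInt q W.Δ) (hirr : W.ModRepIsIrreducible 2)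
    (e : TMod 2 ((W.map (Int.castRingHom ℚ))⁄(AlgebraicClosure ℚ)).Point
      ≃ₗ[ℤ_[2]] TMod 2 ((W.map (Int.castRingHom ℚ))⁄(AlgebraicClosure ℚ)).Point) :
    ∃ σ : Γℚ, (tateRep (W.map (Int.castRingHom ℚ)) (map_Δ_ne_zero hΔ) 2).ρ σ =
      e.toLinearMap := by
  have hqΔ : (q : ℤ) ∣ W.Δ := by
    by_contra h
    exact hv (by rw [padicValInt.eq_zero_of_not_dvd h]; exact dvd_zero _)
  exact tate_surjective_of_isMultAt (isMultAt_of_semistable hW hΔ hq hqΔ) hq2 hv hirr e

/-! ### The adelic image -/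

/-- **One element of Galois for all odd primes at once**: `W` semistable, `e p` an automorphism of
`T_p W` for every prime `p`.  There is **one** `σ` which acts on `T_p W` as `e p` for every odd
prime `p` with `W[p]` irreducible. -/
theorem exists_adelic_of_odd (hΔ : W.Δ ≠ 0) (hW : W.IsSemistableModel)
    (e : ∀ (p : ℕ) [Fact p.Prime],
      TMod p ((W.map (Int.castRingHom ℚ))⁄(AlgebraicClosure ℚ)).Point ≃ₗ[ℤ_[p]]
        TMod p ((W.map (Int.castRingHom ℚ))⁄(AlgebraicClosure ℚ)).Point) :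
    ∃ σ : Γℚ, ∀ (p : ℕ) [Fact p.Prime], p ≠ 2 → W.ModRepIsIrreducible p →
      (tateRep (W.map (Int.castRingHom ℚ)) (map_Δ_ne_zero hΔ) p).ρ σ = (e p).toLinearMap := by
  obtain ⟨σ, hσ⟩ := exists_adelic_of_pow hΔ e
  exact ⟨σ, fun p hp hp2 hirr => hσ p (by have := hp.out.two_le; omega)
    (surjMod_pow_of_semistable hΔ hW hp2 hirr)⟩

/-- **The image on `W[N]`, `N` odd**: `W` semistable and `W[p]` irreducible for all primes
`p ∣ N`.  Then `Gal(ℚ̄/ℚ)` acts on `W[N]` through all automorphisms. -/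
theorem surjMod_of_odd (hΔ : W.Δ ≠ 0) (hW : W.IsSemistableModel) {N : ℕ} (hN : Odd N)
    (h : ∀ p, p.Prime → p ∣ N → W.ModRepIsIrreducible p) : SurjMod W N := by
  refine surjMod_of_primes hΔ (fun h0 => by rw [h0] at hN; exact absurd hN (by decide))
    fun p hp hpN => ?_
  have : Fact p.Prime := ⟨hp⟩
  have hp2 : p ≠ 2 := by
    rintro rfl
    exact (Nat.not_even_iff_odd.mpr hN) (even_iff_two_dvd.mpr hpN)
  exact ⟨by have := hp.two_le; omega, surjMod_pow_of_semistable hΔ hW hp2 (h p hp hpN)⟩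

end Fermat.Agent.Cor

end
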