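import Fermat.Agent.Corollaries.Surj.Main
import Fermat.Agent.Corollaries.Surj.ChebNat
import Fermat.Agent.Corollaries.Katz.Main

/-!
# Natural densities: semistable curves, and every elliptic curve over `ℚ`

* for a semistable elliptic curve `W` over `ℚ` and an odd prime `p` for which `W[p]` is irreducible
  (e.g. `p = 11` or `p ≥ 17`): the natural densities of the primes `ℓ` with given `(a_ℓ, ℓ)` modulo
  `p`, with `p ∣ a_ℓ`, with `p ∣ #W(𝔽_ℓ)`;
* for every elliptic curve `W` over `ℚ` and every prime `p`: the natural density of the primes `ℓ`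
  with `p ∣ #W(𝔽_ℓ)` is the proportion of the elements of the image of Galois in `GL₂(𝔽_p)` with
  the eigenvalue `1`; it is less than one for `p = 11` and for `p ≥ 17`.
-/

set_option autoImplicit false

noncomputable section

open Matrix WeierstrassCurve

namespace Fermat.Agent.Cor

open Fermat.Agent.Frob Fermat.Agent.FrobDensity Fermat.Agent.Classic

variable {W : WeierstrassCurve ℤ} {p : ℕ} [hp : Fact p.Prime]

/-- **The natural density of the primes `ℓ` with `a_ℓ ≡ a` and `ℓ ≡ d` modulo `p`** is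
`(p + χ(a² - 4 d)) / ((p - 1)² (p + 1))`, where `χ` is the quadratic character modulo `p`. -/
theorem nat_dens_apOfModel (hΔ : W.Δ ≠ 0) (hW : W.IsSemistableModel) (hp2 : p ≠ 2)
    (hirr : W.ModRepIsIrreducible p) (a : ZMod p) (d : (ZMod p)ˣ) : HasNaturalDensity
      {ℓ | W.IsGoodPrimeFor ℓ ∧ (W.apOfModel ℓ : ZMod p) = a ∧ (ℓ : ZMod p) = d}
      ((p + (quadraticChar (ZMod p) (a ^ 2 - 4 * d) : ℤ)) / ((p - 1) ^ 2 * (p + 1))) :=
  nat_dens_trace_det hΔ hp2 (repP_surjective hΔ hW hp2 hirr) a d.ne_zero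

/-- **The natural density of the primes `ℓ` for which the number of points of `W` over `𝔽_ℓ` is
divisible by `p`** is `(p² - 2) / ((p - 1)² (p + 1))`. -/
theorem nat_dens_dvd_card_semistable (hΔ : W.Δ ≠ 0) (hW : W.IsSemistableModel) (hp2 : p ≠ 2)
    (hirr : W.ModRepIsIrreducible p) : HasNaturalDensity
      {ℓ | W.IsGoodPrimeFor ℓ ∧ p ∣ (W.reductionMod ℓ).card}
      ((p ^ 2 - 2) / ((p - 1) ^ 2 * (p + 1))) :=
  nat_dens_dvd_card hΔ hp2 (repP_surjective hΔ hW hp2 hirr)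

/-- **The natural density of the primes `ℓ` with `p ∣ a_ℓ`** is `p / (p² - 1)`. -/
theorem nat_dens_dvd_apOfModel (hΔ : W.Δ ≠ 0) (hW : W.IsSemistableModel) (hp2 : p ≠ 2)
    (hirr : W.ModRepIsIrreducible p) : HasNaturalDensity
      {ℓ | W.IsGoodPrimeFor ℓ ∧ (p : ℤ) ∣ W.apOfModel ℓ} (p / (p ^ 2 - 1)) :=
  nat_dens_dvd_ap hΔ hp2 (repP_surjective hΔ hW hp2 hirr)

/-- For `p = 11` and `p ≥ 17` no hypothesis of irreducibility is needed. -/
theorem nat_dens_apOfModel_mazur (hΔ : W.Δ ≠ 0) (hW : W.IsSemistableModel)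
    (h : p = 11 ∨ 17 ≤ p) (a : ZMod p) (d : (ZMod p)ˣ) : HasNaturalDensity
      {ℓ | W.IsGoodPrimeFor ℓ ∧ (W.apOfModel ℓ : ZMod p) = a ∧ (ℓ : ZMod p) = d}
      ((p + (quadraticChar (ZMod p) (a ^ 2 - 4 * d) : ℤ)) / ((p - 1) ^ 2 * (p + 1))) :=
  nat_dens_apOfModel hΔ hW (by omega) (modRepIsIrreducible hp.out h hΔ hW) a d

namespace Katz

local notation "M2" => Matrix (Fin 2) (Fin 2) (ZMod p)
local notation "GL2" => GL (Fin 2) (ZMod p)

/-- **The distribution of the pairs `(a_ℓ, ℓ)` modulo `p`** for any elliptic curve over `ℚ`, natural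
density. -/
theorem nat_dens_range (hΔ : W.Δ ≠ 0) (P : ZMod p → ZMod p → Prop) :
    HasNaturalDensity
      {ℓ | W.IsGoodPrimeFor ℓ ∧ P (W.apOfModel ℓ : ZMod p) (ℓ : ZMod p)}
      ((Nat.card (imgSet hΔ P) : ℝ) / Nat.card (repP p hΔ).range) := by
  have hC : ∀ g c : (repP p hΔ).range, c ∈ imgSet hΔ P → g * c * g⁻¹ ∈ imgSet hΔ P :=
    fun g c hc => trDetSet_conj P (g : GL2) (c : GL2) hc
  have hlevel : ∃ L : IntermediateField ℚ (AlgebraicClosure ℚ), FiniteDimensional ℚ L ∧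
      ∀ σ : AlgebraicClosure ℚ ≃ₐ[ℚ] AlgebraicClosure ℚ,
        (∀ x ∈ L, σ x = x) → (repP p hΔ).rangeRestrict σ = 1 := by
    obtain ⟨L, hL, h⟩ := repP_factors p hΔ
    exact ⟨L, hL, fun σ hσ => Subtype.ext (h σ hσ)⟩
  refine (chebotarev_nat (repP p hΔ).rangeRestrict (repP p hΔ).rangeRestrict_surjective
    hlevel (imgSet hΔ P) hC).congr_of_finset (insert p W.Δ.natAbs.primeFactors) ?_
  intro ℓ hℓ hℓT
  rw [Finset.mem_insert, not_or] at hℓT
  obtain ⟨hne, hℓΔ⟩ := hℓT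
  have hgood : W.IsGoodPrimeFor ℓ := fun h => hℓΔ (Nat.mem_primeFactors.mpr
    ⟨hℓ, Int.natCast_dvd.mp h, Int.natAbs_ne_zero.mpr hΔ⟩)
  obtain ⟨A, hA, σ, hσ⟩ := exists_frobenius ℓ hℓ
  rw [LT.Period.mem_FrobIn_iff (repP p hΔ).rangeRestrict hC hℓ hA
    (fun τ hτ => Subtype.ext (repP_inertia hΔ hℓ hgood hne hA hτ)) hσ]
  change P (repP p hΔ σ : M2).trace (repP p hΔ σ : M2).det ↔ _
  rw [trace_repP_frobenius hΔ hℓ hgood hne hA hσ, det_repP_frobenius hΔ hℓ hgood hne hA hσ]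
  exact (and_iff_right hgood).symm

/-- **The natural density of the primes `ℓ` with `p ∣ #W(𝔽_ℓ)`** is the proportion of the elements
of the image of Galois which have the eigenvalue `1`. -/
theorem nat_dens_dvd_card_range (hΔ : W.Δ ≠ 0) :
    HasNaturalDensity {ℓ | W.IsGoodPrimeFor ℓ ∧ p ∣ (W.reductionMod ℓ).card}
      ((Nat.card (imgSet hΔ fun x y : ZMod p => x = 1 + y) : ℝ) /
        Nat.card (repP p hΔ).range) := by
  refine (nat_dens_range hΔ fun x y : ZMod p => x = 1 + y).congr_of_finset ∅ fun ℓ _ _ => ?_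
  exact and_congr_right fun _ => dvd_card_iff.symm

/-- **For `p = 11` and for every prime `p ≥ 17`, and every elliptic curve over `ℚ`, the primes `ℓ`
for which the number of points modulo `ℓ` is prime to `p` have a positive natural density.** -/
theorem exists_nat_dens_not_dvd_card (hΔ : W.Δ ≠ 0) (h : p = 11 ∨ 17 ≤ p) : ∃ δ : ℝ, 0 < δ ∧
    HasNaturalDensity {ℓ | W.IsGoodPrimeFor ℓ ∧ ¬ p ∣ (W.reductionMod ℓ).card} δ := by
  set δ₀ : ℝ := (Nat.card (imgSet hΔ fun x y : ZMod p => x = 1 + y) : ℝ) /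
        Nat.card (repP p hΔ).range with hδ₀
  have h1 : HasDirichletDensity {ℓ | W.IsGoodPrimeFor ℓ ∧ p ∣ (W.reductionMod ℓ).card} δ₀ :=
    dens_dvd_card_range (p := p) hΔ
  have h2 : HasNaturalDensity {ℓ | W.IsGoodPrimeFor ℓ ∧ ¬ p ∣ (W.reductionMod ℓ).card}
      (1 - δ₀) := by
    refine (nat_dens_dvd_card_range (p := p) hΔ).compl.congr_of_finset
      W.Δ.natAbs.primeFactors fun ℓ hℓ hℓΔ => ?_
    have hgood := good_of_notMem hΔ hℓ hℓΔ
    simp only [Set.mem_compl_iff, Set.mem_ofPred_eq, hgood, true_and]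
  have h3 : δ₀ ≤ 1 := h1.mono HasDirichletDensity.univ (Set.subset_univ _)
  have h4 : δ₀ ≠ 1 := by
    intro h5
    rw [h5] at h1
    have h6 : HasDirichletDensity {ℓ | p ∣ (W.reductionMod ℓ).card} 1 := by
      refine h1.congr_of_finset W.Δ.natAbs.primeFactors fun ℓ hℓ hℓΔ => ?_
      exact and_iff_right (good_of_notMem hΔ hℓ hℓΔ)
    obtain ⟨E', hE', -, P, hP⟩ := katz hΔ h6
    exact mazur E' hp.out h P hP
  exact ⟨1 - δ₀, sub_pos.mpr (lt_of_le_of_ne h3 h4), h2⟩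

end Katz

end Fermat.Agent.Cor
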