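import Fermat.Agent.Corollaries.Surj.Main
import Fermat.Agent.Corollaries.Surj.Cheb

/-!
# The distribution of `a_ℓ` and of `#W(𝔽_ℓ)` modulo `p` for semistable elliptic curves

`W` is a semistable elliptic curve over `ℚ` and `p` an odd prime for which `W[p]` is irreducible;
then the mod `p` representation is surjective (`repP_surjective`) and the results of
`Surj/Cheb.lean` apply.
-/

set_option autoImplicit false

noncomputable section

open WeierstrassCurve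

namespace Fermat.Agent.Cor

variable {W : WeierstrassCurve ℤ} {p : ℕ} [hp : Fact p.Prime]

/-- **The density of the primes `ℓ` with `a_ℓ ≡ a` and `ℓ ≡ d` modulo `p`** is
`(p + χ(a² - 4 d)) / ((p - 1)² (p + 1))`, where `χ` is the quadratic character modulo `p`. -/
theorem dens_apOfModel (hΔ : W.Δ ≠ 0) (hW : W.IsSemistableModel) (hp2 : p ≠ 2)
    (hirr : W.ModRepIsIrreducible p) (a : ZMod p) (d : (ZMod p)ˣ) : HasDirichletDensity
      {ℓ | W.IsGoodPrimeFor ℓ ∧ (W.apOfModel ℓ : ZMod p) = a ∧ (ℓ : ZMod p) = d}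
      ((p + (quadraticChar (ZMod p) (a ^ 2 - 4 * d) : ℤ)) / ((p - 1) ^ 2 * (p + 1))) :=
  dens_trace_det hΔ hp2 (repP_surjective hΔ hW hp2 hirr) a d.ne_zero

/-- **For all `a` and `d ≠ 0` modulo `p` there are infinitely many primes `ℓ` with `a_ℓ ≡ a` and
`ℓ ≡ d` modulo `p`.** -/
theorem infinite_apOfModel (hΔ : W.Δ ≠ 0) (hW : W.IsSemistableModel) (hp2 : p ≠ 2)
    (hirr : W.ModRepIsIrreducible p) (a : ZMod p) (d : (ZMod p)ˣ) :
    {ℓ : ℕ | ℓ.Prime ∧ W.IsGoodPrimeFor ℓ ∧ (W.apOfModel ℓ : ZMod p) = a ∧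
      (ℓ : ZMod p) = d}.Infinite :=
  infinite_apOfModel_of_surjective hΔ hp2 (repP_surjective hΔ hW hp2 hirr) a d.ne_zero

/-- **The density of the primes `ℓ` for which the number of points of `W` over `𝔽_ℓ` is divisible
by `p`** is `(p² - 2) / ((p - 1)² (p + 1))`. -/
theorem dens_dvd_card_semistable (hΔ : W.Δ ≠ 0) (hW : W.IsSemistableModel) (hp2 : p ≠ 2)
    (hirr : W.ModRepIsIrreducible p) : HasDirichletDensity
      {ℓ | W.IsGoodPrimeFor ℓ ∧ p ∣ (W.reductionMod ℓ).card}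
      ((p ^ 2 - 2) / ((p - 1) ^ 2 * (p + 1))) :=
  dens_dvd_card hΔ hp2 (repP_surjective hΔ hW hp2 hirr)

/-- **The density of the primes `ℓ` with `p ∣ a_ℓ`** is `p / (p² - 1)`. -/
theorem dens_dvd_apOfModel (hΔ : W.Δ ≠ 0) (hW : W.IsSemistableModel) (hp2 : p ≠ 2)
    (hirr : W.ModRepIsIrreducible p) : HasDirichletDensity
      {ℓ | W.IsGoodPrimeFor ℓ ∧ (p : ℤ) ∣ W.apOfModel ℓ} (p / (p ^ 2 - 1)) :=
  dens_dvd_ap hΔ hp2 (repP_surjective hΔ hW hp2 hirr)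

/-- Infinitely many `#W(𝔽_ℓ)` are divisible by `p`. -/
theorem infinite_dvd_card (hΔ : W.Δ ≠ 0) (hW : W.IsSemistableModel) (hp2 : p ≠ 2)
    (hirr : W.ModRepIsIrreducible p) :
    {ℓ : ℕ | ℓ.Prime ∧ W.IsGoodPrimeFor ℓ ∧ p ∣ (W.reductionMod ℓ).card}.Infinite :=
  infinite_dvd_card_of_surjective hΔ hp2 (repP_surjective hΔ hW hp2 hirr)

/-- Infinitely many `#W(𝔽_ℓ)` are prime to `p`. -/
theorem infinite_not_dvd_card (hΔ : W.Δ ≠ 0) (hW : W.IsSemistableModel) (hp2 : p ≠ 2)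
    (hirr : W.ModRepIsIrreducible p) :
    {ℓ : ℕ | ℓ.Prime ∧ W.IsGoodPrimeFor ℓ ∧ ¬ p ∣ (W.reductionMod ℓ).card}.Infinite :=
  infinite_not_dvd_card_of_surjective hΔ hp2 (repP_surjective hΔ hW hp2 hirr)

end Fermat.Agent.Cor
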