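import Fermat.Agent.Corollaries.Surj.Core
import Mathlib.NumberTheory.LSeries.PrimesInAP
import Mathlib.NumberTheory.LegendreSymbol.JacobiSymbol

/-!
# Multiplicative reduction excludes complex multiplication

Let `W` be an elliptic curve over `ℚ` with multiplicative reduction at some prime `q`. Then `W` has
no complex multiplication over any number field: if `φ` is an additive endomorphism of `W(ℚ̄)`
commuting with a subgroup `H` of finite index of `Gal(ℚ̄/ℚ)` and `φ² - a φ + d = 0` with integers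
`a, d`, then `a² ≥ 4 d` (`no_cm_of_isMultAt`).

Proof: there are infinitely many primes `p` such that `a² - 4 d < 0` is not a square modulo `p`
(`exists_prime_nonsquare`, Dirichlet). For large `p` an element of the inertia group at `q` acts on
`W[p]` by an element of order `p` (`exists_inertia_order`), and a power of it is in `H`. Since `φ`
commutes with it, `φ` has an eigenvalue in `𝔽_p`, so `a² - 4 d` is a square modulo `p`.
-/

set_option autoImplicit false

noncomputable section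

namespace Fermat.Agent.Cor

open WeierstrassCurve WeierstrassCurve.Affine WeierstrassCurve.Affine.Point
open Fermat.Agent.ECFrob Fermat.Agent.Classic Fermat.Agent.ECRed
open Matrix

local notation "Γℚ" => (AlgebraicClosure ℚ ≃ₐ[ℚ] AlgebraicClosure ℚ)

section Dirichlet

open NumberTheorySymbols jacobiSym

/-- **A negative integer is not a square modulo infinitely many primes.** -/
theorem exists_prime_nonsquare {D : ℤ} (hD : D < 0) (B : ℕ) :
    ∃ p : ℕ, B < p ∧ p.Prime ∧ ¬ IsSquare (D : ZMod p) := by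
  obtain ⟨m, hm0, rfl⟩ : ∃ m : ℕ, 0 < m ∧ D = -(m : ℤ) := ⟨D.natAbs, by omega, by omega⟩
  have h4 : 4 * m ≠ 0 := by omega
  have : NeZero (4 * m) := ⟨h4⟩
  obtain ⟨p, hp, hpp, hpm⟩ := Nat.forall_exists_prime_gt_and_eq_mod (q := 4 * m) (a := -1)
    isUnit_one.neg B
  refine ⟨p, hp, hpp, ?_⟩
  -- `p ≡ 4m - 1`
  have h1 : p % (4 * m) = 4 * m - 1 := by
    have h2 : ((p + 1 : ℕ) : ZMod (4 * m)) = 0 := by
      push_cast
      rw [hpm]
      ring
    rw [ZMod.natCast_eq_zero_iff] at h2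
    obtain ⟨k, hk⟩ := h2
    have h3 : 0 < k := by
      rcases Nat.eq_zero_or_pos k with rfl | h
      · omega
      · exact h
    obtain ⟨j, rfl⟩ : ∃ j, k = j + 1 := ⟨k - 1, by omega⟩
    have h5 : p = (4 * m - 1) + (4 * m) * j := by
      have : 4 * m * (j + 1) = 4 * m * j + 4 * m := by ring
      omega
    rw [h5, Nat.add_mul_mod_self_left, Nat.mod_eq_of_lt (by omega)]
  have hodd : Odd p := by
    refine hpp.odd_of_ne_two ?_
    rintro rfl
    have h2 := Nat.div_add_mod 2 (4 * m)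
    rw [h1] at h2
    rcases Nat.eq_zero_or_pos (2 / (4 * m)) with h | h
    · rw [h] at h2
      omega
    · have := Nat.mul_le_mul_left (4 * m) h
      omega
  apply ZMod.nonsquare_of_jacobiSym_eq_neg_one
  rw [jacobiSym.mod_right _ hodd, Int.natAbs_neg, Int.natAbs_natCast, h1]
  have ho : Odd (4 * m - 1) := by
    rw [Nat.odd_iff]
    omega
  have e1 : J((m : ℤ) | 4 * m - 1) = 1 := by
    have e2 : J((2 : ℤ) ^ 2 * (m : ℤ) | 4 * m - 1) = 1 := by
      rw [jacobiSym.mod_left]
      have e3 : ((2 : ℤ) ^ 2 * (m : ℤ)) % ((4 * m - 1 : ℕ) : ℤ) = 1 := by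
        have e4 : (2 : ℤ) ^ 2 * (m : ℤ) = 1 + ((4 * m - 1 : ℕ) : ℤ) := by
          push_cast [Nat.cast_sub (show 1 ≤ 4 * m by omega)]
          ring
        rw [e4, Int.add_emod_right]
        exact Int.emod_eq_of_lt (by norm_num) (by
          have : 3 ≤ 4 * m - 1 := by omega
          omega)
      rw [e3, jacobiSym.one_left]
    rw [jacobiSym.mul_left, jacobiSym.sq_one' ?_, one_mul] at e2
    · exact e2
    · exact Int.isCoprime_iff_gcd_eq_one.mp
        (Nat.isCoprime_iff_coprime.mpr ((Nat.coprime_two_left).mpr ho))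
  have e5 : (-(m : ℤ)) = -1 * m := by ring
  rw [e5, jacobiSym.mul_left, e1, mul_one, jacobiSym.at_neg_one ho]
  exact ZMod.χ₄_nat_three_mod_four (by omega)

end Dirichlet

/-- The fixed vectors of a non-trivial unipotent matrix form a line. -/
theorem exists_smul_of_fixed {K : Type} [Field K] {u : Matrix (Fin 2) (Fin 2) K}
    (huu : (u - 1) * (u - 1) = 0) {w z : Fin 2 → K} (hw : (u - 1) *ᵥ w ≠ 0)
    (hz : u *ᵥ z = z) : ∃ α : K, z = α • ((u - 1) *ᵥ w) := by
  set v := (u - 1) *ᵥ w with hv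
  have hv0 : (u - 1) *ᵥ v = 0 := by
    rw [hv, Matrix.mulVec_mulVec, huu, Matrix.zero_mulVec]
  have hli : LinearIndependent K ![v, w] := by
    refine GalW.li_of_not_stable hw ?_
    rintro ⟨a, ha⟩
    apply hw
    have h1 : v = (u - 1) *ᵥ (a • v) := by rw [← ha]
    rw [h1, Matrix.mulVec_smul, hv0, smul_zero]
  obtain ⟨c, d, hcd⟩ := Fermat.Agent.FlatP.exists_coord hli z
  have h1 : (u - 1) *ᵥ z = 0 := by rw [Matrix.sub_mulVec, hz, Matrix.one_mulVec, sub_self]
  rw [hcd, Matrix.mulVec_add, Matrix.mulVec_smul, Matrix.mulVec_smul, hv0, smul_zero, zero_add,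
    smul_eq_zero] at h1
  have hd : d = 0 := h1.resolve_right hw
  exact ⟨c, by rw [hcd, hd, zero_smul, add_zero]⟩

/-- **Multiplicative reduction excludes complex multiplication** (over every number field): let `W`
have multiplicative reduction at a prime `q`, `H` a subgroup of finite index of `Gal(ℚ̄/ℚ)`, `φ` an
additive endomorphism of `W(ℚ̄)` commuting with `H`, with `φ² - a φ + d = 0` for integers `a, d`.
Then `a² - 4 d` is not negative. -/
theorem no_cm_of_isMultAt {W : WeierstrassCurve ℤ} {q : ℕ} (hW : IsMultAt W q)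
    {H : Subgroup Γℚ} (hH : H.index ≠ 0)
    (φ : ((W.map (Int.castRingHom ℚ))⁄(AlgebraicClosure ℚ)).Point →+
      ((W.map (Int.castRingHom ℚ))⁄(AlgebraicClosure ℚ)).Point)
    (hφ : ∀ σ ∈ H, ∀ P, φ (σ • P) = σ • φ P) {a d : ℤ}
    (h : ∀ P, φ (φ P) - a • φ P + d • P = 0) : ¬ a ^ 2 < 4 * d := by
  intro hlt
  obtain ⟨p, hpB, hpp, hns⟩ := exists_prime_nonsquare (D := a ^ 2 - 4 * d) (by linarith)
    (max 2 (max H.index (padicValInt q W.Δ)))
  have : Fact p.Prime := ⟨hpp⟩
  have hΔ := hW.ne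
  have hp2 : p ≠ 2 := by
    have := lt_of_le_of_lt (le_max_left _ _) hpB
    omega
  have hpH : H.index < p := lt_of_le_of_lt (le_trans (le_max_left _ _) (le_max_right _ _)) hpB
  have hv : ¬ p ∣ padicValInt q W.Δ := by
    intro hd
    have : Fact q.Prime := ⟨hW.prime⟩
    have h1 : 0 < padicValInt q W.Δ := by
      have h2 : q ∣ W.Δ.natAbs := Int.natCast_dvd.mp hW.dvd
      exact one_le_padicValNat_of_dvd (Int.natAbs_ne_zero.mpr hΔ) h2
    exact absurd (Nat.le_of_dvd h1 hd)
      (not_le.mpr (lt_of_le_of_lt (le_trans (le_max_right _ _) (le_max_right _ _)) hpB))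
  obtain ⟨A, hA⟩ := Fermat.Agent.Frob.exists_liesOverPrime q hW.prime
  obtain ⟨σ, -, hσ⟩ := exists_inertia_order hW hpp hp2 hv hA
  rw [← orderOf_repP hΔ σ] at hσ
  obtain ⟨n, hn0, hn, hmem⟩ := Subgroup.exists_pow_mem_of_index_ne_zero hH σ
  set τ : Γℚ := σ ^ n with hτ
  have hu : repP p hΔ τ = repP p hΔ σ ^ n := by rw [hτ, map_pow]
  have hup : repP p hΔ τ ^ p = 1 := by
    rw [hu, ← pow_mul, mul_comm, pow_mul, orderOf_dvd_iff_pow_eq_one.mp (dvd_of_eq hσ), one_pow]
  have hu1 : repP p hΔ τ ≠ 1 := by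
    intro h1
    rw [hu, ← orderOf_dvd_iff_pow_eq_one, hσ] at h1
    exact absurd (Nat.le_of_dvd hn0 h1) (not_le.mpr (lt_of_le_of_lt hn hpH))
  have huu := sub_one_sq_eq_zero hup
  set u : Matrix (Fin 2) (Fin 2) (ZMod p) := (repP p hΔ τ : Matrix (Fin 2) (Fin 2) (ZMod p)) with
    hudef
  obtain ⟨w, hw⟩ : ∃ w : Fin 2 → ZMod p, (u - 1) *ᵥ w ≠ 0 := by
    by_contra hcon
    push Not at hcon
    apply hu1
    refine Units.ext ?_
    rw [← hudef, Units.val_one, ← sub_eq_zero]
    exact GalW.mulVec_ext fun w => by rw [hcon w, Matrix.zero_mulVec]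
  set v : Fin 2 → ZMod p := (u - 1) *ᵥ w with hvdef
  have huv : u *ᵥ v = v := by
    have h1 : (u - 1) *ᵥ v = 0 := by
      rw [hvdef, Matrix.mulVec_mulVec, huu, Matrix.zero_mulVec]
    rw [Matrix.sub_mulVec, Matrix.one_mulVec, sub_eq_zero] at h1
    exact h1
  obtain ⟨e, he⟩ := exists_equiv p hΔ
  -- the point `x` on the line fixed by `τ`
  set x := e.symm v with hx
  have hx0 : x ≠ 0 := fun h0 => hw ((LinearEquiv.map_eq_zero_iff _).mp h0)
  have hxp : p • x.1 = 0 := (Fermat.Agent.Torsion.mem_torsionBy_nat_iff p _).mp x.2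
  have hτx : τ • x = x := by
    apply e.injective
    rw [he, hx, e.apply_symm_apply]
    exact huv
  -- `φ x`
  have hyp : φ x.1 ∈ Submodule.torsionBy ℤ
      ((W.map (Int.castRingHom ℚ))⁄(AlgebraicClosure ℚ)).Point ((p : ℕ) : ℤ) := by
    rw [Fermat.Agent.Torsion.mem_torsionBy_nat_iff, ← map_nsmul, hxp, _root_.map_zero]
  set y : Submodule.torsionBy ℤ ((W.map (Int.castRingHom ℚ))⁄(AlgebraicClosure ℚ)).Point
    ((p : ℕ) : ℤ) := ⟨φ x.1, hyp⟩ with hy
  have hτy : τ • y = y := by
    apply Subtype.ext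
    have h1 : τ • φ x.1 = φ x.1 := by
      rw [← hφ τ hmem]
      exact congrArg φ (congrArg Subtype.val hτx)
    exact h1
  obtain ⟨α, hα⟩ := exists_smul_of_fixed (z := e y) huu hw (by
    have h1 := he τ y
    rw [hτy] at h1
    exact h1.symm)
  have hyx : y = α • x := by
    apply e.injective
    rw [hα, map_smul, hx, e.apply_symm_apply]
  -- `φ x = α x`
  have h1 : φ x.1 = α.val • x.1 := by
    have h2 : α • x = α.val • x := by
      conv_lhs => rw [← ZMod.natCast_zmod_val α]
      rw [Nat.cast_smul_eq_nsmul]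
    have h3 := congrArg Subtype.val (hyx.trans h2)
    exact h3
  have h2 := h x.1
  rw [h1, map_nsmul, h1] at h2
  -- the polynomial relation
  have h3 : ((α.val : ℤ) ^ 2 - a * α.val + d) • x.1 = 0 := by
    rw [← h2, add_zsmul, sub_zsmul, sq, mul_zsmul, mul_zsmul, natCast_zsmul, natCast_zsmul,
      ← sub_eq_add_neg]
  have h4 : ((α.val : ℤ) ^ 2 - a * α.val + d) • x = 0 := Subtype.ext h3
  have h5 : (((α.val : ℤ) ^ 2 - a * α.val + d : ℤ) : ZMod p) = 0 := by
    rw [← Int.cast_smul_eq_zsmul (ZMod p), smul_eq_zero] at h4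
    exact h4.resolve_right hx0
  push_cast at h5
  rw [ZMod.natCast_zmod_val] at h5
  apply hns
  refine ⟨2 * α - a, ?_⟩
  push_cast
  linear_combination (-4 : ZMod p) * h5

end Fermat.Agent.Cor
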