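import Fermat.Agent.Corollaries.CondLevel
import Fermat.Agent.Corollaries.Surj.Mazur
import Fermat.Agent.Corollaries.Surj.NonCM
import Fermat.Agent.Corollaries.Surj.Sub

/-!
# Semistable elliptic curves over number fields: isogenies and complex multiplication

Let `W` be a semistable elliptic curve over `ℚ`.

* `not_exists_stable_subgroup_over`: for `p = 11` and for every prime `p ≥ 17`, `W` has no isogeny
  of degree `p` over a number field of degree `< p`;
* `not_exists_stable_subgroup_over_abelian`: nor over an abelian extension of `ℚ` (e.g. over any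
  cyclotomic field);
* `no_cm`: `W` has no complex multiplication, over any number field.
-/

set_option autoImplicit false

noncomputable section

namespace Fermat.Agent.Cor

open WeierstrassCurve WeierstrassCurve.Affine WeierstrassCurve.Affine.Point
open Fermat.Agent.Classic Fermat.Agent.Tate

local notation "Γℚ" => (AlgebraicClosure ℚ ≃ₐ[ℚ] AlgebraicClosure ℚ)

variable {W : WeierstrassCurve ℤ} (hΔ : W.Δ ≠ 0)

include hΔ

/-- **A semistable elliptic curve over `ℚ` has no isogeny of degree `p` over a number field of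
degree `< p`**, for `p = 11` and for every prime `p ≥ 17`: no subgroup of order `p` of `W(ℚ̄)` is
stable under `Gal(ℚ̄/F)`. -/
theorem not_exists_stable_subgroup_over {p : ℕ} (hp : p.Prime) (h : p = 11 ∨ 17 ≤ p)
    (hW : W.IsSemistableModel) (F : IntermediateField ℚ (AlgebraicClosure ℚ))
    [FiniteDimensional ℚ F] (hF : Module.finrank ℚ F < p) :
    ¬ ∃ L : AddSubgroup ((W.map (Int.castRingHom ℚ))⁄(AlgebraicClosure ℚ)).Point,
      Nat.card L = p ∧ ∀ σ ∈ F.fixingSubgroup, ∀ x ∈ L, σ • x ∈ L := by
  have : Fact p.Prime := ⟨hp⟩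
  exact not_exists_stable_over hΔ (repP_surjective_of_ge hΔ h hW) F hF

/-- **A semistable elliptic curve over `ℚ` has no isogeny of degree `p` over an abelian extension of
`ℚ`** (finite or infinite), for `p = 11` and for every prime `p ≥ 17`. -/
theorem not_exists_stable_subgroup_over_abelian {p : ℕ} (hp : p.Prime) (h : p = 11 ∨ 17 ≤ p)
    (hW : W.IsSemistableModel) (F : IntermediateField ℚ (AlgebraicClosure ℚ)) [IsGalois ℚ F]
    (hF : ∀ σ τ : F ≃ₐ[ℚ] F, σ * τ = τ * σ) :
    ¬ ∃ L : AddSubgroup ((W.map (Int.castRingHom ℚ))⁄(AlgebraicClosure ℚ)).Point,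
      Nat.card L = p ∧ ∀ σ ∈ F.fixingSubgroup, ∀ x ∈ L, σ • x ∈ L := by
  have : Fact p.Prime := ⟨hp⟩
  exact not_exists_stable_over_abelian hΔ (repP_surjective_of_ge hΔ h hW) (by omega) F hF

/-- **A semistable elliptic curve over `ℚ` has no complex multiplication** over any number field
`F`: an additive endomorphism `φ` of `W(ℚ̄)` commuting with `Gal(ℚ̄/F)` and satisfying
`φ² - a φ + d = 0` with integers `a, d` has `a² ≥ 4 d`. -/
theorem no_cm (hW : W.IsSemistableModel) (F : IntermediateField ℚ (AlgebraicClosure ℚ))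
    [FiniteDimensional ℚ F]
    (φ : ((W.map (Int.castRingHom ℚ))⁄(AlgebraicClosure ℚ)).Point →+
      ((W.map (Int.castRingHom ℚ))⁄(AlgebraicClosure ℚ)).Point)
    (hφ : ∀ σ ∈ F.fixingSubgroup, ∀ P, φ (σ • P) = σ • φ P) {a d : ℤ}
    (h : ∀ P, φ (φ P) - a • φ P + d • P = 0) : 4 * d ≤ a ^ 2 := by
  obtain ⟨q, hq, hdvd⟩ := exists_prime_dvd_Δ W
  have h1 : Module.finrank ℚ F = F.fixingSubgroup.index :=
    IntermediateField.finrank_eq_fixingSubgroup_index (AlgebraicClosure ℚ) F
  have h2 : 0 < Module.finrank ℚ F := Module.finrank_pos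
  rw [h1] at h2
  exact not_lt.mp (no_cm_of_isMultAt (isMultAt_of_semistable hW hΔ hq hdvd) h2.ne' φ hφ h)

end Fermat.Agent.Cor
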