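import Fermat.Agent.Corollaries.Surj.OpenSemi

/-!
# The image of Galois in `∏ Aut(T_p W)` has finite index (helper62)

Serre's open image theorem in its usual form: `adelicAut hΔ P` is the homomorphism
`Gal(ℚ̄/ℚ) → ∏ Aut(T_p W)`, the product over the primes `p` with `P p`.

* `finiteIndex_range_of_open`: the image has finite index if all the `p`-adic images are open and
  the mod `p` representations are surjective for almost all `p`.
* `finiteIndex_range_semistable`: `W` semistable, product over all odd primes.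
-/

set_option autoImplicit false

noncomputable section

open WeierstrassCurve WeierstrassCurve.Affine.Point Module
open scoped WeierstrassCurve.Affine
open Fermat.Agent.Tate

namespace Fermat.Agent.Cor

local notation "Γℚ" => (AlgebraicClosure ℚ ≃ₐ[ℚ] AlgebraicClosure ℚ)

variable {W : WeierstrassCurve ℤ}

/-- the `p`-adic Tate module of an elliptic curve over `ℚ` -/
abbrev Tp (W : WeierstrassCurve ℤ) (p : ℕ) [Fact p.Prime] : Type :=
  TMod p ((W.map (Int.castRingHom ℚ))⁄(AlgebraicClosure ℚ)).Point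

/-- the primes with `P` -/
abbrev PrimesOf (P : ℕ → Prop) : Type := {p : ℕ // p.Prime ∧ P p}

instance (P : ℕ → Prop) (p : PrimesOf P) : Fact (p : ℕ).Prime := ⟨p.2.1⟩

/-- the action on the Tate module, with values in the group of automorphisms -/
def tateAut (hΔ : W.Δ ≠ 0) (p : ℕ) [Fact p.Prime] : Γℚ →* (Tp W p ≃ₗ[ℤ_[p]] Tp W p) :=
  (LinearMap.GeneralLinearGroup.generalLinearEquiv ℤ_[p] (Tp W p)).toMonoidHom.comp
    ((tateRep (W.map (Int.castRingHom ℚ)) (map_Δ_ne_zero hΔ) p).ρ.toHomUnits)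

theorem tateAut_toLinearMap (hΔ : W.Δ ≠ 0) (p : ℕ) [Fact p.Prime] (σ : Γℚ) :
    (tateAut hΔ p σ).toLinearMap =
      (tateRep (W.map (Int.castRingHom ℚ)) (map_Δ_ne_zero hΔ) p).ρ σ :=
  LinearMap.GeneralLinearGroup.generalLinearEquiv_to_linearMap _

/-- **the adelic representation** `Gal(ℚ̄/ℚ) → ∏ Aut(T_p W)`, product over the primes with `P`. -/
def adelicAut (hΔ : W.Δ ≠ 0) (P : ℕ → Prop) :
    Γℚ →* ∀ p : PrimesOf P, (Tp W p ≃ₗ[ℤ_[(p : ℕ)]] Tp W p) :=
  MonoidHom.pi fun p => tateAut hΔ (p : ℕ)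

/-- the automorphisms of the Tate module which are `≡ 1` modulo `N` -/
def Cong (W : WeierstrassCurve ℤ) (p : ℕ) [Fact p.Prime] (N : ℕ) :
    Subgroup (Tp W p ≃ₗ[ℤ_[p]] Tp W p) where
  carrier := {e | ∀ x, ∃ y, e x - x = (N : ℤ_[p]) • y}
  one_mem' x := ⟨0, by
    have h : (N : ℤ_[p]) • (0 : Tp W p) = 0 :=
      (LinearMap.lsmul ℤ_[p] (Tp W p) (N : ℤ_[p])).map_zero
    exact (sub_self x).trans h.symm⟩
  mul_mem' {e f} he hf x := by
    obtain ⟨y, hy⟩ := he (f x)
    obtain ⟨z, hz⟩ := hf x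
    refine ⟨y + z, Eq.trans ?_ (smul_add (N : ℤ_[p]) y z).symm⟩
    rw [← hy, ← hz]
    exact (sub_add_sub_cancel _ _ _).symm
  inv_mem' {e} he x := by
    obtain ⟨y, hy⟩ := he (e.symm x)
    refine ⟨-y, Eq.trans ?_ (smul_neg (N : ℤ_[p]) y).symm⟩
    rw [← hy, e.apply_symm_apply]
    exact (neg_sub _ _).symm

theorem mem_cong {p : ℕ} [Fact p.Prime] {N : ℕ} {e : Tp W p ≃ₗ[ℤ_[p]] Tp W p} :
    e ∈ Cong W p N ↔ ∀ x, ∃ y, e x - x = (N : ℤ_[p]) • y := Iff.rfl

theorem finiteIndex_cong (hΔ : W.Δ ≠ 0) (p : ℕ) [hp : Fact p.Prime] {N : ℕ} (hN : N ≠ 0) :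
    (Cong W p N).FiniteIndex := by
  obtain ⟨X⟩ := exists_tb (W := W) (p := p) hΔ
  obtain ⟨v, c, hc⟩ := Serre.exists_natCast_dvd_pow (p := p) hN
  have : NeZero (p ^ v) := ⟨pow_ne_zero v hp.out.ne_zero⟩
  let φ : (Tp W p ≃ₗ[ℤ_[p]] Tp W p) →* Matrix (Fin 2) (Fin 2) (ZMod (p ^ v)) :=
    { toFun := fun e => (LinearMap.toMatrix X.b X.b e.toLinearMap).map (PadicInt.toZModPow v)
      map_one' := by
        have h : LinearMap.toMatrix X.b X.b (1 : Tp W p ≃ₗ[ℤ_[p]] Tp W p).toLinearMap = 1 :=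
          LinearMap.toMatrix_id X.b
        rw [h]
        exact Matrix.map_one _ (_root_.map_zero _) (_root_.map_one _)
      map_mul' := fun e f => by
        have h : LinearMap.toMatrix X.b X.b (e * f).toLinearMap =
            LinearMap.toMatrix X.b X.b e.toLinearMap * LinearMap.toMatrix X.b X.b f.toLinearMap :=
          LinearMap.toMatrix_mul X.b e.toLinearMap f.toLinearMap
        rw [h, Matrix.map_mul] }
  have h1 : φ.toHomUnits.ker.FiniteIndex := inferInstance
  refine @Subgroup.finiteIndex_of_le _ _ φ.toHomUnits.ker (Cong W p N) h1 ?_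
  intro e he
  rw [mem_cong]
  intro x
  have h2 : φ e = 1 := congrArg Units.val ((MonoidHom.mem_ker).1 he)
  have h3 : Serre.Cg p v (LinearMap.toMatrix X.b X.b e.toLinearMap) 1 :=
    Tb.cg_iff_map.2 (h2.trans (Matrix.map_one _ (_root_.map_zero _) (_root_.map_one _)).symm)
  obtain ⟨Z, hZ⟩ := h3
  have h4 : LinearMap.toMatrix X.b X.b e.toLinearMap = 1 + (p : ℤ_[p]) ^ v • Z := by
    rw [← sub_eq_iff_eq_add', hZ]
    ext i j
    rw [Serre.pow_mul_apply, Matrix.smul_apply, smul_eq_mul]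
  have h5 : e.toLinearMap = LinearMap.id + (p : ℤ_[p]) ^ v • Matrix.toLin X.b X.b Z := by
    apply (LinearMap.toMatrix X.b X.b).injective
    rw [h4, map_add, LinearMap.toMatrix_id, map_smul, LinearMap.toMatrix_toLin]
  refine ⟨c • Matrix.toLin X.b X.b Z x, ?_⟩
  have h6 : e x = x + (p : ℤ_[p]) ^ v • Matrix.toLin X.b X.b Z x := LinearMap.congr_fun h5 x
  rw [h6, add_sub_cancel_left, smul_smul, hc]

theorem finiteIndex_comap' {A B : Type*} [Group A] [Group B] (f : A →* B) (H : Subgroup B)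
    [H.FiniteIndex] : (H.comap f).FiniteIndex := by
  refine ⟨?_⟩
  rw [Subgroup.index_comap]
  intro h
  have h1 := Subgroup.relIndex_eq_zero_of_le_right (le_top : f.range ≤ ⊤) h
  rw [Subgroup.relIndex_top_right] at h1
  exact Subgroup.FiniteIndex.index_ne_zero h1

/-- the families which are `≡ 1` modulo `N` at `p` -/
def congAt (W : WeierstrassCurve ℤ) (P : ℕ → Prop) (N : ℕ) (p : PrimesOf P) :
    Subgroup (∀ p : PrimesOf P, (Tp W p ≃ₗ[ℤ_[(p : ℕ)]] Tp W p)) :=
  (Cong W (p : ℕ) N).comap (Pi.evalMonoidHom _ p)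

theorem finiteIndex_congAt (hΔ : W.Δ ≠ 0) (P : ℕ → Prop) {N : ℕ} (hN : N ≠ 0) (p : PrimesOf P) :
    (congAt W P N p).FiniteIndex := by
  have := finiteIndex_cong hΔ (p : ℕ) hN
  exact finiteIndex_comap' _ _

/-- **Serre's open image theorem**: the image of `Gal(ℚ̄/ℚ)` in `∏ Aut(T_p W)` has finite index, if
all the `p`-adic images are open and the mod `p` representation is surjective for almost all `p`. -/
theorem finiteIndex_range_of_open (hΔ : W.Δ ≠ 0) (P : ℕ → Prop)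
    (hopen : ∀ (p : ℕ) [Fact p.Prime], P p → ∃ n : ℕ, ∀ e : Tp W p ≃ₗ[ℤ_[p]] Tp W p,
      (∀ x, ∃ y, e x - x = (p : ℤ_[p]) ^ n • y) →
        ∃ σ : Γℚ, (tateRep (W.map (Int.castRingHom ℚ)) (map_Δ_ne_zero hΔ) p).ρ σ = e.toLinearMap)
    (hlarge : ∃ B : ℕ, ∀ (p : ℕ) [Fact p.Prime], P p → B < p → SurjMod W p) :
    (adelicAut hΔ P).range.FiniteIndex := by
  classical
  obtain ⟨N, hN, h⟩ := exists_open_adelic_of hΔ P hopen hlarge
  let U : Fin (N + 1) → Subgroup (∀ p : PrimesOf P, (Tp W p ≃ₗ[ℤ_[(p : ℕ)]] Tp W p)) := fun i =>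
    if hi : (i : ℕ).Prime ∧ P i then congAt W P N ⟨i, hi⟩ else ⊤
  have hU : ∀ i, (U i).FiniteIndex := by
    intro i
    by_cases hi : (i : ℕ).Prime ∧ P i
    · simp only [U, hi, and_self, dif_pos]
      exact finiteIndex_congAt hΔ P hN _
    · simp only [U, hi, dif_neg, not_false_eq_true]
      infer_instance
  have hU2 : (⨅ i, U i).FiniteIndex := Subgroup.finiteIndex_iInf hU
  refine @Subgroup.finiteIndex_of_le _ _ (⨅ i, U i) _ hU2 ?_
  intro e he
  obtain ⟨σ, hσ⟩ := h (fun p hp => if hP : P p then e ⟨p, hp.out, hP⟩ else LinearEquiv.refl _ _)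
    (fun p hp hP x => by
      simp only [dif_pos hP]
      by_cases hpN : p < N + 1
      · have h1 := Subgroup.mem_iInf.1 he ⟨p, hpN⟩
        have h2 : (p : ℕ).Prime ∧ P p := ⟨hp.out, hP⟩
        simp only [U, h2, and_self, dif_pos] at h1
        have h3 : e ⟨p, h2⟩ ∈ Cong W p N := h1
        exact mem_cong.1 h3 x
      · have h1 : IsUnit (N : ℤ_[p]) := by
          rw [Serre.natCast_isUnit_iff]
          exact (Nat.coprime_of_lt_prime hN (by omega) hp.out).symm
        obtain ⟨c, hc⟩ := h1.exists_right_inv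
        refine ⟨c • ((e ⟨p, hp.out, hP⟩) x - x), ?_⟩
        rw [smul_smul, hc, one_smul])
  refine ⟨σ, funext fun p => ?_⟩
  have h1 := hσ (p : ℕ) p.2.2
  simp only [dif_pos p.2.2] at h1
  refine LinearEquiv.toLinearMap_injective ?_
  exact (tateAut_toLinearMap hΔ (p : ℕ) σ).trans h1

/-- **Serre's open image theorem for semistable elliptic curves over `ℚ`**: the image of
`Gal(ℚ̄/ℚ)` in `∏ Aut(T_p W)`, the product over all odd primes `p`, has finite index. -/
theorem finiteIndex_range_semistable (hΔ : W.Δ ≠ 0) (hW : W.IsSemistableModel) :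
    (adelicAut hΔ fun p => p ≠ 2).range.FiniteIndex :=
  finiteIndex_range_of_open hΔ _ (fun _ _ hp2 => Isog.exists_open hΔ hW hp2)
    ⟨17, fun _ _ _ hp g => surjective_of_semistable_of_ge hΔ (Or.inr hp.le) hW g⟩

end Fermat.Agent.Cor

end
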