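import Fermat.Agent.GalW.NoLine
import Fermat.Agent.Classic.Rep3

/-!
# Subgroups of `GL₂(𝔽_p)` without invariant line containing an element of order `p`

* `sub_one_sq_eq_zero`: an element of order `p` of `GL₂(𝔽_p)` is unipotent;
* `mem_of_orderOf`: **a subgroup of `GL₂(𝔽_p)` without invariant line and with an element of
  order `p` contains `SL₂(𝔽_p)`**;
* `eq_top_of_orderOf`: it is everything if moreover its determinants are all units.
-/

set_option autoImplicit false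

namespace Fermat.Agent.Cor

open Matrix Fermat.Agent.Classic

section

variable {p : ℕ} [hp : Fact p.Prime]

/-- the matrices of a subgroup of `GL₂(𝔽_p)`. -/
def gmats (G : Subgroup (GL (Fin 2) (ZMod p))) : Submonoid (Matrix (Fin 2) (Fin 2) (ZMod p)) :=
  G.toSubmonoid.map (Units.coeHom _)

theorem mem_of_mem_gmats {G : Subgroup (GL (Fin 2) (ZMod p))} {g : GL (Fin 2) (ZMod p)}
    (h : (g : Matrix (Fin 2) (Fin 2) (ZMod p)) ∈ gmats G) : g ∈ G := by
  obtain ⟨g', hg', h'⟩ := h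
  have : g' = g := Units.ext h'
  exact this ▸ hg'

theorem upper_pow (c : ZMod p) (n : ℕ) :
    (!![1, c; 0, 1] : Matrix (Fin 2) (Fin 2) (ZMod p)) ^ n = !![1, n * c; 0, 1] := by
  induction n with
  | zero => simp [Matrix.one_fin_two]
  | succ n ih =>
    rw [pow_succ, ih, Matrix.mul_fin_two]
    ext i j
    fin_cases i <;> fin_cases j <;> simp
    ring

theorem lower_pow (c : ZMod p) (n : ℕ) :
    (!![1, 0; c, 1] : Matrix (Fin 2) (Fin 2) (ZMod p)) ^ n = !![1, 0; n * c, 1] := by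
  induction n with
  | zero => simp [Matrix.one_fin_two]
  | succ n ih =>
    rw [pow_succ, ih, Matrix.mul_fin_two]
    ext i j
    fin_cases i <;> fin_cases j <;> simp
    ring

theorem upper_mem {G : Subgroup (GL (Fin 2) (ZMod p))} {c : ZMod p} (hc : c ≠ 0)
    (h : !![1, c; 0, 1] ∈ gmats G) (x : ZMod p) : !![1, x; 0, 1] ∈ gmats G := by
  have h1 := pow_mem h (x * c⁻¹).val
  rwa [upper_pow, ZMod.natCast_zmod_val, mul_assoc, inv_mul_cancel₀ hc, mul_one] at h1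

theorem lower_mem {G : Subgroup (GL (Fin 2) (ZMod p))} {c : ZMod p} (hc : c ≠ 0)
    (h : !![1, 0; c, 1] ∈ gmats G) (x : ZMod p) : !![1, 0; x, 1] ∈ gmats G := by
  have h1 := pow_mem h (x * c⁻¹).val
  rwa [lower_pow, ZMod.natCast_zmod_val, mul_assoc, inv_mul_cancel₀ hc, mul_one] at h1

/-- The two groups of transvections generate `SL₂(𝔽_p)`. -/
theorem mem_gmats_of_det_one {G : Subgroup (GL (Fin 2) (ZMod p))} {c d : ZMod p} (hc : c ≠ 0)
    (hd : d ≠ 0) (h1 : !![1, c; 0, 1] ∈ gmats G) (h2 : !![1, 0; d, 1] ∈ gmats G)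
    (A : Matrix (Fin 2) (Fin 2) (ZMod p)) (hA : A.det = 1) : A ∈ gmats G := by
  have h3 : ∀ a b c d : ZMod p, a * d - b * c = 1 → c ≠ 0 →
      (!![a, b; c, d] : Matrix (Fin 2) (Fin 2) (ZMod p)) ∈ gmats G := by
    intro a b c' d' h hc'
    have key : (!![a, b; c', d'] : Matrix (Fin 2) (Fin 2) (ZMod p)) =
        !![1, (a - 1) * c'⁻¹; 0, 1] * !![1, 0; c', 1] * !![1, (d' - 1) * c'⁻¹; 0, 1] := by
      rw [Matrix.mul_fin_two, Matrix.mul_fin_two]
      have e1 : (1 : ZMod p) * 1 + (a - 1) * c'⁻¹ * c' = a := by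
        rw [mul_assoc, inv_mul_cancel₀ hc']; ring
      have e2 : (1 * 0 + (a - 1) * c'⁻¹ * 1 : ZMod p) = (a - 1) * c'⁻¹ := by ring
      have e3 : (0 * 1 + 1 * c' : ZMod p) = c' := by ring
      have e4 : (0 * 0 + 1 * 1 : ZMod p) = 1 := by ring
      rw [e1, e2, e3, e4]
      have e5 : (a * 1 + (a - 1) * c'⁻¹ * 0 : ZMod p) = a := by ring
      have e6 : (a * ((d' - 1) * c'⁻¹) + (a - 1) * c'⁻¹ * 1 : ZMod p) = b := by
        have h4 : (a * ((d' - 1) * c'⁻¹) + (a - 1) * c'⁻¹ * 1 : ZMod p) =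
            (a * d' - 1) * c'⁻¹ := by ring
        have h5 : a * d' - 1 = b * c' := by linear_combination h
        rw [h4, h5, mul_assoc, mul_inv_cancel₀ hc', mul_one]
      have e7 : (c' * 1 + 1 * 0 : ZMod p) = c' := by ring
      have e8 : (c' * ((d' - 1) * c'⁻¹) + 1 * 1 : ZMod p) = d' := by
        rw [mul_comm (d' - 1), ← mul_assoc, mul_inv_cancel₀ hc']; ring
      rw [e5, e6, e7, e8]
    rw [key]
    exact mul_mem (mul_mem (upper_mem hc h1 _) (lower_mem hd h2 _)) (upper_mem hc h1 _)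
  rw [Matrix.eta_fin_two A] at hA ⊢
  rw [Matrix.det_fin_two_of] at hA
  by_cases h0 : A 1 0 = 0
  · rw [h0] at hA ⊢
    have h4 : (!![A 0 0, A 0 1; 0, A 1 1] : Matrix (Fin 2) (Fin 2) (ZMod p)) =
        !![A 0 0 + A 0 1, A 0 1; A 1 1, A 1 1] * !![1, 0; -1, 1] := by
      rw [Matrix.mul_fin_two]
      ext i j
      fin_cases i <;> fin_cases j <;> simp
    have h5 : A 1 1 ≠ 0 := by
      intro h
      rw [h] at hA
      simp at hA
    rw [h4]
    exact mul_mem (h3 _ _ _ _ (by linear_combination hA) h5) (lower_mem hd h2 _)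
  · exact h3 _ _ _ _ hA h0

/-- A nilpotent `2 × 2` matrix over a field has square zero. -/
theorem sq_eq_zero_of_isNilpotent {K : Type*} [Field K] {N : Matrix (Fin 2) (Fin 2) K}
    (hN : IsNilpotent N) : N * N = 0 := by
  have h1 : N.trace = 0 := (Matrix.isNilpotent_trace_of_isNilpotent hN).eq_zero
  have h2 : N.det = 0 := by
    obtain ⟨n, hn⟩ := hN
    have h3 : IsNilpotent N.det := ⟨n, by rw [← Matrix.det_pow, hn, Matrix.det_zero]⟩
    exact h3.eq_zero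
  rw [Matrix.eta_fin_two N] at h1 h2 ⊢
  rw [Matrix.trace_fin_two_of] at h1
  rw [Matrix.det_fin_two_of] at h2
  rw [Matrix.mul_fin_two]
  have e1 : N 0 0 * N 0 0 + N 0 1 * N 1 0 = 0 := by linear_combination N 0 0 * h1 - h2
  have e2 : N 0 0 * N 0 1 + N 0 1 * N 1 1 = 0 := by linear_combination N 0 1 * h1
  have e3 : N 1 0 * N 0 0 + N 1 1 * N 1 0 = 0 := by linear_combination N 1 0 * h1
  have e4 : N 1 0 * N 0 1 + N 1 1 * N 1 1 = 0 := by linear_combination N 1 1 * h1 - h2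
  rw [e1, e2, e3, e4]
  ext i j
  fin_cases i <;> fin_cases j <;> rfl

/-- **An element of `GL₂(𝔽_p)` killed by `p` is unipotent.** -/
theorem sub_one_sq_eq_zero {u : GL (Fin 2) (ZMod p)} (hu : u ^ p = 1) :
    ((u : Matrix (Fin 2) (Fin 2) (ZMod p)) - 1) * ((u : Matrix (Fin 2) (Fin 2) (ZMod p)) - 1) =
      0 := by
  apply sq_eq_zero_of_isNilpotent
  refine ⟨p, ?_⟩
  rw [sub_pow_char_of_commute _ (Commute.one_right _), one_pow, ← Units.val_pow_eq_pow_val, hu,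
    Units.val_one, sub_self]

/-- **A subgroup of `GL₂(𝔽_p)` without invariant line, containing a transvection, contains
`SL₂(𝔽_p)`.** -/
theorem mem_of_transvection {G : Subgroup (GL (Fin 2) (ZMod p))} (hG : NoInvLine G)
    {u : GL (Fin 2) (ZMod p)} (hu : u ∈ G) (hu1 : (u : Matrix (Fin 2) (Fin 2) (ZMod p)) ≠ 1)
    (huu : ((u : Matrix (Fin 2) (Fin 2) (ZMod p)) - 1) *
      ((u : Matrix (Fin 2) (Fin 2) (ZMod p)) - 1) = 0)
    {x : GL (Fin 2) (ZMod p)} (hx : (x : Matrix (Fin 2) (Fin 2) (ZMod p)).det = 1) : x ∈ G := by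
  -- `w₀` with `(u - 1) w₀ = v ≠ 0`
  obtain ⟨w₀, hw₀⟩ : ∃ w : Fin 2 → ZMod p,
      ((u : Matrix (Fin 2) (Fin 2) (ZMod p)) - 1) *ᵥ w ≠ 0 := by
    by_contra hcon
    push Not at hcon
    apply hu1
    rw [← sub_eq_zero]
    exact GalW.mulVec_ext fun w => by rw [hcon w, Matrix.zero_mulVec]
  set v : Fin 2 → ZMod p := ((u : Matrix (Fin 2) (Fin 2) (ZMod p)) - 1) *ᵥ w₀ with hv
  have huv : (u : Matrix (Fin 2) (Fin 2) (ZMod p)) *ᵥ v = v := by
    have h1 : ((u : Matrix (Fin 2) (Fin 2) (ZMod p)) - 1) *ᵥ v = 0 := by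
      rw [hv, Matrix.mulVec_mulVec, huu, Matrix.zero_mulVec]
    rw [Matrix.sub_mulVec, Matrix.one_mulVec, sub_eq_zero] at h1
    exact h1
  -- `g` moving the line
  obtain ⟨g, hg, hgv⟩ := hG v hw₀
  set w : Fin 2 → ZMod p := (g : Matrix (Fin 2) (Fin 2) (ZMod p)) *ᵥ v with hw
  have hli : LinearIndependent (ZMod p) ![v, w] :=
    GalW.li_of_not_stable hw₀ fun ⟨a, ha⟩ => hgv a ha
  obtain ⟨U, hU⟩ := Fermat.Agent.FlatP.exists_unit_basis hli
  -- `u w = w + c v`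
  have huw : ∃ c : ZMod p, (u : Matrix (Fin 2) (Fin 2) (ZMod p)) *ᵥ w =
      c • v + (1 : ZMod p) • w := by
    obtain ⟨c, d, hcd⟩ := Fermat.Agent.FlatP.exists_coord hli
      (((u : Matrix (Fin 2) (Fin 2) (ZMod p)) - 1) *ᵥ w)
    have h1 : ((u : Matrix (Fin 2) (Fin 2) (ZMod p)) - 1) *ᵥ
        (((u : Matrix (Fin 2) (Fin 2) (ZMod p)) - 1) *ᵥ w) = 0 := by
      rw [Matrix.mulVec_mulVec, huu, Matrix.zero_mulVec]
    have hd : d = 0 := by
      by_contra hd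
      have h2 : ((u : Matrix (Fin 2) (Fin 2) (ZMod p)) - 1) *ᵥ v = 0 := by
        rw [Matrix.sub_mulVec, huv, Matrix.one_mulVec, sub_self]
      rw [hcd, Matrix.mulVec_add, Matrix.mulVec_smul, Matrix.mulVec_smul, h2, smul_zero,
        zero_add, smul_eq_zero] at h1
      have h3 := h1.resolve_left hd
      rw [hcd, add_eq_zero_iff_eq_neg] at h3
      rw [LinearIndependent.pair_iff] at hli
      have h4 := hli c d (by rw [h3, neg_add_cancel])
      exact hd h4.2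
    refine ⟨c, ?_⟩
    rw [hd, zero_smul, add_zero, Matrix.sub_mulVec, Matrix.one_mulVec, sub_eq_iff_eq_add] at hcd
    rw [hcd, one_smul]
  obtain ⟨c, hc⟩ := huw
  have hc0 : c ≠ 0 := by
    rintro rfl
    apply hu1
    have h1 : (u : Matrix (Fin 2) (Fin 2) (ZMod p)) *ᵥ w = w := by
      rw [hc, zero_smul, zero_add, one_smul]
    refine GalW.eq_one_of_unip hli (a := 1) (b := 1) (by rw [huv, one_smul])
      (by rw [h1, one_smul]) huu
  -- the conjugate transvection `u' = g u g⁻¹`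
  have hgg : ((g⁻¹ : GL (Fin 2) (ZMod p)) : Matrix (Fin 2) (Fin 2) (ZMod p)) *ᵥ w = v := by
    rw [hw, Matrix.mulVec_mulVec, ← Units.val_mul, inv_mul_cancel, Units.val_one,
      Matrix.one_mulVec]
  have hu'w : ((g * u * g⁻¹ : GL (Fin 2) (ZMod p)) : Matrix (Fin 2) (Fin 2) (ZMod p)) *ᵥ w = w := by
    rw [Units.val_mul, Units.val_mul, ← Matrix.mulVec_mulVec, hgg, ← Matrix.mulVec_mulVec, huv]
  have huu' : (((g * u * g⁻¹ : GL (Fin 2) (ZMod p)) : Matrix (Fin 2) (Fin 2) (ZMod p)) - 1) *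
      (((g * u * g⁻¹ : GL (Fin 2) (ZMod p)) : Matrix (Fin 2) (Fin 2) (ZMod p)) - 1) = 0 := by
    have h1 : ((g * u * g⁻¹ : GL (Fin 2) (ZMod p)) : Matrix (Fin 2) (Fin 2) (ZMod p)) - 1 =
        (g : Matrix (Fin 2) (Fin 2) (ZMod p)) * ((u : Matrix (Fin 2) (Fin 2) (ZMod p)) - 1) *
          ((g⁻¹ : GL (Fin 2) (ZMod p)) : Matrix (Fin 2) (Fin 2) (ZMod p)) := by
      rw [Units.val_mul, Units.val_mul, mul_sub, sub_mul, mul_one, ← Units.val_mul g g⁻¹,
        mul_inv_cancel, Units.val_one]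
    have h2 : ((g⁻¹ : GL (Fin 2) (ZMod p)) : Matrix (Fin 2) (Fin 2) (ZMod p)) *
        (g : Matrix (Fin 2) (Fin 2) (ZMod p)) = 1 := by
      rw [← Units.val_mul, inv_mul_cancel, Units.val_one]
    rw [h1]
    calc (g : Matrix (Fin 2) (Fin 2) (ZMod p)) * ((u : Matrix (Fin 2) (Fin 2) (ZMod p)) - 1) *
            ((g⁻¹ : GL (Fin 2) (ZMod p)) : Matrix (Fin 2) (Fin 2) (ZMod p)) *
          ((g : Matrix (Fin 2) (Fin 2) (ZMod p)) * ((u : Matrix (Fin 2) (Fin 2) (ZMod p)) - 1) *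
            ((g⁻¹ : GL (Fin 2) (ZMod p)) : Matrix (Fin 2) (Fin 2) (ZMod p)))
        = (g : Matrix (Fin 2) (Fin 2) (ZMod p)) * ((u : Matrix (Fin 2) (Fin 2) (ZMod p)) - 1) *
            (((g⁻¹ : GL (Fin 2) (ZMod p)) : Matrix (Fin 2) (Fin 2) (ZMod p)) *
              (g : Matrix (Fin 2) (Fin 2) (ZMod p))) *
            ((u : Matrix (Fin 2) (Fin 2) (ZMod p)) - 1) *
          ((g⁻¹ : GL (Fin 2) (ZMod p)) : Matrix (Fin 2) (Fin 2) (ZMod p)) := by noncomm_ring
      _ = (g : Matrix (Fin 2) (Fin 2) (ZMod p)) *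
            (((u : Matrix (Fin 2) (Fin 2) (ZMod p)) - 1) *
              ((u : Matrix (Fin 2) (Fin 2) (ZMod p)) - 1)) *
            ((g⁻¹ : GL (Fin 2) (ZMod p)) : Matrix (Fin 2) (Fin 2) (ZMod p)) := by
          rw [h2]; noncomm_ring
      _ = 0 := by rw [huu, mul_zero, zero_mul]
  have hu'v : ∃ d : ZMod p,
      ((g * u * g⁻¹ : GL (Fin 2) (ZMod p)) : Matrix (Fin 2) (Fin 2) (ZMod p)) *ᵥ v =
        (1 : ZMod p) • v + d • w := by
    obtain ⟨c', d', hcd⟩ := Fermat.Agent.FlatP.exists_coord hli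
      ((((g * u * g⁻¹ : GL (Fin 2) (ZMod p)) : Matrix (Fin 2) (Fin 2) (ZMod p)) - 1) *ᵥ v)
    have h1 : (((g * u * g⁻¹ : GL (Fin 2) (ZMod p)) : Matrix (Fin 2) (Fin 2) (ZMod p)) - 1) *ᵥ
        ((((g * u * g⁻¹ : GL (Fin 2) (ZMod p)) : Matrix (Fin 2) (Fin 2) (ZMod p)) - 1) *ᵥ v) =
        0 := by
      rw [Matrix.mulVec_mulVec, huu', Matrix.zero_mulVec]
    have hc' : c' = 0 := by
      by_contra hc'
      have h2 : (((g * u * g⁻¹ : GL (Fin 2) (ZMod p)) : Matrix (Fin 2) (Fin 2) (ZMod p)) - 1) *ᵥ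
          w = 0 := by
        rw [Matrix.sub_mulVec, hu'w, Matrix.one_mulVec, sub_self]
      rw [hcd, Matrix.mulVec_add, Matrix.mulVec_smul, Matrix.mulVec_smul, h2, smul_zero,
        add_zero, smul_eq_zero] at h1
      have h3 := h1.resolve_left hc'
      rw [hcd] at h3
      rw [LinearIndependent.pair_iff] at hli
      exact hc' (hli c' d' h3).1
    refine ⟨d', ?_⟩
    rw [hc', zero_smul, zero_add, Matrix.sub_mulVec, Matrix.one_mulVec, sub_eq_iff_eq_add] at hcd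
    rw [hcd, one_smul, add_comm]
  obtain ⟨d, hd⟩ := hu'v
  have hd0 : d ≠ 0 := by
    rintro rfl
    apply hu1
    have h1 : ((g * u * g⁻¹ : GL (Fin 2) (ZMod p)) : Matrix (Fin 2) (Fin 2) (ZMod p)) *ᵥ v =
        (1 : ZMod p) • v := by
      rw [hd, zero_smul, add_zero]
    have h2 : ((g * u * g⁻¹ : GL (Fin 2) (ZMod p)) : Matrix (Fin 2) (Fin 2) (ZMod p)) = 1 :=
      GalW.eq_one_of_unip hli (b := 1) h1 (by rw [hu'w, one_smul]) huu'
    have h3 : g * u * g⁻¹ = 1 := Units.ext h2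
    have h4 : u = 1 := by
      have : u = g⁻¹ * (g * u * g⁻¹) * g := by group
      rw [this, h3]; group
    rw [h4, Units.val_one]
  -- conjugate everything by `U`
  have h1 := hU (u : Matrix (Fin 2) (Fin 2) (ZMod p)) 1 c 0 1
    (by rw [huv, one_smul, zero_smul, add_zero]) hc
  have h2 := hU ((g * u * g⁻¹ : GL (Fin 2) (ZMod p)) : Matrix (Fin 2) (Fin 2) (ZMod p)) 1 0 d 1 hd
    (by rw [hu'w, one_smul, zero_smul, zero_add])
  have h3 : ((U * x * U⁻¹ : GL (Fin 2) (ZMod p)) : Matrix (Fin 2) (Fin 2) (ZMod p)).det = 1 := by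
    rw [Units.val_mul, Units.val_mul, Matrix.det_mul, Matrix.det_mul, mul_right_comm,
      ← Matrix.det_mul, ← Units.val_mul, mul_inv_cancel, Units.val_one, Matrix.det_one, one_mul,
      hx]
  have h4 : U * x * U⁻¹ ∈ G.map (MulAut.conj U).toMonoidHom := by
    refine mem_of_mem_gmats (mem_gmats_of_det_one hc0 hd0 ?_ ?_ _ h3)
    · refine ⟨U * u * U⁻¹, ⟨u, hu, rfl⟩, ?_⟩
      rw [← h1]; rfl
    · refine ⟨U * (g * u * g⁻¹) * U⁻¹, ⟨g * u * g⁻¹, mul_mem (mul_mem hg hu) (inv_mem hg), rfl⟩, ?_⟩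
      rw [← h2]; rfl
  obtain ⟨y, hy, hyx⟩ := h4
  have h5 : U * y * U⁻¹ = U * x * U⁻¹ := hyx
  have h6 : y = x := mul_left_cancel (mul_right_cancel h5)
  exact h6 ▸ hy

/-- **A subgroup of `GL₂(𝔽_p)` without invariant line, containing an element of order `p`,
contains `SL₂(𝔽_p)`.** -/
theorem mem_of_orderOf {G : Subgroup (GL (Fin 2) (ZMod p))} (hG : NoInvLine G)
    {u : GL (Fin 2) (ZMod p)} (hu : u ∈ G) (hup : orderOf u = p)
    {x : GL (Fin 2) (ZMod p)} (hx : (x : Matrix (Fin 2) (Fin 2) (ZMod p)).det = 1) : x ∈ G := by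
  refine mem_of_transvection hG hu (fun h => ?_) (sub_one_sq_eq_zero ?_) hx
  · have h1 : u = 1 := Units.ext h
    rw [h1, orderOf_one] at hup
    exact hp.out.one_lt.ne hup
  · exact orderOf_dvd_iff_pow_eq_one.mp (dvd_of_eq hup)

/-- **A subgroup of `GL₂(𝔽_p)` of order divisible by `p` without invariant line contains
`SL₂(𝔽_p)`.** -/
theorem mem_of_dvd_card {G : Subgroup (GL (Fin 2) (ZMod p))} (hG : NoInvLine G)
    (hdvd : p ∣ Nat.card G) {x : GL (Fin 2) (ZMod p)}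
    (hx : (x : Matrix (Fin 2) (Fin 2) (ZMod p)).det = 1) : x ∈ G := by
  obtain ⟨u, hu⟩ := exists_prime_orderOf_dvd_card' p hdvd
  exact mem_of_orderOf hG u.2 (by rw [Subgroup.orderOf_coe, hu]) hx

/-- A subgroup of `GL₂(𝔽_p)` containing `SL₂(𝔽_p)` on which the determinant is surjective is
everything. -/
theorem eq_top_of_det {G : Subgroup (GL (Fin 2) (ZMod p))}
    (hSL : ∀ x : GL (Fin 2) (ZMod p), (x : Matrix (Fin 2) (Fin 2) (ZMod p)).det = 1 → x ∈ G)
    (hdet : ∀ c : (ZMod p)ˣ, ∃ g ∈ G, (g : Matrix (Fin 2) (Fin 2) (ZMod p)).det = c) :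
    G = ⊤ := by
  rw [Subgroup.eq_top_iff']
  intro x
  obtain ⟨g, hg, hgd⟩ := hdet (Matrix.GeneralLinearGroup.det x)
  have h3 : ((g⁻¹ * x : GL (Fin 2) (ZMod p)) : Matrix (Fin 2) (Fin 2) (ZMod p)).det = 1 := by
    have h4 : Matrix.GeneralLinearGroup.det (g⁻¹ * x) = 1 := by
      have h5 : Matrix.GeneralLinearGroup.det g = Matrix.GeneralLinearGroup.det x :=
        Units.ext hgd
      rw [map_mul, map_inv, h5, inv_mul_cancel]
    exact congrArg Units.val h4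
  exact (Subgroup.mul_mem_cancel_left G (inv_mem hg)).mp (hSL _ h3)

/-- **A subgroup of `GL₂(𝔽_p)` without invariant line, with an element of order `p` and with
surjective determinant is `GL₂(𝔽_p)`.** -/
theorem eq_top_of_orderOf {G : Subgroup (GL (Fin 2) (ZMod p))} (hG : NoInvLine G)
    {u : GL (Fin 2) (ZMod p)} (hu : u ∈ G) (hup : orderOf u = p)
    (hdet : ∀ c : (ZMod p)ˣ, ∃ g ∈ G, (g : Matrix (Fin 2) (Fin 2) (ZMod p)).det = c) :
    G = ⊤ :=
  eq_top_of_det (fun _ hx => mem_of_orderOf hG hu hup hx) hdet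

end

end Fermat.Agent.Cor
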