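import Fermat.Agent.Classic.Level.Inert3Mat
import Fermat.Agent.Classic.Rep3
import Fermat.Agent.EC.MultOrdA
import Fermat.Agent.FlatP.CountSS

/-!
# Inertia at `p` on `E[p]` at a place of multiplicative reduction above `p`

* `exists_inertia_fix_zeta` : if `p` does not divide `v_p(Δ)` then some element of an inertia group
  above `p`, which fixes the `p`-th roots of unity, moves a point of `E[p]`.
* `sub_one_sq` : such an element is unipotent.
* `exists_orderOf_eq_p` : its image in `GL₂(F_p)` has order `p`.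
-/

set_option autoImplicit false

open WeierstrassCurve WeierstrassCurve.Affine WeierstrassCurve.Affine.Point
open scoped WeierstrassCurve.Affine

noncomputable section

namespace Fermat.Agent.Cor

open Fermat.Agent.Classic Fermat.Agent.Classic.Inert3
open Fermat.Agent.FlatP Fermat.Agent.FlatGS Fermat.Agent.MazurMult FermatAgent.ECVal
  Fermat.Agent.ECRed Matrix
open Fermat.Agent.S53norm (M2)

variable {W : WeierstrassCurve ℤ} {p : ℕ} [hpF : Fact p.Prime] {A : ValuationSubring Om}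

/-! ### The valuation of the discriminant -/

/-- `v(Δ) = 2 v(D)` at a node root. -/
theorem two_mul_val_D {q : ℕ} (hW : IsMultAt W q) {A : ValuationSubring Om}
    (hA : A.LiesOverPrime q) {e D : Om} (NR : NodeRoot A.valuation (EQ W) e D) :
    2 * (valOf hW.prime hA).val D = (padicValInt q W.Δ : ℚ) := by
  have N := NR.nodeData hW.prime hA hW.ne
  set w := valOf hW.prime hA with hw
  set h := w.val D with hh
  have h1 : w.Is (2 * h) (EQ W).Δ := by
    rw [NR.hΔ]
    have e1 : w.Is 0 (((EQ W).b₂ + 12 * e) ^ 2 - 64 * D) := by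
      refine (N.hB.sq.congr (by ring)).sub_gt ?_
      have e2 : w.Ge 0 (64 : Om) := by exact_mod_cast QVal.ge_natCast (w := w) 64
      have := e2.mul N.hD.ge
      exact this.gt (by have := N.hh; linarith)
    exact (N.hD.sq.mul e1).congr (by ring)
  have h2 : w.Is (padicValRat q (W.Δ : ℚ)) (EQ W).Δ := by
    have h3 := valOf_ratCast hW.prime hA (r := (W.Δ : ℚ)) (by exact_mod_cast hW.ne)
    rw [EQ_Δ]
    rwa [show algebraMap ℚ Om (W.Δ : ℚ) = ((W.Δ : ℤ) : Om) by simp] at h3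
  have h4 := h1.unique h2
  rw [padicValRat.of_int] at h4
  rw [h4]
  simp

/-! ### The existence of a non-trivial element -/

/-- **If `p ∤ v_p(Δ)`, the inertia elements over `ℚ(ζ_p)` do not act trivially on `E[p]`.** -/
theorem exists_inertia_fix_zeta (hW : IsMultAt W p) (hp2 : p ≠ 2)
    (hv : ¬ p ∣ padicValInt p W.Δ) (hA : A.LiesOverPrime p) :
    ∃ σ ∈ A.inertiaSubgroupIn ℚ, ECFrob.cycMod p σ = 1 ∧
      ∃ x : Submodule.torsionBy ℤ (EQ W).Point ((p : ℕ) : ℤ), σ • x ≠ x := by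
  classical
  by_contra hcon
  push Not at hcon
  have hp := hpF.out
  obtain ⟨P, hP, hPE⟩ := exists_torsion_notMem_E0 hW hp2 hA
  obtain ⟨π, hπ⟩ := IsAlgClosed.exists_pow_nat_eq ((p : ℕ) : Om) (n := p ^ 2 - 1) (by
    have := hp.two_le
    have : 4 ≤ p ^ 2 := by nlinarith
    omega)
  obtain ⟨ζ, hζ⟩ := Fermat.Agent.ECFrob.exists_primitiveRoot p
  have hfix : ∀ g ∈ A.inertiaSubgroupIn ℚ, g π = π → g • P = P := by
    intro g hg hgπ
    have h1 : g ζ = ζ ^ 1 := by
      rw [pow_one]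
      exact zeta_fixed hp hA hπ hζ g (mem_stab.mpr ⟨hg, hgπ⟩)
    have h2 : ECFrob.cycMod p g = 1 := by
      rw [ECFrob.cycMod_unique hζ h1, Nat.cast_one]
    have h3 := hcon g hg h2 ⟨P, by rw [Submodule.mem_torsionBy_iff, natCast_zsmul]; exact hP⟩
    exact congrArg Subtype.val h3
  obtain ⟨e, D, NR⟩ := hW.exists_nodeRoot hA
  have N := NR.nodeData hW.prime hA hW.ne
  have hval := two_mul_val_D hW hA NR
  rw [mem_E0_iff_pcomp hW.prime hA hW.ne NR] at hPE
  set w := valOf hW.prime hA with hw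
  set h := w.val D with hh
  obtain ⟨j, hj⟩ := pcomp_torsion N hP
  have hc0' : 0 < pcomp w e h P := lt_of_le_of_ne (pcomp_nonneg N P) (Ne.symm hPE)
  have hpos : (0 : ℚ) < p := by exact_mod_cast hp.pos
  set v : ℕ := padicValInt p W.Δ with hvdef
  rw [hval] at hj
  have hcle := pcomp_le N P
  set c := pcomp w e h P with hc
  have hvpos : (0 : ℚ) < v := by
    rw [← hval]
    have := N.hh
    linarith
  -- `0 < 2 j < p`
  have hj0 : 0 < j := by
    by_contra hneg
    have h1 : (j : ℚ) ≤ 0 := by exact_mod_cast not_lt.mp hneg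
    have h2 : (j : ℚ) * v ≤ 0 := mul_nonpos_of_nonpos_of_nonneg h1 hvpos.le
    rw [← hj] at h2
    exact absurd (mul_pos hpos hc0') (not_lt.mpr h2)
  have hjp : 2 * j ≤ p := by
    have h1 : (2 * j : ℚ) * v ≤ p * v := by
      calc (2 * j : ℚ) * v = 2 * (p * c) := by rw [hj]; ring
        _ ≤ 2 * (p * h) := by
          have := mul_le_mul_of_nonneg_left hcle hpos.le
          linarith
        _ = p * v := by rw [← hval]; ring
    have h2 := le_of_mul_le_mul_right h1 hvpos
    exact_mod_cast h2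
  have hodd : (p : ℤ) ≠ 2 * j := by
    intro h1
    have h2 : Odd p := hp.odd_of_ne_two hp2
    have h3 : Even (p : ℤ) := ⟨j, by rw [h1]; ring⟩
    rw [Int.even_coe_nat] at h3
    exact (Nat.not_even_iff_odd.mpr h2) h3
  have hch' : c < h := by
    have h1 : 2 * j < p := lt_of_le_of_ne hjp (Ne.symm hodd)
    have h2 : (2 * j : ℚ) < p := by exact_mod_cast h1
    have h3 : (2 * j : ℚ) * v < p * v := mul_lt_mul_of_pos_right h2 hvpos
    have h4 : (2 * p : ℚ) * c < (2 * p) * h := by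
      calc (2 * p : ℚ) * c = (2 * j : ℚ) * v := by
            have : (2 * p : ℚ) * c = 2 * (p * c) := by ring
            rw [this, hj]; ring
        _ < p * v := h3
        _ = (2 * p) * h := by rw [← hval]; ring
    exact lt_of_mul_lt_mul_left h4 (by positivity)
  have hP0 : P ≠ 0 := by
    rintro rfl
    rw [pcomp_zero] at hc
    exact hc0'.ne' hc
  have hX : w.Is c (xc P - e) := by
    obtain ⟨hR', eR⟩ := exists_eq_some hP0
    have hRc : pcomp w e h P = c := rfl
    rw [eR, pcomp_some] at hRc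
    rcases QVal.comp_cases (w := w) (h := h) (xc P - e) with ⟨r, hr, h1⟩ | ⟨r, hr, hrh, h1⟩ | h1
    · rw [QVal.comp_of_is_nonpos h1 hr] at hRc
      exact absurd hRc hc0'.ne
    · rw [QVal.comp_of_is h1 hr.le hrh.le] at hRc
      rwa [hRc] at h1
    · rw [QVal.comp_of_ge N.hh h1] at hRc
      exact absurd hRc hch'.ne'
  have hψ := psi_is N hP0 hc0' hch' hX
  obtain ⟨m, hm⟩ := ss_val hA hπ hψ.1 (fun g hg hgπ => by
    rw [← psi_smul, hfix g hg hgπ])
  have hcm : c = m / ((p ^ 2 - 1 : ℕ) : ℚ) := hψ.unique hm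
  have hcast : ((p ^ 2 - 1 : ℕ) : ℚ) = (p : ℚ) ^ 2 - 1 := by
    have h1 : 1 ≤ p ^ 2 := Nat.one_le_pow _ _ hp.pos
    push_cast [Nat.cast_sub h1]
    ring
  have hne : (p : ℚ) ^ 2 - 1 ≠ 0 := by
    have : (2 : ℚ) ≤ p := by exact_mod_cast hp.two_le
    nlinarith
  rw [hcast, eq_div_iff hne] at hcm
  have h5 : (p : ℤ) * m = (p ^ 2 - 1) * (j * v) := by
    have h6 : (p : ℚ) * m = (p ^ 2 - 1) * (j * v) := by
      rw [← hcm, ← hj]; ring
    exact_mod_cast h6
  have h7 : (p : ℤ) ∣ j * v := by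
    have h8 : (p : ℤ) ∣ (p ^ 2 - 1) * (j * v) := ⟨m, h5.symm⟩
    have h9 : (j : ℤ) * v = p * (p * (j * v)) - (p ^ 2 - 1) * (j * v) := by ring
    rw [h9]
    exact dvd_sub (dvd_mul_right _ _) h8
  have hpZ : Prime (p : ℤ) := Nat.prime_iff_prime_int.mp hp
  rcases hpZ.dvd_or_dvd h7 with h8 | h8
  · have := Int.le_of_dvd hj0 h8
    omega
  · exact hv (by exact_mod_cast h8)

/-! ### Unipotence -/

/-- The matrix representation on `E[p]`. -/
def matP (p : ℕ) [Fact p.Prime] (hΔ : W.Δ ≠ 0) : GQ →* M2 (ZMod p) :=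
  (Units.coeHom (Matrix (Fin 2) (Fin 2) (ZMod p))).comp (repP p hΔ)

theorem matP_apply (hΔ : W.Δ ≠ 0) (σ : GQ) :
    matP p hΔ σ = ((repP p hΔ σ : GL (Fin 2) (ZMod p)) : Matrix (Fin 2) (Fin 2) (ZMod p)) := rfl

theorem det_matP (hΔ : W.Δ ≠ 0) (σ : GQ) : (matP p hΔ σ).det = ECFrob.cycMod p σ :=
  det_repP p hΔ σ

theorem cycDet_matP (hΔ : W.Δ ≠ 0) : TW.CycDet p (matP p hΔ) := by
  obtain ⟨ζ, hζ⟩ := Fermat.Agent.ECFrob.exists_primitiveRoot p
  intro σ a ha
  rw [det_matP]
  exact ECFrob.cycMod_unique hζ (ha ζ hζ.pow_eq_one)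

/-- At a place of multiplicative reduction above `p` the `σ x - x` do not span `E[p]`. -/
theorem V0_matP_ne_top (hW : IsMultAt W p) (hp2 : p ≠ 2) (hA : A.LiesOverPrime p) :
    V0 (matP p hW.ne) A ≠ ⊤ := by
  classical
  obtain ⟨e, he⟩ := exists_equiv p hW.ne
  intro htop
  obtain ⟨P, hP, hPE⟩ := exists_torsion_notMem_E0 hW hp2 hA
  have hPt : P ∈ Submodule.torsionBy ℤ (EQ W).Point ((p : ℕ) : ℤ) := by
    rw [Submodule.mem_torsionBy_iff, natCast_zsmul]
    exact hP
  have h1 : e ⟨P, hPt⟩ ∈ V0 (matP p hW.ne) A := by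
    rw [htop]
    exact Submodule.mem_top
  rw [mem_V0_iff] at h1
  have key : ∀ y ∈ AddSubgroup.closure
      {y | ∃ σ ∈ A.inertiaSubgroupIn ℚ, ∃ x, matP p hW.ne σ *ᵥ x - x = y},
      ((e.symm y : Submodule.torsionBy ℤ (EQ W).Point ((p : ℕ) : ℤ)) : (EQ W).Point) ∈
        E0 (redEk W A) (isPlace_valuationSubring A) := by
    intro y hy
    induction hy using AddSubgroup.closure_induction with
    | mem y hy =>
      obtain ⟨σ, hσ, x, rfl⟩ := hy
      have h2 := he σ (e.symm x)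
      rw [LinearEquiv.apply_symm_apply] at h2
      have h3 : e.symm (matP p hW.ne σ *ᵥ x - x) = σ • e.symm x - e.symm x := by
        rw [map_sub, matP_apply, ← h2, LinearEquiv.symm_apply_apply]
      rw [h3]
      exact inertia_smul_sub_mem_E0 hW hp2 hA hσ _
    | zero =>
      rw [_root_.map_zero]
      exact AddSubgroup.zero_mem _
    | add a b _ _ ha hb =>
      rw [map_add]
      exact AddSubgroup.add_mem _ ha hb
    | neg a _ ha =>
      rw [map_neg]
      exact AddSubgroup.neg_mem _ ha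
  have h2 := key _ h1
  rw [LinearEquiv.symm_apply_apply] at h2
  exact hPE h2

/-- A matrix of determinant one and trace two is unipotent. -/
theorem sub_one_sq {k : Type} [Field k] {X : M2 k} (h : X.trace = 2) (hd : X.det = 1) :
    (X - 1) * (X - 1) = 0 := by
  rw [Matrix.trace_fin_two] at h
  rw [Matrix.det_fin_two] at hd
  ext i j
  fin_cases i <;> fin_cases j <;>
    simp only [Fin.zero_eta, Fin.mk_one, Fin.isValue, Matrix.mul_apply, Fin.sum_univ_two,
      Matrix.sub_apply, Matrix.one_apply_eq, Matrix.one_apply_ne (zero_ne_one' (Fin 2)),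
      Matrix.one_apply_ne (one_ne_zero (α := Fin 2)), Matrix.zero_apply]
  · linear_combination X 0 0 * h - hd
  · linear_combination X 0 1 * h
  · linear_combination X 1 0 * h
  · linear_combination X 1 1 * h - hd

/-- A non-trivial unipotent element of `GL₂(F_p)` has order `p`. -/
theorem orderOf_eq_p {g : GL (Fin 2) (ZMod p)} (hg : g ≠ 1)
    (h : ((g : Matrix (Fin 2) (Fin 2) (ZMod p)) - 1) * ((g : Matrix (Fin 2) (Fin 2) (ZMod p)) - 1)
      = 0) : orderOf g = p := by
  refine orderOf_eq_prime ?_ hg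
  refine Units.ext ?_
  rw [Units.val_pow_eq_pow_val, Units.val_one]
  have h1 : (g : Matrix (Fin 2) (Fin 2) (ZMod p)) =
      1 + ((g : Matrix (Fin 2) (Fin 2) (ZMod p)) - 1) := by abel
  have h2 : ((g : Matrix (Fin 2) (Fin 2) (ZMod p)) - 1) ^ p = 0 := by
    refine pow_eq_zero_of_le hpF.out.two_le ?_
    rw [pow_two]
    exact h
  rw [h1, add_pow_char_of_commute _ (Commute.one_left _), one_pow, h2, add_zero]

/-- **Inertia at `p`, multiplicative reduction, `p ∤ v_p(Δ)`: the image of inertia in `GL₂(F_p)`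
contains a non-trivial unipotent element**, of order `p`. -/
theorem exists_inertia_unipotent_at_p (hW : IsMultAt W p) (hp2 : p ≠ 2)
    (hv : ¬ p ∣ padicValInt p W.Δ) (hA : A.LiesOverPrime p) :
    ∃ σ ∈ A.inertiaSubgroupIn ℚ, ECFrob.cycMod p σ = 1 ∧ repP p hW.ne σ ≠ 1 ∧
      ((repP p hW.ne σ : Matrix (Fin 2) (Fin 2) (ZMod p)) - 1) *
        ((repP p hW.ne σ : Matrix (Fin 2) (Fin 2) (ZMod p)) - 1) = 0 ∧
      orderOf (repP p hW.ne σ) = p := by
  obtain ⟨σ, hσ, hc, x, hx⟩ := exists_inertia_fix_zeta hW hp2 hv hA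
  obtain ⟨e, he⟩ := exists_equiv p hW.ne
  have hne : repP p hW.ne σ ≠ 1 := by
    intro h1
    apply hx
    apply e.injective
    rw [he, h1, Units.val_one, one_mulVec]
  have hdet : (matP p hW.ne σ).det = 1 := by rw [det_matP, hc]
  have htr : (matP p hW.ne σ).trace = 2 := by
    rcases V0_cases hp2 hA (cycDet_matP hW.ne) with ⟨v, -, hv⟩ | h1
    · rw [trace_of_image_line fun y => hv ▸ sub_mem_V0 hσ y, hdet]
      norm_num
    · exact absurd h1 (V0_matP_ne_top hW hp2 hA)
  have hsq := sub_one_sq htr hdet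
  exact ⟨σ, hσ, hc, hne, hsq, orderOf_eq_p hne hsq⟩

/-- The same in terms of the points of `E[p]`. -/
theorem exists_inertia_p (hW : IsMultAt W p) (hp2 : p ≠ 2)
    (hv : ¬ p ∣ padicValInt p W.Δ) (hA : A.LiesOverPrime p) :
    ∃ σ ∈ A.inertiaSubgroupIn ℚ, ECFrob.cycMod p σ = 1 ∧
      (∃ x : Submodule.torsionBy ℤ (EQ W).Point ((p : ℕ) : ℤ), σ • x ≠ x) ∧
      ∀ x : Submodule.torsionBy ℤ (EQ W).Point ((p : ℕ) : ℤ), σ • (σ • x - x) = σ • x - x := by
  obtain ⟨σ, hσ, hc, hne, hsq, -⟩ := exists_inertia_unipotent_at_p hW hp2 hv hA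
  obtain ⟨e, he⟩ := exists_equiv p hW.ne
  refine ⟨σ, hσ, hc, ?_, fun x => ?_⟩
  · by_contra hcon
    push Not at hcon
    apply hne
    refine Units.ext ?_
    rw [Units.val_one]
    apply Matrix.ext_of_mulVec_single
    intro i
    have h2 := he σ (e.symm (Pi.single i 1))
    rw [hcon, LinearEquiv.apply_symm_apply] at h2
    rw [← h2, one_mulVec]
  · apply e.injective
    have h1 := congrArg (fun X => X *ᵥ e x) hsq
    simp only [← mulVec_mulVec, sub_mulVec, one_mulVec, zero_mulVec] at h1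
    rw [he, map_sub, he]
    exact sub_eq_zero.mp h1

end Fermat.Agent.Cor
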