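import Fermat.Agent.Corollaries.Surj.Indep

/-!
# Lifting surjectivity from `GL₂(𝔽_p)` to `GL₂(ℤ_p)` with a unipotent element, all primes `p`

`ρ : G → GL₂(ℤ_p)` a homomorphism of groups (no topology).  If `ρ` is surjective modulo `p`, if
`det ρ` is surjective modulo all powers of `p`, and if the image contains a matrix `1 + N` with
`N² = 0` and `N ≢ 0` modulo `p`, then `ρ` is surjective modulo all powers of `p`
(`Serre.exists_congr_of_unipotent_all`).  The primes `p = 2` and `p = 3` are allowed; without the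
unipotent element the statement is false for them.
-/

set_option autoImplicit false

noncomputable section

open Matrix

namespace Fermat.Agent.Cor.Serre

section Nil

variable {p : ℕ} [hp : Fact p.Prime]

/-- A matrix of square zero has determinant and trace zero. -/
theorem det_trace_of_sq_zero {N : Matrix (Fin 2) (Fin 2) ℤ_[p]} (hN : N * N = 0) :
    N.det = 0 ∧ N 0 0 + N 1 1 = 0 := by
  have h1 : N.det = 0 := by
    have h := congrArg Matrix.det hN
    rw [Matrix.det_mul, Matrix.det_zero] at h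
    exact mul_self_eq_zero.mp h
  refine ⟨h1, ?_⟩
  have h2 : IsNilpotent N := ⟨2, by rw [sq, hN]⟩
  have h3 := (Matrix.isNilpotent_trace_of_isNilpotent h2).eq_zero
  rwa [Matrix.trace_fin_two] at h3

theorem det_one_add_of_sq_zero {N : Matrix (Fin 2) (Fin 2) ℤ_[p]} (hN : N * N = 0) :
    (1 + N).det = 1 := by
  obtain ⟨h1, h2⟩ := det_trace_of_sq_zero hN
  rw [Matrix.det_fin_two] at h1 ⊢
  simp only [Matrix.add_apply, Matrix.one_apply_eq]
  rw [Matrix.one_apply_ne (by decide : (0 : Fin 2) ≠ 1),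
    Matrix.one_apply_ne (by decide : (1 : Fin 2) ≠ 0)]
  linear_combination h1 + h2

/-- **A matrix of square zero which is not zero modulo `p` is conjugate to a transvection.** -/
theorem exists_conj_of_sq_zero {N : Matrix (Fin 2) (Fin 2) ℤ_[p]} (hN : N * N = 0)
    (h0 : ¬ Cg p 1 N 0) : ∃ P P' : Matrix (Fin 2) (Fin 2) ℤ_[p], P * P' = 1 ∧ P' * P = 1 ∧
      P' * N * P = !![0, 1; 0, 0] := by
  obtain ⟨hd, ht⟩ := det_trace_of_sq_zero hN
  rw [Matrix.det_fin_two] at hd
  have hu : IsUnit (N 1 0) ∨ IsUnit (N 0 1) := by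
    by_contra hcon
    rw [not_or, not_isUnit_iff, not_isUnit_iff] at hcon
    obtain ⟨⟨a, ha⟩, ⟨b, hb⟩⟩ := hcon
    have hp' : Prime (p : ℤ_[p]) := PadicInt.prime_p
    have h3 : (p : ℤ_[p]) ∣ N 0 0 := by
      refine hp'.dvd_of_dvd_pow (n := 2) ⟨-(N 0 1 * a), ?_⟩
      linear_combination -hd + N 0 0 * ht - N 0 1 * ha
    have h4 : (p : ℤ_[p]) ∣ N 1 1 := by
      have h5 : N 1 1 = -(N 0 0) := by linear_combination ht
      rw [h5]
      exact dvd_neg.2 h3
    apply h0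
    rw [cg_iff]
    intro i j
    rw [pow_one, Matrix.zero_apply, sub_zero]
    fin_cases i <;> fin_cases j
    · exact h3
    · exact ⟨b, hb⟩
    · exact ⟨a, ha⟩
    · exact h4
  rcases hu with hu | hu
  · obtain ⟨c, hc⟩ := hu.exists_right_inv
    -- `P = (N e₁ | e₁)`
    have h1 : (!![N 0 0, 1; N 1 0, 0] : Matrix (Fin 2) (Fin 2) ℤ_[p]) *
        !![0, c; 1, -(N 0 0 * c)] = 1 := by
      ext i j
      fin_cases i <;> fin_cases j <;> simp [hc]
    refine ⟨_, _, h1, mul_eq_one_comm.1 h1, ?_⟩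
    have h2 : N * !![N 0 0, 1; N 1 0, 0] =
        (!![N 0 0, 1; N 1 0, 0] : Matrix (Fin 2) (Fin 2) ℤ_[p]) * !![0, 1; 0, 0] := by
      ext i j
      fin_cases i <;> fin_cases j
      · simp [Matrix.mul_apply, Fin.sum_univ_two]
        linear_combination -hd + N 0 0 * ht
      · simp [Matrix.mul_apply, Fin.sum_univ_two]
      · simp [Matrix.mul_apply, Fin.sum_univ_two]
        linear_combination N 1 0 * ht
      · simp [Matrix.mul_apply, Fin.sum_univ_two]
    rw [mul_assoc, h2, ← mul_assoc, mul_eq_one_comm.1 h1, one_mul]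
  · obtain ⟨c, hc⟩ := hu.exists_right_inv
    -- `P = (N e₂ | e₂)`
    have h1 : (!![N 0 1, 0; N 1 1, 1] : Matrix (Fin 2) (Fin 2) ℤ_[p]) *
        !![c, 0; -(N 1 1 * c), 1] = 1 := by
      ext i j
      fin_cases i <;> fin_cases j <;> simp [hc]
    refine ⟨_, _, h1, mul_eq_one_comm.1 h1, ?_⟩
    have h2 : N * !![N 0 1, 0; N 1 1, 1] =
        (!![N 0 1, 0; N 1 1, 1] : Matrix (Fin 2) (Fin 2) ℤ_[p]) * !![0, 1; 0, 0] := by
      ext i j
      fin_cases i <;> fin_cases j
      · simp [Matrix.mul_apply, Fin.sum_univ_two]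
        linear_combination N 0 1 * ht
      · simp [Matrix.mul_apply, Fin.sum_univ_two]
      · simp [Matrix.mul_apply, Fin.sum_univ_two]
        linear_combination -hd + N 1 1 * ht
      · simp [Matrix.mul_apply, Fin.sum_univ_two]
    rw [mul_assoc, h2, ← mul_assoc, mul_eq_one_comm.1 h1, one_mul]

theorem one_add_pow_of_sq_zero {A : Type*} [Ring A] {N : A} (hN : N * N = 0) (k : ℕ) :
    (1 + N) ^ k = 1 + (k : A) * N := by
  induction k with
  | zero => simp
  | succ k ih =>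
    rw [pow_succ, ih, Nat.cast_succ]
    have e : (1 + (k : A) * N) * (1 + N) = 1 + ((k : A) + 1) * N + (k : A) * (N * N) := by
      noncomm_ring
    rw [e, hN, mul_zero, add_zero]

end Nil

section Unip

variable {G : Type*} [Group G] {p : ℕ} [hp : Fact p.Prime]
  {ρ : G →* Matrix (Fin 2) (Fin 2) ℤ_[p]}
  (h1 : ∀ g : Matrix (Fin 2) (Fin 2) ℤ_[p], IsUnit g.det → ∃ σ, Cg p 1 (ρ σ) g)
  {N : Matrix (Fin 2) (Fin 2) ℤ_[p]} (hN : N * N = 0) {τ : G} (hτ : ρ τ = 1 + N)

theorem isUnit_det_of_mul_eq_one {g g' : Matrix (Fin 2) (Fin 2) ℤ_[p]} (h : g * g' = 1) :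
    IsUnit g.det := by
  have h2 := congrArg Matrix.det h
  rw [Matrix.det_mul, Matrix.det_one] at h2
  exact IsUnit.of_mul_eq_one _ h2

include h1 hN hτ in
/-- the conjugates of `1 + N` -/
theorem Tn_conj (n : ℕ) {g g' : Matrix (Fin 2) (Fin 2) ℤ_[p]} (hg : g * g' = 1) :
    Tn ρ n (g * N * g') := by
  obtain ⟨σ, hσ⟩ := h1 g (isUnit_det_of_mul_eq_one hg)
  have hσ' := hσ.inv' ρ hg
  refine ⟨σ * τ ^ (p ^ n) * σ⁻¹, ?_, ?_⟩
  · have e1 := congrArg Matrix.det (rho_mul_inv ρ σ)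
    rw [Matrix.det_mul, Matrix.det_one] at e1
    rw [map_mul, map_mul, map_pow, hτ, Matrix.det_mul, Matrix.det_mul, Matrix.det_pow,
      det_one_add_of_sq_zero hN, one_pow, mul_one, e1]
  · have e2 : ρ (σ * τ ^ (p ^ n) * σ⁻¹) =
        1 + (p : Matrix (Fin 2) (Fin 2) ℤ_[p]) ^ n * (ρ σ * N * ρ σ⁻¹) := by
      rw [map_mul, map_mul, map_pow, hτ, one_add_pow_of_sq_zero hN, Nat.cast_pow, mul_add,
        mul_one, add_mul, rho_mul_inv, ← mul_assoc (ρ σ), ← (pow_commute n (ρ σ)).eq]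
      noncomm_ring
    obtain ⟨v, hv⟩ := (hσ.mul_right N).mul hσ'
    refine ⟨v, ?_⟩
    rw [e2, add_sub_add_left_eq_sub, ← mul_sub, hv, pow_one, pow_succ, mul_assoc]

theorem Tn_zero (n : ℕ) {u : Matrix (Fin 2) (Fin 2) ℤ_[p]} (hu : Cg p 1 0 u) : Tn ρ n u := by
  refine Tn.congr ⟨1, ?_, ?_⟩ hu
  · rw [map_one, Matrix.det_one]
  · rw [map_one, mul_zero, add_zero]
    exact Cg.refl _ _

include h1 hN hτ in
/-- the conjugates of the transvections -/
theorem Tn_transvection (h0 : ¬ Cg p 1 N 0) (n : ℕ) (x : ℤ_[p])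
    {g g' : Matrix (Fin 2) (Fin 2) ℤ_[p]} (hg : g * g' = 1) :
    Tn ρ n (g * !![0, x; 0, 0] * g') := by
  by_cases hx : IsUnit x
  · obtain ⟨y, hy⟩ := hx.exists_right_inv
    obtain ⟨P, P', hP, hP', hPN⟩ := exists_conj_of_sq_zero hN h0
    have e : (!![0, x; 0, 0] : Matrix (Fin 2) (Fin 2) ℤ_[p]) =
        !![x, 0; 0, 1] * !![0, 1; 0, 0] * !![y, 0; 0, 1] := by
      ext i j
      fin_cases i <;> fin_cases j <;> simp
    have hD : (!![x, 0; 0, 1] : Matrix (Fin 2) (Fin 2) ℤ_[p]) * !![y, 0; 0, 1] = 1 := by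
      ext i j
      fin_cases i <;> fin_cases j <;> simp [hy]
    have h2 : g * !![x, 0; 0, 1] * P' * (P * !![y, 0; 0, 1] * g') = 1 := by
      calc g * !![x, 0; 0, 1] * P' * (P * !![y, 0; 0, 1] * g')
          = g * (!![x, 0; 0, 1] * (P' * P) * !![y, 0; 0, 1]) * g' := by noncomm_ring
        _ = 1 := by rw [hP', mul_one, hD, mul_one, hg]
    have h3 := Tn_conj h1 hN hτ n h2
    have h4 : g * !![x, 0; 0, 1] * P' * N * (P * !![y, 0; 0, 1] * g') =
        g * !![0, x; 0, 0] * g' := by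
      calc g * !![x, 0; 0, 1] * P' * N * (P * !![y, 0; 0, 1] * g')
          = g * (!![x, 0; 0, 1] * (P' * N * P) * !![y, 0; 0, 1]) * g' := by noncomm_ring
        _ = g * !![0, x; 0, 0] * g' := by rw [hPN, e]
    rwa [h4] at h3
  · rw [not_isUnit_iff] at hx
    refine Tn_zero n ?_
    have h2 : Cg p 1 (!![0, x; 0, 0] : Matrix (Fin 2) (Fin 2) ℤ_[p]) 0 := by
      rw [cg_iff, pow_one]
      intro i j
      fin_cases i <;> fin_cases j
      · simp
      · simpa using hx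
      · simp
      · simp
    have h3 := (h2.mul_left g).mul_right g'
    rw [mul_zero, zero_mul] at h3
    exact h3.symm

include h1 hN hτ in
/-- **Every matrix of determinant one is in the image modulo `pⁿ`.** -/
theorem app_of_unipotent (h0 : ¬ Cg p 1 N 0) {g : Matrix (Fin 2) (Fin 2) ℤ_[p]}
    (hg : g.det = 1) (n : ℕ) : App ρ n g := by
  have hw : (!![0, 1; 1, 0] : Matrix (Fin 2) (Fin 2) ℤ_[p]) * !![0, 1; 1, 0] = 1 := by
    ext i j
    fin_cases i <;> fin_cases j <;> simp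
  have hA : (!![1, 1; 1, 0] : Matrix (Fin 2) (Fin 2) ℤ_[p]) * !![0, 1; 1, -1] = 1 := by
    ext i j
    fin_cases i <;> fin_cases j <;> simp
  have tw : ∀ x : ℤ_[p], (!![0, 1; 1, 0] : Matrix (Fin 2) (Fin 2) ℤ_[p]) * !![0, x; 0, 0] *
      !![0, 1; 1, 0] = !![0, 0; x, 0] := by
    intro x
    ext i j
    fin_cases i <;> fin_cases j <;> simp
  have tA : ∀ x : ℤ_[p], (!![1, 1; 1, 0] : Matrix (Fin 2) (Fin 2) ℤ_[p]) * !![0, x; 0, 0] *
      !![0, 1; 1, -1] = !![x, -x; x, -x] := by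
    intro x
    ext i j
    fin_cases i <;> fin_cases j <;> simp
  have hTB : ∀ (n : ℕ) (x : ℤ_[p]), Tn ρ n !![0, x; 0, 0] := by
    intro n x
    have h := Tn_transvection h1 hN hτ h0 n x (g := 1) (g' := 1) (mul_one 1)
    rwa [one_mul, mul_one] at h
  have hTC : ∀ (n : ℕ) (x : ℤ_[p]), Tn ρ n !![0, 0; x, 0] := by
    intro n x
    have h := Tn_transvection h1 hN hτ h0 n x hw
    rwa [tw] at h
  have hTA : ∀ (n : ℕ) (x : ℤ_[p]), Tn ρ n !![x, -x; x, -x] := by
    intro n x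
    have h := Tn_transvection h1 hN hτ h0 n x hA
    rwa [tA] at h
  rcases Nat.eq_zero_or_pos n with rfl | hn
  · exact ⟨1, by rw [map_one, Matrix.det_one], by rw [Cg, pow_zero]; exact one_dvd _⟩
  induction n, hn using Nat.le_induction with
  | base =>
    refine sl_induction (P := fun g => App ρ 1 g) (fun x => ?_) (fun x => ?_)
      (fun a b ha hb => App.mul ha hb) hg
    · refine App.congr (hTB 0 x) ?_
      rw [pow_zero, one_mul]
      have e : (1 + !![0, x; 0, 0] : Matrix (Fin 2) (Fin 2) ℤ_[p]) = tU x := by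
        ext i j
        fin_cases i <;> fin_cases j <;> simp [tU]
      rw [e]
      exact Cg.refl _ _
    · refine App.congr (hTC 0 x) ?_
      rw [pow_zero, one_mul]
      have e : (1 + !![0, 0; x, 0] : Matrix (Fin 2) (Fin 2) ℤ_[p]) = tL x := by
        ext i j
        fin_cases i <;> fin_cases j <;> simp [tL]
      rw [e]
      exact Cg.refl _ _
  | succ n hn ih =>
    obtain ⟨σ, h2, w, hw'⟩ := ih
    obtain ⟨u, hu⟩ : ∃ u, u = -(ρ σ⁻¹ * w) := ⟨_, rfl⟩
    have h3 : ρ σ⁻¹ * g = 1 + (p : Matrix (Fin 2) (Fin 2) ℤ_[p]) ^ n * u := by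
      have h4 : g = ρ σ - (p : Matrix (Fin 2) (Fin 2) ℤ_[p]) ^ n * w := by
        rw [← hw']
        abel
      rw [h4, mul_sub, rho_inv_mul, hu, ← mul_assoc, ← (pow_commute n (ρ σ⁻¹)).eq]
      noncomm_ring
    have h5 : (p : ℤ_[p]) ∣ u.trace := by
      have h6 : (1 + (p : Matrix (Fin 2) (Fin 2) ℤ_[p]) ^ n * u).det = 1 := by
        rw [← h3, Matrix.det_mul, det_inv ρ h2, one_mul, hg]
      rw [det_one_add, add_eq_left, mul_eq_zero] at h6
      have hp0 : (p : ℤ_[p]) ^ n ≠ 0 := pow_ne_zero _ (by exact_mod_cast hp.out.ne_zero)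
      have h9 := h6.resolve_left hp0
      have h10 : u.trace = (p : ℤ_[p]) ^ n * (-u.det) := by linear_combination h9
      rw [h10]
      exact (dvd_pow_self _ (by omega)).mul_right _
    have h6 : Tn ρ n u := by
      refine (((hTA n (u 0 0)).add hn (hTB n (u 0 1 + u 0 0))).add hn
        (hTC n (u 1 0 - u 0 0))).congr ?_
      rw [cg_iff, pow_one]
      rw [Matrix.trace_fin_two] at h5
      intro i j
      fin_cases i <;> fin_cases j
      · simp
      · simp
      · simp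
      · simp
        have h2 := dvd_neg.2 h5
        rwa [neg_add, ← sub_eq_add_neg] at h2
    obtain ⟨υ, h7, h8⟩ := h6
    refine ⟨σ * υ, ?_, ?_⟩
    · rw [map_mul, Matrix.det_mul, h2, h7, one_mul]
    · rw [map_mul]
      have h9 := h8.mul_left (ρ σ)
      rwa [← h3, ← mul_assoc, rho_mul_inv, one_mul] at h9

include h1 hN hτ in
/-- **Lifting with a unipotent element**, every prime `p` (also `p = 2, 3`): if the image is
everything modulo `p`, the determinants are everything and the image contains `1 + N` with `N² = 0`,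
`N ≢ 0` modulo `p`, then the image is everything modulo `pⁿ`. -/
theorem exists_congr_of_unipotent_all (h0 : ¬ Cg p 1 N 0)
    (hdet : ∀ (n : ℕ) (u : ℤ_[p]), IsUnit u → ∃ σ, (p : ℤ_[p]) ^ n ∣ (ρ σ).det - u)
    (n : ℕ) {g : Matrix (Fin 2) (Fin 2) ℤ_[p]} (hg : IsUnit g.det) : ∃ σ, Cg p n (ρ σ) g := by
  obtain ⟨σ, hσ⟩ := hdet n g.det hg
  obtain ⟨h, hh⟩ : ∃ h, h = ρ σ⁻¹ * g := ⟨_, rfl⟩
  have h2 : (p : ℤ_[p]) ^ n ∣ h.det - 1 := by
    have h3 := congrArg Matrix.det (rho_mul_inv ρ σ)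
    rw [Matrix.det_mul, Matrix.det_one] at h3
    obtain ⟨c, hc⟩ := hσ
    rw [hh, Matrix.det_mul]
    exact ⟨-c * (ρ σ⁻¹).det, by linear_combination h3 - (ρ σ⁻¹).det * hc⟩
  have h3 : IsUnit h.det := by
    rw [hh, Matrix.det_mul]
    exact (isUnit_det_of_mul_eq_one (rho_inv_mul ρ σ)).mul hg
  obtain ⟨d, hd⟩ := h3.exists_right_inv
  have h4 : (h * !![d, 0; 0, 1]).det = 1 := by
    rw [Matrix.det_mul, Matrix.det_fin_two_of]
    linear_combination hd
  have h5 : Cg p n (h * !![d, 0; 0, 1]) h := by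
    have h6 : Cg p n (!![d, 0; 0, 1] : Matrix (Fin 2) (Fin 2) ℤ_[p]) 1 := by
      rw [cg_iff]
      obtain ⟨c, hc⟩ := h2
      intro i j
      fin_cases i <;> fin_cases j
      · refine ⟨-c * d, ?_⟩
        simp
        linear_combination hd - d * hc
      · simp
      · simp
      · simp
    have h7 := h6.mul_left h
    rwa [mul_one] at h7
  obtain ⟨υ, -, hυ⟩ := (app_of_unipotent h1 hN hτ h0 h4 n).congr h5
  refine ⟨σ * υ, ?_⟩
  have h8 := hυ.mul_left (ρ σ)
  rwa [hh, ← mul_assoc, rho_mul_inv, one_mul, ← map_mul] at h8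

end Unip

end Fermat.Agent.Cor.Serre

end
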