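import Fermat.Agent.Corollaries.Surj.OpenGroup
import Fermat.Agent.Corollaries.Surj.SerreUnip

/-!
# The joint image at all primes, `2` and `3` included: group theory

`G` a group, `M p : G → GL₂(ℤ_p)` homomorphisms for all primes `p`, each of them surjective modulo
all powers of `p`.  Suppose that `G` contains elements `τ₂`, `τ₃` which act unipotently at `2` and
at `3`, `τ₂` nontrivially modulo `2` and `τ₃` nontrivially modulo `3`.  Then the commutator subgroup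
of `G` acts through all families `(g p)` with `det (g p) = 1` and `g 2` **even**, modulo every
integer (`Serre.exists_joint_all`).  Even means `g 2 ^ 3 ≡ 1` modulo `2`, that is the permutation of
the three non-zero vectors of `𝔽₂²` is even; this condition is necessary, as `g 2` is a product of
commutators.
-/

set_option autoImplicit false

noncomputable section

open Matrix
open scoped commutatorElement

namespace Fermat.Agent.Cor.Serre

/-! ### Even matrices over `ℤ_2` -/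

section Even

/-- the element of order six: modulo two of order three -/
def s6 : Matrix (Fin 2) (Fin 2) ℤ_[2] := tU 1 * tL (-1)

theorem s6_eq : s6 = !![0, 1; -1, 1] := by
  ext i j
  fin_cases i <;> fin_cases j <;> simp [s6, tU, tL]

theorem s6_cube : s6 * s6 * s6 = -1 := by
  rw [s6_eq]
  ext i j
  fin_cases i <;> fin_cases j <;> simp

theorem det_s6 : s6.det = 1 := by
  rw [s6_eq]
  simp

/-- `g` is even: `g³ ≡ 1` modulo `2`. -/
def IsEven (g : Matrix (Fin 2) (Fin 2) ℤ_[2]) : Prop := Cg 2 1 (g ^ 3) 1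

theorem isEven_iff {g : Matrix (Fin 2) (Fin 2) ℤ_[2]} :
    IsEven g ↔ (g.map PadicInt.toZMod : Matrix (Fin 2) (Fin 2) (ZMod 2)) ^ 3 = 1 := by
  rw [IsEven, cg_one_iff_toZMod, ← RingHom.mapMatrix_apply, ← RingHom.mapMatrix_apply, map_pow,
    map_one, RingHom.mapMatrix_apply]

theorem IsEven.congr {g h : Matrix (Fin 2) (Fin 2) ℤ_[2]} (hg : IsEven g) (h1 : Cg 2 1 g h) :
    IsEven h := (h1.pow 3).symm.trans hg

theorem even_cases_aux : ∀ A : Matrix (Fin 2) (Fin 2) (ZMod 2), A ^ 3 = 1 →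
    A = 1 ∨ A = !![0, 1; -1, 1] ∨ A = !![0, 1; -1, 1] * !![0, 1; -1, 1] := by
  decide

theorem map_s6 : (s6.map PadicInt.toZMod : Matrix (Fin 2) (Fin 2) (ZMod 2)) = !![0, 1; -1, 1] := by
  rw [s6_eq]
  ext i j
  fin_cases i <;> fin_cases j <;> simp

theorem even_cases {g : Matrix (Fin 2) (Fin 2) ℤ_[2]} (hg : IsEven g) :
    Cg 2 1 g 1 ∨ Cg 2 1 g s6 ∨ Cg 2 1 g (s6 * s6) := by
  rw [isEven_iff] at hg
  rw [cg_one_iff_toZMod, cg_one_iff_toZMod, cg_one_iff_toZMod,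
    Matrix.map_one _ (_root_.map_zero _) (_root_.map_one _), Matrix.map_mul, map_s6]
  exact even_cases_aux _ hg

theorem odd_or_even_aux : ∀ A : Matrix (Fin 2) (Fin 2) (ZMod 2), A.det = 1 →
    A ^ 3 = 1 ∨ (A * !![1, 1; 0, 1]) ^ 3 = 1 := by
  decide

/-- An invertible matrix `g` over `ℤ_2` is even, or `g` times a transvection is even. -/
theorem isEven_or {g : Matrix (Fin 2) (Fin 2) ℤ_[2]} (hg : IsUnit g.det) :
    IsEven g ∨ IsEven (g * tU 1) := by
  have h1 : (g.map PadicInt.toZMod : Matrix (Fin 2) (Fin 2) (ZMod 2)).det = 1 := by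
    have h2 : IsUnit (g.map PadicInt.toZMod : Matrix (Fin 2) (Fin 2) (ZMod 2)).det := by
      have h3 := hg.map (PadicInt.toZMod (p := 2))
      rwa [RingHom.map_det] at h3
    revert h2
    generalize (g.map PadicInt.toZMod : Matrix (Fin 2) (Fin 2) (ZMod 2)).det = d
    revert d
    decide
  rw [isEven_iff, isEven_iff, Matrix.map_mul]
  have h4 : ((tU 1 : Matrix (Fin 2) (Fin 2) ℤ_[2]).map PadicInt.toZMod :
      Matrix (Fin 2) (Fin 2) (ZMod 2)) = !![1, 1; 0, 1] := by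
    ext i j
    fin_cases i <;> fin_cases j <;> simp [tU]
  rw [h4]
  exact odd_or_even_aux _ h1

theorem not_isEven_tU : ¬ IsEven (tU 1) := by
  rw [isEven_iff]
  have h4 : ((tU 1 : Matrix (Fin 2) (Fin 2) ℤ_[2]).map PadicInt.toZMod :
      Matrix (Fin 2) (Fin 2) (ZMod 2)) = !![1, 1; 0, 1] := by
    ext i j
    fin_cases i <;> fin_cases j <;> simp [tU]
  rw [h4]
  decide

theorem dvd_or_dvd_add_one (e : ℤ_[2]) : (2 : ℤ_[2]) ∣ e ∨ (2 : ℤ_[2]) ∣ e + 1 := by
  have h0 : ∀ a : ℤ_[2], (2 : ℤ_[2]) ∣ a ↔ PadicInt.toZMod a = 0 := by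
    intro a
    rw [← RingHom.mem_ker, PadicInt.ker_toZMod, IsLocalRing.mem_maximalIdeal, mem_nonunits_iff,
      not_isUnit_iff]
    norm_num
  rw [h0, h0, map_add, map_one]
  generalize (PadicInt.toZMod e : ZMod 2) = x
  revert x
  decide

/-- **The even matrices of determinant one are generated by `s6` and the transvections with
even entries.** -/
theorem even_induction {P : Matrix (Fin 2) (Fin 2) ℤ_[2] → Prop} (hs : P s6)
    (hU : ∀ x, P (tU (2 * x))) (hL : ∀ x, P (tL (2 * x))) (hmul : ∀ a b, P a → P b → P (a * b))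
    {g : Matrix (Fin 2) (Fin 2) ℤ_[2]} (hg : g.det = 1) (he : IsEven g) : P g := by
  have hneg : P (-1) := by
    rw [← s6_cube]
    exact hmul _ _ (hmul _ _ hs hs) hs
  -- `h ≡ 1` modulo `2`, first entry `≡ 1` modulo `4`
  have key4 : ∀ h : Matrix (Fin 2) (Fin 2) ℤ_[2], h.det = 1 → Cg 2 1 h 1 →
      (2 : ℤ_[2]) ^ 2 ∣ h 0 0 - 1 → P h := by
    intro h hh h1 h4
    rw [cg_iff, pow_one] at h1
    obtain ⟨b, hb⟩ := h1 0 1
    obtain ⟨c, hc⟩ := h1 1 0
    rw [Matrix.one_apply_ne (by decide), sub_zero, Nat.cast_two] at hb hc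
    have ha : IsUnit (h 0 0) := by
      refine isUnit_of_dvd_sub_one ?_
      rw [Nat.cast_two]
      exact (dvd_pow_self _ two_ne_zero).trans h4
    obtain ⟨a', ha'⟩ := ha.exists_right_inv
    rw [Matrix.det_fin_two] at hh
    have hD : P !![h 0 0, 0; 0, a'] := by
      refine sl_induction_of_dvd (κ := 2) hU hL hmul ?_ ?_ ?_ ?_
      · simp [ha']
      · simpa using h4
      · simp
      · simp
    have h2 := hmul _ _ (hmul _ _ (hL (c * a')) hD) (hU (b * a'))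
    have h3 : tL (2 * (c * a')) * !![h 0 0, 0; 0, a'] * tU (2 * (b * a')) = h := by
      ext i j
      fin_cases i <;> fin_cases j
      · simp [tU, tL]
      · simp [tU, tL]
        linear_combination (2 * b) * ha' - hb
      · simp [tU, tL]
        linear_combination (2 * c) * ha' - hc
      · simp [tU, tL]
        linear_combination (4 * b * c * a' + h 1 1) * ha' - a' * h 1 0 * hb - 2 * b * a' * hc - a' * hh
    rwa [h3] at h2
  -- `h ≡ 1` modulo `2`
  have key2 : ∀ h : Matrix (Fin 2) (Fin 2) ℤ_[2], h.det = 1 → Cg 2 1 h 1 → P h := by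
    intro h hh h1
    have h2 := (cg_iff.1 h1) 0 0
    rw [pow_one, Matrix.one_apply_eq, Nat.cast_two] at h2
    obtain ⟨e, he⟩ := h2
    rcases dvd_or_dvd_add_one e with ⟨f, hf⟩ | ⟨f, hf⟩
    · exact key4 h hh h1 ⟨f, by rw [he, hf]; ring⟩
    · have h3 : P (-h) := by
        refine key4 (-h) ?_ ?_ ⟨-f, ?_⟩
        · rw [Matrix.det_fin_two] at hh ⊢
          simp only [Matrix.neg_apply]
          linear_combination hh
        · have h4 : Cg 2 1 (-h) (-1) := by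
            obtain ⟨u, hu⟩ := h1
            exact ⟨-u, by rw [mul_neg, ← hu]; abel⟩
          refine h4.trans ⟨-1, ?_⟩
          rw [pow_one, Nat.cast_two, mul_neg, mul_one]
          norm_num
        · rw [Matrix.neg_apply]
          linear_combination -he - 2 * hf
      have h4 := hmul _ _ hneg h3
      rwa [neg_mul_neg, one_mul] at h4
  have hs' : (tL 1 * tU (-1) : Matrix (Fin 2) (Fin 2) ℤ_[2]) * s6 = 1 ∧
      s6 * (tL 1 * tU (-1) : Matrix (Fin 2) (Fin 2) ℤ_[2]) = 1 := by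
    have h1 : (tL 1 * tU (-1) : Matrix (Fin 2) (Fin 2) ℤ_[2]) * s6 = 1 := by
      ext i j
      fin_cases i <;> fin_cases j <;> simp [s6, tU, tL]
    exact ⟨h1, mul_eq_one_comm.1 h1⟩
  have hdet' : (tL 1 * tU (-1) : Matrix (Fin 2) (Fin 2) ℤ_[2]).det = 1 := by
    rw [Matrix.det_mul, det_tL, det_tU, mul_one]
  rcases even_cases he with h1 | h1 | h1
  · exact key2 g hg h1
  · have h2 := h1.mul_left (tL 1 * tU (-1))
    rw [hs'.1] at h2
    have h3 := hmul _ _ hs (key2 _ (by rw [Matrix.det_mul, hdet', hg, one_mul]) h2)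
    rwa [← mul_assoc, hs'.2, one_mul] at h3
  · have h2 := (h1.mul_left (tL 1 * tU (-1))).mul_left (tL 1 * tU (-1))
    rw [← mul_assoc _ s6 s6, hs'.1, one_mul, hs'.1] at h2
    have h3 := hmul _ _ hs (hmul _ _ hs (key2 _ (by
      rw [Matrix.det_mul (tL 1 * tU (-1)) _, Matrix.det_mul (tL 1 * tU (-1)) _, hdet', hg,
        one_mul, one_mul]) h2))
    rwa [← mul_assoc s6 _ (_ * g), hs'.2, one_mul, ← mul_assoc, hs'.2, one_mul] at h3

end Even

/-! ### Commutators of unipotent elements -/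

section Com

variable {G : Type*} [Group G]
  {M : ∀ (p : ℕ) [Fact p.Prime], G →* Matrix (Fin 2) (Fin 2) ℤ_[p]}

variable (M) in
/-- `g` is modulo `p ^ n` the image of an element of the commutator subgroup which acts trivially
modulo `q ^ n`. -/
def Com (p q : ℕ) [Fact p.Prime] [Fact q.Prime] (n : ℕ) (g : Matrix (Fin 2) (Fin 2) ℤ_[p]) :
    Prop := ∃ c ∈ commutator G, Cg q n (M q c) 1 ∧ Cg p n (M p c) g

variable {p q : ℕ} [hp : Fact p.Prime] [hq : Fact q.Prime]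

theorem Com.mul {n : ℕ} {a b : Matrix (Fin 2) (Fin 2) ℤ_[p]} (ha : Com M p q n a)
    (hb : Com M p q n b) : Com M p q n (a * b) := by
  obtain ⟨c, h1, h2, h3⟩ := ha
  obtain ⟨d, h4, h5, h6⟩ := hb
  refine ⟨c * d, Subgroup.mul_mem _ h1 h4, ?_, ?_⟩
  · rw [map_mul]
    simpa using h2.mul h5
  · rw [map_mul]
    exact h3.mul h6

/-- a natural number with given residue modulo `p ^ n`, divisible by `q ^ n` -/
theorem exists_nat (hqp : q ≠ p) (n : ℕ) (x : ℤ_[p]) :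
    ∃ k : ℕ, (p : ℤ_[p]) ^ n ∣ (k : ℤ_[p]) - x ∧ q ^ n ∣ k := by
  have hcop : Nat.Coprime (p ^ n) (q ^ n) :=
    ((Nat.coprime_primes hp.out hq.out).2 hqp.symm).pow n n
  obtain ⟨k, hk1, hk2⟩ := Nat.chineseRemainder hcop (x.appr n) 0
  refine ⟨k, ?_, (Nat.modEq_zero_iff_dvd).1 hk2⟩
  have h1 : (p : ℤ_[p]) ^ n ∣ (k : ℤ_[p]) - (x.appr n : ℤ_[p]) := by
    have h2 : ((p ^ n : ℕ) : ℤ) ∣ (x.appr n : ℤ) - (k : ℤ) := (Nat.modEq_iff_dvd.1 hk1)
    obtain ⟨c, hc⟩ := h2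
    refine ⟨-(c : ℤ_[p]), ?_⟩
    have h3 : (((x.appr n : ℤ) - (k : ℤ) : ℤ) : ℤ_[p]) = (((p ^ n : ℕ) : ℤ) * c : ℤ) := by rw [hc]
    push_cast at h3
    linear_combination -h3
  have h4 : (p : ℤ_[p]) ^ n ∣ x - (x.appr n : ℤ_[p]) :=
    Ideal.mem_span_singleton.1 (PadicInt.appr_spec n x)
  have h5 := dvd_sub h1 h4
  rwa [sub_sub_sub_cancel_right] at h5

theorem Cg.tU {n : ℕ} {x y : ℤ_[p]} (h : (p : ℤ_[p]) ^ n ∣ x - y) : Cg p n (tU x) (tU y) := by
  rw [cg_iff]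
  intro i j
  fin_cases i <;> fin_cases j
  · simp [Serre.tU]
  · simpa [Serre.tU] using h
  · simp [Serre.tU]
  · simp [Serre.tU]

/-- **The basic commutators.** -/
theorem com_basic (hqp : q ≠ p)
    (hM : ∀ (n : ℕ) (g : Matrix (Fin 2) (Fin 2) ℤ_[p]), IsUnit g.det → ∃ σ, Cg p n (M p σ) g)
    {τ : G} {N : Matrix (Fin 2) (Fin 2) ℤ_[p]} (hN : N * N = 0) (h0 : ¬ Cg p 1 N 0)
    (hτ : M p τ = 1 + N) {N' : Matrix (Fin 2) (Fin 2) ℤ_[q]} (hN' : N' * N' = 0)
    (hτ' : M q τ = 1 + N') (n : ℕ) (x : ℤ_[p]) {γ γ' δ δ' : Matrix (Fin 2) (Fin 2) ℤ_[p]}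
    (hγ : γ * γ' = 1) (hδ : δ * δ' = 1) :
    Com M p q n (γ * tU x * γ' * (δ * tU (-x) * δ')) := by
  obtain ⟨P, P', hP, hP', hPN⟩ := exists_conj_of_sq_zero hN h0
  obtain ⟨k, hk1, hk2⟩ := exists_nat (p := p) (q := q) hqp n x
  have e1 : γ * P' * (P * γ') = 1 := by
    rw [mul_assoc, ← mul_assoc P', hP', one_mul, hγ]
  have e2 : δ * P' * (P * δ') = 1 := by
    rw [mul_assoc, ← mul_assoc P', hP', one_mul, hδ]
  obtain ⟨σ₁, h1⟩ := hM n (γ * P') (isUnit_det_of_mul_eq_one e1)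
  obtain ⟨σ₂, h2⟩ := hM n (δ * P') (isUnit_det_of_mul_eq_one e2)
  have h1' := h1.inv' (M p) e1
  have h2' := h2.inv' (M p) e2
  -- the matrix of `τ ^ k`
  have e3 : P' * M p (τ ^ k) * P = tU (k : ℤ_[p]) := by
    rw [map_pow, hτ, one_add_pow_of_sq_zero hN, mul_add, mul_one, add_mul, hP']
    have e4 : P' * ((k : Matrix (Fin 2) (Fin 2) ℤ_[p]) * N) * P =
        (k : Matrix (Fin 2) (Fin 2) ℤ_[p]) * (P' * N * P) := by
      rw [← mul_assoc P', ← (Nat.cast_commute k P').eq]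
      noncomm_ring
    rw [e4, hPN, ← nsmul_eq_mul]
    ext i j
    fin_cases i <;> fin_cases j <;> simp [tU]
  have e5 : M p (τ ^ k) = P * tU (k : ℤ_[p]) * P' := by
    rw [← e3]
    calc M p (τ ^ k) = (P * P') * M p (τ ^ k) * (P * P') := by rw [hP, one_mul, mul_one]
      _ = P * (P' * M p (τ ^ k) * P) * P' := by noncomm_ring
  have e6 : M p (τ ^ k)⁻¹ = P * tU (-(k : ℤ_[p])) * P' := by
    have h3 : P * tU (k : ℤ_[p]) * P' * (P * tU (-(k : ℤ_[p])) * P') = 1 := by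
      calc P * tU (k : ℤ_[p]) * P' * (P * tU (-(k : ℤ_[p])) * P')
          = P * (tU (k : ℤ_[p]) * (P' * P) * tU (-(k : ℤ_[p]))) * P' := by noncomm_ring
        _ = 1 := by rw [hP', mul_one, tU_mul, add_neg_cancel, tU_zero, mul_one, hP]
    have h4 : M p (τ ^ k)⁻¹ * M p (τ ^ k) = 1 := rho_inv_mul (M p) _
    rw [← e5] at h3
    calc M p (τ ^ k)⁻¹ = M p (τ ^ k)⁻¹ * (M p (τ ^ k) * (P * tU (-(k : ℤ_[p])) * P')) := by
          rw [h3, mul_one]
      _ = P * tU (-(k : ℤ_[p])) * P' := by rw [← mul_assoc, h4, one_mul]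
  refine ⟨⁅σ₁, τ ^ k⁆ * ⁅σ₂, τ ^ k⁆⁻¹, Subgroup.mul_mem _ (commutatorElement_mem _ _)
    (Subgroup.inv_mem _ (commutatorElement_mem _ _)), ?_, ?_⟩
  · -- trivial at `q`
    have h3 : Cg q n (M q (τ ^ k)) 1 := by
      rw [map_pow, hτ', one_add_pow_of_sq_zero hN']
      obtain ⟨c, hc⟩ := hk2
      refine ⟨(c : Matrix (Fin 2) (Fin 2) ℤ_[q]) * N', ?_⟩
      rw [add_sub_cancel_left, hc]
      push_cast
      rw [mul_assoc]
    have h4 : ∀ σ : G, Cg q n (M q ⁅σ, τ ^ k⁆) 1 := by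
      intro σ
      rw [commutatorElement_def, map_mul, map_mul, map_mul]
      have h5 := ((h3.mul_left (M q σ)).mul_right (M q σ⁻¹)).mul (h3.inv' (M q) (one_mul 1))
      rwa [mul_one, mul_one, rho_mul_inv] at h5
    rw [map_mul]
    simpa using (h4 σ₁).mul ((h4 σ₂).inv' (M q) (one_mul 1))
  · have e7 : ⁅σ₁, τ ^ k⁆ * ⁅σ₂, τ ^ k⁆⁻¹ =
        σ₁ * τ ^ k * σ₁⁻¹ * (σ₂ * (τ ^ k)⁻¹ * σ₂⁻¹) := by
      rw [commutatorElement_def, commutatorElement_def]
      group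
    rw [e7, map_mul, map_mul, map_mul, map_mul, map_mul, e5, e6]
    have h6 := ((h1.mul_right (P * tU (k : ℤ_[p]) * P')).mul h1').mul
      ((h2.mul_right (P * tU (-(k : ℤ_[p])) * P')).mul h2')
    refine h6.trans ?_
    have e8 : ∀ (ε ε' : Matrix (Fin 2) (Fin 2) ℤ_[p]) (y : ℤ_[p]),
        ε * P' * (P * tU y * P') * (P * ε') = ε * tU y * ε' := by
      intro ε ε' y
      calc ε * P' * (P * tU y * P') * (P * ε') = ε * (P' * P) * tU y * (P' * P) * ε' := by
            noncomm_ring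
        _ = ε * tU y * ε' := by rw [hP', mul_one, mul_one]
    rw [e8, e8]
    refine (((Cg.tU hk1).mul_left γ).mul_right γ').mul
      (((Cg.tU ?_).mul_left δ).mul_right δ')
    rw [neg_sub_neg, ← neg_sub, dvd_neg]
    exact hk1

/-- The transvections with entries divisible by two, and the element of order six. -/
theorem com_gen (hqp : q ≠ p)
    (hM : ∀ (n : ℕ) (g : Matrix (Fin 2) (Fin 2) ℤ_[p]), IsUnit g.det → ∃ σ, Cg p n (M p σ) g)
    {τ : G} {N : Matrix (Fin 2) (Fin 2) ℤ_[p]} (hN : N * N = 0) (h0 : ¬ Cg p 1 N 0)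
    (hτ : M p τ = 1 + N) {N' : Matrix (Fin 2) (Fin 2) ℤ_[q]} (hN' : N' * N' = 0)
    (hτ' : M q τ = 1 + N') (n : ℕ) :
    (∀ x, Com M p q n (tU (2 * x))) ∧ (∀ x, Com M p q n (tL (2 * x))) ∧
      Com M p q n (tU 1 * tL (-1)) := by
  have hw : (!![0, 1; 1, 0] : Matrix (Fin 2) (Fin 2) ℤ_[p]) * !![0, 1; 1, 0] = 1 := by
    ext i j
    fin_cases i <;> fin_cases j <;> simp
  have hD : (!![-1, 0; 0, 1] : Matrix (Fin 2) (Fin 2) ℤ_[p]) * !![-1, 0; 0, 1] = 1 := by
    ext i j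
    fin_cases i <;> fin_cases j <;> simp
  have hwD : (!![0, 1; -1, 0] : Matrix (Fin 2) (Fin 2) ℤ_[p]) * !![0, -1; 1, 0] = 1 := by
    ext i j
    fin_cases i <;> fin_cases j <;> simp
  refine ⟨fun x => ?_, fun x => ?_, ?_⟩
  · have h := com_basic hqp hM hN h0 hτ hN' hτ' n (-x) hD (mul_one 1)
    have e : (!![-1, 0; 0, 1] * tU (-x) * !![-1, 0; 0, 1] * (1 * tU (- -x) * 1) :
        Matrix (Fin 2) (Fin 2) ℤ_[p]) = tU (2 * x) := by
      ext i j
      fin_cases i <;> fin_cases j <;> simp [tU]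
      ring
    rwa [e] at h
  · have h := com_basic hqp hM hN h0 hτ hN' hτ' n (-x) hwD hw
    have e : (!![0, 1; -1, 0] * tU (-x) * !![0, -1; 1, 0] *
        (!![0, 1; 1, 0] * tU (- -x) * !![0, 1; 1, 0]) :
        Matrix (Fin 2) (Fin 2) ℤ_[p]) = tL (2 * x) := by
      ext i j
      fin_cases i <;> fin_cases j <;> simp [tU, tL]
      ring
    rwa [e] at h
  · have h := com_basic hqp hM hN h0 hτ hN' hτ' n 1 (mul_one 1) hw
    have e : (1 * tU 1 * 1 * (!![0, 1; 1, 0] * tU (-1) * !![0, 1; 1, 0]) :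
        Matrix (Fin 2) (Fin 2) ℤ_[p]) = tU 1 * tL (-1) := by
      ext i j
      fin_cases i <;> fin_cases j <;> simp [tU, tL]
    rwa [e] at h

end Com

/-! ### The joint image -/

section Joint

variable {G : Type*} [Group G]
  {M : ∀ (p : ℕ) [Fact p.Prime], G →* Matrix (Fin 2) (Fin 2) ℤ_[p]}

/-- **The joint image at all primes.** -/
theorem exists_joint_all
    (hM : ∀ (p : ℕ) [Fact p.Prime] (n : ℕ) (g : Matrix (Fin 2) (Fin 2) ℤ_[p]),
      IsUnit g.det → ∃ σ, Cg p n (M p σ) g)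
    {τ₂ τ₃ : G} {N₂ N₂' : Matrix (Fin 2) (Fin 2) ℤ_[2]} {N₃ N₃' : Matrix (Fin 2) (Fin 2) ℤ_[3]}
    (h22 : M 2 τ₂ = 1 + N₂) (hN₂ : N₂ * N₂ = 0) (h0 : ¬ Cg 2 1 N₂ 0)
    (h32 : M 3 τ₂ = 1 + N₃') (hN₃' : N₃' * N₃' = 0)
    (h33 : M 3 τ₃ = 1 + N₃) (hN₃ : N₃ * N₃ = 0) (h0' : ¬ Cg 3 1 N₃ 0)
    (h23 : M 2 τ₃ = 1 + N₂') (hN₂' : N₂' * N₂' = 0) (n : ℕ)
    (g : ∀ (p : ℕ) [Fact p.Prime], Matrix (Fin 2) (Fin 2) ℤ_[p])
    (hg : ∀ (p : ℕ) [Fact p.Prime], (g p).det = 1) (he : IsEven (g 2)) (F : Finset ℕ) :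
    ∃ σ ∈ commutator G, Cg 2 n (M 2 σ) (g 2) ∧ Cg 3 n (M 3 σ) (g 3) ∧
      ∀ p ∈ F, 5 ≤ p → ∀ [Fact p.Prime], Cg p n (M p σ) (g p) := by
  classical
  have h3ne : (3 : ℕ) ≠ 2 := by decide
  obtain ⟨a1, a2, a3⟩ := com_gen (M := M) (p := 2) (q := 3) h3ne (hM 2) hN₂ h0 h22 hN₃' h32 n
  obtain ⟨b1, b2, -⟩ := com_gen (M := M) (p := 3) (q := 2) h3ne.symm (hM 3) hN₃ h0' h33 hN₂' h23 n
  have hA : Com M 2 3 n (g 2) := even_induction (P := Com M 2 3 n) a3 a1 a2
    (fun _ _ ha hb => ha.mul hb) (hg 2) he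
  have hB : Com M 3 2 n (g 3) := by
    obtain ⟨k, hk⟩ : ∃ k : ℤ_[3], 2 * k = 1 := by
      refine IsUnit.exists_right_inv ?_
      have h := (natCast_isUnit_iff (p := 3) (m := 2)).2 (by decide)
      exact_mod_cast h
    refine sl_induction (P := Com M 3 2 n) (fun x => ?_) (fun x => ?_)
      (fun _ _ ha hb => ha.mul hb) (hg 3)
    · have h := b1 (k * x)
      rwa [← mul_assoc, hk, one_mul] at h
    · have h := b2 (k * x)
      rwa [← mul_assoc, hk, one_mul] at h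
  obtain ⟨c, hc, hc3, hc2⟩ := hA
  obtain ⟨d, hd, hd2, hd3⟩ := hB
  have hbase : ∃ σ ∈ commutator G, Cg 2 n (M 2 σ) (g 2) ∧ Cg 3 n (M 3 σ) (g 3) := by
    refine ⟨c * d, Subgroup.mul_mem _ hc hd, ?_, ?_⟩
    · rw [map_mul]
      simpa using hc2.mul hd2
    · rw [map_mul]
      simpa using hc3.mul hd3
  induction F using Finset.induction_on_max with
  | empty =>
    obtain ⟨σ, hσ, h1, h2⟩ := hbase
    exact ⟨σ, hσ, h1, h2, fun p hp => absurd hp (Finset.notMem_empty p)⟩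
  | insert p F hF ih =>
    obtain ⟨σ, hσ, h2, h3, h1⟩ := ih
    by_cases hp : p.Prime ∧ 5 ≤ p
    · have : Fact p.Prime := ⟨hp.1⟩
      have hp2 : p ≠ 2 := by omega
      have hT : Trans M p 1 := trans_of_full hp2 (hM p)
      obtain ⟨K, hK, hK2, hone⟩ := exists_one (M := M) (fun _ => True) (insert 2 (insert 3 F)) hT
      have hKp : Nat.Coprime K p := hK2 hp.2 fun q hq => by
        rcases Finset.mem_insert.1 hq with rfl | hq
        · omega
        · rcases Finset.mem_insert.1 hq with rfl | hq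
          · omega
          · exact hF q hq
      have hu : IsUnit (((K : ℤ_[p]) * 1) ^ 2) := by
        rw [mul_one]
        exact (natCast_isUnit_iff.2 hKp).pow 2
      obtain ⟨τ, hτ, h4, h5⟩ := hone (M p σ⁻¹ * g p) (by
        rw [Matrix.det_mul, det_commutator M (Subgroup.inv_mem _ hσ), hg p, one_mul])
        hu.dvd hu.dvd hu.dvd n
      refine ⟨σ * τ, Subgroup.mul_mem _ hσ hτ, ?_, ?_, fun q hq hq5 hqp => ?_⟩
      · rw [map_mul]
        simpa using h2.mul (h4 2 (Finset.mem_insert_self _ _) (by omega) trivial)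
      · rw [map_mul]
        simpa using h3.mul (h4 3 (Finset.mem_insert_of_mem (Finset.mem_insert_self _ _))
          (by omega) trivial)
      · rw [map_mul]
        rcases Finset.mem_insert.1 hq with rfl | hq
        · have h6 := h5.mul_left (M q σ)
          rw [← mul_assoc, rho_mul_inv, one_mul] at h6
          exact h6
        · simpa using (h1 q hq hq5).mul (h4 q (Finset.mem_insert_of_mem
            (Finset.mem_insert_of_mem hq)) (hF q hq).ne trivial)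
    · refine ⟨σ, hσ, h2, h3, fun q hq hq5 hqp => ?_⟩
      rcases Finset.mem_insert.1 hq with rfl | hq
      · exact absurd ⟨hqp.out, hq5⟩ hp
      · exact h1 q hq hq5

end Joint

end Fermat.Agent.Cor.Serre

end
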