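import Fermat.Agent.Corollaries.Surj.Indep

/-!
# Open subgroups of `∏ GL₂(ℤ_p)` (helper62)

The group theoretic part of Serre's open image theorem (abstract form).  `G` a group,
`M p : G → GL₂(ℤ_p)` homomorphisms.  If the images modulo all powers of `p` contain a fixed
congruence subgroup of `GL₂(ℤ_p)`, for every prime `p` in a set `P` of primes, and are
everything for the large ones, and if the determinants are jointly open, then the joint image
modulo every integer contains a fixed congruence subgroup of `∏ GL₂(ℤ_p)`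
(`Serre.exists_open_joint`).
-/

set_option autoImplicit false

noncomputable section

open Matrix
open scoped commutatorElement

namespace Fermat.Agent.Cor.Serre

section Gen

variable {p : ℕ} [hp : Fact p.Prime]

/-- **Generation of congruence subgroups of `SL₂(ℤ_p)` by transvections.** -/
theorem sl_induction_of_dvd {P : Matrix (Fin 2) (Fin 2) ℤ_[p] → Prop} {κ : ℤ_[p]}
    (hU : ∀ x, P (tU (κ * x))) (hL : ∀ x, P (tL (κ * x))) (hmul : ∀ a b, P a → P b → P (a * b))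
    {g : Matrix (Fin 2) (Fin 2) ℤ_[p]} (hg : g.det = 1) (h00 : κ ^ 2 ∣ g 0 0 - 1)
    (h01 : κ ^ 2 ∣ g 0 1) (h10 : κ ^ 2 ∣ g 1 0) : P g := by
  by_cases hκ : IsUnit κ
  · obtain ⟨κ', hκ'⟩ := hκ.exists_right_inv
    refine sl_induction (P := P) (fun x => ?_) (fun x => ?_) hmul hg
    · have := hU (κ' * x)
      rwa [← mul_assoc, hκ', one_mul] at this
    · have := hL (κ' * x)
      rwa [← mul_assoc, hκ', one_mul] at this
  · rw [not_isUnit_iff] at hκ
    have ha : IsUnit (g 0 0) := isUnit_of_dvd_sub_one ((dvd_pow hκ two_ne_zero).trans h00)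
    obtain ⟨a', ha'⟩ := ha.exists_right_inv
    obtain ⟨t, ht⟩ := h00
    obtain ⟨b, hb⟩ := h01
    obtain ⟨c, hc⟩ := h10
    have ha2 : (κ ^ 2 * t + 1) * a' = 1 := by linear_combination ha' - a' * ht
    rw [Matrix.det_fin_two] at hg
    have hd : (κ ^ 2 * t + 1) * g 1 1 - κ ^ 2 * b * (κ ^ 2 * c) = 1 := by
      linear_combination hg - g 1 1 * ht + g 1 0 * hb + κ ^ 2 * b * hc
    have h1 := hmul _ _ (hmul _ _ (hmul _ _ (hmul _ _ (hmul _ _ (hL (κ * c * a'))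
      (hL (-(t * a')))) (hU 1)) (hL t)) (hU (-a'))) (hU (κ * b * a'))
    have h2 : tL (κ * (κ * c * a')) * tL (κ * -(t * a')) * tU (κ * 1) * tL (κ * t) *
        tU (κ * -a') * tU (κ * (κ * b * a')) = g := by
      rw [tL_mul, mul_assoc _ (tU (κ * -a')) (tU _), tU_mul]
      ext i j
      fin_cases i <;> fin_cases j
      · simp [tU, tL]
        linear_combination (-1) * ht
      · simp [tU, tL]
        linear_combination (κ ^ 2 * b - κ) * ha2 - hb
      · simp [tU, tL]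
        linear_combination (κ ^ 2 * c - κ * t) * ha2 - hc
      · simp [tU, tL]
        linear_combination (g 1 1 - 1 + (κ ^ 2 * c - κ * t) * (κ ^ 2 * b - κ) * a') * ha2 - a' * hd
    rwa [h2] at h1

theorem natCast_isUnit_iff {m : ℕ} : IsUnit (m : ℤ_[p]) ↔ Nat.Coprime m p := by
  rw [← not_iff_not, not_isUnit_iff, Nat.coprime_comm, ← Nat.Prime.dvd_iff_not_coprime hp.out]
  constructor
  · intro h
    exact (PadicInt.norm_natCast_lt_one_iff (p := p) (n := m)).1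
      (PadicInt.norm_lt_one_iff_dvd _ |>.2 h)
  · rintro ⟨k, rfl⟩
    exact ⟨k, by push_cast; rfl⟩

/-- a nonzero integer divides a power of `p` in `ℤ_p` -/
theorem exists_natCast_dvd_pow {K : ℕ} (hK : K ≠ 0) : ∃ j : ℕ, (K : ℤ_[p]) ∣ (p : ℤ_[p]) ^ j := by
  obtain ⟨j, K', hK', rfl⟩ := Nat.exists_eq_pow_mul_and_not_dvd hK p hp.out.ne_one
  have h1 : IsUnit (K' : ℤ_[p]) := by
    rw [natCast_isUnit_iff, Nat.coprime_comm]
    exact (Nat.Prime.coprime_iff_not_dvd hp.out).2 hK'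
  refine ⟨j, ?_⟩
  obtain ⟨u, hu⟩ := h1.exists_right_inv
  refine ⟨u, ?_⟩
  push_cast
  rw [mul_assoc, hu, mul_one]

/-- `a ≡ 1` modulo `pⁿ` implies `a ^ p ≡ 1` modulo `pⁿ⁺¹`, every prime `p`. -/
theorem Cg.pow_p {n : ℕ} (hn : 1 ≤ n) {a : Matrix (Fin 2) (Fin 2) ℤ_[p]} (h : Cg p n a 1) :
    Cg p (n + 1) (a ^ p) 1 := by
  have h1 : ∀ k : ℕ, Cg p 1 (∑ i ∈ Finset.range k, a ^ i) (k : Matrix (Fin 2) (Fin 2) ℤ_[p]) := by
    intro k
    induction k with
    | zero => simpa using Cg.refl 1 (0 : Matrix (Fin 2) (Fin 2) ℤ_[p])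
    | succ k ih =>
      rw [Finset.sum_range_succ, Nat.cast_succ]
      have h2 : Cg p 1 (a ^ k) 1 := by simpa using (h.mono hn).pow k
      rw [Cg, add_sub_add_comm]
      exact dvd_add ih h2
  obtain ⟨u, hu⟩ := h
  obtain ⟨v, hv⟩ : ∃ v, ∑ i ∈ Finset.range p, a ^ i = (p : Matrix (Fin 2) (Fin 2) ℤ_[p]) * v := by
    obtain ⟨v, hv⟩ := h1 p
    refine ⟨v + 1, ?_⟩
    rw [pow_one] at hv
    rw [mul_add, ← hv, mul_one, sub_add_cancel]
  refine ⟨u * v, ?_⟩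
  rw [← mul_geom_sum, hu, hv, pow_succ, mul_assoc, mul_assoc, ← mul_assoc u,
    ← (Nat.cast_commute p u).eq, mul_assoc]

/-- **The exponent of `GL₂(ℤ/pⁿ)`** divides `(p² - 1)(p² - p)pⁿ`, every prime `p`. -/
theorem cg_pow_card' {A A' : Matrix (Fin 2) (Fin 2) ℤ_[p]} (hA : A * A' = 1) (n : ℕ) :
    Cg p n (A ^ ((p ^ 2 - 1) * (p ^ 2 - p) * p ^ n)) 1 := by
  have hA' : A' * A = 1 := mul_eq_one_comm.1 hA
  have h1 : Cg p 1 (A ^ ((p ^ 2 - 1) * (p ^ 2 - p))) 1 := by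
    let u : GL (Fin 2) (ZMod p) := ⟨A.map PadicInt.toZMod, A'.map PadicInt.toZMod, by
      rw [← RingHom.mapMatrix_apply, ← RingHom.mapMatrix_apply, ← map_mul, hA, map_one], by
      rw [← RingHom.mapMatrix_apply, ← RingHom.mapMatrix_apply, ← map_mul, hA', map_one]⟩
    have h2 : u ^ Nat.card (GL (Fin 2) (ZMod p)) = 1 := pow_card_eq_one'
    rw [Matrix.card_GL_field, Fin.prod_univ_two, ZMod.card] at h2
    simp only [Fin.val_zero, Fin.val_one, pow_zero, pow_one] at h2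
    rw [cg_one_iff_toZMod, ← RingHom.mapMatrix_apply, ← RingHom.mapMatrix_apply, map_pow, map_one]
    exact congrArg Units.val h2
  have h3 : ∀ n : ℕ, Cg p (n + 1) (A ^ ((p ^ 2 - 1) * (p ^ 2 - p) * p ^ n)) 1 := by
    intro n
    induction n with
    | zero => simpa using h1
    | succ n ih =>
      rw [pow_succ p n, ← mul_assoc, pow_mul]
      exact Cg.pow_p (Nat.le_add_left 1 n) ih
  exact (h3 n).mono n.le_succ

theorem coprime_card' {q : ℕ} (hq : q.Prime) (h5 : 5 ≤ p) (hqp : q < p) :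
    Nat.Coprime ((q ^ 2 - 1) * (q ^ 2 - q)) p := by
  have hq2 := hq.two_le
  have h1 : Nat.Coprime (q - 1) p :=
    (Nat.coprime_of_lt_prime (by omega) (by omega) hp.out).symm
  have h2 : Nat.Coprime q p := (Nat.coprime_of_lt_prime (by omega) hqp hp.out).symm
  have h3 : Nat.Coprime (q + 1) p := by
    refine (Nat.coprime_of_lt_prime (by omega) (lt_of_le_of_ne hqp ?_) hp.out).symm
    intro h
    have h4 := hq.eq_two_or_odd
    have h5 := hp.out.eq_two_or_odd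
    omega
  have e1 : q ^ 2 - 1 = (q + 1) * (q - 1) := by
    obtain ⟨k, rfl⟩ : ∃ k, q = k + 1 := ⟨q - 1, by omega⟩
    have : (k + 1) ^ 2 = (k + 1 + 1) * k + 1 := by ring
    rw [this]
    simp
  have e2 : q ^ 2 - q = q * (q - 1) := by rw [Nat.mul_sub, mul_one, sq]
  rw [e1, e2]
  exact (h3.mul_left h1).mul_left (h2.mul_left h1)

end Gen

section Joint

variable {G : Type*} [Group G]
  {M : ∀ (p : ℕ) [Fact p.Prime], G →* Matrix (Fin 2) (Fin 2) ℤ_[p]}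

/-- an exponent which kills the images modulo `qᴺ` for all `q ∈ F`, `q ≠ p`, and whose `p`-part is
independent of `N` -/
theorem exists_exponent (P : ℕ → Prop) (F : Finset ℕ) (p : ℕ) [hp : Fact p.Prime] :
    ∃ K : ℕ, K ≠ 0 ∧ (5 ≤ p → (∀ q ∈ F, q < p) → Nat.Coprime K p) ∧
      ∀ N : ℕ, ∃ R : ℕ, Nat.Coprime R p ∧
      ∀ q ∈ F, q ≠ p → ∀ [Fact q.Prime], P q → ∀ A A' : Matrix (Fin 2) (Fin 2) ℤ_[q],
        A * A' = 1 → Cg q N (A ^ (K * R)) 1 := by
  classical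
  refine ⟨∏ q ∈ F.filter (fun q => q.Prime ∧ P q ∧ q ≠ p), ((q ^ 2 - 1) * (q ^ 2 - q)),
    Finset.prod_ne_zero_iff.2 fun q hq => ?_, fun h5 hF => Nat.Coprime.prod_left fun q hq => ?_,
    fun N => ⟨∏ q ∈ F.filter (fun q => q.Prime ∧ P q ∧ q ≠ p), q ^ N,
      Nat.Coprime.prod_left fun q hq => ?_, fun q hq hqp hqq hPq A A' hA => ?_⟩⟩
  · rw [Finset.mem_filter] at hq
    have h3 := hq.2.1.two_le
    have h4 : q * 1 < q * q := Nat.mul_lt_mul_of_pos_left (by omega) (by omega)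
    rw [sq]
    refine mul_ne_zero ?_ ?_ <;> omega
  · rw [Finset.mem_filter] at hq
    exact coprime_card' hq.2.1 h5 (hF q hq.1)
  · rw [Finset.mem_filter] at hq
    exact ((Nat.coprime_primes hq.2.1 hp.out).2 hq.2.2.2).pow_left N
  · have hq' : q ∈ F.filter (fun q => q.Prime ∧ P q ∧ q ≠ p) :=
      Finset.mem_filter.2 ⟨hq, hqq.out, hPq, hqp⟩
    rw [← Finset.prod_mul_distrib]
    obtain ⟨k, hk⟩ := Finset.dvd_prod_of_mem
      (fun q => (q ^ 2 - 1) * (q ^ 2 - q) * q ^ N) hq'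
    rw [hk, pow_mul]
    simpa using (cg_pow_card' hA N).pow k

variable (M) in
/-- the commutator subgroup acts through the transvections with entry divisible by `z`. -/
def Trans (p : ℕ) [Fact p.Prime] (z : ℤ_[p]) : Prop :=
  ∀ (x : ℤ_[p]) (N : ℕ), (∃ c ∈ commutator G, Cg p N (M p c) (tU (z * x))) ∧
    ∃ c ∈ commutator G, Cg p N (M p c) (tL (z * x))

theorem commutatorElement_mem (σ τ : G) : ⁅σ, τ⁆ ∈ commutator G :=
  Subgroup.commutator_mem_commutator (Subgroup.mem_top _) (Subgroup.mem_top _)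

/-- all transvections, if the image is everything -/
theorem trans_of_full {p : ℕ} [hp : Fact p.Prime] (hp2 : p ≠ 2)
    (hM : ∀ (N : ℕ) (g : Matrix (Fin 2) (Fin 2) ℤ_[p]), IsUnit g.det →
      ∃ σ, Cg p N (M p σ) g) : Trans M p 1 := by
  obtain ⟨k, hk⟩ : ∃ k : ℤ_[p], 2 * k = 1 := by
    refine IsUnit.exists_right_inv ?_
    have h := (natCast_isUnit_iff (p := p) (m := 2)).2
      ((Nat.coprime_primes Nat.prime_two hp.out).2 hp2.symm)
    exact_mod_cast h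
  have hD : (!![-1, 0; 0, 1] : Matrix (Fin 2) (Fin 2) ℤ_[p]) * !![-1, 0; 0, 1] = 1 := by
    ext i j; fin_cases i <;> fin_cases j <;> simp
  intro x N
  obtain ⟨δ, hδ⟩ := hM N !![-1, 0; 0, 1] (by simp)
  constructor
  · have hT : tU (-(x * k)) * tU (x * k) = (1 : Matrix (Fin 2) (Fin 2) ℤ_[p]) := by
      rw [tU_mul, neg_add_cancel, tU_zero]
    obtain ⟨τ, hτ⟩ := hM N (tU (-(x * k))) (by rw [det_tU]; exact isUnit_one)
    refine ⟨⁅δ, τ⁆, commutatorElement_mem _ _, ?_⟩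
    have h1 := cg_commutatorElement hD hT hδ hτ
    have e : (!![-1, 0; 0, 1] * tU (-(x * k)) * !![-1, 0; 0, 1] * tU (x * k) :
        Matrix (Fin 2) (Fin 2) ℤ_[p]) = tU (1 * x) := by
      ext i j
      fin_cases i <;> fin_cases j <;> simp [tU]
      linear_combination x * hk
    rwa [e] at h1
  · have hT : tL (-(x * k)) * tL (x * k) = (1 : Matrix (Fin 2) (Fin 2) ℤ_[p]) := by
      rw [tL_mul, neg_add_cancel, tL_zero]
    obtain ⟨τ, hτ⟩ := hM N (tL (-(x * k))) (by rw [det_tL]; exact isUnit_one)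
    refine ⟨⁅δ, τ⁆, commutatorElement_mem _ _, ?_⟩
    have h1 := cg_commutatorElement hD hT hδ hτ
    have e : (!![-1, 0; 0, 1] * tL (-(x * k)) * !![-1, 0; 0, 1] * tL (x * k) :
        Matrix (Fin 2) (Fin 2) ℤ_[p]) = tL (1 * x) := by
      ext i j
      fin_cases i <;> fin_cases j <;> simp [tL]
      linear_combination x * hk
    rwa [e] at h1

/-- many transvections, if the image is open -/
theorem trans_of_open {p : ℕ} [hp : Fact p.Prime] {n : ℕ}
    (hM : ∀ g : Matrix (Fin 2) (Fin 2) ℤ_[p], Cg p (n + 1) g 1 → ∀ N : ℕ,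
      ∃ σ, Cg p N (M p σ) g) : Trans M p ((p : ℤ_[p]) ^ (n + 1 + (n + 1))) := by
  have hd : IsUnit (1 + (p : ℤ_[p]) ^ (n + 1)) := by
    refine isUnit_of_dvd_sub_one ?_
    rw [add_sub_cancel_left]
    exact dvd_pow_self _ n.succ_ne_zero
  obtain ⟨u, hu⟩ := hd.exists_right_inv
  have hD : (!![1 + (p : ℤ_[p]) ^ (n + 1), 0; 0, 1] : Matrix (Fin 2) (Fin 2) ℤ_[p]) *
      !![u, 0; 0, 1] = 1 := by
    ext i j
    fin_cases i <;> fin_cases j <;> simp
    exact hu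
  intro x N
  obtain ⟨δ, hδ⟩ := hM !![1 + (p : ℤ_[p]) ^ (n + 1), 0; 0, 1] (by
    rw [cg_iff]
    intro i j
    fin_cases i <;> fin_cases j <;> simp) N
  constructor
  · have hT : tU ((p : ℤ_[p]) ^ (n + 1) * x) * tU (-((p : ℤ_[p]) ^ (n + 1) * x)) =
        (1 : Matrix (Fin 2) (Fin 2) ℤ_[p]) := by
      rw [tU_mul, add_neg_cancel, tU_zero]
    obtain ⟨τ, hτ⟩ := hM (tU ((p : ℤ_[p]) ^ (n + 1) * x)) (by
      rw [cg_iff]
      intro i j
      fin_cases i <;> fin_cases j <;> simp [tU]) N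
    refine ⟨⁅δ, τ⁆, commutatorElement_mem _ _, ?_⟩
    have h1 := cg_commutatorElement hD hT hδ hτ
    have e : (!![1 + (p : ℤ_[p]) ^ (n + 1), 0; 0, 1] * tU ((p : ℤ_[p]) ^ (n + 1) * x) *
        !![u, 0; 0, 1] * tU (-((p : ℤ_[p]) ^ (n + 1) * x)) : Matrix (Fin 2) (Fin 2) ℤ_[p]) =
        tU ((p : ℤ_[p]) ^ (n + 1 + (n + 1)) * x) := by
      ext i j
      fin_cases i <;> fin_cases j <;> simp [tU]
      · exact hu
      · rw [pow_add]
        linear_combination (-(p : ℤ_[p]) ^ (n + 1) * x) * hu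
    rwa [e] at h1
  · have hT : tL (-(1 + (p : ℤ_[p]) ^ (n + 1)) * (p : ℤ_[p]) ^ (n + 1) * x) *
        tL ((1 + (p : ℤ_[p]) ^ (n + 1)) * (p : ℤ_[p]) ^ (n + 1) * x) =
        (1 : Matrix (Fin 2) (Fin 2) ℤ_[p]) := by
      rw [tL_mul, ← tL_zero]
      congr 1
      ring
    obtain ⟨τ, hτ⟩ := hM (tL (-(1 + (p : ℤ_[p]) ^ (n + 1)) * (p : ℤ_[p]) ^ (n + 1) * x)) (by
      rw [cg_iff]
      intro i j
      fin_cases i <;> fin_cases j
      · simp [tL]
      · simp [tL]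
      · refine ⟨-(1 + (p : ℤ_[p]) ^ (n + 1)) * x, ?_⟩
        simp [tL]
        ring
      · simp [tL]) N
    refine ⟨⁅δ, τ⁆, commutatorElement_mem _ _, ?_⟩
    have h1 := cg_commutatorElement hD hT hδ hτ
    have e : (!![1 + (p : ℤ_[p]) ^ (n + 1), 0; 0, 1] *
        tL (-(1 + (p : ℤ_[p]) ^ (n + 1)) * (p : ℤ_[p]) ^ (n + 1) * x) *
        !![u, 0; 0, 1] * tL ((1 + (p : ℤ_[p]) ^ (n + 1)) * (p : ℤ_[p]) ^ (n + 1) * x) :
          Matrix (Fin 2) (Fin 2) ℤ_[p]) =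
        tL ((p : ℤ_[p]) ^ (n + 1 + (n + 1)) * x) := by
      ext i j
      fin_cases i <;> fin_cases j <;> simp [tL]
      · exact hu
      · rw [pow_add]
        linear_combination (-(p : ℤ_[p]) ^ (n + 1) * x) * hu
    rwa [e] at h1

/-- **One prime at a time.** -/
theorem exists_one (P : ℕ → Prop) (F : Finset ℕ) {p : ℕ} [hp : Fact p.Prime]
    {z : ℤ_[p]} (hz : Trans M p z) :
    ∃ K : ℕ, K ≠ 0 ∧ (5 ≤ p → (∀ q ∈ F, q < p) → Nat.Coprime K p) ∧
      ∀ g : Matrix (Fin 2) (Fin 2) ℤ_[p], g.det = 1 → ((K : ℤ_[p]) * z) ^ 2 ∣ g 0 0 - 1 →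
        ((K : ℤ_[p]) * z) ^ 2 ∣ g 0 1 → ((K : ℤ_[p]) * z) ^ 2 ∣ g 1 0 → ∀ N : ℕ,
        ∃ σ ∈ commutator G, (∀ q ∈ F, q ≠ p → ∀ [Fact q.Prime], P q → Cg q N (M q σ) 1) ∧
          Cg p N (M p σ) g := by
  obtain ⟨K, hK, hK2, hR⟩ := exists_exponent P F p
  refine ⟨K, hK, hK2, fun g hg h00 h01 h10 N => ?_⟩
  obtain ⟨R, hRp, hR⟩ := hR N
  obtain ⟨r, hr⟩ := (natCast_isUnit_iff.2 hRp).exists_right_inv
  refine sl_induction_of_dvd (κ := (K : ℤ_[p]) * z) (P := fun g => ∃ σ ∈ commutator G,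
    (∀ q ∈ F, q ≠ p → ∀ [Fact q.Prime], P q → Cg q N (M q σ) 1) ∧ Cg p N (M p σ) g)
    (fun x => ?_) (fun x => ?_) ?_ hg h00 h01 h10
  · obtain ⟨c, hc, h1⟩ := (hz (x * r) N).1
    refine ⟨c ^ (K * R), Subgroup.pow_mem _ hc _, fun q hq hqp hqq hPq => ?_, ?_⟩
    · rw [map_pow]
      exact hR q hq hqp hPq _ _ (rho_mul_inv (M q) c)
    · rw [map_pow]
      have h2 := h1.pow (K * R)
      rw [tU_pow] at h2
      have e : ((K * R : ℕ) : ℤ_[p]) * (z * (x * r)) = K * z * x := by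
        push_cast
        linear_combination (K * z * x : ℤ_[p]) * hr
      rwa [e] at h2
  · obtain ⟨c, hc, h1⟩ := (hz (x * r) N).2
    refine ⟨c ^ (K * R), Subgroup.pow_mem _ hc _, fun q hq hqp hqq hPq => ?_, ?_⟩
    · rw [map_pow]
      exact hR q hq hqp hPq _ _ (rho_mul_inv (M q) c)
    · rw [map_pow]
      have h2 := h1.pow (K * R)
      rw [tL_pow] at h2
      have e : ((K * R : ℕ) : ℤ_[p]) * (z * (x * r)) = K * z * x := by
        push_cast
        linear_combination (K * z * x : ℤ_[p]) * hr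
      rwa [e] at h2
  · rintro a b ⟨σ, h1, h2, h3⟩ ⟨τ, h4, h5, h6⟩
    refine ⟨σ * τ, Subgroup.mul_mem _ h1 h4, fun q hq hqp hqq hPq => ?_, ?_⟩
    · rw [map_mul]
      simpa using (h2 q hq hqp hPq).mul (h5 q hq hqp hPq)
    · rw [map_mul]
      exact h3.mul h6

/-- the same with a power of `p` -/
theorem exists_one_pow (P : ℕ → Prop) (F : Finset ℕ) {p : ℕ} [hp : Fact p.Prime]
    {j : ℕ} (hz : Trans M p ((p : ℤ_[p]) ^ j)) : ∃ c : ℕ,
      ∀ g : Matrix (Fin 2) (Fin 2) ℤ_[p], g.det = 1 → Cg p c g 1 → ∀ N : ℕ,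
        ∃ σ ∈ commutator G, (∀ q ∈ F, q ≠ p → ∀ [Fact q.Prime], P q → Cg q N (M q σ) 1) ∧
          Cg p N (M p σ) g := by
  obtain ⟨K, hK, -, h⟩ := exists_one P F hz
  obtain ⟨i, hi⟩ := exists_natCast_dvd_pow (p := p) hK
  refine ⟨(i + j) * 2, fun g hg hg1 N => ?_⟩
  have h1 : ((K : ℤ_[p]) * (p : ℤ_[p]) ^ j) ^ 2 ∣ (p : ℤ_[p]) ^ ((i + j) * 2) := by
    rw [pow_mul, pow_add]
    exact pow_dvd_pow_of_dvd (mul_dvd_mul_right hi _) 2
  rw [cg_iff] at hg1
  refine h g hg (h1.trans ?_) (h1.trans ?_) (h1.trans ?_) N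
  · simpa using hg1 0 0
  · simpa using hg1 0 1
  · simpa using hg1 1 0

/-- **Finitely many primes.** -/
theorem exists_small (P : ℕ → Prop) (F₀ : Finset ℕ)
    (hT : ∀ q ∈ F₀, ∀ [Fact q.Prime], P q → ∃ j : ℕ, Trans M q ((q : ℤ_[q]) ^ j)) :
    ∃ c : ℕ, ∀ g : ∀ (p : ℕ) [Fact p.Prime], Matrix (Fin 2) (Fin 2) ℤ_[p],
      (∀ q ∈ F₀, ∀ [Fact q.Prime], P q → (g q).det = 1 ∧ Cg q c (g q) 1) →
      ∀ N : ℕ, ∃ σ ∈ commutator G, ∀ q ∈ F₀, ∀ [Fact q.Prime], P q → Cg q N (M q σ) (g q) := by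
  classical
  have h1 : ∀ q : ℕ, ∃ c : ℕ, q ∈ F₀ → ∀ [Fact q.Prime], P q →
      ∀ g : Matrix (Fin 2) (Fin 2) ℤ_[q], g.det = 1 → Cg q c g 1 → ∀ N : ℕ,
        ∃ σ ∈ commutator G, (∀ r ∈ F₀, r ≠ q → ∀ [Fact r.Prime], P r → Cg r N (M r σ) 1) ∧
          Cg q N (M q σ) g := by
    intro q
    by_cases hq : q ∈ F₀ ∧ q.Prime ∧ P q
    · have : Fact q.Prime := ⟨hq.2.1⟩
      obtain ⟨j, hj⟩ := hT q hq.1 hq.2.2
      obtain ⟨c, hc⟩ := exists_one_pow P F₀ hj
      exact ⟨c, fun _ _ _ => hc⟩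
    · exact ⟨0, fun h2 h3 h4 => absurd ⟨h2, h3.out, h4⟩ hq⟩
  choose c hc using h1
  refine ⟨F₀.sup c, fun g hg N => ?_⟩
  have key : ∀ F : Finset ℕ, F ⊆ F₀ → ∃ σ ∈ commutator G,
      (∀ q ∈ F, ∀ [Fact q.Prime], P q → Cg q N (M q σ) (g q)) ∧
      ∀ q ∈ F₀, q ∉ F → ∀ [Fact q.Prime], P q → Cg q N (M q σ) 1 := by
    intro F
    induction F using Finset.induction_on with
    | empty =>
      intro _
      refine ⟨1, Subgroup.one_mem _, fun q hq => absurd hq (Finset.notMem_empty q),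
        fun q _ _ _ _ => ?_⟩
      rw [map_one]
      exact Cg.refl _ _
    | insert q F hqF ih =>
      intro hF
      obtain ⟨σ, hσ, h2, h3⟩ := ih fun x hx => hF (Finset.mem_insert_of_mem hx)
      by_cases hq : q.Prime ∧ P q
      · have : Fact q.Prime := ⟨hq.1⟩
        have hq0 : q ∈ F₀ := hF (Finset.mem_insert_self q F)
        have hgq := hg q hq0 hq.2
        obtain ⟨τ, hτ, h4, h5⟩ := hc q hq0 hq.2 (g q) hgq.1
          (hgq.2.mono (Finset.le_sup hq0)) N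
        refine ⟨σ * τ, Subgroup.mul_mem _ hσ hτ, fun r hr hrp hPr => ?_,
          fun r hr0 hr hrp hPr => ?_⟩
        · rw [map_mul]
          rcases Finset.mem_insert.1 hr with rfl | hr
          · simpa using (h3 r hq0 hqF hPr).mul h5
          · have hrq : r ≠ q := fun h => hqF (h ▸ hr)
            simpa using (h2 r hr hPr).mul (h4 r (hF (Finset.mem_insert_of_mem hr)) hrq hPr)
        · rw [map_mul]
          rw [Finset.mem_insert, not_or] at hr
          simpa using (h3 r hr0 hr.2 hPr).mul (h4 r hr0 hr.1 hPr)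
      · refine ⟨σ, hσ, fun r hr hrp hPr => ?_, fun r hr0 hr hrp hPr => ?_⟩
        · rcases Finset.mem_insert.1 hr with rfl | hr
          · exact absurd ⟨hrp.out, hPr⟩ hq
          · exact h2 r hr hPr
        · rw [Finset.mem_insert, not_or] at hr
          exact h3 r hr0 hr.2 hPr
  obtain ⟨σ, hσ, h2, -⟩ := key F₀ (Finset.Subset.refl _)
  exact ⟨σ, hσ, h2⟩

/-- **All primes, determinant one.** -/
theorem exists_all (P : ℕ → Prop) {B : ℕ} (hB4 : 4 ≤ B)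
    (hT : ∀ (q : ℕ) [Fact q.Prime], P q → q ≤ B → ∃ j : ℕ, Trans M q ((q : ℤ_[q]) ^ j))
    (hM : ∀ (p : ℕ) [Fact p.Prime], P p → B < p → ∀ (N : ℕ)
      (g : Matrix (Fin 2) (Fin 2) ℤ_[p]), IsUnit g.det → ∃ σ, Cg p N (M p σ) g) :
    ∃ c : ℕ, ∀ g : ∀ (p : ℕ) [Fact p.Prime], Matrix (Fin 2) (Fin 2) ℤ_[p],
      (∀ (p : ℕ) [Fact p.Prime], P p → (g p).det = 1) →
      (∀ (p : ℕ) [Fact p.Prime], P p → p ≤ B → Cg p c (g p) 1) →
      ∀ N k : ℕ, ∃ σ ∈ commutator G, ∀ p, p < k → ∀ [Fact p.Prime], P p →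
        Cg p N (M p σ) (g p) := by
  obtain ⟨c, hc⟩ := exists_small (M := M) P (Finset.range (B + 1)) (fun q hq _ hPq =>
    hT q hPq (Nat.lt_succ_iff.1 (Finset.mem_range.1 hq)))
  refine ⟨c, fun g hg1 hg2 N => ?_⟩
  have key : ∀ m : ℕ, ∃ σ ∈ commutator G, ∀ p, p < B + 1 + m → ∀ [Fact p.Prime], P p →
      Cg p N (M p σ) (g p) := by
    intro m
    induction m with
    | zero =>
      obtain ⟨σ, hσ, h⟩ := hc g (fun q hq _ hPq =>
        ⟨hg1 q hPq, hg2 q hPq (Nat.lt_succ_iff.1 (Finset.mem_range.1 hq))⟩) N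
      exact ⟨σ, hσ, fun p hp _ hPp => h p (Finset.mem_range.2 hp) hPp⟩
    | succ m ih =>
      obtain ⟨σ, hσ, h⟩ := ih
      by_cases hp : (B + 1 + m).Prime ∧ P (B + 1 + m)
      · obtain ⟨p, hpm⟩ : ∃ p, p = B + 1 + m := ⟨_, rfl⟩
        rw [← hpm] at hp h
        have : Fact p.Prime := ⟨hp.1⟩
        obtain ⟨K, -, hK, h1⟩ := exists_one P (Finset.range p)
          (trans_of_full (M := M) (p := p) (by omega) (hM p hp.2 (by omega)))
        have hu : IsUnit (((K : ℤ_[p]) * 1) ^ 2) := by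
          rw [mul_one]
          exact (natCast_isUnit_iff.2 (hK (by omega) fun q hq => Finset.mem_range.1 hq)).pow 2
        obtain ⟨τ, hτ, h2, h3⟩ := h1 (M p σ⁻¹ * g p) (by
          rw [Matrix.det_mul, det_commutator M (Subgroup.inv_mem _ hσ), hg1 p hp.2, one_mul])
          hu.dvd hu.dvd hu.dvd N
        refine ⟨σ * τ, Subgroup.mul_mem _ hσ hτ, fun q hq _ hPq => ?_⟩
        rw [map_mul]
        rcases Nat.lt_or_ge q p with hq' | hq'
        · simpa using (h q hq' hPq).mul (h2 q (Finset.mem_range.2 hq') hq'.ne hPq)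
        · obtain rfl : q = p := by omega
          have h4 := h3.mul_left (M q σ)
          rw [← mul_assoc, rho_mul_inv, one_mul] at h4
          exact h4
      · refine ⟨σ, hσ, fun q hq _ hPq => ?_⟩
        rcases Nat.lt_or_ge q (B + 1 + m) with hq' | hq'
        · exact h q hq' hPq
        · have : q = B + 1 + m := by omega
          subst this
          exact absurd ⟨Fact.out, hPq⟩ hp
  intro k
  obtain ⟨σ, hσ, h⟩ := key k
  exact ⟨σ, hσ, fun p hp _ hPp => h p (by omega) hPp⟩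

theorem dvd_det_sub_one {p : ℕ} [Fact p.Prime] {m : ℤ_[p]} {g : Matrix (Fin 2) (Fin 2) ℤ_[p]}
    (h : ∀ i j, m ∣ g i j - (1 : Matrix (Fin 2) (Fin 2) ℤ_[p]) i j) : m ∣ g.det - 1 := by
  obtain ⟨a, ha⟩ := h 0 0
  obtain ⟨b, hb⟩ := h 0 1
  obtain ⟨c, hc⟩ := h 1 0
  obtain ⟨d, hd⟩ := h 1 1
  rw [Matrix.one_apply_eq] at ha hd
  rw [Matrix.one_apply_ne (by decide)] at hb hc
  refine ⟨a + d + m * a * d - m * b * c, ?_⟩
  rw [Matrix.det_fin_two]
  linear_combination g 1 1 * ha + (1 + m * a) * hd - g 1 0 * hb - m * b * hc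

/-- **The open image theorem, group theoretic part.** -/
theorem exists_open_joint (P : ℕ → Prop) {B : ℕ} (hB4 : 4 ≤ B)
    (hT : ∀ (q : ℕ) [Fact q.Prime], P q → q ≤ B → ∃ j : ℕ, Trans M q ((q : ℤ_[q]) ^ j))
    (hM : ∀ (p : ℕ) [Fact p.Prime], P p → B < p → ∀ (N : ℕ)
      (g : Matrix (Fin 2) (Fin 2) ℤ_[p]), IsUnit g.det → ∃ σ, Cg p N (M p σ) g)
    (hdet : ∀ c : ℕ, ∃ N' : ℕ, N' ≠ 0 ∧ ∀ u : ∀ (p : ℕ) [Fact p.Prime], ℤ_[p],
      (∀ (p : ℕ) [Fact p.Prime], P p → IsUnit (u p) ∧ (N' : ℤ_[p]) ∣ u p - 1) → ∀ N k : ℕ,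
      ∃ σ : G, (∀ (q : ℕ) [Fact q.Prime], P q → q ≤ B → Cg q c (M q σ) 1) ∧
        ∀ p, p < k → ∀ [Fact p.Prime], P p → (p : ℤ_[p]) ^ N ∣ (M p σ).det - u p) :
    ∃ N₀ : ℕ, N₀ ≠ 0 ∧ ∀ g : ∀ (p : ℕ) [Fact p.Prime], Matrix (Fin 2) (Fin 2) ℤ_[p],
      (∀ (p : ℕ) [Fact p.Prime], P p → IsUnit (g p).det ∧
        ∀ i j, (N₀ : ℤ_[p]) ∣ g p i j - (1 : Matrix (Fin 2) (Fin 2) ℤ_[p]) i j) →
      ∀ N k : ℕ, ∃ σ : G, ∀ p, p < k → ∀ [Fact p.Prime], P p → Cg p N (M p σ) (g p) := by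
  classical
  obtain ⟨c, hc⟩ := exists_all P hB4 hT hM
  obtain ⟨N', hN', hN2⟩ := hdet c
  refine ⟨N' * B.factorial ^ c, mul_ne_zero hN' (pow_ne_zero _ B.factorial_ne_zero),
    fun g hg N k => ?_⟩
  have hg' : ∀ (p : ℕ) [Fact p.Prime], P p → ∀ i j,
      (N' : ℤ_[p]) ∣ g p i j - (1 : Matrix (Fin 2) (Fin 2) ℤ_[p]) i j := by
    intro p _ hPp i j
    refine dvd_trans ?_ ((hg p hPp).2 i j)
    rw [Nat.cast_mul]
    exact dvd_mul_right _ _
  have hgB : ∀ (p : ℕ) [Fact p.Prime], P p → p ≤ B → Cg p c (g p) 1 := by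
    intro p hp hPp hpB
    rw [cg_iff]
    intro i j
    refine dvd_trans ?_ ((hg p hPp).2 i j)
    rw [Nat.cast_mul, Nat.cast_pow]
    refine dvd_mul_of_dvd_right (pow_dvd_pow_of_dvd ?_ c) _
    exact Nat.cast_dvd_cast (Nat.dvd_factorial hp.out.pos hpB)
  obtain ⟨σ, hσ1, hσ2⟩ := hN2 (fun p _ => (g p).det)
    (fun p _ hPp => ⟨(hg p hPp).1, dvd_det_sub_one (hg' p hPp)⟩) (max N c) k
  -- correction of the determinant
  have h1 : ∀ (p : ℕ) [Fact p.Prime], ∃ h : Matrix (Fin 2) (Fin 2) ℤ_[p],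
      (P p → h.det = 1) ∧ (P p → p < k → Cg p (max N c) h (M p σ⁻¹ * g p)) ∧
        (P p → ¬ p < k → h = 1) := by
    intro p hp
    by_cases hPp : P p ∧ p < k
    · have hu1 : IsUnit (M p σ⁻¹).det := by
        have h := congrArg Matrix.det (rho_inv_mul (M p) σ)
        rw [Matrix.det_mul, Matrix.det_one] at h
        exact IsUnit.of_mul_eq_one _ h
      have hu : IsUnit (M p σ⁻¹ * g p).det := by
        rw [Matrix.det_mul]
        exact hu1.mul (hg p hPp.1).1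
      obtain ⟨d', hd'⟩ := hu.exists_right_inv
      refine ⟨!![d', 0; 0, 1] * (M p σ⁻¹ * g p), fun _ => ?_, fun _ _ => ?_,
        fun _ h => absurd hPp.2 h⟩
      · rw [Matrix.det_mul]
        simp only [Matrix.det_fin_two_of, mul_one, mul_zero, sub_zero]
        rw [mul_comm]
        exact hd'
      · have h2 : Cg p (max N c) (!![d', 0; 0, 1] : Matrix (Fin 2) (Fin 2) ℤ_[p]) 1 := by
          rw [cg_iff]
          obtain ⟨t, ht⟩ := hσ2 p hPp.2 hPp.1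
          have h3 := congrArg Matrix.det (rho_inv_mul (M p) σ)
          rw [Matrix.det_mul, Matrix.det_one] at h3
          rw [Matrix.det_mul] at hd'
          intro i j
          fin_cases i <;> fin_cases j
          · refine ⟨t * (M p σ⁻¹).det * d', ?_⟩
            simp
            linear_combination (-d') * h3 + (M p σ⁻¹).det * d' * ht + hd'
          · simp
          · simp
          · simp
        simpa using h2.mul_right (M p σ⁻¹ * g p)
    · refine ⟨1, fun _ => Matrix.det_one, fun h2 h3 => absurd ⟨h2, h3⟩ hPp, fun _ _ => rfl⟩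
  choose h hh1 hh2 hh3 using h1
  have hB : ∀ (p : ℕ) [Fact p.Prime], P p → p ≤ B → Cg p c (h p) 1 := by
    intro p hp hPp hpB
    by_cases hpk : p < k
    · have h4 := (hh2 p hPp hpk).mono (le_max_right N c)
      have h5 : Cg p c (M p σ⁻¹) 1 := (hσ1 p hPp hpB).inv' (M p) (one_mul 1)
      have h6 := h5.mul (hgB p hPp hpB)
      rw [one_mul] at h6
      exact h4.trans h6
    · rw [hh3 p hPp hpk]
      exact Cg.refl _ _
  obtain ⟨τ, -, hτ⟩ := hc h (fun p _ hPp => hh1 p hPp) hB N k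
  refine ⟨σ * τ, fun p hpk hp hPp => ?_⟩
  rw [map_mul]
  have h4 := ((hτ p hpk hPp).trans ((hh2 p hPp hpk).mono (le_max_left N c))).mul_left (M p σ)
  rw [← mul_assoc (M p σ), rho_mul_inv, one_mul] at h4
  exact h4

end Joint

end Fermat.Agent.Cor.Serre

end
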