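import Fermat.Agent.Corollaries.Surj.Adelic
import Fermat.Agent.Corollaries.Surj.OpenGroup

/-!
# Serre's open image theorem, all primes together (helper62)

`exists_open_adelic_of`: let `W` be an elliptic curve over `ℚ` and `P` a set of primes such that the
image of `Gal(ℚ̄/ℚ)` in `Aut(T_p W)` is open for every `p ∈ P`, and `Gal(ℚ̄/ℚ)` acts on `W[p]` through
all automorphisms for all large `p ∈ P`.  Then there is an integer `N ≥ 1` such that every family of
automorphisms `e p` of the Tate modules `T_p W`, `p ∈ P`, with `e p ≡ 1` modulo `N`, comes from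
**one** element of `Gal(ℚ̄/ℚ)`: the image in `∏ GL₂(ℤ_p)`, `p ∈ P`, is open.
-/

set_option autoImplicit false

noncomputable section

open WeierstrassCurve WeierstrassCurve.Affine.Point Module
open scoped WeierstrassCurve.Affine
open Fermat.Agent.Tate Fermat.Agent.S30aux

namespace Fermat.Agent.Cor

local notation "Γℚ" => (AlgebraicClosure ℚ ≃ₐ[ℚ] AlgebraicClosure ℚ)

/-! ### The cyclotomic fields and a subgroup of finite index -/

/-- the elements which fix the roots of unity of order `N` -/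
def cycFix (N : ℕ) : Subgroup Γℚ where
  carrier := {σ | ∀ ζ : AlgebraicClosure ℚ, ζ ^ N = 1 → σ ζ = ζ}
  one_mem' := fun _ _ => rfl
  mul_mem' := fun {σ τ} hσ hτ ζ hζ => by
    rw [AlgEquiv.mul_apply, hτ ζ hζ, hσ ζ hζ]
  inv_mem' := fun {σ} hσ ζ hζ => by
    have h : σ (σ⁻¹ ζ) = ζ := σ.apply_symm_apply ζ
    conv_lhs => rw [← hσ ζ hζ]
    exact σ.symm_apply_apply ζ

theorem mem_cycFix {N : ℕ} {σ : Γℚ} :
    σ ∈ cycFix N ↔ ∀ ζ : AlgebraicClosure ℚ, ζ ^ N = 1 → σ ζ = ζ := Iff.rfl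

instance (N : ℕ) : (cycFix N).Normal where
  conj_mem σ hσ τ := fun ζ hζ => by
    have h1 : (τ⁻¹ ζ) ^ N = 1 := by rw [← map_pow, hζ, _root_.map_one]
    rw [AlgEquiv.mul_apply, AlgEquiv.mul_apply, hσ _ h1]
    exact τ.apply_symm_apply ζ

theorem cycFix_mono {M N : ℕ} (h : M ∣ N) : cycFix N ≤ cycFix M := by
  obtain ⟨k, rfl⟩ := h
  intro σ hσ ζ hζ
  exact hσ ζ (by rw [pow_mul, hζ, one_pow])

/-- **Stabilisation**: `U` of finite index; the fixed field of `U` meets all cyclotomic fields in a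
subfield of one of them. -/
theorem exists_stable (U : Subgroup Γℚ) [U.FiniteIndex] :
    ∃ N' : ℕ, N' ≠ 0 ∧ ∀ N : ℕ, N ≠ 0 → N' ∣ N → cycFix N' ≤ U ⊔ cycFix N := by
  have hfin : ∀ N, (U ⊔ cycFix N).FiniteIndex := fun N =>
    Subgroup.finiteIndex_of_le le_sup_left
  have hb : BddAbove {m : ℕ | ∃ N : ℕ, N ≠ 0 ∧ (U ⊔ cycFix N).index = m} := by
    refine ⟨U.index, ?_⟩
    rintro m ⟨N, -, rfl⟩
    exact Subgroup.index_antitone le_sup_left
  have hne : {m : ℕ | ∃ N : ℕ, N ≠ 0 ∧ (U ⊔ cycFix N).index = m}.Nonempty :=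
    ⟨_, 1, one_ne_zero, rfl⟩
  obtain ⟨N', hN', hmax⟩ := Nat.sSup_mem hne hb
  refine ⟨N', hN', fun N hN hdvd => ?_⟩
  have h1 : U ⊔ cycFix N ≤ U ⊔ cycFix N' := sup_le_sup_left (cycFix_mono hdvd) U
  rcases h1.eq_or_lt with h2 | h2
  · rw [h2]
    exact le_sup_right
  · have := hfin N
    have h3 := Subgroup.index_strictAnti h2
    have h4 : (U ⊔ cycFix N).index ≤ (U ⊔ cycFix N').index := by
      rw [hmax]
      exact le_csSup hb ⟨N, hN, rfl⟩
    omega

/-- An element of a commutative group is in a subgroup if all its primary parts are. -/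
theorem mem_of_ordCompl_mul {B : Type*} [CommGroup B] (H : Subgroup B) {N : ℕ} (hN : N ≠ 0)
    {x : B} (hx : x ^ N = 1)
    (h : ∀ p, p.Prime → p ∣ N → x ^ (N / p ^ N.factorization p) ∈ H) : x ∈ H := by
  by_contra hxH
  have hd : orderOf (x : B ⧸ H) ∣ N := orderOf_dvd_of_pow_eq_one (by
    rw [← QuotientGroup.mk_pow, hx, QuotientGroup.mk_one])
  have hd1 : orderOf (x : B ⧸ H) ≠ 1 := by
    rw [Ne, orderOf_eq_one_iff, QuotientGroup.eq_one_iff]
    exact hxH
  obtain ⟨p, hp, hpd⟩ := Nat.exists_prime_and_dvd hd1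
  have h1 : orderOf (x : B ⧸ H) ∣ N / p ^ N.factorization p :=
    orderOf_dvd_of_pow_eq_one (by
      rw [← QuotientGroup.mk_pow, QuotientGroup.eq_one_iff]
      exact h p hp (hpd.trans hd))
  exact Nat.not_dvd_ordCompl hp hN (hpd.trans h1)

/-- `σ` fixes the roots of unity of order `N` if its cyclotomic characters are `≡ 1` modulo `N`. -/
theorem mem_cycFix_of_dvd {N : ℕ} (hN : N ≠ 0) {σ : Γℚ}
    (h : ∀ (p : ℕ) [Fact p.Prime], p ∣ N →
      (p : ℤ_[p]) ^ N.factorization p ∣ ((cyc p σ : ℤ_[p]ˣ) : ℤ_[p]) - 1) : σ ∈ cycFix N := by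
  intro ζ hζ
  have hζ0 : ζ ≠ 0 := by
    rintro rfl
    rw [zero_pow hN] at hζ
    exact zero_ne_one hζ
  have key : Units.mk0 ζ hζ0 ∈ (Units.map ((σ : AlgebraicClosure ℚ →+* AlgebraicClosure ℚ) :
      AlgebraicClosure ℚ →* AlgebraicClosure ℚ)).eqLocus (MonoidHom.id _) := by
    refine mem_of_ordCompl_mul _ hN (Units.ext (by simpa using hζ)) fun p hp hpN => ?_
    have : Fact p.Prime := ⟨hp⟩
    refine Units.ext ?_
    have h1 : (ζ ^ (N / p ^ N.factorization p)) ^ p ^ N.factorization p = 1 := by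
      rw [← pow_mul, mul_comm, Nat.ordProj_mul_ordCompl_eq_self, hζ]
    have h2 := cn_spec p (N.factorization p) σ _ h1
    have h3 : ((cn p (N.factorization p) σ : ℕ) : ZMod (p ^ N.factorization p)) =
        ((1 : ℕ) : ZMod (p ^ N.factorization p)) := by
      rw [cast_cn, dvd_iff_toZModPow.1 (h p hpN), _root_.map_one, Nat.cast_one]
    rw [ZMod.natCast_eq_natCast_iff] at h3
    have h4 : (ζ ^ (N / p ^ N.factorization p)) ^ cn p (N.factorization p) σ =
        ζ ^ (N / p ^ N.factorization p) := by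
      conv_rhs => rw [← pow_one (ζ ^ (N / p ^ N.factorization p))]
      exact pow_eq_pow_of_modEq h3 h1
    rw [h4] at h2
    simpa using h2
  have h5 := congrArg Units.val key
  simpa using h5

/-- **The cyclotomic characters on a subgroup of finite index**: they are jointly open. -/
theorem exists_cyc_of_finiteIndex (U : Subgroup Γℚ) [U.FiniteIndex] (P : ℕ → Prop) :
    ∃ N' : ℕ, N' ≠ 0 ∧ ∀ u : ∀ (p : ℕ) [Fact p.Prime], ℤ_[p],
      (∀ (p : ℕ) [Fact p.Prime], P p → IsUnit (u p) ∧ (N' : ℤ_[p]) ∣ u p - 1) → ∀ N k : ℕ,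
      ∃ σ ∈ U, ∀ p, p < k → ∀ [Fact p.Prime], P p →
        (p : ℤ_[p]) ^ N ∣ ((cyc p σ : ℤ_[p]ˣ) : ℤ_[p]) - u p := by
  classical
  obtain ⟨N', hN', hst⟩ := exists_stable U
  refine ⟨N', hN', fun u hu N k => ?_⟩
  obtain ⟨σ, hσ⟩ := exists_cyc_joint (max N N') (fun p _ => if P p then u p else 1)
    (Finset.range (max k (N' + 1))) (fun p _ hp => by
      by_cases h : P p
      · simp only [h, if_true]
        exact (hu p h).1
      · simp only [h, if_false]
        exact isUnit_one)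
  have hσ' : ∀ p, p < max k (N' + 1) → ∀ [Fact p.Prime], (p : ℤ_[p]) ^ (max N N') ∣
      ((cyc p σ : ℤ_[p]ˣ) : ℤ_[p]) - (if P p then u p else 1) := fun p hp _ =>
    dvd_iff_toZModPow.2 (hσ p (Finset.mem_range.2 hp))
  have h1 : σ ∈ cycFix N' := by
    refine mem_cycFix_of_dvd hN' fun p hp hpN => ?_
    have hv : N'.factorization p ≤ N' := (Nat.factorization_lt p hN').le
    have h2 := (pow_dvd_pow (p : ℤ_[p]) (hv.trans (le_max_right N N'))).trans
      (hσ' p (lt_of_lt_of_le (Nat.lt_succ_of_le (Nat.le_of_dvd (Nat.pos_of_ne_zero hN') hpN))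
        (le_max_right _ _)))
    have h3 : (p : ℤ_[p]) ^ N'.factorization p ∣ (if P p then u p else 1) - 1 := by
      by_cases h : P p
      · simp only [h, if_true]
        refine dvd_trans ?_ (hu p h).2
        have h4 : ((p ^ N'.factorization p : ℕ) : ℤ_[p]) ∣ ((N' : ℕ) : ℤ_[p]) :=
          Nat.cast_dvd_cast (Nat.ordProj_dvd N' p)
        rwa [Nat.cast_pow] at h4
      · simp only [h, if_false, sub_self]
        exact dvd_zero _
    have h4 := dvd_add h2 h3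
    rwa [sub_add_sub_cancel] at h4
  have hN2 : N' * k.factorial ^ (max N N') ≠ 0 :=
    mul_ne_zero hN' (pow_ne_zero _ k.factorial_ne_zero)
  obtain ⟨l, hl, c, hc, hlc⟩ := Subgroup.mem_sup_of_normal_right.1
    (hst _ hN2 (dvd_mul_right _ _) h1)
  refine ⟨l, hl, fun p hpk hp hPp => ?_⟩
  have h5 := hσ' p (lt_of_lt_of_le hpk (le_max_left _ _))
  simp only [hPp, if_true] at h5
  have h6 : (p : ℤ_[p]) ^ (max N N') ∣ ((cyc p l : ℤ_[p]ˣ) : ℤ_[p]) -
      ((cyc p σ : ℤ_[p]ˣ) : ℤ_[p]) := by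
    rw [dvd_iff_toZModPow]
    obtain ⟨ζ, hζ⟩ := exists_primitive p (max N N')
    have h7 : c ζ = ζ := by
      refine hc ζ ?_
      obtain ⟨m, hm⟩ : p ^ (max N N') ∣ N' * k.factorial ^ (max N N') :=
        dvd_mul_of_dvd_right (pow_dvd_pow_of_dvd (Nat.dvd_factorial hp.out.pos hpk.le) _) _
      rw [hm, pow_mul, hζ.pow_eq_one, one_pow]
    have h8 : σ ζ = ζ ^ cn p (max N N') l := by
      rw [← hlc, AlgEquiv.mul_apply, h7]
      exact cn_spec p _ l ζ hζ.pow_eq_one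
    rw [← cast_cn, ← cast_cn]
    exact cn_unique p _ σ _ ζ hζ h8
  have h9 := dvd_add h6 h5
  rw [sub_add_sub_cancel] at h9
  exact (pow_dvd_pow _ (le_max_left N N')).trans h9

/-! ### The open image theorem -/

variable {W : WeierstrassCurve ℤ}

/-- compactness -/
theorem exists_of_forall (X : ∀ (p : ℕ) [Fact p.Prime], Tb W p)
    (g : ∀ (p : ℕ) [Fact p.Prime], Matrix (Fin 2) (Fin 2) ℤ_[p]) (P : ℕ → Prop)
    (h : ∀ N k : ℕ, ∃ σ : Γℚ, ∀ p, p < k → ∀ [Fact p.Prime], P p →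
      Serre.Cg p N ((X p).M σ) (g p)) :
    ∃ σ : Γℚ, ∀ (p : ℕ) [Fact p.Prime], P p → (X p).M σ = g p := by
  let C : ℕ → Set Γℚ := fun k => {σ | ∀ p, p < k → ∀ [Fact p.Prime], P p →
    Serre.Cg p k ((X p).M σ) (g p)}
  have hclosed : ∀ k, IsClosed (C k) := by
    intro k
    simp only [C, Set.ofPred_forall]
    exact isClosed_iInter fun p => isClosed_iInter fun _ => isClosed_iInter fun _ =>
      isClosed_iInter fun _ => (X p).isClosed_cg _ _
  obtain ⟨σ, hσ⟩ := IsCompact.nonempty_iInter_of_sequence_nonempty_isCompact_isClosed C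
    (fun k σ hσ p hp _ hS => Serre.Cg.mono k.le_succ (hσ p (hp.trans k.lt_succ_self) hS))
    (fun k => h k k) (hclosed 0).isCompact hclosed
  refine ⟨σ, fun p hp hS => ?_⟩
  have h1 : ∀ n, Serre.Cg p n ((X p).M σ) (g p) := fun n => by
    have h2 : σ ∈ C (max (p + 1) n) := Set.mem_iInter.1 hσ _
    exact Serre.Cg.mono (le_max_right _ _)
      (h2 p (lt_of_lt_of_le p.lt_succ_self (le_max_left _ _)) hS)
  ext1 i j
  refine PadicInt.ext_of_toZModPow.1 fun n => ?_
  exact dvd_iff_toZModPow.1 (Serre.cg_iff.1 (h1 n) i j)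

/-- a subgroup of finite index which acts trivially modulo `p ^ c` for all `p ≤ B` -/
theorem exists_finiteIndex (X : ∀ (p : ℕ) [Fact p.Prime], Tb W p) (B c : ℕ) :
    ∃ U : Subgroup Γℚ, U.FiniteIndex ∧ ∀ σ ∈ U, ∀ (q : ℕ) [Fact q.Prime], q ≤ B →
      Serre.Cg q c ((X q).M σ) 1 := by
  have h1 : ∀ q : Fin (B + 1), ∃ U : Subgroup Γℚ, U.FiniteIndex ∧ ∀ σ ∈ U,
      ∀ [Fact (q : ℕ).Prime], Serre.Cg (q : ℕ) c ((X q).M σ) 1 := by
    intro q
    by_cases hq : (q : ℕ).Prime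
    · have : Fact (q : ℕ).Prime := ⟨hq⟩
      obtain ⟨L, hL, h2⟩ := (X q).exists_level c
      have : Finite (Γℚ ⧸ L.fixingSubgroup) :=
        Subgroup.quotient_finite_of_isOpen _ L.fixingSubgroup_isOpen
      exact ⟨L.fixingSubgroup, Subgroup.finiteIndex_of_finite_quotient, fun σ hσ _ => h2 σ hσ⟩
    · exact ⟨⊤, inferInstance, fun σ _ h => absurd h.out hq⟩
  choose U hU h2 using h1
  refine ⟨⨅ q, U q, Subgroup.finiteIndex_iInf hU, fun σ hσ q hq hqB => ?_⟩
  exact h2 ⟨q, Nat.lt_succ_of_le hqB⟩ σ (Subgroup.mem_iInf.1 hσ _)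

/-- **Serre's open image theorem, all primes together.**  Let `W` be an elliptic curve over `ℚ` and
`P` a set of primes such that the image of `Gal(ℚ̄/ℚ)` in `Aut(T_p W)` is open for every `p ∈ P`, and
`Gal(ℚ̄/ℚ)` acts on `W[p]` through all automorphisms for all large `p ∈ P`.  Then there is an integer
`N ≥ 1` such that every family of automorphisms `e p` of `T_p W`, `p ∈ P`, with `e p ≡ 1` modulo
`N`, comes from **one** element of `Gal(ℚ̄/ℚ)`. -/
theorem exists_open_adelic_of (hΔ : W.Δ ≠ 0) (P : ℕ → Prop)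
    (hopen : ∀ (p : ℕ) [Fact p.Prime], P p → ∃ n : ℕ,
      ∀ e : TMod p ((W.map (Int.castRingHom ℚ))⁄(AlgebraicClosure ℚ)).Point ≃ₗ[ℤ_[p]]
        TMod p ((W.map (Int.castRingHom ℚ))⁄(AlgebraicClosure ℚ)).Point,
      (∀ x, ∃ y, e x - x = (p : ℤ_[p]) ^ n • y) →
        ∃ σ : Γℚ, (tateRep (W.map (Int.castRingHom ℚ)) (map_Δ_ne_zero hΔ) p).ρ σ = e.toLinearMap)
    (hlarge : ∃ B : ℕ, ∀ (p : ℕ) [Fact p.Prime], P p → B < p → SurjMod W p) :
    ∃ N : ℕ, N ≠ 0 ∧ ∀ e : ∀ (p : ℕ) [Fact p.Prime],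
      TMod p ((W.map (Int.castRingHom ℚ))⁄(AlgebraicClosure ℚ)).Point ≃ₗ[ℤ_[p]]
        TMod p ((W.map (Int.castRingHom ℚ))⁄(AlgebraicClosure ℚ)).Point,
      (∀ (p : ℕ) [Fact p.Prime], P p → ∀ x, ∃ y, e p x - x = (N : ℤ_[p]) • y) →
      ∃ σ : Γℚ, ∀ (p : ℕ) [Fact p.Prime], P p →
        (tateRep (W.map (Int.castRingHom ℚ)) (map_Δ_ne_zero hΔ) p).ρ σ = (e p).toLinearMap := by
  classical
  have hX : ∀ (p : ℕ) [Fact p.Prime], Nonempty (Tb W p) := fun p _ => exists_tb hΔ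
  let X : ∀ (p : ℕ) [Fact p.Prime], Tb W p := fun p _ => (hX p).some
  obtain ⟨B, hB⟩ := hlarge
  have hT : ∀ (q : ℕ) [Fact q.Prime], P q → q ≤ max B 4 →
      ∃ j : ℕ, Serre.Trans (fun p _ => (X p).M) q ((q : ℤ_[q]) ^ j) := by
    intro q hq hPq _
    obtain ⟨n, hn⟩ := hopen q hPq
    refine ⟨_, Serre.trans_of_open (M := fun p _ => (X p).M) (p := q) (n := n)
      fun g hg N => ?_⟩
    have hdet : IsUnit g.det := by
      refine Serre.isUnit_of_dvd_sub_one ?_
      have h4 := (dvd_pow_self (q : ℤ_[q]) n.succ_ne_zero).trans hg.det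
      rwa [Matrix.det_one] at h4
    obtain ⟨Z, hZ⟩ := hg
    have hu : IsUnit (LinearMap.toMatrix (X q).b (X q).b
        (Matrix.toLin (X q).b (X q).b g)).det := by
      rw [LinearMap.toMatrix_toLin]
      exact hdet
    obtain ⟨σ, hσ⟩ := hn (LinearEquiv.ofIsUnitDet hu) (fun x => by
      refine ⟨(q : ℤ_[q]) • Matrix.toLin (X q).b (X q).b Z x, ?_⟩
      have h5 : g = 1 + (q : ℤ_[q]) ^ (n + 1) • Z := by
        rw [← sub_eq_iff_eq_add', hZ]
        ext i j
        rw [Serre.pow_mul_apply, Matrix.smul_apply, smul_eq_mul]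
      have h6 : Matrix.toLin (X q).b (X q).b g = LinearMap.id +
          (q : ℤ_[q]) ^ (n + 1) • Matrix.toLin (X q).b (X q).b Z := by
        rw [h5, map_add, Matrix.toLin_one, map_smul]
      have h7 : Matrix.toLin (X q).b (X q).b g x = x +
          (q : ℤ_[q]) ^ (n + 1) • Matrix.toLin (X q).b (X q).b Z x := by
        rw [h6]
        rfl
      change Matrix.toLin (X q).b (X q).b g x - x = _
      rw [h7, add_sub_cancel_left, smul_smul, pow_succ])
    refine ⟨σ, ?_⟩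
    have h8 : (X q).M σ = g := by
      have h9 : LinearMap.toMatrix (X q).b (X q).b ((tateRep (W.map (Int.castRingHom ℚ))
          (map_Δ_ne_zero hΔ) q).ρ σ) =
            LinearMap.toMatrix (X q).b (X q).b (Matrix.toLin (X q).b (X q).b g) := by
        rw [hσ]
        rfl
      rw [LinearMap.toMatrix_toLin] at h9
      exact h9
    change Serre.Cg q N ((X q).M σ) g
    rw [h8]
    exact Serre.Cg.refl _ _
  obtain ⟨N, hN, hN2⟩ := Serre.exists_open_joint (M := fun p _ => (X p).M) P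
    (le_max_right B 4) hT
    (fun p _ hPp hp N g hg => (X p).exists_congr_M (by omega)
      (hB p hPp (lt_of_le_of_lt (le_max_left B 4) hp)) N hg)
    (fun c => by
      obtain ⟨U, hU, hU2⟩ := exists_finiteIndex X (max B 4) c
      obtain ⟨N', hN', h4⟩ := exists_cyc_of_finiteIndex U P
      refine ⟨N', hN', fun u hu N k => ?_⟩
      obtain ⟨σ, hσ, h5⟩ := h4 u hu N k
      refine ⟨σ, fun q _ _ hq => hU2 σ hσ q hq, fun p hp _ hPp => ?_⟩
      rw [(X p).det_M σ]
      exact h5 p hp hPp)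
  refine ⟨N, hN, fun e he => ?_⟩
  obtain ⟨σ, hσ⟩ := exists_of_forall X
    (fun p _ => LinearMap.toMatrix (X p).b (X p).b (e p).toLinearMap) P
    (hN2 _ fun p hp hPp => ⟨LinearEquiv.isUnit_det (e p) (X p).b (X p).b, fun i j => by
      obtain ⟨y, hy⟩ := he p hPp ((X p).b j)
      refine ⟨(X p).b.repr y i, ?_⟩
      have h4 : (e p) ((X p).b j) = (X p).b j + (N : ℤ_[p]) • y := by
        rw [← hy, add_sub_cancel]
      rw [LinearMap.toMatrix_apply]
      change (X p).b.repr ((e p) ((X p).b j)) i - _ = _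
      rw [h4, map_add, map_smul, Finsupp.add_apply, Finsupp.smul_apply, smul_eq_mul,
        Basis.repr_self, Matrix.one_apply, Finsupp.single_apply]
      by_cases hij : i = j
      · subst hij
        simp
      · rw [if_neg hij, if_neg (fun h => hij h.symm)]
        ring⟩)
  exact ⟨σ, fun p hp hPp => (LinearMap.toMatrix (X p).b (X p).b).injective (hσ p hPp)⟩

/-- **Serre's open image theorem, all odd primes together.**  Let `W` be an elliptic curve over `ℚ`
such that the image of `Gal(ℚ̄/ℚ)` in `Aut(T_p W)` is open for every odd prime `p`, and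
`Gal(ℚ̄/ℚ)` acts on `W[p]` through all automorphisms for all large `p`.  Then there is an integer
`N ≥ 1` such that every family of automorphisms `e p` of `T_p W`, `p ≠ 2`, with `e p ≡ 1` modulo
`N`, comes from **one** element of `Gal(ℚ̄/ℚ)`. -/
theorem exists_open_adelic (hΔ : W.Δ ≠ 0)
    (hopen : ∀ (p : ℕ) [Fact p.Prime], p ≠ 2 → ∃ n : ℕ,
      ∀ e : TMod p ((W.map (Int.castRingHom ℚ))⁄(AlgebraicClosure ℚ)).Point ≃ₗ[ℤ_[p]]
        TMod p ((W.map (Int.castRingHom ℚ))⁄(AlgebraicClosure ℚ)).Point,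
      (∀ x, ∃ y, e x - x = (p : ℤ_[p]) ^ n • y) →
        ∃ σ : Γℚ, (tateRep (W.map (Int.castRingHom ℚ)) (map_Δ_ne_zero hΔ) p).ρ σ = e.toLinearMap)
    (hlarge : ∃ B : ℕ, ∀ (p : ℕ) [Fact p.Prime], B < p → SurjMod W p) :
    ∃ N : ℕ, N ≠ 0 ∧ ∀ e : ∀ (p : ℕ) [Fact p.Prime],
      TMod p ((W.map (Int.castRingHom ℚ))⁄(AlgebraicClosure ℚ)).Point ≃ₗ[ℤ_[p]]
        TMod p ((W.map (Int.castRingHom ℚ))⁄(AlgebraicClosure ℚ)).Point,
      (∀ (p : ℕ) [Fact p.Prime], p ≠ 2 → ∀ x, ∃ y, e p x - x = (N : ℤ_[p]) • y) →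
      ∃ σ : Γℚ, ∀ (p : ℕ) [Fact p.Prime], p ≠ 2 →
        (tateRep (W.map (Int.castRingHom ℚ)) (map_Δ_ne_zero hΔ) p).ρ σ = (e p).toLinearMap := by
  obtain ⟨B, hB⟩ := hlarge
  exact exists_open_adelic_of hΔ (fun p => p ≠ 2) hopen ⟨B, fun p _ _ h => hB p h⟩

end Fermat.Agent.Cor

end
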