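import Fermat.Agent.Corollaries.Surj.FiniteIndex
import Fermat.Agent.Corollaries.Isog.OpenAllP

/-!
# Serre's open image theorem for semistable elliptic curves over `ℚ` (helper62)

`W` a semistable elliptic curve over `ℚ`.  The image of `Gal(ℚ̄/ℚ)` in `∏_p Aut(T_p W)`, the product
over **all** primes, is open: there is an integer `N ≥ 1` such that every family of automorphisms
`e p` of the Tate modules with `e p ≡ 1` modulo `N` for all `p` comes from **one** element of
`Gal(ℚ̄/ℚ)`.  In other words the image has finite index.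

The openness at one prime is `Isog.exists_open_all`, the large primes are
`surjective_of_semistable_of_ge`, the passage to all primes together is `exists_open_adelic_of`.

* `exists_open_adelic_all`, `finiteIndex_range_all`: the two forms of the theorem.
-/

set_option autoImplicit false

noncomputable section

open WeierstrassCurve WeierstrassCurve.Affine.Point Module
open scoped WeierstrassCurve.Affine
open Fermat.Agent.Tate

namespace Fermat.Agent.Cor

local notation "Γℚ" => (AlgebraicClosure ℚ ≃ₐ[ℚ] AlgebraicClosure ℚ)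

variable {W : WeierstrassCurve ℤ}

/-- **Serre's open image theorem**, semistable elliptic curves over `ℚ`: the image of `Gal(ℚ̄/ℚ)` in
`∏ Aut(T_p W)`, the product over all primes, is open. -/
theorem exists_open_adelic_all (hΔ : W.Δ ≠ 0) (hW : W.IsSemistableModel) :
    ∃ N : ℕ, N ≠ 0 ∧ ∀ e : ∀ (p : ℕ) [Fact p.Prime],
      TMod p ((W.map (Int.castRingHom ℚ))⁄(AlgebraicClosure ℚ)).Point ≃ₗ[ℤ_[p]]
        TMod p ((W.map (Int.castRingHom ℚ))⁄(AlgebraicClosure ℚ)).Point,
      (∀ (p : ℕ) [Fact p.Prime], ∀ x, ∃ y, e p x - x = (N : ℤ_[p]) • y) →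
      ∃ σ : Γℚ, ∀ (p : ℕ) [Fact p.Prime],
        (tateRep (W.map (Int.castRingHom ℚ)) (map_Δ_ne_zero hΔ) p).ρ σ = (e p).toLinearMap := by
  obtain ⟨N, hN, h⟩ := exists_open_adelic_of hΔ (fun _ => True)
    (fun _ _ _ => Isog.exists_open_all hΔ hW)
    ⟨17, fun _ _ _ hp g => surjective_of_semistable_of_ge hΔ (Or.inr hp.le) hW g⟩
  refine ⟨N, hN, fun e he => ?_⟩
  obtain ⟨σ, hσ⟩ := h e fun p _ _ => he p
  exact ⟨σ, fun p _ => hσ p trivial⟩

/-- **Serre's open image theorem**, semistable elliptic curves over `ℚ`: the image of `Gal(ℚ̄/ℚ)` in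
`∏ Aut(T_p W)`, the product over all primes, has finite index. -/
theorem finiteIndex_range_all (hΔ : W.Δ ≠ 0) (hW : W.IsSemistableModel) :
    (adelicAut hΔ fun _ => True).range.FiniteIndex :=
  finiteIndex_range_of_open hΔ (fun _ => True) (fun _ _ _ => Isog.exists_open_all hΔ hW)
    ⟨17, fun _ _ _ hp g => surjective_of_semistable_of_ge hΔ (Or.inr hp.le) hW g⟩

end Fermat.Agent.Cor

end
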