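import Fermat.Agent.Corollaries.Surj.OpenAll
import Fermat.Agent.Corollaries.Surj.Mazur
import Fermat.Agent.Corollaries.Isog.Open

/-!
# Serre's open image theorem for semistable elliptic curves over `ℚ`, odd primes (helper62)

`W` a semistable elliptic curve over `ℚ`.  There is an integer `N ≥ 1` such that every family of
automorphisms `e p` of the Tate modules `T_p W`, `p` an odd prime, with `e p ≡ 1` modulo `N` for all
`p`, comes from **one** element of `Gal(ℚ̄/ℚ)`: the image of `Gal(ℚ̄/ℚ)` in `∏ Aut(T_p W)`, `p ≠ 2`,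
is open.

The openness at one prime is `Isog.exists_open`, the large primes are
`surjective_of_semistable_of_ge`, the passage to all primes together is `exists_open_adelic`.
-/

set_option autoImplicit false

noncomputable section

open WeierstrassCurve WeierstrassCurve.Affine.Point Module
open scoped WeierstrassCurve.Affine
open Fermat.Agent.Tate

namespace Fermat.Agent.Cor

local notation "Γℚ" => (AlgebraicClosure ℚ ≃ₐ[ℚ] AlgebraicClosure ℚ)

variable {W : WeierstrassCurve ℤ}

/-- **Serre's open image theorem**, semistable elliptic curves over `ℚ`, all odd primes together: the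
image of `Gal(ℚ̄/ℚ)` in `∏ Aut(T_p W)`, `p ≠ 2`, is open. -/
theorem exists_open_adelic_semistable (hΔ : W.Δ ≠ 0) (hW : W.IsSemistableModel) :
    ∃ N : ℕ, N ≠ 0 ∧ ∀ e : ∀ (p : ℕ) [Fact p.Prime],
      TMod p ((W.map (Int.castRingHom ℚ))⁄(AlgebraicClosure ℚ)).Point ≃ₗ[ℤ_[p]]
        TMod p ((W.map (Int.castRingHom ℚ))⁄(AlgebraicClosure ℚ)).Point,
      (∀ (p : ℕ) [Fact p.Prime], p ≠ 2 → ∀ x, ∃ y, e p x - x = (N : ℤ_[p]) • y) →
      ∃ σ : Γℚ, ∀ (p : ℕ) [Fact p.Prime], p ≠ 2 →
        (tateRep (W.map (Int.castRingHom ℚ)) (map_Δ_ne_zero hΔ) p).ρ σ = (e p).toLinearMap :=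
  exists_open_adelic hΔ (fun _ _ hp2 => Isog.exists_open hΔ hW hp2)
    ⟨17, fun _ _ hp g => surjective_of_semistable_of_ge hΔ (Or.inr hp.le) hW g⟩

end Fermat.Agent.Cor

end
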