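import Fermat.Agent.Corollaries.Surj.SerreLevels

/-!
# The levels where the image of a Serre curve is everything, by primes

Let `W` satisfy `SerreHyp` (see `Surj/SerreCurve`) and `Δ ≡ 1` modulo `4`.  For `N ≥ 1` the group
`Gal(ℚ̄/ℚ)` acts on `W[N]` through all automorphisms **if and only if** `N` is odd or some prime `ℓ`
with odd `v_ℓ(Δ)` does not divide `N` (`SerreHyp.surjMod_iff_of_mod_four`).  For
`37a : y² + y = x³ - x`: everything on `W[N]` if and only if `74 ∤ N` (`InvGal.surjMod37_iff`).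

On the way: for `d ≡ 1` modulo `4`, `√d` is fixed by every `σ` which fixes the `p`-th roots of unity
for all `p` with `v_p(d)` odd (`exists_sqrt_fixMu`, Gauss sums).
-/

set_option autoImplicit false

noncomputable section

open WeierstrassCurve WeierstrassCurve.Affine WeierstrassCurve.Affine.Point Module
open Fermat.Agent.ECRed Fermat.Agent.Tate Fermat.Agent.Classic Fermat.Agent.S30aux
open scoped WeierstrassCurve.Affine

namespace Fermat.Agent.Cor

local notation "Qbar" => AlgebraicClosure ℚ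
local notation "Γℚ" => (AlgebraicClosure ℚ ≃ₐ[ℚ] AlgebraicClosure ℚ)

variable {W : WeierstrassCurve ℤ}

open InvGal

/-! ### Gauss sums -/

theorem FixMu.apply_qgauss {p : ℕ} [hp : Fact p.Prime] (hp2 : p ≠ 2) {ζ : Qbar}
    (hζ : IsPrimitiveRoot ζ p) {σ : Γℚ} (h : FixMu p σ) : σ (qgauss hζ) = qgauss hζ := by
  have : NeZero p := ⟨hp.out.ne_zero⟩
  rw [apply_qgauss_iff hζ hp2]
  have h1 := ECFrob.cycMod_spec p σ hζ.pow_eq_one
  rw [h ζ hζ.pow_eq_one] at h1
  have h2 : (ECFrob.cycMod p σ).val = 1 :=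
    hζ.pow_inj (ZMod.val_lt _) hp.out.one_lt (h1.symm.trans (pow_one ζ).symm)
  have h3 : ECFrob.cycMod p σ = 1 := by
    rw [← ZMod.natCast_zmod_val (ECFrob.cycMod p σ), h2, Nat.cast_one]
  rw [h3]
  exact IsSquare.one

theorem cast_pstar {p : ℕ} (hp : p % 2 = 1) :
    (((-1) ^ ((p - 1) / 2) * (p : ℤ) : ℤ) : ZMod 4) = 1 := by
  have h : p % 4 = 1 ∨ p % 4 = 3 := by omega
  rcases h with h | h
  · have h1 : Even ((p - 1) / 2) := by
      rw [Nat.even_iff]
      omega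
    have h2 : ((p : ℕ) : ZMod 4) = ((1 : ℕ) : ZMod 4) :=
      (ZMod.natCast_eq_natCast_iff _ _ _).mpr h
    rw [h1.neg_one_pow]
    push_cast
    rw [h2]
    decide
  · have h1 : Odd ((p - 1) / 2) := by
      rw [Nat.odd_iff]
      omega
    have h2 : ((p : ℕ) : ZMod 4) = ((3 : ℕ) : ZMod 4) :=
      (ZMod.natCast_eq_natCast_iff _ _ _).mpr h
    rw [h1.neg_one_pow]
    push_cast
    rw [h2]
    decide

theorem exists_sqrt_prod (s : Finset ℕ) : (∀ p ∈ s, p.Prime ∧ p ≠ 2) →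
    ∃ (x : Qbar) (e : ℤ), x ^ 2 = (e : Qbar) ∧ (e : ZMod 4) = 1 ∧ e.natAbs = ∏ p ∈ s, p ∧
      ∀ σ : Γℚ, (∀ p ∈ s, FixMu p σ) → σ x = x := by
  classical
  refine Finset.induction_on s (fun _ => ⟨1, 1, by simp, by simp, by simp, fun σ _ => map_one σ⟩) ?_
  intro p s hps ih hs
  obtain ⟨x, e, hx, h4, he, hσ⟩ := ih fun q hq => hs q (Finset.mem_insert_of_mem hq)
  obtain ⟨hp, hp2⟩ := hs p (Finset.mem_insert_self p s)
  have : Fact p.Prime := ⟨hp⟩
  obtain ⟨ζ, hζ⟩ := exists_primitive p 1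
  rw [pow_one] at hζ
  have hodd : p % 2 = 1 := hp.eq_two_or_odd.resolve_left hp2
  refine ⟨qgauss hζ * x, (-1) ^ ((p - 1) / 2) * (p : ℤ) * e, ?_, ?_, ?_, fun σ h => ?_⟩
  · rw [mul_pow, qgauss_sq hζ hp2, hx]
    push_cast
    ring
  · rw [Int.cast_mul, cast_pstar hodd, h4, mul_one]
  · rw [Finset.prod_insert hps, Int.natAbs_mul, Int.natAbs_mul, Int.natAbs_pow, he,
      Int.natAbs_natCast]
    simp
  · rw [map_mul, (h p (Finset.mem_insert_self p s)).apply_qgauss hp2 hζ,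
      hσ σ fun q hq => h q (Finset.mem_insert_of_mem hq)]

/-- For `d ≡ 1` modulo `4` there is a square root of `d` fixed by all `σ` which fix the `p`-th roots
of unity for all primes `p` with `v_p(d)` odd. -/
theorem exists_sqrt_fixMu {d : ℤ} (h4 : d % 4 = 1) : ∃ x : Qbar, x ^ 2 = ((d : ℤ) : Qbar) ∧
    ∀ σ : Γℚ, (∀ p : ℕ, p.Prime → ¬ 2 ∣ padicValInt p d → FixMu p σ) → σ x = x := by
  obtain ⟨a, b, hab, ha⟩ := Nat.sq_mul_squarefree d.natAbs
  have hd0 : d.natAbs ≠ 0 := by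
    rw [Int.natAbs_ne_zero]
    rintro rfl
    norm_num at h4
  have ha0 : a ≠ 0 := ha.ne_zero
  have hb0 : b ≠ 0 := by
    rintro rfl
    rw [zero_pow two_ne_zero, zero_mul] at hab
    exact hd0 hab.symm
  have hd2 : d.natAbs % 2 = 1 := by omega
  have hval : ∀ p : ℕ, p.Prime → p ∣ a → ¬ 2 ∣ padicValInt p d := by
    intro p hp hpa
    have : Fact p.Prime := ⟨hp⟩
    rw [padicValInt, ← hab, padicValNat.mul (pow_ne_zero 2 hb0) ha0, padicValNat.pow]
    have h1 : padicValNat p a = 1 := by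
      have h2 := ha.natFactorization_le_one p
      have h3 := (hp.dvd_iff_one_le_factorization ha0).mp hpa
      rw [Nat.factorization_def _ hp] at h2 h3
      omega
    rw [h1]
    omega
  have hodd : ∀ p ∈ a.primeFactors, p.Prime ∧ p ≠ 2 := by
    intro p hp
    refine ⟨Nat.prime_of_mem_primeFactors hp, ?_⟩
    rintro rfl
    have h1 : 2 ∣ d.natAbs := by
      rw [← hab]
      exact (Nat.dvd_of_mem_primeFactors hp).mul_left _
    omega
  obtain ⟨x, e, hx, he4, he, hσ⟩ := exists_sqrt_prod a.primeFactors hodd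
  rw [Nat.prod_primeFactors_of_squarefree ha] at he
  have hb2 : ((b : ℕ) : ZMod 4) ^ 2 = 1 := by
    have h1 : b % 2 = 1 := by
      by_contra hcon
      have h2 : 2 ∣ b := by omega
      have h3 : 2 ∣ d.natAbs := by
        rw [← hab]
        exact (h2.pow two_ne_zero).mul_right _
      omega
    have h2 : b % 4 = 1 ∨ b % 4 = 3 := by omega
    rcases h2 with h2 | h2
    · have h3 : ((b : ℕ) : ZMod 4) = ((1 : ℕ) : ZMod 4) :=
        (ZMod.natCast_eq_natCast_iff _ _ _).mpr h2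
      rw [h3]
      decide
    · have h3 : ((b : ℕ) : ZMod 4) = ((3 : ℕ) : ZMod 4) :=
        (ZMod.natCast_eq_natCast_iff _ _ _).mpr h2
      rw [h3]
      decide
  have hd4 : (d : ZMod 4) = 1 := by
    have h1 : (d : ZMod 4) = ((1 : ℤ) : ZMod 4) := (ZMod.intCast_eq_intCast_iff _ _ _).mpr h4
    rw [h1, Int.cast_one]
  have hde : (b : ℤ) ^ 2 * e = d := by
    have h1 : ((b : ℤ) ^ 2 * e).natAbs = d.natAbs := by
      rw [Int.natAbs_mul, Int.natAbs_pow, Int.natAbs_natCast, he, hab]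
    rcases Int.natAbs_eq_natAbs_iff.mp h1 with h2 | h2
    · exact h2
    · exfalso
      have h3 := congrArg (fun z : ℤ => (z : ZMod 4)) h2
      simp only [Int.cast_mul, Int.cast_pow, Int.cast_natCast, Int.cast_neg, hb2, he4, hd4] at h3
      exact absurd h3 (by decide)
  refine ⟨(b : Qbar) * x, ?_, fun σ h => ?_⟩
  · rw [mul_pow, hx, ← hde]
    push_cast
    ring
  · rw [map_mul, map_natCast, hσ σ fun p hp => h p (Nat.prime_of_mem_primeFactors hp)
      (hval p (Nat.prime_of_mem_primeFactors hp) (Nat.dvd_of_mem_primeFactors hp))]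

/-! ### Ramification -/

/-- If `ℓ ∤ N` is odd, the reduction of `W` at `ℓ` is multiplicative and `v_ℓ(Δ)` is odd, some `σ`
fixes the `N`-th roots of unity and not `√Δ`. -/
theorem exists_fixMu_of_isMultAt {ℓ : ℕ} (hm : IsMultAt W ℓ) (hv : ¬ 2 ∣ padicValInt ℓ W.Δ)
    (hℓ2 : ℓ ≠ 2) {N : ℕ} (hN : N ≠ 0) (hℓN : ¬ ℓ ∣ N) {δ : Qbar}
    (hδ : δ ^ 2 = ((W.Δ : ℤ) : Qbar)) : ∃ τ : Γℚ, FixMu N τ ∧ τ δ ≠ δ := by
  obtain ⟨X⟩ := exists_tb (W := W) (p := 2) hm.ne
  obtain ⟨A, hA⟩ := Fermat.Agent.Frob.exists_liesOverPrime ℓ hm.prime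
  obtain ⟨τ, hτI, hτ⟩ := exists_inertia_ne_of_not_dvd (p := 2) hm hv hA
  refine ⟨τ, ?_, fun hτδ => ?_⟩
  · refine fixMu_of_pow hN fun p hp hpN => ?_
    have : Fact p.Prime := ⟨hp⟩
    have hne : ℓ ≠ p := by
      rintro rfl
      exact hℓN hpN
    rw [fixMu_pow_iff, cyc_inertia hm.prime hne hA hτI, Units.val_one, sub_self]
    exact dvd_zero _
  · have hN2 : (X.M τ - 1) * (X.M τ - 1) = 0 := by
      have h1 : (TMod.rep 2 Γℚ ((W.map (Int.castRingHom ℚ))⁄(AlgebraicClosure ℚ)).Point τ - 1) *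
          (TMod.rep 2 Γℚ ((W.map (Int.castRingHom ℚ))⁄(AlgebraicClosure ℚ)).Point τ - 1) = 0 :=
        tateRep_sub_one_sq X.hE hm hℓ2 hA hτI
      have h2 := congrArg (LinearMap.toMatrix X.b X.b) h1
      rw [LinearMap.toMatrix_mul, map_sub, LinearMap.toMatrix_one, _root_.map_zero] at h2
      exact h2
    obtain ⟨δ', hd, -, hs'⟩ := exists_sqrt_sign hm.ne
    have h4 : Serre.IsEven (X.M τ) := by
      rw [isEven_M_iff hm.ne X, ← hs', ← fixed_iff_of_sq (hδ.trans hd.symm)]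
      exact hτδ
    apply hτ
    rw [← X.cg_one_iff]
    have h5 : X.M τ ^ 3 = 1 + 3 * (X.M τ - 1) := by
      have h6 := Serre.one_add_pow_of_sq_zero hN2 3
      rw [add_sub_cancel] at h6
      exact_mod_cast h6
    rw [Serre.IsEven, Serre.Cg, h5, add_sub_cancel_left] at h4
    rw [Serre.Cg]
    have h6 : X.M τ - 1 = 3 * (X.M τ - 1) - ((2 : ℕ) : Matrix (Fin 2) (Fin 2) ℤ_[2]) ^ 1 *
        (X.M τ - 1) := by
      rw [pow_one, Nat.cast_two]
      noncomm_ring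
    rw [h6]
    exact dvd_sub h4 (Dvd.intro _ rfl)

/-! ### The criterion -/

/-- **The levels where the image is everything**, for the curves with `SerreHyp` and `Δ ≡ 1`
modulo `4`: `Gal(ℚ̄/ℚ)` acts on `W[N]` through all automorphisms if and only if `N` is odd or some
prime `ℓ` with odd `v_ℓ(Δ)` does not divide `N`. -/
theorem SerreHyp.surjMod_iff_of_mod_four (H : SerreHyp W) (h4 : W.Δ % 4 = 1) {N : ℕ}
    (hN : N ≠ 0) : SurjMod W N ↔
      Odd N ∨ ∃ ℓ : ℕ, ℓ.Prime ∧ ¬ 2 ∣ padicValInt ℓ W.Δ ∧ ¬ ℓ ∣ N := by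
  obtain ⟨δ, hδ, hfix⟩ := exists_sqrt_fixMu h4
  rw [H.surjMod_iff hδ hN]
  constructor
  · rintro (h | ⟨σ, hσ, hσδ⟩)
    · exact Or.inl h
    · right
      by_contra hcon
      push Not at hcon
      exact hσδ (hfix σ fun p hp hv => hσ.of_dvd (hcon p hp hv))
  · rintro (h | ⟨ℓ, hℓ, hv, hℓN⟩)
    · exact Or.inl h
    · rcases Nat.even_or_odd N with h1 | h1
      · right
        have hℓΔ : (ℓ : ℤ) ∣ W.Δ := by
          by_contra h
          exact hv (by rw [padicValInt.eq_zero_of_not_dvd h]; exact dvd_zero _)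
        refine exists_fixMu_of_isMultAt (isMultAt_of_semistable H.ss H.ne hℓ hℓΔ) hv ?_ hN hℓN hδ
        rintro rfl
        exact hℓN (even_iff_two_dvd.mp h1)
      · exact Or.inl h1

namespace InvGal

/-- **For `E_t : y² + y = x³ - x + t`, `6 ∣ t`, and `N ≥ 1`**: `Gal(ℚ̄/ℚ)` acts on `E_t[N]` through
all automorphisms if and only if `N` is odd or some prime `ℓ` with odd `v_ℓ(Δ)` does not
divide `N`. -/
theorem surjMod_Et_iff {t : ℤ} (h : (6 : ℤ) ∣ t) {N : ℕ} (hN : N ≠ 0) : SurjMod (Et t) N ↔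
    Odd N ∨ ∃ ℓ : ℕ, ℓ.Prime ∧ ¬ 2 ∣ padicValInt ℓ (Et t).Δ ∧ ¬ ℓ ∣ N :=
  (serreHyp_Et h).surjMod_iff_of_mod_four (by have := Et_Δ_emod t; omega) hN

/-- **For `37a : y² + y = x³ - x`**: `Gal(ℚ̄/ℚ)` acts on `W[N]` through all automorphisms if and only
if `74` does not divide `N`. -/
theorem surjMod37_iff {N : ℕ} (hN : N ≠ 0) : SurjMod W37 N ↔ ¬ 74 ∣ N := by
  rw [serreHyp37.surjMod_iff_of_mod_four (by rw [W37_Δ]; norm_num) hN]
  have h1 : (∃ ℓ : ℕ, ℓ.Prime ∧ ¬ 2 ∣ padicValInt ℓ W37.Δ ∧ ¬ ℓ ∣ N) ↔ ¬ 37 ∣ N := by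
    constructor
    · rintro ⟨ℓ, hℓ, hv, h⟩
      have hd : (ℓ : ℤ) ∣ W37.Δ := by
        by_contra h
        exact hv (by rw [padicValInt.eq_zero_of_not_dvd h]; exact dvd_zero _)
      rwa [eq_37_of_dvd hℓ hd] at h
    · intro h
      exact ⟨37, by norm_num, by rw [val37]; decide, h⟩
  rw [h1, ← Nat.not_even_iff_odd, even_iff_two_dvd, ← not_and_or, not_iff_not]
  have h2 : Nat.Coprime 2 37 := by norm_num
  constructor
  · rintro ⟨h3, h4⟩
    exact h2.mul_dvd_of_dvd_of_dvd h3 h4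
  · intro h
    exact ⟨(by norm_num : 2 ∣ 74).trans h, (by norm_num : 37 ∣ 74).trans h⟩

end InvGal

end Fermat.Agent.Cor

end
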