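import Fermat.Agent.Corollaries.Surj.Sign
import Fermat.Agent.Corollaries.InvGal.Family

/-!
# Serre curves: the adelic image of index two

Let `W` be a semistable model with `W[p]` irreducible for every prime `p`, with a prime `ℓ₂ ≥ 5`
such that `v(Δ)` is odd at `ℓ₂` and a prime `ℓ₃ ≥ 5` such that `3 ∤ v(Δ)` at `ℓ₃`.  Then the image of
`Gal(ℚ̄/ℚ)` in `∏ Aut(T_p W)`, the product over **all** primes `p`, consists of the families `(e p)`
for which there is `σ₀ ∈ Gal(ℚ̄/ℚ)` with `det (e p)` the `p`-adic cyclotomic character of `σ₀` for all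
`p` and `e 2` even if and only if `σ₀` fixes `√Δ` (`mem_range_adelicAut_iff`); it has **index two**
(`index_range_adelicAut`), the smallest possible index by `not_surjective_adelicAut`.

This applies to `37a : y² + y = x³ - x` (`InvGal.index37`; Serre, *Propriétés galoisiennes*, 5.5.6)
and to `y² + y = x³ - x + t` for every `t` divisible by `6` (`InvGal.index_Et`).
-/

set_option autoImplicit false

noncomputable section

open WeierstrassCurve WeierstrassCurve.Affine WeierstrassCurve.Affine.Point Module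
open Fermat.Agent.ECRed Fermat.Agent.Tate Fermat.Agent.Classic Fermat.Agent.S30aux
open scoped WeierstrassCurve.Affine

namespace Fermat.Agent.Cor

local notation "Qbar" => AlgebraicClosure ℚ
local notation "Γℚ" => (AlgebraicClosure ℚ ≃ₐ[ℚ] AlgebraicClosure ℚ)

variable {W : WeierstrassCurve ℤ}

/-! ### The sign modulo two -/

namespace Serre

theorem isEven_mul_aux : ∀ A B : Matrix (Fin 2) (Fin 2) (ZMod 2), A.det = 1 → B.det = 1 →
    ((A * B) ^ 3 = 1 ↔ (A ^ 3 = 1 ↔ B ^ 3 = 1)) := by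
  decide +kernel

theorem det_map_two {g : Matrix (Fin 2) (Fin 2) ℤ_[2]} (hg : IsUnit g.det) :
    (g.map PadicInt.toZMod : Matrix (Fin 2) (Fin 2) (ZMod 2)).det = 1 := by
  have h2 : IsUnit (g.map PadicInt.toZMod : Matrix (Fin 2) (Fin 2) (ZMod 2)).det := by
    have h3 := hg.map (PadicInt.toZMod (p := 2))
    rwa [RingHom.map_det] at h3
  revert h2
  generalize (g.map PadicInt.toZMod : Matrix (Fin 2) (Fin 2) (ZMod 2)).det = d
  revert d
  decide

/-- **The sign is multiplicative.** -/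
theorem isEven_mul_iff {g h : Matrix (Fin 2) (Fin 2) ℤ_[2]} (hg : IsUnit g.det)
    (hh : IsUnit h.det) : IsEven (g * h) ↔ (IsEven g ↔ IsEven h) := by
  rw [isEven_iff, isEven_iff, isEven_iff, Matrix.map_mul]
  exact isEven_mul_aux _ _ (det_map_two hg) (det_map_two hh)

end Serre

theorem Tb.isUnit_det_M {p : ℕ} [hp : Fact p.Prime] (X : Tb W p) (σ : Γℚ) :
    IsUnit (X.M σ).det := by
  rw [X.det_M]
  exact (cyc p σ).isUnit

/-! ### The hypotheses -/

/-- The hypotheses of the theorem on Serre curves. -/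
structure SerreHyp (W : WeierstrassCurve ℤ) : Prop where
  /-- the discriminant is not zero -/
  ne : W.Δ ≠ 0
  /-- semistable -/
  ss : W.IsSemistableModel
  /-- irreducible modulo every prime -/
  irr : ∀ p : ℕ, p.Prime → W.ModRepIsIrreducible p
  /-- a prime with odd exponent in the discriminant -/
  two : ∃ ℓ : ℕ, ℓ.Prime ∧ 5 ≤ ℓ ∧ (ℓ : ℤ) ∣ W.Δ ∧ ¬ 2 ∣ padicValInt ℓ W.Δ
  /-- a prime whose exponent in the discriminant is prime to three -/
  three : ∃ ℓ : ℕ, ℓ.Prime ∧ 5 ≤ ℓ ∧ (ℓ : ℤ) ∣ W.Δ ∧ ¬ 3 ∣ padicValInt ℓ W.Δ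

namespace SerreHyp

variable (H : SerreHyp W)

include H in
/-- the `p`-adic representation is surjective for every prime `p` -/
theorem surjMod_pow (p : ℕ) [hp : Fact p.Prime] (n : ℕ) : SurjMod W (p ^ n) := by
  by_cases hp2 : p = 2
  · subst hp2
    obtain ⟨ℓ, hℓ, h5, hd, hv⟩ := H.two
    exact surjMod_pow_of_isMultAt (isMultAt_of_semistable H.ss H.ne hℓ hd) (by omega) hv
      (H.irr 2 hp.out) n
  · exact surjMod_pow_of_semistable H.ne H.ss hp2 (H.irr p hp.out) n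

/-- unipotent elements of inertia -/
theorem exists_tau (hΔ : W.Δ ≠ 0) (hW : W.IsSemistableModel) (X2 : Tb W 2) (X3 : Tb W 3) {p ℓ : ℕ}
    [hp : Fact p.Prime] (hℓ : ℓ.Prime) (h5 : 5 ≤ ℓ) (hd : (ℓ : ℤ) ∣ W.Δ)
    (hv : ¬ p ∣ padicValInt ℓ W.Δ) : ∃ τ : Γℚ,
      (X2.M τ - 1) * (X2.M τ - 1) = 0 ∧ (X3.M τ - 1) * (X3.M τ - 1) = 0 ∧
      ¬ ∀ x : Submodule.torsionBy ℤ
      ((W.map (Int.castRingHom ℚ))⁄(AlgebraicClosure ℚ)).Point ((p : ℕ) : ℤ), τ • x = x := by
  have hm := isMultAt_of_semistable hW hΔ hℓ hd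
  obtain ⟨A, hA⟩ := Fermat.Agent.Frob.exists_liesOverPrime ℓ hℓ
  obtain ⟨τ, hτI, hτ⟩ := exists_inertia_ne_of_not_dvd (p := p) hm hv hA
  have key : ∀ {q : ℕ} [Fact q.Prime] (X : Tb W q), ℓ ≠ q →
      (X.M τ - 1) * (X.M τ - 1) = 0 := by
    intro q hq X hne
    have h1 : (TMod.rep q Γℚ ((W.map (Int.castRingHom ℚ))⁄(AlgebraicClosure ℚ)).Point τ - 1) *
        (TMod.rep q Γℚ ((W.map (Int.castRingHom ℚ))⁄(AlgebraicClosure ℚ)).Point τ - 1) = 0 :=
      tateRep_sub_one_sq X.hE hm hne hA hτI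
    have h2 := congrArg (LinearMap.toMatrix X.b X.b) h1
    rw [LinearMap.toMatrix_mul, map_sub, LinearMap.toMatrix_one, _root_.map_zero] at h2
    exact h2
  exact ⟨τ, key X2 (by omega), key X3 (by omega), hτ⟩

include H in
/-- **The image of `Gal(ℚ̄/ℚ)` at all primes**, in matrices: given `g p ∈ GL₂(ℤ_p)` for all primes
`p` and `σ₀ ∈ Gal(ℚ̄/ℚ)` with `det (g p) = det (σ₀ on T_p W)` for all `p` and with `g 2` and `σ₀`
of the same sign, there is `σ ∈ Gal(ℚ̄/ℚ)` which acts as `g p` on `T_p W` for all `p`. -/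
theorem exists_M_eq (X : ∀ (p : ℕ) [Fact p.Prime], Tb W p)
    (g : ∀ (p : ℕ) [Fact p.Prime], Matrix (Fin 2) (Fin 2) ℤ_[p]) (σ₀ : Γℚ)
    (hdet : ∀ (p : ℕ) [Fact p.Prime], (g p).det = ((cyc p σ₀ : ℤ_[p]ˣ) : ℤ_[p]))
    (hsgn : Serre.IsEven ((X 2).M σ₀) ↔ Serre.IsEven (g 2)) :
    ∃ σ : Γℚ, ∀ (p : ℕ) [Fact p.Prime], (X p).M σ = g p := by
  have hM : ∀ (p : ℕ) [Fact p.Prime] (n : ℕ) (g : Matrix (Fin 2) (Fin 2) ℤ_[p]),
      IsUnit g.det → ∃ σ, Serre.Cg p n ((X p).M σ) g := fun p hp n g hg =>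
    (X p).exists_of_surjMod (H.surjMod_pow p n) g hg
  obtain ⟨ℓ₂, hℓ₂, h5₂, hd₂, hv₂⟩ := H.two
  obtain ⟨ℓ₃, hℓ₃, h5₃, hd₃, hv₃⟩ := H.three
  obtain ⟨τ₂, h22, h32, hτ₂⟩ := exists_tau H.ne H.ss (X 2) (X 3) (p := 2) hℓ₂ h5₂ hd₂ hv₂
  obtain ⟨τ₃, h23, h33, hτ₃⟩ := exists_tau H.ne H.ss (X 2) (X 3) (p := 3) hℓ₃ h5₃ hd₃ hv₃
  -- the correction
  let h : ∀ (p : ℕ) [Fact p.Prime], Matrix (Fin 2) (Fin 2) ℤ_[p] := fun p _ =>
    (X p).M σ₀⁻¹ * g p
  have hh : ∀ (p : ℕ) [Fact p.Prime], (h p).det = 1 := by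
    intro p hp
    change ((X p).M σ₀⁻¹ * g p).det = 1
    rw [Matrix.det_mul, hdet p, ← (X p).det_M σ₀, ← Matrix.det_mul, Serre.rho_inv_mul,
      Matrix.det_one]
  have he : Serre.IsEven (h 2) := by
    change Serre.IsEven ((X 2).M σ₀⁻¹ * g 2)
    have hu : IsUnit (g 2).det := by
      rw [hdet 2]
      exact (cyc 2 σ₀).isUnit
    rw [Serre.isEven_mul_iff ((X 2).isUnit_det_M _) hu, ← hsgn]
    have h1 : Serre.IsEven ((X 2).M σ₀⁻¹ * (X 2).M σ₀) := by
      rw [Serre.rho_inv_mul, Serre.IsEven, one_pow]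
      exact Serre.Cg.refl _ _
    exact (Serre.isEven_mul_iff ((X 2).isUnit_det_M _) ((X 2).isUnit_det_M _)).mp h1
  let C : ℕ → Set Γℚ := fun k => {σ | ∀ p, p < k → ∀ [Fact p.Prime],
    Serre.Cg p k ((X p).M σ) (g p)}
  have hclosed : ∀ k, IsClosed (C k) := by
    intro k
    simp only [C, Set.ofPred_forall]
    exact isClosed_iInter fun p => isClosed_iInter fun _ => isClosed_iInter fun _ =>
      (X p).isClosed_cg _ _
  have hne : ∀ k, (C k).Nonempty := by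
    intro k
    obtain ⟨σ, -, h2, h3, h4⟩ := Serre.exists_joint_all (M := fun p _ => (X p).M)
      (fun p _ n g hg => hM p n g hg) (τ₂ := τ₂) (τ₃ := τ₃)
      (N₂ := (X 2).M τ₂ - 1) (N₃' := (X 3).M τ₂ - 1) (N₃ := (X 3).M τ₃ - 1)
      (N₂' := (X 2).M τ₃ - 1) (by rw [add_sub_cancel]) h22
      (fun h0 => hτ₂ ((X 2).cg_one_iff.mp (by rwa [Serre.Cg, sub_zero] at h0)))
      (by rw [add_sub_cancel]) h32 (by rw [add_sub_cancel]) h33
      (fun h0 => hτ₃ ((X 3).cg_one_iff.mp (by rwa [Serre.Cg, sub_zero] at h0)))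
      (by rw [add_sub_cancel]) h23 k h (fun p _ => hh p) he (Finset.range k)
    refine ⟨σ₀ * σ, fun p hp hpp => ?_⟩
    have h5 : Serre.Cg p k ((X p).M σ) ((X p).M σ₀⁻¹ * g p) := by
      rcases (show p = 2 ∨ p = 3 ∨ 5 ≤ p by
        have h6 := hpp.out.two_le
        have h7 : p ≠ 4 := fun h => by
          have := hpp.out
          rw [h] at this
          exact absurd this (by decide)
        omega) with rfl | rfl | h6
      · exact h2
      · exact h3
      · exact h4 p (Finset.mem_range.mpr hp) h6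
    have h6 := h5.mul_left ((X p).M σ₀)
    rw [← mul_assoc, Serre.rho_mul_inv, one_mul, ← map_mul] at h6
    exact h6
  obtain ⟨σ, hσ⟩ := IsCompact.nonempty_iInter_of_sequence_nonempty_isCompact_isClosed C
    (fun k σ hσ p hp _ => Serre.Cg.mono k.le_succ (hσ p (hp.trans k.lt_succ_self))) hne
    (hclosed 0).isCompact hclosed
  refine ⟨σ, fun p hp => ?_⟩
  have h1 : ∀ n, Serre.Cg p n ((X p).M σ) (g p) := fun n => by
    have h2 : σ ∈ C (max (p + 1) n) := Set.mem_iInter.1 hσ _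
    exact Serre.Cg.mono (le_max_right _ _)
      (h2 p (lt_of_lt_of_le p.lt_succ_self (le_max_left _ _)))
  ext1 i j
  refine PadicInt.ext_of_toZModPow.1 fun n => ?_
  exact dvd_iff_toZModPow.1 (Serre.cg_iff.1 (h1 n) i j)

end SerreHyp

/-! ### Even automorphisms of `T_2 W` -/

/-- An automorphism `e` of `T_2 W` is even if `e³ ≡ 1` modulo `2`, that is if the permutation of the
three points of order two is even. -/
def EvenAut (W : WeierstrassCurve ℤ) (e : Tp W 2 ≃ₗ[ℤ_[2]] Tp W 2) : Prop :=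
  ∀ x, ∃ y, e (e (e x)) - x = (2 : ℤ_[2]) • y

theorem evenAut_iff (X : Tb W 2) (e : Tp W 2 ≃ₗ[ℤ_[2]] Tp W 2) :
    EvenAut W e ↔ Serre.IsEven (LinearMap.toMatrix X.b X.b e.toLinearMap) := by
  obtain ⟨f, hf⟩ : ∃ f : Module.End ℤ_[2] (Tp W 2), f = e.toLinearMap * e.toLinearMap *
    e.toLinearMap - 1 := ⟨_, rfl⟩
  have hfx : ∀ x, f x = e (e (e x)) - x := by
    intro x
    rw [hf]
    rfl
  have hA : LinearMap.toMatrix X.b X.b f =
      LinearMap.toMatrix X.b X.b e.toLinearMap ^ 3 - 1 := by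
    rw [hf, map_sub, LinearMap.toMatrix_mul, LinearMap.toMatrix_mul, LinearMap.toMatrix_one,
      pow_succ, pow_two]
  rw [Serre.IsEven, Serre.Cg, ← hA, pow_one]
  constructor
  · intro h
    choose y hy using h
    refine ⟨Matrix.of fun i j => X.b.repr (y (X.b j)) i, ?_⟩
    ext i j
    have h1 : ((2 : Matrix (Fin 2) (Fin 2) ℤ_[2]) * Matrix.of fun i j => X.b.repr (y (X.b j)) i)
        i j = 2 * X.b.repr (y (X.b j)) i := by
      have h2 := Serre.pow_mul_apply (p := 2) 1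
        (Matrix.of fun i j => X.b.repr (y (X.b j)) i) i j
      rw [pow_one, pow_one] at h2
      exact h2
    rw [Nat.cast_two, h1, LinearMap.toMatrix_apply, hfx, hy, map_smul, Finsupp.smul_apply,
      smul_eq_mul]
  · rintro ⟨Z, hZ⟩ x
    refine ⟨Matrix.toLin X.b X.b Z x, ?_⟩
    have h1 : f = (2 : ℤ_[2]) • Matrix.toLin X.b X.b Z := by
      apply (LinearMap.toMatrix X.b X.b).injective
      rw [hZ, map_smul, LinearMap.toMatrix_toLin]
      ext i j
      have h2 := Serre.pow_mul_apply (p := 2) 1 Z i j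
      rw [pow_one, pow_one] at h2
      rw [Matrix.smul_apply, smul_eq_mul]
      exact h2
    rw [← hfx, h1]
    rfl

/-- The sign is multiplicative on the automorphisms of `T_2 W`. -/
theorem evenAut_mul_iff (hΔ : W.Δ ≠ 0) (e f : Tp W 2 ≃ₗ[ℤ_[2]] Tp W 2) :
    EvenAut W (e * f) ↔ (EvenAut W e ↔ EvenAut W f) := by
  obtain ⟨X⟩ := exists_tb (W := W) (p := 2) hΔ
  have h1 : LinearMap.toMatrix X.b X.b (e * f).toLinearMap =
      LinearMap.toMatrix X.b X.b e.toLinearMap * LinearMap.toMatrix X.b X.b f.toLinearMap :=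
    LinearMap.toMatrix_mul X.b e.toLinearMap f.toLinearMap
  rw [evenAut_iff X, evenAut_iff X, evenAut_iff X, h1]
  exact Serre.isEven_mul_iff (LinearEquiv.isUnit_det e X.b X.b) (LinearEquiv.isUnit_det f X.b X.b)

/-! ### The image and its index -/

theorem fixed_iff_of_sq {δ δ' : Qbar} (h : δ ^ 2 = δ' ^ 2) (σ : Γℚ) : σ δ = δ ↔ σ δ' = δ' := by
  rcases sq_eq_sq_iff_eq_or_eq_neg.mp h with rfl | rfl
  · rfl
  · rw [map_neg, neg_inj]

/-- `σ` is even on `T_2 W` iff it fixes `√Δ`. -/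
theorem evenAut_tateAut_iff (hΔ : W.Δ ≠ 0) {δ : Qbar} (hδ : δ ^ 2 = ((W.Δ : ℤ) : Qbar)) (σ : Γℚ) :
    EvenAut W (tateAut hΔ 2 σ) ↔ σ δ = δ := by
  obtain ⟨X⟩ := exists_tb (W := W) (p := 2) hΔ
  obtain ⟨δ', hd, -, hs⟩ := exists_sqrt_sign hΔ
  rw [evenAut_iff X, X.toMatrix_tateAut, isEven_M_iff hΔ X, ← hs, fixed_iff_of_sq (hδ.trans hd.symm)]

theorem det_tateAut (hΔ : W.Δ ≠ 0) (p : ℕ) [hp : Fact p.Prime] (σ : Γℚ) :
    LinearMap.det (tateAut hΔ p σ).toLinearMap = ((cyc p σ : ℤ_[p]ˣ) : ℤ_[p]) := by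
  rw [tateAut_toLinearMap]
  exact det_tateRep (map_Δ_ne_zero hΔ) p σ

/-- the prime `2` -/
def prTwo : PrimesOf fun _ => True := ⟨2, Nat.prime_two, trivial⟩

namespace SerreHyp

/-- **The image of `Gal(ℚ̄/ℚ)` in `∏ Aut(T_p W)`**, product over all primes, for the curves with the
hypotheses `SerreHyp`: the family `e` is in the image if and only if there is `σ₀ ∈ Gal(ℚ̄/ℚ)` such
that `det (e p)` is the `p`-adic cyclotomic character of `σ₀` for all `p`, and `e 2` is even iff `σ₀`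
fixes `√Δ`. -/
theorem mem_range_adelicAut_iff (H : SerreHyp W) {δ : Qbar} (hδ : δ ^ 2 = ((W.Δ : ℤ) : Qbar))
    (e : ∀ p : PrimesOf fun _ => True, (Tp W p ≃ₗ[ℤ_[(p : ℕ)]] Tp W p)) :
    e ∈ (adelicAut H.ne fun _ => True).range ↔ ∃ σ₀ : Γℚ,
      (∀ p : PrimesOf fun _ => True, LinearMap.det (e p).toLinearMap =
        ((cyc (p : ℕ) σ₀ : ℤ_[(p : ℕ)]ˣ) : ℤ_[(p : ℕ)])) ∧ (EvenAut W (e prTwo) ↔ σ₀ δ = δ) := by
  constructor
  · rintro ⟨σ, rfl⟩
    exact ⟨σ, fun p => det_tateAut H.ne (p : ℕ) σ, evenAut_tateAut_iff H.ne hδ σ⟩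
  · rintro ⟨σ₀, hdet, hsgn⟩
    have hX : ∀ (p : ℕ) [Fact p.Prime], Nonempty (Tb W p) := fun p _ => exists_tb H.ne
    let X : ∀ (p : ℕ) [Fact p.Prime], Tb W p := fun p _ => (hX p).some
    obtain ⟨σ, hσ⟩ := H.exists_M_eq X
      (fun p hp => LinearMap.toMatrix (X p).b (X p).b (e ⟨p, hp.out, trivial⟩).toLinearMap) σ₀
      (fun p hp => by
        rw [LinearMap.det_toMatrix]
        exact hdet ⟨p, hp.out, trivial⟩)
      (by
        rw [← (X 2).toMatrix_tateAut H.ne, ← evenAut_iff (X 2), evenAut_tateAut_iff H.ne hδ,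
          ← hsgn]
        exact evenAut_iff (X 2) _)
    refine ⟨σ, funext fun p => ?_⟩
    have : Fact (p : ℕ).Prime := ⟨p.2.1⟩
    exact ((X (p : ℕ)).tateAut_eq_iff H.ne σ _).mpr (hσ (p : ℕ))

/-- **Serre curves**: the image of `Gal(ℚ̄/ℚ)` in `∏ Aut(T_p W)`, product over all primes, has index
two. -/
theorem index_range_adelicAut (H : SerreHyp W) :
    (adelicAut H.ne fun _ => True).range.index = 2 := by
  classical
  obtain ⟨δ, hδ, -, -⟩ := exists_sqrt_sign H.ne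
  have hX : ∀ (p : ℕ) [Fact p.Prime], Nonempty (Tb W p) := fun p _ => exists_tb H.ne
  let X : ∀ (p : ℕ) [Fact p.Prime], Tb W p := fun p _ => (hX p).some
  let c : ∀ p : PrimesOf fun _ => True, (Tp W p ≃ₗ[ℤ_[(p : ℕ)]] Tp W p) := fun p =>
    (X (p : ℕ)).aut (tvTwo (p : ℕ)) (by
      rw [det_tvTwo]
      exact isUnit_one)
  have hcM : ∀ p : PrimesOf fun _ => True,
      LinearMap.toMatrix (X (p : ℕ)).b (X (p : ℕ)).b (c p).toLinearMap = tvTwo (p : ℕ) :=
    fun p => (X (p : ℕ)).toMatrix_aut _ _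
  have hcdet : ∀ p : PrimesOf fun _ => True, LinearMap.det (c p).toLinearMap = 1 := by
    intro p
    rw [← LinearMap.det_toMatrix (X (p : ℕ)).b, hcM, det_tvTwo]
  have hdetmul : ∀ (b : ∀ p : PrimesOf fun _ => True, (Tp W p ≃ₗ[ℤ_[(p : ℕ)]] Tp W p))
      (p : PrimesOf fun _ => True), LinearMap.det ((b * c) p).toLinearMap =
        LinearMap.det (b p).toLinearMap := by
    intro b p
    have h1 : ((b * c) p).toLinearMap = (b p).toLinearMap * (c p).toLinearMap := rfl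
    rw [h1, map_mul, hcdet, mul_one]
  have hodd : ¬ EvenAut W (c prTwo) := by
    intro h
    have h1 := (evenAut_iff (X 2) _).mp h
    have h2 : LinearMap.toMatrix (X 2).b (X 2).b (c prTwo).toLinearMap = tvTwo 2 := hcM prTwo
    rw [h2, tvTwo, if_pos rfl] at h1
    exact Serre.not_isEven_tU h1
  have hevenmul : ∀ b : ∀ p : PrimesOf fun _ => True, (Tp W p ≃ₗ[ℤ_[(p : ℕ)]] Tp W p),
      EvenAut W ((b * c) prTwo) ↔ ¬ EvenAut W (b prTwo) := by
    intro b
    have h2 : EvenAut W ((b * c) prTwo) ↔ (EvenAut W (b prTwo) ↔ EvenAut W (c prTwo)) :=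
      evenAut_mul_iff H.ne (b prTwo) (c prTwo)
    rw [h2]
    constructor
    · intro h3 h4
      exact hodd (h3.mp h4)
    · intro h3
      exact ⟨fun h4 => absurd h4 h3, fun h4 => absurd h4 hodd⟩
  -- `c` is not in the image
  have hc : c ∉ (adelicAut H.ne fun _ => True).range := by
    rintro ⟨σ, hσ⟩
    have h1 : ∀ (p : ℕ) [Fact p.Prime], cyc p σ = 1 := by
      intro p hp
      refine Units.ext ?_
      rw [← det_tateAut H.ne p σ, Units.val_one, ← hcdet ⟨p, hp.out, trivial⟩]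
      exact congrArg (fun f => LinearMap.det (LinearEquiv.toLinearMap f))
        (congrFun hσ ⟨p, hp.out, trivial⟩)
    apply hodd
    rw [← congrFun hσ prTwo]
    exact (evenAut_tateAut_iff H.ne hδ σ).mpr (fixed_of_cyc hδ h1)
  rw [Subgroup.index_eq_two_iff]
  refine ⟨c, fun b => ?_⟩
  -- an element with the determinants of `b`
  obtain ⟨σ₀, hσ₀⟩ := exists_cyc_all fun p hp =>
    (LinearEquiv.det (b ⟨p, hp.out, trivial⟩) : ℤ_[p]ˣ)
  have hdet : ∀ p : PrimesOf fun _ => True, LinearMap.det (b p).toLinearMap =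
      ((cyc (p : ℕ) σ₀ : ℤ_[(p : ℕ)]ˣ) : ℤ_[(p : ℕ)]) := by
    intro p
    rw [hσ₀ (p : ℕ)]
    exact (LinearEquiv.coe_det _).symm
  by_cases h : EvenAut W (b prTwo) ↔ σ₀ δ = δ
  · have h1 := (H.mem_range_adelicAut_iff hδ b).mpr ⟨σ₀, hdet, h⟩
    refine Or.inr ⟨h1, fun h2 => hc ?_⟩
    have h3 := Subgroup.mul_mem _ (Subgroup.inv_mem _ h1) h2
    rwa [inv_mul_cancel_left] at h3
  · have h1 := (H.mem_range_adelicAut_iff hδ (b * c)).mpr ⟨σ₀, fun p => by
      rw [hdetmul]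
      exact hdet p, by rw [hevenmul]; tauto⟩
    refine Or.inl ⟨h1, fun h2 => hc ?_⟩
    have h3 := Subgroup.mul_mem _ (Subgroup.inv_mem _ h2) h1
    rwa [inv_mul_cancel_left] at h3

end SerreHyp

namespace InvGal

/-- the hypotheses for `y² + y = x³ - x + t` -/
theorem serreHyp_Et {t : ℤ} (h : (6 : ℤ) ∣ t) : SerreHyp (Et t) where
  ne := Et_Δ_ne t
  ss := semistable_Et t
  irr _ hp := irr_Et h hp
  two := by
    obtain ⟨q, hq, hq2, hd, hv⟩ := exists_odd_val t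
    have h3 := ne_three_of_dvd t hd
    have h4 : q ≠ 4 := by
      rintro rfl
      exact absurd hq (by decide)
    have h5 := hq.two_le
    exact ⟨q, hq, by omega, hd, hv⟩
  three := by
    have : Fact (Nat.Prime 3) := ⟨Nat.prime_three⟩
    obtain ⟨q, hq, hq3, hd, hv⟩ := exists_prime_ne_not_dvd_val_of_mem (p := 3) (Et_Δ_ne t)
      (semistable_Et t) (by decide) (by decide) (irr_Et h Nat.prime_three)
    have h2 := ne_two_of_dvd t hd
    have h4 : q ≠ 4 := by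
      rintro rfl
      exact absurd hq (by decide)
    have h5 := hq.two_le
    exact ⟨q, hq, by omega, hd, hv⟩

/-- **For `E_t : y² + y = x³ - x + t`, `6 ∣ t`, the image of `Gal(ℚ̄/ℚ)` in `∏ Aut(T_p E_t)` has
index two.** -/
theorem index_Et {t : ℤ} (h : (6 : ℤ) ∣ t) :
    (adelicAut (Et_Δ_ne t) fun _ => True).range.index = 2 :=
  (serreHyp_Et h).index_range_adelicAut

theorem serreHyp37 : SerreHyp W37 where
  ne := W37_Δ_ne
  ss := semistable37
  irr _ hp := irr37 hp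
  two := ⟨37, by norm_num, by norm_num, by rw [W37_Δ]; norm_num, by rw [val37]; decide⟩
  three := ⟨37, by norm_num, by norm_num, by rw [W37_Δ]; norm_num, by rw [val37]; decide⟩

/-- **For `37a : y² + y = x³ - x` the image of `Gal(ℚ̄/ℚ)` in `∏ Aut(T_p)` has index two** (Serre,
*Propriétés galoisiennes des points d'ordre fini des courbes elliptiques*, 5.5.6). -/
theorem index37 : (adelicAut W37_Δ_ne fun _ => True).range.index = 2 :=
  serreHyp37.index_range_adelicAut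

end InvGal

end Fermat.Agent.Cor

end
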