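import Fermat.Agent.Corollaries.Surj.SerreCond

/-!
# The adelic image of a Serre curve, explicitly

Let `W` satisfy `SerreHyp` (see `Surj/SerreCurve`) and `Δ ≡ 1` modulo `4`.  A family `(e p)` of
automorphisms of the Tate modules `T_p W`, all primes `p`, is the action of an element of
`Gal(ℚ̄/ℚ)` **if and only if** the sign of `e 2` on the three points of order two is the product of
the Legendre symbols `(det (e p) / p)`, `p ∣ Δ`, with the exponents `v_p(Δ)`
(`SerreHyp.mem_range_adelicAut_iff_leg`).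

For `37a : y² + y = x³ - x`: if and only if (`e 2` is even iff `det (e 37)` is a square modulo `37`)
(`InvGal.mem_range_adelicAut37_iff`); this is Serre's description of the image, *Propriétés
galoisiennes des points d'ordre fini des courbes elliptiques*, 5.5.6.

On the way: the action of `σ` on `√d`, `d ≡ 1` modulo `4`, is the product of the Legendre symbols of
the cyclotomic characters of `σ` at the primes dividing `d` (`exists_sqrt_legCyc`).
-/

set_option autoImplicit false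

noncomputable section

open WeierstrassCurve WeierstrassCurve.Affine WeierstrassCurve.Affine.Point Module
open Fermat.Agent.ECRed Fermat.Agent.Tate Fermat.Agent.Classic Fermat.Agent.S30aux
open scoped WeierstrassCurve.Affine

namespace Fermat.Agent.Cor

local notation "Qbar" => AlgebraicClosure ℚ
local notation "Γℚ" => (AlgebraicClosure ℚ ≃ₐ[ℚ] AlgebraicClosure ℚ)

variable {W : WeierstrassCurve ℤ}

open InvGal

/-! ### The action on the square roots -/

theorem toZMod_cyc (p : ℕ) [hp : Fact p.Prime] (σ : Γℚ) :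
    PadicInt.toZMod ((cyc p σ : ℤ_[p]ˣ) : ℤ_[p]) = ECFrob.cycMod p σ := by
  obtain ⟨ζ, hζ⟩ := exists_primitive p 1
  have hζ' : IsPrimitiveRoot ζ p := by rwa [pow_one] at hζ
  rw [ECFrob.cycMod_unique hζ' (c := cn p 1 σ) (cn_spec p 1 σ ζ hζ.pow_eq_one)]
  have h3 : (p : ℤ_[p]) ^ 1 ∣ ((cyc p σ : ℤ_[p]ˣ) : ℤ_[p]) - ((cn p 1 σ : ℕ) : ℤ_[p]) := by
    rw [dvd_iff_toZModPow, map_natCast, cast_cn]
  rw [pow_one] at h3
  have h4 := map_dvd (PadicInt.toZMod (p := p)) h3
  rwa [map_natCast, CharP.cast_eq_zero, zero_dvd_iff, map_sub, map_natCast, sub_eq_zero] at h4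

theorem cycMod_ne_zero' (p : ℕ) [hp : Fact p.Prime] (σ : Γℚ) : ECFrob.cycMod p σ ≠ 0 := by
  intro h
  have h1 : ECFrob.cycMod p σ * ECFrob.cycMod p σ⁻¹ = 1 := by
    rw [← map_mul, mul_inv_cancel, map_one]
  rw [h, zero_mul] at h1
  exact zero_ne_one h1

/-- The Legendre symbol of the cyclotomic character of `σ` modulo `p`; `1` if `p` is not prime. -/
def legCyc (p : ℕ) (σ : Γℚ) : ℤ :=
  if h : p.Prime then
    haveI : Fact p.Prime := ⟨h⟩
    quadraticChar (ZMod p) (ECFrob.cycMod p σ)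
  else 1

theorem legCyc_eq (p : ℕ) [hp : Fact p.Prime] (σ : Γℚ) :
    legCyc p σ = quadraticChar (ZMod p) (ECFrob.cycMod p σ) := by
  rw [legCyc, dif_pos hp.out]

theorem legCyc_sq (p : ℕ) (σ : Γℚ) : legCyc p σ ^ 2 = 1 := by
  by_cases h : p.Prime
  · have : Fact p.Prime := ⟨h⟩
    rw [legCyc_eq]
    exact quadraticChar_sq_one (cycMod_ne_zero' p σ)
  · rw [legCyc, dif_neg h, one_pow]

theorem apply_qgauss_eq {p : ℕ} [hp : Fact p.Prime] {ζ : Qbar} (hζ : IsPrimitiveRoot ζ p)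
    (σ : Γℚ) : σ (qgauss hζ) = ((legCyc p σ : ℤ) : Qbar) * qgauss hζ := by
  have h1 := qchar_mul_apply hζ σ
  rw [qchar_apply, ← legCyc_eq] at h1
  have h2 : ((legCyc p σ : ℤ) : Qbar) * ((legCyc p σ : ℤ) : Qbar) = 1 := by
    rw [← Int.cast_mul, ← pow_two, legCyc_sq, Int.cast_one]
  calc σ (qgauss hζ) = ((legCyc p σ : ℤ) : Qbar) * ((legCyc p σ : ℤ) : Qbar) *
        σ (qgauss hζ) := by rw [h2, one_mul]
    _ = _ := by rw [mul_assoc, h1]

theorem exists_sqrt_prod_leg (s : Finset ℕ) : (∀ p ∈ s, p.Prime ∧ p ≠ 2) →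
    ∃ (x : Qbar) (e : ℤ), x ^ 2 = (e : Qbar) ∧ (e : ZMod 4) = 1 ∧ e.natAbs = ∏ p ∈ s, p ∧
      ∀ σ : Γℚ, σ x = ((∏ p ∈ s, legCyc p σ : ℤ) : Qbar) * x := by
  classical
  refine Finset.induction_on s (fun _ => ⟨1, 1, by simp, by simp, by simp, fun σ => by simp⟩) ?_
  intro p s hps ih hs
  obtain ⟨x, e, hx, h4, he, hσ⟩ := ih fun q hq => hs q (Finset.mem_insert_of_mem hq)
  obtain ⟨hp, hp2⟩ := hs p (Finset.mem_insert_self p s)
  have : Fact p.Prime := ⟨hp⟩
  obtain ⟨ζ, hζ⟩ := exists_primitive p 1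
  rw [pow_one] at hζ
  have hodd : p % 2 = 1 := hp.eq_two_or_odd.resolve_left hp2
  refine ⟨qgauss hζ * x, (-1) ^ ((p - 1) / 2) * (p : ℤ) * e, ?_, ?_, ?_, fun σ => ?_⟩
  · rw [mul_pow, qgauss_sq hζ hp2, hx]
    push_cast
    ring
  · rw [Int.cast_mul, cast_pstar hodd, h4, mul_one]
  · rw [Finset.prod_insert hps, Int.natAbs_mul, Int.natAbs_mul, Int.natAbs_pow, he,
      Int.natAbs_natCast]
    simp
  · rw [map_mul, apply_qgauss_eq hζ, hσ σ, Finset.prod_insert hps, Int.cast_mul]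
    ring

/-- **The action on `√d`**, `d ≡ 1` modulo `4`: the product of the Legendre symbols of the cyclotomic
characters. -/
theorem exists_sqrt_legCyc {d : ℤ} (h4 : d % 4 = 1) : ∃ x : Qbar, x ^ 2 = ((d : ℤ) : Qbar) ∧
    ∀ σ : Γℚ, σ x =
      ((∏ p ∈ d.natAbs.primeFactors, legCyc p σ ^ padicValInt p d : ℤ) : Qbar) * x := by
  obtain ⟨a, b, hab, ha⟩ := Nat.sq_mul_squarefree d.natAbs
  have hd0 : d.natAbs ≠ 0 := by
    rw [Int.natAbs_ne_zero]
    rintro rfl
    norm_num at h4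
  have ha0 : a ≠ 0 := ha.ne_zero
  have hb0 : b ≠ 0 := by
    rintro rfl
    rw [zero_pow two_ne_zero, zero_mul] at hab
    exact hd0 hab.symm
  have hd2 : d.natAbs % 2 = 1 := by omega
  have hval : ∀ p : ℕ, p.Prime → padicValInt p d = 2 * padicValNat p b + padicValNat p a := by
    intro p hp
    have : Fact p.Prime := ⟨hp⟩
    rw [padicValInt, ← hab, padicValNat.mul (pow_ne_zero 2 hb0) ha0, padicValNat.pow]
  have hodd : ∀ p ∈ a.primeFactors, p.Prime ∧ p ≠ 2 := by
    intro p hp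
    refine ⟨Nat.prime_of_mem_primeFactors hp, ?_⟩
    rintro rfl
    have h1 : 2 ∣ d.natAbs := by
      rw [← hab]
      exact (Nat.dvd_of_mem_primeFactors hp).mul_left _
    omega
  obtain ⟨x, e, hx, he4, he, hσ⟩ := exists_sqrt_prod_leg a.primeFactors hodd
  rw [Nat.prod_primeFactors_of_squarefree ha] at he
  have hb2 : ((b : ℕ) : ZMod 4) ^ 2 = 1 := by
    have h1 : b % 2 = 1 := by
      by_contra hcon
      have h2 : 2 ∣ b := by omega
      have h3 : 2 ∣ d.natAbs := by
        rw [← hab]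
        exact (h2.pow two_ne_zero).mul_right _
      omega
    have h2 : b % 4 = 1 ∨ b % 4 = 3 := by omega
    rcases h2 with h2 | h2
    · have h3 : ((b : ℕ) : ZMod 4) = ((1 : ℕ) : ZMod 4) :=
        (ZMod.natCast_eq_natCast_iff _ _ _).mpr h2
      rw [h3]
      decide
    · have h3 : ((b : ℕ) : ZMod 4) = ((3 : ℕ) : ZMod 4) :=
        (ZMod.natCast_eq_natCast_iff _ _ _).mpr h2
      rw [h3]
      decide
  have hd4 : (d : ZMod 4) = 1 := by
    have h1 : (d : ZMod 4) = ((1 : ℤ) : ZMod 4) := (ZMod.intCast_eq_intCast_iff _ _ _).mpr h4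
    rw [h1, Int.cast_one]
  have hde : (b : ℤ) ^ 2 * e = d := by
    have h1 : ((b : ℤ) ^ 2 * e).natAbs = d.natAbs := by
      rw [Int.natAbs_mul, Int.natAbs_pow, Int.natAbs_natCast, he, hab]
    rcases Int.natAbs_eq_natAbs_iff.mp h1 with h2 | h2
    · exact h2
    · exfalso
      have h3 := congrArg (fun z : ℤ => (z : ZMod 4)) h2
      simp only [Int.cast_mul, Int.cast_pow, Int.cast_natCast, Int.cast_neg, hb2, he4, hd4] at h3
      exact absurd h3 (by decide)
  refine ⟨(b : Qbar) * x, ?_, fun σ => ?_⟩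
  · rw [mul_pow, hx, ← hde]
    push_cast
    ring
  · have hprod : ∏ p ∈ d.natAbs.primeFactors, legCyc p σ ^ padicValInt p d =
        ∏ p ∈ a.primeFactors, legCyc p σ := by
      have hsub : a.primeFactors ⊆ d.natAbs.primeFactors :=
        Nat.primeFactors_mono ⟨b ^ 2, by rw [← hab, mul_comm]⟩ hd0
      rw [← Finset.prod_subset hsub]
      · refine Finset.prod_congr rfl fun p hp => ?_
        have hpp := Nat.prime_of_mem_primeFactors hp
        have h1 : padicValNat p a = 1 := by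
          have h2 := ha.natFactorization_le_one p
          have h3 := (hpp.dvd_iff_one_le_factorization ha0).mp (Nat.dvd_of_mem_primeFactors hp)
          rw [Nat.factorization_def _ hpp] at h2 h3
          omega
        rw [hval p hpp, h1, pow_succ, pow_mul, legCyc_sq, one_pow, one_mul]
      · intro p hp hpa
        have hpp := Nat.prime_of_mem_primeFactors hp
        have h1 : padicValNat p a = 0 := by
          refine padicValNat.eq_zero_of_not_dvd fun h => hpa ?_
          exact Nat.mem_primeFactors.mpr ⟨hpp, h, ha0⟩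
        rw [hval p hpp, h1, add_zero, pow_mul, legCyc_sq, one_pow]
    rw [hprod, map_mul, map_natCast, hσ σ]
    ring

/-! ### The adelic image -/

/-- The Legendre symbol of `det (e p)` modulo `p`; `1` if `p` is not prime. -/
def legDet (e : ∀ p : PrimesOf fun _ => True, (Tp W p ≃ₗ[ℤ_[(p : ℕ)]] Tp W p)) (p : ℕ) : ℤ :=
  if h : p.Prime then
    haveI : Fact p.Prime := ⟨h⟩
    quadraticChar (ZMod p)
      (PadicInt.toZMod (LinearMap.det (e ⟨p, h, trivial⟩).toLinearMap))
  else 1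

theorem legDet_eq {e : ∀ p : PrimesOf fun _ => True, (Tp W p ≃ₗ[ℤ_[(p : ℕ)]] Tp W p)}
    {σ : Γℚ} (hdet : ∀ p : PrimesOf fun _ => True, LinearMap.det (e p).toLinearMap =
      ((cyc (p : ℕ) σ : ℤ_[(p : ℕ)]ˣ) : ℤ_[(p : ℕ)])) (p : ℕ) : legDet e p = legCyc p σ := by
  by_cases h : p.Prime
  · have : Fact p.Prime := ⟨h⟩
    rw [legDet, dif_pos h, legCyc_eq, hdet ⟨p, h, trivial⟩]
    exact congrArg _ (toZMod_cyc p σ)
  · rw [legDet, dif_neg h, legCyc, dif_neg h]

/-- **The image of `Gal(ℚ̄/ℚ)` in `∏ Aut(T_p W)`, explicitly**, for the curves with `SerreHyp` and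
`Δ ≡ 1` modulo `4`: the sign of `e 2` is the product of the Legendre symbols of the determinants of
the `e p`, `p ∣ Δ`, with the exponents `v_p(Δ)`. -/
theorem SerreHyp.mem_range_adelicAut_iff_leg (H : SerreHyp W) (h4 : W.Δ % 4 = 1)
    (e : ∀ p : PrimesOf fun _ => True, (Tp W p ≃ₗ[ℤ_[(p : ℕ)]] Tp W p)) :
    e ∈ (adelicAut H.ne fun _ => True).range ↔ (EvenAut W (e prTwo) ↔
      ∏ p ∈ W.Δ.natAbs.primeFactors, legDet e p ^ padicValInt p W.Δ = 1) := by
  obtain ⟨δ, hδ, hs⟩ := exists_sqrt_legCyc h4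
  have hδ0 : δ ≠ 0 := by
    rintro rfl
    rw [zero_pow two_ne_zero, eq_comm, Int.cast_eq_zero] at hδ
    exact H.ne hδ
  have hfix : ∀ σ : Γℚ, σ δ = δ ↔
      ∏ p ∈ W.Δ.natAbs.primeFactors, legCyc p σ ^ padicValInt p W.Δ = 1 := by
    intro σ
    rw [hs σ]
    constructor
    · intro h
      have h1 := mul_right_cancel₀ hδ0 (h.trans (one_mul δ).symm)
      exact_mod_cast h1
    · intro h
      rw [h, Int.cast_one, one_mul]
  rw [H.mem_range_adelicAut_iff hδ]
  constructor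
  · rintro ⟨σ, hdet, hsgn⟩
    rw [hsgn, hfix σ]
    simp only [legDet_eq hdet]
  · intro h
    obtain ⟨σ, hσ⟩ := exists_cyc_all fun p hp =>
      (LinearEquiv.det (e ⟨p, hp.out, trivial⟩) : ℤ_[p]ˣ)
    have hdet : ∀ p : PrimesOf fun _ => True, LinearMap.det (e p).toLinearMap =
        ((cyc (p : ℕ) σ : ℤ_[(p : ℕ)]ˣ) : ℤ_[(p : ℕ)]) := by
      intro p
      rw [hσ (p : ℕ)]
      exact (LinearEquiv.coe_det _).symm
    refine ⟨σ, hdet, ?_⟩
    rw [h, hfix σ]
    simp only [legDet_eq hdet]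

namespace InvGal

/-- the prime `37` -/
def pr37 : PrimesOf fun _ => True := ⟨37, by norm_num, trivial⟩

/-- **The image of `Gal(ℚ̄/ℚ)` for `E_t : y² + y = x³ - x + t`, `6 ∣ t`, explicitly.** -/
theorem mem_range_adelicAut_Et_iff {t : ℤ} (h : (6 : ℤ) ∣ t)
    (e : ∀ p : PrimesOf fun _ => True, (Tp (Et t) p ≃ₗ[ℤ_[(p : ℕ)]] Tp (Et t) p)) :
    e ∈ (adelicAut (Et_Δ_ne t) fun _ => True).range ↔ (EvenAut (Et t) (e prTwo) ↔
      ∏ p ∈ (Et t).Δ.natAbs.primeFactors, legDet e p ^ padicValInt p (Et t).Δ = 1) :=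
  (serreHyp_Et h).mem_range_adelicAut_iff_leg (by have := Et_Δ_emod t; omega) e

/-- **The image of `Gal(ℚ̄/ℚ)` for `37a : y² + y = x³ - x`** (Serre): the automorphisms `e p` of the
Tate modules `T_p`, all primes `p`, are given by one element of `Gal(ℚ̄/ℚ)` if and only if
(`e 2` is an even permutation of the points of order two iff `det (e 37)` is a square
modulo `37`). -/
theorem mem_range_adelicAut37_iff
    (e : ∀ p : PrimesOf fun _ => True, (Tp W37 p ≃ₗ[ℤ_[(p : ℕ)]] Tp W37 p)) :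
    e ∈ (adelicAut W37_Δ_ne fun _ => True).range ↔ (EvenAut W37 (e prTwo) ↔
      IsSquare (PadicInt.toZMod (LinearMap.det (e pr37).toLinearMap))) := by
  have h37 : Nat.Prime 37 := by norm_num
  have : Fact (Nat.Prime 37) := ⟨h37⟩
  have h1 : W37.Δ.natAbs.primeFactors = {37} := by
    rw [W37_Δ]
    exact h37.primeFactors
  rw [serreHyp37.mem_range_adelicAut_iff_leg (by rw [W37_Δ]; norm_num) e, h1,
    Finset.prod_singleton, val37, pow_one, legDet, dif_pos h37]
  have h2 : PadicInt.toZMod (LinearMap.det (e pr37).toLinearMap) ≠ 0 := by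
    have h3 : IsUnit (LinearMap.det (e pr37).toLinearMap) := by
      rw [← LinearEquiv.coe_det]
      exact (LinearEquiv.det (e pr37)).isUnit
    exact (h3.map (PadicInt.toZMod (p := 37))).ne_zero
  rw [← quadraticChar_one_iff_isSquare h2]
  rfl

end InvGal

end Fermat.Agent.Cor

end
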