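import Fermat.Agent.Corollaries.Surj.SerreCond
import Fermat.Agent.Corollaries.InvGal.DivFieldN
import Fermat.Agent.Corollaries.Isog.Degree

/-!
# Serre curves: the image at level `N`

Let `W` satisfy `SerreHyp` (see `Surj/SerreCurve`), `N ≥ 1`.  The image of `Gal(ℚ̄/ℚ)` in `Aut(W[N])`
has index two if `N` is even and `√Δ` is in `ℚ(ζ_N)`, and it is everything otherwise
(`SerreHyp.index_range_torsAut_eq_two_iff`, `SerreHyp.index_range_torsAut_eq_one_iff`).

For `37a : y² + y = x³ - x` the index is `2` if `74 ∣ N` and `1` otherwise (`InvGal.index_torsAut37`),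
so that `[ℚ(E[N]) : ℚ]` is `#GL₂(ℤ/N)` or half of it (`InvGal.finrank_divField37_mul`).
-/

set_option autoImplicit false

noncomputable section

open WeierstrassCurve WeierstrassCurve.Affine WeierstrassCurve.Affine.Point Module
open Fermat.Agent.ECRed Fermat.Agent.Tate Fermat.Agent.Classic Fermat.Agent.S30aux
open scoped WeierstrassCurve.Affine

namespace Fermat.Agent.Cor

local notation "Qbar" => AlgebraicClosure ℚ
local notation "Γℚ" => (AlgebraicClosure ℚ ≃ₐ[ℚ] AlgebraicClosure ℚ)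

variable {W : WeierstrassCurve ℤ} {N : ℕ}

/-! ### Automorphisms of `W[N]` and matrices -/

/-- the restriction of an automorphism of `W[N]` to the `p`-part -/
def resLin (p : ℕ) (g : Tors W N ≃ₗ[ZMod N] Tors W N) :
    Module.End (ZMod (p ^ N.factorization p)) (Tors W (p ^ N.factorization p)) :=
  (restr (N.ordProj_dvd p) (g : _ →+ _)).toZModLinearMap _

theorem resLin_mul (p : ℕ) (g h : Tors W N ≃ₗ[ZMod N] Tors W N) :
    resLin p (g * h) = resLin p g * resLin p h := LinearMap.ext fun _ => rfl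

theorem resLin_one (p : ℕ) : resLin p (1 : Tors W N ≃ₗ[ZMod N] Tors W N) = 1 :=
  LinearMap.ext fun _ => rfl

/-- `G` is a family of matrices over the `ℤ_p` inducing `g` on `W[N]`. -/
def LiftOf (X : ∀ (p : ℕ) [Fact p.Prime], Tb W p) (g : Tors W N ≃ₗ[ZMod N] Tors W N)
    (G : ∀ (p : ℕ) [Fact p.Prime], Matrix (Fin 2) (Fin 2) ℤ_[p]) : Prop :=
  ∀ (p : ℕ) [Fact p.Prime],
    LinearMap.toMatrix ((X p).bn (N.factorization p)) ((X p).bn (N.factorization p)) (resLin p g) =
      (G p).map (PadicInt.toZModPow (N.factorization p))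

theorem exists_liftOf (X : ∀ (p : ℕ) [Fact p.Prime], Tb W p)
    (g : Tors W N ≃ₗ[ZMod N] Tors W N) :
    ∃ G : ∀ (p : ℕ) [Fact p.Prime], Matrix (Fin 2) (Fin 2) ℤ_[p],
      (∀ (p : ℕ) [Fact p.Prime], IsUnit (G p).det) ∧ LiftOf X g G := by
  have key : ∀ (p : ℕ) [Fact p.Prime], ∃ G : Matrix (Fin 2) (Fin 2) ℤ_[p], IsUnit G.det ∧
      LinearMap.toMatrix ((X p).bn (N.factorization p)) ((X p).bn (N.factorization p))
        (resLin p g) = G.map (PadicInt.toZModPow (N.factorization p)) := by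
    intro p hp
    have h1 : IsUnit (LinearMap.toMatrix ((X p).bn (N.factorization p))
        ((X p).bn (N.factorization p)) (resLin p g)).det := by
      refine IsUnit.of_mul_eq_one (LinearMap.toMatrix ((X p).bn (N.factorization p))
        ((X p).bn (N.factorization p)) (resLin p g⁻¹)).det ?_
      rw [← Matrix.det_mul, ← LinearMap.toMatrix_mul, ← resLin_mul, mul_inv_cancel, resLin_one,
        LinearMap.toMatrix_one, Matrix.det_one]
    obtain ⟨G, hG, hGA⟩ := exists_lift_matrix _ _ h1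
    exact ⟨G, hG, hGA.symm⟩
  choose G hG hGA using key
  exact ⟨G, hG, fun p _ => hGA p⟩

theorem LiftOf.mul {X : ∀ (p : ℕ) [Fact p.Prime], Tb W p} {g h : Tors W N ≃ₗ[ZMod N] Tors W N}
    {G H : ∀ (p : ℕ) [Fact p.Prime], Matrix (Fin 2) (Fin 2) ℤ_[p]} (hg : LiftOf X g G)
    (hh : LiftOf X h H) : LiftOf X (g * h) fun p _ => G p * H p := by
  intro p hp
  rw [resLin_mul, LinearMap.toMatrix_mul, hg p, hh p, Matrix.map_mul]

/-- `σ` with the matrices of a lift of `g` acts as `g` on `W[N]`. -/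
theorem LiftOf.torsAut_eq (hN : N ≠ 0) {X : ∀ (p : ℕ) [Fact p.Prime], Tb W p}
    {g : Tors W N ≃ₗ[ZMod N] Tors W N}
    {G : ∀ (p : ℕ) [Fact p.Prime], Matrix (Fin 2) (Fin 2) ℤ_[p]} (hg : LiftOf X g G) {σ : Γℚ}
    (hσ : ∀ (p : ℕ) [Fact p.Prime], (X p).M σ = G p) : torsAut W N σ = g := by
  have hE : ∀ (p : ℕ) [Fact p.Prime], ∀ x : Tors W (p ^ N.factorization p),
      σ • x = resLin p g x := by
    intro p hp x
    have h1 := hg p
    rw [← hσ p, ← (X p).map_M σ] at h1
    exact (LinearMap.congr_fun ((LinearMap.toMatrix _ _).injective h1) x).symm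
  refine LinearEquiv.ext fun x => ?_
  rw [torsAut_apply]
  let φ : Tors W N →+ Tors W N := DistribSMul.toAddMonoidHom _ σ
  have key : x ∈ φ.eqLocus (g : _ →+ _) := by
    refine mem_of_ordCompl _ hN ?_ fun p hp hpN => ?_
    · refine Subtype.ext ?_
      have := (Submodule.mem_torsionBy_iff _ _).1 x.2
      rwa [natCast_zsmul] at this
    · have : Fact p.Prime := ⟨hp⟩
      have hmem : (N / p ^ N.factorization p) • (x : ((W.map (Int.castRingHom ℚ))⁄(AlgebraicClosure
          ℚ)).Point) ∈ Submodule.torsionBy ℤ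
          ((W.map (Int.castRingHom ℚ))⁄(AlgebraicClosure ℚ)).Point
          ((p ^ N.factorization p : ℕ) : ℤ) := by
        rw [Submodule.mem_torsionBy_iff, natCast_zsmul, ← mul_smul,
          Nat.ordProj_mul_ordCompl_eq_self]
        have := (Submodule.mem_torsionBy_iff _ _).1 x.2
        rwa [natCast_zsmul] at this
      have h1 := hE p ⟨_, hmem⟩
      have h2 := congrArg Subtype.val h1
      change φ _ = g _
      exact Subtype.ext h2
  exact key

/-! ### The image has index at most two -/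

/-- the family `G` has the determinants and the sign of some `σ` -/
def GoodSign (X : ∀ (p : ℕ) [Fact p.Prime], Tb W p)
    (G : ∀ (p : ℕ) [Fact p.Prime], Matrix (Fin 2) (Fin 2) ℤ_[p]) : Prop :=
  ∃ σ : Γℚ, (∀ (p : ℕ) [Fact p.Prime], (G p).det = ((cyc p σ : ℤ_[p]ˣ) : ℤ_[p])) ∧
    (Serre.IsEven ((X 2).M σ) ↔ Serre.IsEven (G 2))

theorem serre_iff_mul_aux {a b c d : Prop} (h : ¬ (a ↔ c)) (h' : ¬ (b ↔ d)) :
    (a ↔ b) ↔ (c ↔ d) := by
  tauto

theorem goodSign_mul (X : ∀ (p : ℕ) [Fact p.Prime], Tb W p)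
    {G H : ∀ (p : ℕ) [Fact p.Prime], Matrix (Fin 2) (Fin 2) ℤ_[p]}
    (hG : ∀ (p : ℕ) [Fact p.Prime], IsUnit (G p).det)
    (hH : ∀ (p : ℕ) [Fact p.Prime], IsUnit (H p).det)
    (hg : ¬ GoodSign X G) (hh : ¬ GoodSign X H) : GoodSign X fun p _ => G p * H p := by
  obtain ⟨σ, hσ⟩ := exists_cyc_all fun p _ => (hG p).unit
  obtain ⟨τ, hτ⟩ := exists_cyc_all fun p _ => (hH p).unit
  have h1 : ¬ (Serre.IsEven ((X 2).M σ) ↔ Serre.IsEven (G 2)) := fun h =>
    hg ⟨σ, fun p _ => by rw [hσ p]; rfl, h⟩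
  have h2 : ¬ (Serre.IsEven ((X 2).M τ) ↔ Serre.IsEven (H 2)) := fun h =>
    hh ⟨τ, fun p _ => by rw [hτ p]; rfl, h⟩
  refine ⟨σ * τ, fun p hp => ?_, ?_⟩
  · rw [Matrix.det_mul, map_mul, hσ p, hτ p, Units.val_mul]
    rfl
  · rw [map_mul, Serre.isEven_mul_iff ((X 2).isUnit_det_M _) ((X 2).isUnit_det_M _),
      Serre.isEven_mul_iff (hG 2) (hH 2)]
    exact serre_iff_mul_aux h1 h2

namespace SerreHyp

/-- the product of two automorphisms of `W[N]` which are not in the image is in the image -/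
theorem mul_mem_range (H : SerreHyp W) (hN : N ≠ 0) {g h : Tors W N ≃ₗ[ZMod N] Tors W N}
    (hg : g ∉ (torsAut W N).range) (hh : h ∉ (torsAut W N).range) :
    g * h ∈ (torsAut W N).range := by
  have hX : ∀ (p : ℕ) [Fact p.Prime], Nonempty (Tb W p) := fun p _ => exists_tb H.ne
  let X : ∀ (p : ℕ) [Fact p.Prime], Tb W p := fun p _ => (hX p).some
  have key : ∀ {g : Tors W N ≃ₗ[ZMod N] Tors W N}
      {G : ∀ (p : ℕ) [Fact p.Prime], Matrix (Fin 2) (Fin 2) ℤ_[p]}, LiftOf X g G →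
        GoodSign X G → g ∈ (torsAut W N).range := by
    rintro g G hL ⟨σ₀, hdet, hsgn⟩
    obtain ⟨σ, hσ⟩ := H.exists_M_eq X G σ₀ hdet hsgn
    exact ⟨σ, hL.torsAut_eq hN hσ⟩
  obtain ⟨G, hG, hGL⟩ := exists_liftOf X g
  obtain ⟨K, hK, hKL⟩ := exists_liftOf X h
  exact key (hGL.mul hKL) (goodSign_mul X hG hK (fun h1 => hg (key hGL h1))
    fun h1 => hh (key hKL h1))

end SerreHyp

theorem surjMod_iff_range : SurjMod W N ↔ (torsAut W N).range = ⊤ := by
  rw [MonoidHom.range_eq_top]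
  constructor
  · intro h g
    obtain ⟨σ, hσ⟩ := h g
    exact ⟨σ, LinearEquiv.ext hσ⟩
  · intro h g
    obtain ⟨σ, hσ⟩ := h g
    exact ⟨σ, fun x => LinearEquiv.congr_fun hσ x⟩

namespace SerreHyp

/-- **The image in `Aut(W[N])` has index two, if it is not everything.** -/
theorem index_range_torsAut (H : SerreHyp W) (hN : N ≠ 0) (hs : ¬ SurjMod W N) :
    (torsAut W N).range.index = 2 := by
  rw [surjMod_iff_range, Subgroup.eq_top_iff'] at hs
  push Not at hs
  obtain ⟨a, ha⟩ := hs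
  rw [Subgroup.index_eq_two_iff]
  refine ⟨a, fun b => ?_⟩
  by_cases hb : b ∈ (torsAut W N).range
  · exact Or.inr ⟨hb, fun h => ha ((Subgroup.mul_mem_cancel_left _ hb).mp h)⟩
  · exact Or.inl ⟨H.mul_mem_range hN hb ha, hb⟩

/-- **The index of the image in `Aut(W[N])` is two** if and only if `N` is even and `√Δ` is in
`ℚ(ζ_N)`. -/
theorem index_range_torsAut_eq_two_iff (H : SerreHyp W) {δ : Qbar}
    (hδ : δ ^ 2 = ((W.Δ : ℤ) : Qbar)) (hN : N ≠ 0) : (torsAut W N).range.index = 2 ↔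
      Even N ∧ δ ∈ IntermediateField.adjoin ℚ {ζ : Qbar | ζ ^ N = 1} := by
  have h1 := H.surjMod_iff_adjoin hδ hN
  constructor
  · intro h
    by_contra hcon
    have h2 : SurjMod W N := by
      rw [h1, ← Nat.not_even_iff_odd]
      tauto
    rw [surjMod_iff_range] at h2
    rw [h2, Subgroup.index_top] at h
    exact absurd h (by norm_num)
  · rintro ⟨h2, h3⟩
    refine H.index_range_torsAut hN fun h4 => ?_
    rw [h1, ← Nat.not_even_iff_odd] at h4
    tauto

/-- **The action on `W[N]` is everything** if and only if the index is one, if and only if `N` is odd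
or `√Δ` is not in `ℚ(ζ_N)`. -/
theorem index_range_torsAut_eq_one_iff (H : SerreHyp W) {δ : Qbar}
    (hδ : δ ^ 2 = ((W.Δ : ℤ) : Qbar)) (hN : N ≠ 0) : (torsAut W N).range.index = 1 ↔
      Odd N ∨ δ ∉ IntermediateField.adjoin ℚ {ζ : Qbar | ζ ^ N = 1} := by
  rw [Subgroup.index_eq_one, ← surjMod_iff_range, H.surjMod_iff_adjoin hδ hN]

end SerreHyp

/-! ### The degree of `ℚ(W[N])` -/

theorem ker_torsAut_eq (b : Basis (Fin 2) (ZMod N) (Tors W N)) :
    (torsAut W N).ker = (repZ b).ker := by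
  ext σ
  rw [MonoidHom.mem_ker, MonoidHom.mem_ker]
  constructor
  · intro h
    refine Units.ext ?_
    rw [repZ_val, Units.val_one, ← LinearMap.toMatrix_one b]
    congr 1
    exact LinearMap.ext fun x => LinearEquiv.congr_fun h x
  · intro h
    have h1 := congrArg Units.val h
    rw [repZ_val, Units.val_one, ← LinearMap.toMatrix_one b] at h1
    exact LinearEquiv.ext fun x => LinearMap.congr_fun ((LinearMap.toMatrix b b).injective h1) x

/-- **`[ℚ(W[N]) : ℚ] · (Aut(W[N]) : image) = #GL₂(ℤ/N)`**, any `W` with `Δ ≠ 0`. -/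
theorem finrank_mul_index (hΔ : W.Δ ≠ 0) (hN : N ≠ 0) :
    Module.finrank ℚ (divField W N) * (torsAut W N).range.index =
      Nat.card (GL (Fin 2) (ZMod N)) := by
  have : NeZero N := ⟨hN⟩
  obtain ⟨b⟩ := exists_basis_torsionBy hΔ hN
  obtain ⟨e, -⟩ := exists_equiv_divField_rangeN hΔ hN b
  have h1 : Nat.card (repZ b).range = Nat.card (torsAut W N).range := by
    rw [← Nat.card_congr (QuotientGroup.quotientKerEquivRange (repZ b)).toEquiv,
      ← Nat.card_congr (QuotientGroup.quotientKerEquivRange (torsAut W N)).toEquiv,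
      ker_torsAut_eq b]
  have h2 : Nat.card (Tors W N ≃ₗ[ZMod N] Tors W N) = Nat.card (GL (Fin 2) (ZMod N)) := by
    rw [← Nat.card_congr (LinearMap.GeneralLinearGroup.generalLinearEquiv (ZMod N)
      (Tors W N)).toEquiv]
    exact Nat.card_congr (Units.mapEquiv (LinearMap.toMatrixAlgEquiv b).toMulEquiv).toEquiv
  rw [← card_gal_divFieldN hΔ hN, Nat.card_congr e.toEquiv, h1, Subgroup.card_mul_index, h2]

namespace InvGal

/-- **The image of `Gal(ℚ̄/ℚ)` in `Aut(E[N])` for `37a : y² + y = x³ - x`**: index two if `74 ∣ N`,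
everything otherwise. -/
theorem index_torsAut37 (hN : N ≠ 0) :
    (torsAut W37 N).range.index = if 74 ∣ N then 2 else 1 := by
  split_ifs with h
  · exact serreHyp37.index_range_torsAut hN fun h1 => (surjMod37_iff hN).mp h1 h
  · rw [Subgroup.index_eq_one, ← surjMod_iff_range]
    exact (surjMod37_iff hN).mpr h

/-- **The degree of `ℚ(E[N])` for `37a : y² + y = x³ - x`**, all `N`: half of `#GL₂(ℤ/N)` if `74 ∣ N`,
and `#GL₂(ℤ/N)` otherwise. -/
theorem finrank_divField37_mul (hN : N ≠ 0) :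
    Module.finrank ℚ (divField W37 N) * (if 74 ∣ N then 2 else 1) =
      Nat.card (GL (Fin 2) (ZMod N)) := by
  rw [← finrank_mul_index W37_Δ_ne hN, index_torsAut37 hN]

end InvGal

end Fermat.Agent.Cor

end
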