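import Fermat.Agent.Corollaries.Surj.SerreCurve

/-!
# Infinitely many Serre curves

The curves `E_t : y² + y = x³ - x + t`, `6 ∣ t`, have `j`-invariants `48³ / (64 - 27 (1 + 4t)²)`; so
there are infinitely many `j`-invariants `c₄³ / Δ` of curves with `SerreHyp`, that is with image of
`Gal(ℚ̄/ℚ)` in `∏ Aut(T_p W)` of the smallest possible index two.
-/

set_option autoImplicit false

noncomputable section

open WeierstrassCurve

namespace Fermat.Agent.Cor.InvGal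

/-- **Infinitely many Serre curves**: the `j`-invariants of the curves with `SerreHyp` form an
infinite set. -/
theorem infinite_j_serreHyp :
    {r : ℚ | ∃ W : WeierstrassCurve ℤ, SerreHyp W ∧ r = (W.c₄ : ℚ) ^ 3 / (W.Δ : ℚ)}.Infinite := by
  refine Set.infinite_of_injective_forall_mem
    (f := fun s : ℕ => (((Et (6 * s)).c₄ : ℤ) : ℚ) ^ 3 / (((Et (6 * s)).Δ : ℤ) : ℚ)) ?_
    fun s => ⟨Et (6 * s), serreHyp_Et (Dvd.intro _ rfl), rfl⟩
  intro s s' h
  have h0 : (((Et (6 * s)).Δ : ℤ) : ℚ) ≠ 0 := Int.cast_ne_zero.mpr (Et_Δ_ne _)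
  have h0' : (((Et (6 * s')).Δ : ℤ) : ℚ) ≠ 0 := Int.cast_ne_zero.mpr (Et_Δ_ne _)
  simp only [Et_c₄] at h
  rw [div_eq_div_iff h0 h0'] at h
  have h1 : (((Et (6 * s')).Δ : ℤ) : ℚ) = (((Et (6 * s)).Δ : ℤ) : ℚ) :=
    mul_left_cancel₀ (by norm_num) h
  have h2 : (Et (6 * s')).Δ = (Et (6 * s)).Δ := by exact_mod_cast h1
  rw [Et_Δ, Et_Δ] at h2
  have h3 : (1 + 4 * (6 * (s' : ℤ))) ^ 2 = (1 + 4 * (6 * (s : ℤ))) ^ 2 := by linarith
  have h4 : 1 + 4 * (6 * (s' : ℤ)) = 1 + 4 * (6 * (s : ℤ)) :=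
    (pow_left_inj₀ (by positivity) (by positivity) two_ne_zero).mp h3
  omega

/-- The `j`-invariants of the elliptic curves over `ℚ` for which the image of `Gal(ℚ̄/ℚ)` in
`∏ Aut(T_p W)`, all primes `p`, has index two, form an infinite set. -/
theorem infinite_j_index_two :
    {r : ℚ | ∃ (W : WeierstrassCurve ℤ) (hΔ : W.Δ ≠ 0),
      (adelicAut hΔ fun _ => True).range.index = 2 ∧
        r = (W.c₄ : ℚ) ^ 3 / (W.Δ : ℚ)}.Infinite :=
  infinite_j_serreHyp.mono fun r h => by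
    obtain ⟨W, H, hr⟩ := h
    exact ⟨W, H.ne, H.index_range_adelicAut, hr⟩

end Fermat.Agent.Cor.InvGal

end
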