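import Fermat.Agent.Corollaries.Surj.SerreCurve
import Fermat.Agent.Corollaries.InvGal.PSL

/-!
# The levels where the image of a Serre curve is everything

Let `W` satisfy `SerreHyp` (see `Surj/SerreCurve`), `N ≥ 1`.  Then `Gal(ℚ̄/ℚ)` acts on `W[N]` through
all automorphisms **if and only if** `N` is odd or `√Δ` is not in `ℚ(ζ_N)`
(`SerreHyp.surjMod_iff`, `SerreHyp.surjMod_iff_adjoin`).

For every equation over `ℤ` with `Δ ≠ 0`: if `N` is even and `√Δ` is in `ℚ(ζ_N)`, the action on `W[N]`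
is not surjective (`not_surjMod_of_fixed`).
-/

set_option autoImplicit false

noncomputable section

open WeierstrassCurve WeierstrassCurve.Affine WeierstrassCurve.Affine.Point Module
open Fermat.Agent.ECRed Fermat.Agent.Tate Fermat.Agent.Classic Fermat.Agent.S30aux
open scoped WeierstrassCurve.Affine

namespace Fermat.Agent.Cor

local notation "Qbar" => AlgebraicClosure ℚ
local notation "Γℚ" => (AlgebraicClosure ℚ ≃ₐ[ℚ] AlgebraicClosure ℚ)

variable {W : WeierstrassCurve ℤ}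

/-! ### Roots of unity -/

/-- `σ` fixes the `N`-th roots of unity. -/
def FixMu (N : ℕ) (σ : Γℚ) : Prop := ∀ ζ : Qbar, ζ ^ N = 1 → σ ζ = ζ

theorem FixMu.of_dvd {d N : ℕ} (hd : d ∣ N) {σ : Γℚ} (h : FixMu N σ) : FixMu d σ := by
  intro ζ hζ
  obtain ⟨k, rfl⟩ := hd
  exact h ζ (by rw [pow_mul, hζ, one_pow])

theorem fixMu_pow_iff {p : ℕ} [hp : Fact p.Prime] (k : ℕ) (σ : Γℚ) :
    FixMu (p ^ k) σ ↔ (p : ℤ_[p]) ^ k ∣ ((cyc p σ : ℤ_[p]ˣ) : ℤ_[p]) - 1 := by
  rw [dvd_iff_toZModPow, ← cast_cn, map_one]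
  constructor
  · intro h
    obtain ⟨ζ, hζ⟩ := exists_primitive p k
    rw [← cn_unique p k σ 1 ζ hζ (by rw [pow_one]; exact h ζ hζ.pow_eq_one), Nat.cast_one]
  · intro h ζ hζ
    have h1 : cn p k σ ≡ 1 [MOD p ^ k] := by
      rw [← ZMod.natCast_eq_natCast_iff, h, Nat.cast_one]
    rw [cn_spec p k σ ζ hζ, pow_eq_pow_of_modEq h1 hζ, pow_one]

theorem fixMu_of_pow {N : ℕ} (hN : N ≠ 0) {σ : Γℚ}
    (h : ∀ p, p.Prime → p ∣ N → FixMu (p ^ N.factorization p) σ) : FixMu N σ := by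
  intro ζ hζ
  have hζ0 : ζ ≠ 0 := by
    rintro rfl
    rw [zero_pow hN] at hζ
    exact zero_ne_one hζ
  let B : Subgroup Qbarˣ := (Units.map (σ : Qbar →* Qbar)).eqLocus (MonoidHom.id _)
  have hB : ∀ u : Qbarˣ, u ∈ B ↔ σ u = u := fun u => Units.ext_iff
  have h1 : Additive.ofMul (Units.mk0 ζ hζ0) ∈ B.toAddSubgroup := by
    refine mem_of_ordCompl _ hN ?_ fun p hp hpN => ?_
    · rw [← ofMul_pow]
      refine congrArg Additive.ofMul (Units.ext ?_)
      rw [Units.val_pow_eq_pow_val, Units.val_mk0, hζ, Units.val_one]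
    · rw [← ofMul_pow]
      change Units.mk0 ζ hζ0 ^ (N / p ^ N.factorization p) ∈ B
      rw [hB, Units.val_pow_eq_pow_val, Units.val_mk0]
      refine h p hp hpN _ ?_
      rw [← pow_mul, mul_comm, Nat.ordProj_mul_ordCompl_eq_self, hζ]
  exact (hB _).mp h1

/-! ### Lifting an automorphism of the `N`-torsion -/

/-- an automorphism of `W[N]` is given by invertible matrices over the `ℤ_p` -/
theorem exists_lift_family (X : ∀ (p : ℕ) [Fact p.Prime], Tb W p) {N : ℕ} (hN : N ≠ 0)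
    (g : Submodule.torsionBy ℤ ((W.map (Int.castRingHom ℚ))⁄(AlgebraicClosure ℚ)).Point N
      ≃ₗ[ZMod N]
        Submodule.torsionBy ℤ ((W.map (Int.castRingHom ℚ))⁄(AlgebraicClosure ℚ)).Point N) :
    ∃ G : ∀ (p : ℕ) [Fact p.Prime], Matrix (Fin 2) (Fin 2) ℤ_[p],
      (∀ (p : ℕ) [Fact p.Prime], IsUnit (G p).det) ∧
      ∀ σ : Γℚ, (∀ (p : ℕ) [Fact p.Prime], Serre.Cg p (N.factorization p) ((X p).M σ) (G p)) →
        ∀ x : Submodule.torsionBy ℤ
          ((W.map (Int.castRingHom ℚ))⁄(AlgebraicClosure ℚ)).Point N, σ • x = g x := by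
  classical
  have hE : ∀ (p : ℕ) [Fact p.Prime],
      ∃ G : Matrix (Fin 2) (Fin 2) ℤ_[p], IsUnit G.det ∧ ∀ σ : Γℚ,
        Serre.Cg p (N.factorization p) ((X p).M σ) G →
      ∀ x : Submodule.torsionBy ℤ ((W.map (Int.castRingHom ℚ))⁄(AlgebraicClosure ℚ)).Point
          ((p ^ N.factorization p : ℕ) : ℤ),
        σ • x = restr (N.ordProj_dvd p) (g : _ →+ _) x := by
    intro p hp
    let e : Submodule.torsionBy ℤ ((W.map (Int.castRingHom ℚ))⁄(AlgebraicClosure ℚ)).Point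
          ((p ^ N.factorization p : ℕ) : ℤ) ≃ₗ[ZMod (p ^ N.factorization p)]
        Submodule.torsionBy ℤ ((W.map (Int.castRingHom ℚ))⁄(AlgebraicClosure ℚ)).Point
          ((p ^ N.factorization p : ℕ) : ℤ) :=
      LinearEquiv.ofLinearMap ((restr (N.ordProj_dvd p) (g : _ →+ _)).toZModLinearMap _)
        ((restr (N.ordProj_dvd p) (g.symm : _ →+ _)).toZModLinearMap _)
        (LinearMap.ext fun x => restr_restr (N.ordProj_dvd p) _ _
          (fun x => g.apply_symm_apply x) x)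
        (LinearMap.ext fun x => restr_restr (N.ordProj_dvd p) _ _
          (fun x => g.symm_apply_apply x) x)
    exact (X p).exists_lift (N.factorization p) e
  choose G hG hE using hE
  refine ⟨G, hG, fun σ hσ x => ?_⟩
  -- the subgroup of the elements where the two maps agree
  let φ : Submodule.torsionBy ℤ ((W.map (Int.castRingHom ℚ))⁄(AlgebraicClosure ℚ)).Point (N : ℤ) →+
      Submodule.torsionBy ℤ ((W.map (Int.castRingHom ℚ))⁄(AlgebraicClosure ℚ)).Point (N : ℤ) :=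
    DistribSMul.toAddMonoidHom _ σ
  have key : x ∈ φ.eqLocus (g : _ →+ _) := by
    refine mem_of_ordCompl _ hN ?_ fun p hp hpN => ?_
    · refine Subtype.ext ?_
      have := (Submodule.mem_torsionBy_iff _ _).1 x.2
      rwa [natCast_zsmul] at this
    · have : Fact p.Prime := ⟨hp⟩
      have hmem : (N / p ^ N.factorization p) • (x : ((W.map (Int.castRingHom ℚ))⁄(AlgebraicClosure
          ℚ)).Point) ∈ Submodule.torsionBy ℤ
          ((W.map (Int.castRingHom ℚ))⁄(AlgebraicClosure ℚ)).Point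
          ((p ^ N.factorization p : ℕ) : ℤ) := by
        rw [Submodule.mem_torsionBy_iff, natCast_zsmul, ← mul_smul,
          Nat.ordProj_mul_ordCompl_eq_self]
        have := (Submodule.mem_torsionBy_iff _ _).1 x.2
        rwa [natCast_zsmul] at this
      have h1 := hE p σ (hσ p) ⟨_, hmem⟩
      have h2 := congrArg Subtype.val h1
      change φ _ = g _
      exact Subtype.ext h2
  exact key

/-! ### Surjectivity at even levels -/

theorem levels_det_aux {R : Type*} [CommRing R] (u : R) : (!![1, 0; 0, u] : Matrix _ _ R).det = u := by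
  rw [Matrix.det_fin_two_of]
  ring

theorem levels_iff_aux {a b c : Prop} (h : ¬ (a ↔ c)) (h3 : ¬ b) : (a ↔ b) ↔ c := by
  tauto

/-- `W[N]`, `N` even, if `√Δ ∉ ℚ(ζ_N)`. -/
theorem SerreHyp.surjMod_of_even (H : SerreHyp W) {δ : Qbar} (hδ : δ ^ 2 = ((W.Δ : ℤ) : Qbar))
    {N : ℕ} (hN : N ≠ 0) (h2 : 2 ∣ N) {τ : Γℚ} (hτ : FixMu N τ) (hτδ : τ δ ≠ δ) :
    SurjMod W N := by
  intro g
  have hX : ∀ (p : ℕ) [Fact p.Prime], Nonempty (Tb W p) := fun p _ => exists_tb H.ne
  let X : ∀ (p : ℕ) [Fact p.Prime], Tb W p := fun p _ => (hX p).some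
  obtain ⟨G, hG, hgen⟩ := exists_lift_family X hN g
  obtain ⟨σ₀, hσ₀⟩ := exists_cyc_all fun p _ => (hG p).unit
  obtain ⟨δ', hd, -, hs⟩ := exists_sqrt_sign H.ne
  have hsign : ∀ σ : Γℚ, Serre.IsEven ((X 2).M σ) ↔ σ δ = δ := by
    intro σ
    rw [isEven_M_iff H.ne (X 2), ← hs, fixed_iff_of_sq (hδ.trans hd.symm)]
  have hσ₁ : ∃ σ₁ : Γℚ, (∀ (p : ℕ) [Fact p.Prime], (p : ℤ_[p]) ^ N.factorization p ∣
      ((((hG p).unit⁻¹ * cyc p σ₁ : ℤ_[p]ˣ)) : ℤ_[p]) - 1) ∧
      (Serre.IsEven ((X 2).M σ₁) ↔ Serre.IsEven (G 2)) := by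
    by_cases h : Serre.IsEven ((X 2).M σ₀) ↔ Serre.IsEven (G 2)
    · refine ⟨σ₀, fun p hp => ?_, h⟩
      rw [hσ₀ p, inv_mul_cancel, Units.val_one, sub_self]
      exact dvd_zero _
    · refine ⟨σ₀ * τ, fun p hp => ?_, ?_⟩
      · rw [map_mul, hσ₀ p, inv_mul_cancel_left, ← fixMu_pow_iff]
        exact hτ.of_dvd (N.ordProj_dvd p)
      · have h3 : ¬ Serre.IsEven ((X 2).M τ) := fun h3 => hτδ ((hsign τ).mp h3)
        rw [map_mul, Serre.isEven_mul_iff ((X 2).isUnit_det_M _) ((X 2).isUnit_det_M _)]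
        exact levels_iff_aux h h3
  obtain ⟨σ₁, hc, he⟩ := hσ₁
  let G' : ∀ (p : ℕ) [Fact p.Prime], Matrix (Fin 2) (Fin 2) ℤ_[p] := fun p _ =>
    G p * !![1, 0; 0, (((hG p).unit⁻¹ * cyc p σ₁ : ℤ_[p]ˣ) : ℤ_[p])]
  have hG' : ∀ (p : ℕ) [Fact p.Prime], Serre.Cg p (N.factorization p) (G' p) (G p) := by
    intro p hp
    have h1 : Serre.Cg p (N.factorization p)
        !![1, 0; 0, (((hG p).unit⁻¹ * cyc p σ₁ : ℤ_[p]ˣ) : ℤ_[p])]
        (1 : Matrix (Fin 2) (Fin 2) ℤ_[p]) := by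
      rw [Serre.cg_iff]
      intro i j
      fin_cases i <;> fin_cases j
      · simp
      · simp
      · simp
      · exact hc p
    have h2 := h1.mul_left (G p)
    rwa [mul_one] at h2
  have hk : 1 ≤ N.factorization 2 := by
    rw [← Nat.Prime.dvd_iff_one_le_factorization Nat.prime_two hN]
    exact h2
  have h21 : Serre.Cg 2 1 (G' 2) (G 2) := Serre.Cg.mono hk (hG' 2)
  obtain ⟨σ, hσ⟩ := H.exists_M_eq X G' σ₁ (fun p hp => by
    rw [Matrix.det_mul, levels_det_aux, Units.val_mul, ← mul_assoc,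
      IsUnit.mul_val_inv, one_mul])
    (he.trans ⟨fun h => h.congr h21.symm, fun h => h.congr h21⟩)
  refine ⟨σ, hgen σ fun p hp => ?_⟩
  rw [hσ p]
  exact hG' p

/-! ### The obstruction -/

/-- The action on `W[N]` is not surjective if `N` is even and `√Δ` is fixed by all `σ` which fix the
`N`-th roots of unity, any equation over `ℤ` with `Δ ≠ 0`. -/
theorem not_surjMod_of_fixed (hΔ : W.Δ ≠ 0) {δ : Qbar} (hδ : δ ^ 2 = ((W.Δ : ℤ) : Qbar))
    {N : ℕ} (hN : N ≠ 0) (h2 : 2 ∣ N) (hfix : ∀ σ : Γℚ, FixMu N σ → σ δ = δ) :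
    ¬ SurjMod W N := by
  intro hs
  obtain ⟨X⟩ := exists_tb (W := W) (p := 2) hΔ
  obtain ⟨k, hkdef⟩ : ∃ k, k = N.factorization 2 := ⟨_, rfl⟩
  obtain ⟨m, hmdef⟩ : ∃ m, m = N / 2 ^ k := ⟨_, rfl⟩
  have hNm : 2 ^ k * m = N := by
    rw [hmdef, hkdef]
    exact Nat.ordProj_mul_ordCompl_eq_self N 2
  have hm2 : ¬ 2 ∣ m := by
    rw [hmdef, hkdef]
    exact Nat.not_dvd_ordCompl Nat.prime_two hN
  have hk : 1 ≤ k := by
    rw [hkdef, ← Nat.Prime.dvd_iff_one_le_factorization Nat.prime_two hN]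
    exact h2
  have hdk : 2 ^ k ∣ N := ⟨m, hNm.symm⟩
  -- the endomorphism of the `2^k`-torsion
  obtain ⟨t, ht⟩ : ∃ t : Module.End (ZMod (2 ^ k)) (Submodule.torsionBy ℤ
      ((W.map (Int.castRingHom ℚ))⁄(AlgebraicClosure ℚ)).Point ((2 ^ k : ℕ) : ℤ)),
      t = Matrix.toLin (X.bn k) (X.bn k) !![0, 1; 0, 0] := ⟨_, rfl⟩
  have htt : ∀ x, t (t x) = 0 := by
    intro x
    have h1 : t * t = 0 := by
      apply (LinearMap.toMatrix (X.bn k) (X.bn k)).injective
      rw [LinearMap.toMatrix_mul, ht, LinearMap.toMatrix_toLin, _root_.map_zero]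
      ext i j
      fin_cases i <;> fin_cases j <;> simp [Matrix.mul_apply]
    exact LinearMap.congr_fun h1 x
  have hmem : ∀ x : Submodule.torsionBy ℤ
      ((W.map (Int.castRingHom ℚ))⁄(AlgebraicClosure ℚ)).Point N,
      m • (x : (EQ W).Point) ∈ Submodule.torsionBy ℤ (EQ W).Point ((2 ^ k : ℕ) : ℤ) := by
    intro x
    rw [Submodule.mem_torsionBy_iff, natCast_zsmul, ← mul_smul, hNm]
    have := (Submodule.mem_torsionBy_iff _ _).1 x.2
    rwa [natCast_zsmul] at this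
  let f : Submodule.torsionBy ℤ ((W.map (Int.castRingHom ℚ))⁄(AlgebraicClosure ℚ)).Point N →+
      Submodule.torsionBy ℤ ((W.map (Int.castRingHom ℚ))⁄(AlgebraicClosure ℚ)).Point N :=
    { toFun := fun x => ⟨(t ⟨m • (x : (EQ W).Point), hmem x⟩ : (EQ W).Point),
        mem_torsionBy_of_dvd hdk (t ⟨m • (x : (EQ W).Point), hmem x⟩).2⟩
      map_zero' := by
        refine Subtype.ext ?_
        have h1 : (⟨m • ((0 : Submodule.torsionBy ℤ (EQ W).Point (N : ℤ)) : (EQ W).Point),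
          hmem 0⟩ : Submodule.torsionBy ℤ (EQ W).Point ((2 ^ k : ℕ) : ℤ)) = 0 :=
          Subtype.ext (smul_zero m)
        have h2 := congrArg Subtype.val ((congrArg t h1).trans (_root_.map_zero t))
        exact h2
      map_add' := fun x y => by
        refine Subtype.ext ?_
        have h1 : (⟨m • ((x + y : Submodule.torsionBy ℤ (EQ W).Point (N : ℤ)) : (EQ W).Point),
          hmem (x + y)⟩ : Submodule.torsionBy ℤ (EQ W).Point ((2 ^ k : ℕ) : ℤ)) =
            ⟨m • (x : (EQ W).Point), hmem x⟩ + ⟨m • (y : (EQ W).Point), hmem y⟩ :=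
          Subtype.ext (show m • (x.1 + y.1) = m • x.1 + m • y.1 from nsmul_add _ _ m)
        have h2 := congrArg Subtype.val ((congrArg t h1).trans (map_add t _ _))
        exact h2 }
  have hf : ∀ x, (f x : (EQ W).Point) = t ⟨m • (x : (EQ W).Point), hmem x⟩ := fun x => rfl
  have hff : ∀ x, f (f x) = 0 := by
    intro x
    refine Subtype.ext ?_
    rw [hf]
    have h1 : (⟨m • (f x : (EQ W).Point), hmem (f x)⟩ :
        Submodule.torsionBy ℤ (EQ W).Point ((2 ^ k : ℕ) : ℤ)) =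
          m • t ⟨m • (x : (EQ W).Point), hmem x⟩ := rfl
    rw [h1, map_nsmul, htt, smul_zero]
    rfl
  let e : Submodule.torsionBy ℤ ((W.map (Int.castRingHom ℚ))⁄(AlgebraicClosure ℚ)).Point N
      ≃ₗ[ZMod N]
        Submodule.torsionBy ℤ ((W.map (Int.castRingHom ℚ))⁄(AlgebraicClosure ℚ)).Point N :=
    LinearEquiv.ofLinearMap (LinearMap.id + f.toZModLinearMap N)
      (LinearMap.id - f.toZModLinearMap N)
      (LinearMap.ext fun x => by
        change (x - f x) + f (x - f x) = x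
        rw [map_sub, hff, sub_zero, sub_add_cancel])
      (LinearMap.ext fun x => by
        change (x + f x) - f (x + f x) = x
        rw [map_add, hff, add_zero, add_sub_cancel_right])
  obtain ⟨σ, hσ⟩ := hs e
  have hσP : ∀ x : Submodule.torsionBy ℤ
      ((W.map (Int.castRingHom ℚ))⁄(AlgebraicClosure ℚ)).Point N,
      σ • (x : (EQ W).Point) = x + t ⟨m • (x : (EQ W).Point), hmem x⟩ := fun x =>
    congrArg Subtype.val (hσ x)
  -- the matrix at `2`
  have hM2 : Serre.Cg 2 k (X.M σ) (Serre.tU (m : ℤ_[2])) := by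
    rw [Tb.cg_iff_map, ← X.map_M σ k]
    have h1 : galoisRepModuleEnd (K := AlgebraicClosure ℚ) ℚ (W.map (Int.castRingHom ℚ)) (2 ^ k) σ
        = LinearMap.id + (m : ZMod (2 ^ k)) • t := by
      refine LinearMap.ext fun x => Subtype.ext ?_
      have h2 := hσP ⟨x, mem_torsionBy_of_dvd hdk x.2⟩
      have h3 : (⟨m • (x : (EQ W).Point), hmem ⟨x, mem_torsionBy_of_dvd hdk x.2⟩⟩ :
        Submodule.torsionBy ℤ (EQ W).Point ((2 ^ k : ℕ) : ℤ)) = m • x := rfl
      rw [h3, map_nsmul] at h2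
      rw [LinearMap.add_apply, LinearMap.smul_apply, LinearMap.id_apply, Nat.cast_smul_eq_nsmul]
      exact h2
    rw [h1, map_add, map_smul, LinearMap.toMatrix_id, ht, LinearMap.toMatrix_toLin]
    ext i j
    fin_cases i <;> fin_cases j <;> simp [Serre.tU]
  -- the other primes
  have hM : ∀ (p : ℕ) [Fact p.Prime], p ≠ 2 → ∀ Y : Tb W p,
      Serre.Cg p (N.factorization p) (Y.M σ) 1 := by
    intro p hp hp2 Y
    rw [Tb.cg_iff_map, ← Y.map_M σ _, Matrix.map_one _ (_root_.map_zero _) (_root_.map_one _),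
      ← LinearMap.toMatrix_one (Y.bn _)]
    congr 1
    refine LinearMap.ext fun x => Subtype.ext ?_
    have h2 := hσP ⟨x, mem_torsionBy_of_dvd (N.ordProj_dvd p) x.2⟩
    have h3 : (⟨m • (x : (EQ W).Point),
        hmem ⟨x, mem_torsionBy_of_dvd (N.ordProj_dvd p) x.2⟩⟩ :
        Submodule.torsionBy ℤ (EQ W).Point ((2 ^ k : ℕ) : ℤ)) = 0 := by
      refine Subtype.ext ?_
      have h4 : p ^ N.factorization p ∣ m := by
        have h5 : Nat.Coprime (p ^ N.factorization p) (2 ^ k) :=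
          Nat.Coprime.pow _ _ ((Nat.coprime_primes hp.out Nat.prime_two).mpr hp2)
        refine h5.dvd_of_dvd_mul_left ?_
        rw [hNm]
        exact N.ordProj_dvd p
      obtain ⟨c, hc⟩ := h4
      have h6 := (Submodule.mem_torsionBy_iff _ _).1 x.2
      rw [natCast_zsmul] at h6
      change m • (x : (EQ W).Point) = 0
      rw [hc, mul_comm, mul_smul, h6, smul_zero]
    rw [h3, _root_.map_zero] at h2
    have h4 : σ • (x : (EQ W).Point) = x := h2.trans (add_zero _)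
    exact h4
  have hmu : FixMu N σ := by
    refine fixMu_of_pow hN fun p hp hpN => ?_
    have : Fact p.Prime := ⟨hp⟩
    rw [fixMu_pow_iff]
    obtain ⟨Y⟩ := exists_tb (W := W) (p := p) hΔ
    rw [← Y.det_M σ]
    by_cases hp2 : p = 2
    · subst hp2
      have h1 : Serre.Cg 2 k (Y.M σ).det 1 := by
        rw [Y.det_M, ← X.det_M, ← Serre.det_tU (m : ℤ_[2])]
        exact hM2.det
      rw [← hkdef]
      exact h1
    · have h1 := (hM p hp2 Y).det
      rw [Matrix.det_one] at h1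
      exact h1
  have h3 := hfix σ hmu
  obtain ⟨δ', hd, -, hs'⟩ := exists_sqrt_sign hΔ
  have h4 : Serre.IsEven (X.M σ) := by
    rw [isEven_M_iff hΔ X, ← hs', ← fixed_iff_of_sq (hδ.trans hd.symm)]
    exact h3
  have h5 : Serre.Cg 2 1 (Serre.tU (m : ℤ_[2])) (Serre.tU 1) := by
    refine Serre.Cg.tU ?_
    obtain ⟨c, hc⟩ : ∃ c, m = 2 * c + 1 := by
      have : Odd m := Nat.not_even_iff_odd.mp fun h => hm2 (even_iff_two_dvd.mp h)
      exact this
    refine ⟨(c : ℤ_[2]), ?_⟩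
    rw [hc]
    push_cast
    ring
  exact Serre.not_isEven_tU (h4.congr ((Serre.Cg.mono hk hM2).trans h5))

/-- **The levels where the image is everything**: `Gal(ℚ̄/ℚ)` acts on `W[N]` through all
automorphisms if and only if `N` is odd or there is `σ` which fixes the `N`-th roots of unity and
not `√Δ`. -/
theorem SerreHyp.surjMod_iff (H : SerreHyp W) {δ : Qbar} (hδ : δ ^ 2 = ((W.Δ : ℤ) : Qbar))
    {N : ℕ} (hN : N ≠ 0) : SurjMod W N ↔ Odd N ∨ ∃ σ : Γℚ, FixMu N σ ∧ σ δ ≠ δ := by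
  constructor
  · intro h
    rcases Nat.even_or_odd N with h1 | h1
    · right
      by_contra hcon
      push Not at hcon
      exact not_surjMod_of_fixed H.ne hδ hN (even_iff_two_dvd.mp h1) hcon h
    · exact Or.inl h1
  · rintro (h | ⟨τ, hτ, hτδ⟩)
    · exact surjMod_of_odd H.ne H.ss h fun p hp _ => H.irr p hp
    · rcases Nat.even_or_odd N with h1 | h1
      · exact H.surjMod_of_even hδ hN (even_iff_two_dvd.mp h1) hτ hτδ
      · exact surjMod_of_odd H.ne H.ss h1 fun p hp _ => H.irr p hp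

theorem mem_adjoin_iff_fixMu (N : ℕ) (δ : Qbar) :
    δ ∈ IntermediateField.adjoin ℚ {ζ : Qbar | ζ ^ N = 1} ↔ ∀ σ : Γℚ, FixMu N σ → σ δ = δ := by
  rw [← InfiniteGalois.fixedField_fixingSubgroup
    (IntermediateField.adjoin ℚ {ζ : Qbar | ζ ^ N = 1})]
  constructor
  · intro h σ hσ
    refine h ⟨σ, ?_⟩
    rw [IntermediateField.mem_fixingSubgroup_iff]
    have h3 : {ζ : Qbar | ζ ^ N = 1} ⊆ (IntermediateField.fixedField (Subgroup.zpowers σ) :
        IntermediateField ℚ Qbar) := by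
      intro ζ hζ
      have h4 : Subgroup.zpowers σ ≤ MulAction.stabilizer Γℚ ζ :=
        Subgroup.zpowers_le.mpr (MulAction.mem_stabilizer_iff.mpr (hσ ζ hζ))
      rintro ⟨τ, hτ⟩
      exact MulAction.mem_stabilizer_iff.mp (h4 hτ)
    intro x hx
    exact (IntermediateField.adjoin_le_iff.mpr h3) hx ⟨σ, Subgroup.mem_zpowers σ⟩
  · rintro h ⟨σ, hσ⟩
    rw [IntermediateField.mem_fixingSubgroup_iff] at hσ
    exact h σ fun ζ hζ => hσ ζ (IntermediateField.subset_adjoin ℚ _ hζ)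

/-- **The levels where the image is everything**: `Gal(ℚ̄/ℚ)` acts on `W[N]` through all
automorphisms if and only if `N` is odd or `√Δ` is not in `ℚ(ζ_N)`. -/
theorem SerreHyp.surjMod_iff_adjoin (H : SerreHyp W) {δ : Qbar}
    (hδ : δ ^ 2 = ((W.Δ : ℤ) : Qbar)) {N : ℕ} (hN : N ≠ 0) : SurjMod W N ↔
      Odd N ∨ δ ∉ IntermediateField.adjoin ℚ {ζ : Qbar | ζ ^ N = 1} := by
  rw [H.surjMod_iff hδ hN, mem_adjoin_iff_fixMu]
  push Not
  rfl

end Fermat.Agent.Cor

end
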