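import Fermat.Agent.Corollaries.Surj.SerreOrbits
import Fermat.Agent.Corollaries.Katz.Orbits

/-!
# Serre curves: the torsion of the reductions, every level `N`

Let `W` satisfy `SerreHyp` (see `Surj/SerreCurve`) and `N ≥ 1`.  There are exactly `d(N)` orbits of
`Gal(ℚ̄/ℚ)` on `W[N]`, the number of divisors of `N` (`SerreHyp.orbits_eq`), and the mean of
`#W(𝔽_ℓ)[N]` over the primes `ℓ` is `d(N)` (`SerreHyp.mean_eq_card_divisors`); for
`37a : y² + y = x³ - x` and every `N ≥ 1` see `InvGal.mean_eq_card_divisors37_all`.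
-/

set_option autoImplicit false

noncomputable section

open WeierstrassCurve WeierstrassCurve.Affine WeierstrassCurve.Affine.Point Module
open Fermat.Agent.ECRed Fermat.Agent.Tate Fermat.Agent.Classic Fermat.Agent.S30aux
open Filter Topology
open scoped WeierstrassCurve.Affine

namespace Fermat.Agent.Cor

local notation "Γℚ" => (AlgebraicClosure ℚ ≃ₐ[ℚ] AlgebraicClosure ℚ)

variable {W : WeierstrassCurve ℤ} {N : ℕ}

open Katz in
/-- If the points of order `M` are conjugate for every `M ∣ N`, there are `d(N)` orbits. -/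
theorem orbits_eq_of_transitive (hΔ : W.Δ ≠ 0) (hN : N ≠ 0)
    (h : ∀ M : ℕ, M ∣ N → ∀ x y : (EQ W).Point, addOrderOf x = M → addOrderOf y = M →
      ∃ σ : Γℚ, σ • x = y) : orbits W N = N.divisors.card := by
  classical
  let f : MulAction.orbitRel.Quotient (act W N).range (TorsPt W N) → {d // d ∈ N.divisors} :=
    Quotient.lift (fun P : TorsPt W N => (⟨addOrderOf P.1, Nat.mem_divisors.mpr
      ⟨addOrderOf_dvd_of_nsmul_eq_zero P.2, hN⟩⟩ : {d // d ∈ N.divisors})) (by
      rintro P Q ⟨⟨_, σ, rfl⟩, h1⟩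
      have h2 : σ • Q.1 = P.1 := congrArg Subtype.val h1
      refine Subtype.ext ?_
      change addOrderOf P.1 = addOrderOf Q.1
      rw [← h2, addOrderOf_smul_eq])
  have hf : Function.Bijective f := by
    constructor
    · intro a b
      refine Quotient.inductionOn₂ a b fun P Q h1 => ?_
      have h2 : addOrderOf P.1 = addOrderOf Q.1 := congrArg Subtype.val h1
      apply Quotient.sound
      obtain ⟨σ, hσ⟩ := h (addOrderOf Q.1) (addOrderOf_dvd_of_nsmul_eq_zero Q.2) Q.1 P.1 rfl h2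
      exact ⟨⟨act W N σ, σ, rfl⟩, Subtype.ext hσ⟩
    · rintro ⟨d, hd⟩
      obtain ⟨h1, -⟩ := Nat.mem_divisors.mp hd
      obtain ⟨x, hx⟩ := exists_addOrderOf hΔ d (fun h0 => hN (by
        rw [h0] at h1
        exact zero_dvd_iff.mp h1))
      have hNx : N • x = 0 := addOrderOf_dvd_iff_nsmul_eq_zero.mp (by rw [hx]; exact h1)
      exact ⟨⟦⟨x, hNx⟩⟧, Subtype.ext hx⟩
  rw [orbits, Nat.card_congr (Equiv.ofBijective f hf), Nat.card_eq_fintype_card, Fintype.card_coe]

namespace SerreHyp

/-- **The number of Galois orbits in `W[N]` is the number of divisors of `N`**, Serre curves, every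
`N ≥ 1`. -/
theorem orbits_eq (H : SerreHyp W) (hN : N ≠ 0) : Katz.orbits W N = N.divisors.card :=
  orbits_eq_of_transitive H.ne hN fun M hM _ _ hx hy =>
    H.exists_smul_eq_of_addOrderOf (fun h0 => hN (by
      rw [h0] at hM
      exact zero_dvd_iff.mp hM)) hx hy

/-- **The mean of `#W(𝔽_ℓ)[N]` over the primes `ℓ` is the number of divisors of `N`**, Serre curves,
every `N ≥ 1`. -/
theorem mean_eq_card_divisors (H : SerreHyp W) (hN : N ≠ 0) :
    Tendsto (fun x : ℕ => (∑ ℓ ∈ (Finset.range (x + 1)).filter Nat.Prime,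
      (Katz.redTors W N ℓ : ℝ)) / Nat.primeCounting x) atTop (𝓝 N.divisors.card) := by
  have h1 := Katz.mean_redTors H.ne hN
  rwa [H.orbits_eq hN] at h1

end SerreHyp

namespace InvGal

/-- **The curve `E : y² + y = x³ - x`**: for every `N ≥ 1` the mean of `#E(𝔽_ℓ)[N]` over the primes
`ℓ` is the number of divisors of `N`. -/
theorem mean_eq_card_divisors37_all (hN : N ≠ 0) :
    Tendsto (fun x : ℕ => (∑ ℓ ∈ (Finset.range (x + 1)).filter Nat.Prime,
      (Katz.redTors W37 N ℓ : ℝ)) / Nat.primeCounting x) atTop (𝓝 N.divisors.card) :=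
  serreHyp37.mean_eq_card_divisors hN

/-- The same for `y² + y = x³ - x + t`, `6 ∣ t`. -/
theorem mean_eq_card_divisors_Et {t : ℤ} (h : (6 : ℤ) ∣ t) (hN : N ≠ 0) :
    Tendsto (fun x : ℕ => (∑ ℓ ∈ (Finset.range (x + 1)).filter Nat.Prime,
      (Katz.redTors (Et t) N ℓ : ℝ)) / Nat.primeCounting x) atTop (𝓝 N.divisors.card) :=
  (serreHyp_Et h).mean_eq_card_divisors hN

end InvGal

end Fermat.Agent.Cor

end
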