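import Fermat.Agent.Corollaries.Surj.SerreIndex

/-!
# Serre curves: Galois is transitive on the points of order `N`, every `N`

Let `W` satisfy `SerreHyp` (see `Surj/SerreCurve`) and `N ≥ 1`.  Two points of order `N` of `W(ℚ̄)` are
conjugate under `Gal(ℚ̄/ℚ)` (`SerreHyp.exists_smul_eq`), although for some `N` the image in
`Aut(W[N])` is not everything: it has index at most two, hence it is normal, and outside it there is
an automorphism which fixes a point of order `N` (`exists_transv`).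
-/

set_option autoImplicit false

noncomputable section

open WeierstrassCurve WeierstrassCurve.Affine WeierstrassCurve.Affine.Point Module
open Fermat.Agent.ECRed Fermat.Agent.Tate Fermat.Agent.Classic Fermat.Agent.S30aux
open scoped WeierstrassCurve.Affine

namespace Fermat.Agent.Cor

local notation "Qbar" => AlgebraicClosure ℚ
local notation "Γℚ" => (AlgebraicClosure ℚ ≃ₐ[ℚ] AlgebraicClosure ℚ)

variable {W : WeierstrassCurve ℤ} {N : ℕ}

/-- For even `N` there is an automorphism `e` of `W[N]` which fixes a point of order `N`, such that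
every `σ` acting as `e` fixes the `N`-th roots of unity and permutes the points of order two by an
odd permutation. -/
theorem exists_transv (hΔ : W.Δ ≠ 0) (hN : N ≠ 0) (h2 : 2 ∣ N) {y : (EQ W).Point}
    (hy : addOrderOf y = N) :
    ∃ (e : Tors W N ≃ₗ[ZMod N] Tors W N) (x₀ : Tors W N), addOrderOf x₀ = N ∧ e x₀ = x₀ ∧
      ∀ σ : Γℚ, torsAut W N σ = e → FixMu N σ ∧ repP 2 hΔ σ ^ 3 ≠ 1 := by
  obtain ⟨X⟩ := exists_tb (W := W) (p := 2) hΔ
  obtain ⟨k, hkdef⟩ : ∃ k, k = N.factorization 2 := ⟨_, rfl⟩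
  obtain ⟨m, hmdef⟩ : ∃ m, m = N / 2 ^ k := ⟨_, rfl⟩
  have hNm : 2 ^ k * m = N := by
    rw [hmdef, hkdef]
    exact Nat.ordProj_mul_ordCompl_eq_self N 2
  have hm2 : ¬ 2 ∣ m := by
    rw [hmdef, hkdef]
    exact Nat.not_dvd_ordCompl Nat.prime_two hN
  have hk : 1 ≤ k := by
    rw [hkdef, ← Nat.Prime.dvd_iff_one_le_factorization Nat.prime_two hN]
    exact h2
  have hdk : 2 ^ k ∣ N := ⟨m, hNm.symm⟩
  -- the endomorphism of the `2^k`-torsion
  obtain ⟨t, ht⟩ : ∃ t : Module.End (ZMod (2 ^ k)) (Submodule.torsionBy ℤ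
      ((W.map (Int.castRingHom ℚ))⁄(AlgebraicClosure ℚ)).Point ((2 ^ k : ℕ) : ℤ)),
      t = Matrix.toLin (X.bn k) (X.bn k) !![0, 1; 0, 0] := ⟨_, rfl⟩
  have htt : ∀ x, t (t x) = 0 := by
    intro x
    have h1 : t * t = 0 := by
      apply (LinearMap.toMatrix (X.bn k) (X.bn k)).injective
      rw [LinearMap.toMatrix_mul, ht, LinearMap.toMatrix_toLin, _root_.map_zero]
      ext i j
      fin_cases i <;> fin_cases j <;> simp [Matrix.mul_apply]
    exact LinearMap.congr_fun h1 x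
  have hmem : ∀ x : Submodule.torsionBy ℤ
      ((W.map (Int.castRingHom ℚ))⁄(AlgebraicClosure ℚ)).Point N,
      m • (x : (EQ W).Point) ∈ Submodule.torsionBy ℤ (EQ W).Point ((2 ^ k : ℕ) : ℤ) := by
    intro x
    rw [Submodule.mem_torsionBy_iff, natCast_zsmul, ← mul_smul, hNm]
    have := (Submodule.mem_torsionBy_iff _ _).1 x.2
    rwa [natCast_zsmul] at this
  let f : Submodule.torsionBy ℤ ((W.map (Int.castRingHom ℚ))⁄(AlgebraicClosure ℚ)).Point N →+
      Submodule.torsionBy ℤ ((W.map (Int.castRingHom ℚ))⁄(AlgebraicClosure ℚ)).Point N :=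
    { toFun := fun x => ⟨(t ⟨m • (x : (EQ W).Point), hmem x⟩ : (EQ W).Point),
        mem_torsionBy_of_dvd hdk (t ⟨m • (x : (EQ W).Point), hmem x⟩).2⟩
      map_zero' := by
        refine Subtype.ext ?_
        have h1 : (⟨m • ((0 : Submodule.torsionBy ℤ (EQ W).Point (N : ℤ)) : (EQ W).Point),
          hmem 0⟩ : Submodule.torsionBy ℤ (EQ W).Point ((2 ^ k : ℕ) : ℤ)) = 0 :=
          Subtype.ext (smul_zero m)
        have h2 := congrArg Subtype.val ((congrArg t h1).trans (_root_.map_zero t))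
        exact h2
      map_add' := fun x y => by
        refine Subtype.ext ?_
        have h1 : (⟨m • ((x + y : Submodule.torsionBy ℤ (EQ W).Point (N : ℤ)) : (EQ W).Point),
          hmem (x + y)⟩ : Submodule.torsionBy ℤ (EQ W).Point ((2 ^ k : ℕ) : ℤ)) =
            ⟨m • (x : (EQ W).Point), hmem x⟩ + ⟨m • (y : (EQ W).Point), hmem y⟩ :=
          Subtype.ext (show m • (x.1 + y.1) = m • x.1 + m • y.1 from nsmul_add _ _ m)
        have h2 := congrArg Subtype.val ((congrArg t h1).trans (map_add t _ _))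
        exact h2 }
  have hf : ∀ x, (f x : (EQ W).Point) = t ⟨m • (x : (EQ W).Point), hmem x⟩ := fun x => rfl
  have hff : ∀ x, f (f x) = 0 := by
    intro x
    refine Subtype.ext ?_
    rw [hf]
    have h1 : (⟨m • (f x : (EQ W).Point), hmem (f x)⟩ :
        Submodule.torsionBy ℤ (EQ W).Point ((2 ^ k : ℕ) : ℤ)) =
          m • t ⟨m • (x : (EQ W).Point), hmem x⟩ := rfl
    rw [h1, map_nsmul, htt, smul_zero]
    rfl
  let e : Submodule.torsionBy ℤ ((W.map (Int.castRingHom ℚ))⁄(AlgebraicClosure ℚ)).Point N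
      ≃ₗ[ZMod N]
        Submodule.torsionBy ℤ ((W.map (Int.castRingHom ℚ))⁄(AlgebraicClosure ℚ)).Point N :=
    LinearEquiv.ofLinearMap (LinearMap.id + f.toZModLinearMap N)
      (LinearMap.id - f.toZModLinearMap N)
      (LinearMap.ext fun x => by
        change (x - f x) + f (x - f x) = x
        rw [map_sub, hff, sub_zero, sub_add_cancel])
      (LinearMap.ext fun x => by
        change (x + f x) - f (x + f x) = x
        rw [map_add, hff, add_zero, add_sub_cancel_right])
  -- the fixed point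
  obtain ⟨b₁, hb₁⟩ : ∃ b₁, b₁ = X.bn k 0 := ⟨_, rfl⟩
  have hb₁o : addOrderOf (b₁ : (EQ W).Point) = 2 ^ k := by
    have h1 : ∀ j : ℕ, j • (b₁ : (EQ W).Point) = 0 → 2 ^ k ∣ j := by
      intro j hj
      have h3 : (j : ZMod (2 ^ k)) • b₁ = 0 := by
        rw [Nat.cast_smul_eq_nsmul]
        exact Subtype.ext hj
      have h4 := congrArg (fun z => (X.bn k).repr z 0) h3
      simp only [hb₁, map_smul, Basis.repr_self, Finsupp.smul_single, smul_eq_mul, mul_one,
        Finsupp.single_eq_same, _root_.map_zero, Finsupp.zero_apply] at h4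
      exact (ZMod.natCast_eq_zero_iff _ _).mp h4
    refine Nat.dvd_antisymm (addOrderOf_dvd_of_nsmul_eq_zero ?_) (h1 _ (addOrderOf_nsmul_eq_zero _))
    have h3 := (Submodule.mem_torsionBy_iff _ _).1 b₁.2
    rwa [natCast_zsmul] at h3
  have hk0 : 2 ^ k ≠ 0 := pow_ne_zero k two_ne_zero
  have hyo : addOrderOf ((2 ^ k) • y) = m := by
    rw [addOrderOf_nsmul' y hk0, hy, ← hNm, Nat.gcd_eq_right (Dvd.intro _ rfl),
      Nat.mul_div_cancel_left _ (Nat.pos_of_ne_zero hk0)]
  have hcop : (addOrderOf (b₁ : (EQ W).Point)).Coprime (addOrderOf ((2 ^ k) • y)) := by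
    rw [hb₁o, hyo]
    exact Nat.Coprime.pow_left _ ((Nat.Prime.coprime_iff_not_dvd Nat.prime_two).mpr hm2)
  have hx₀ : addOrderOf ((b₁ : (EQ W).Point) + (2 ^ k) • y) = N := by
    rw [(AddCommute.all _ _).addOrderOf_add_eq_mul_addOrderOf_of_coprime hcop, hb₁o, hyo, hNm]
  have hx₀mem : (b₁ : (EQ W).Point) + (2 ^ k) • y ∈ Submodule.torsionBy ℤ (EQ W).Point (N : ℤ) := by
    rw [Submodule.mem_torsionBy_iff, natCast_zsmul]
    have h3 := addOrderOf_nsmul_eq_zero ((b₁ : (EQ W).Point) + (2 ^ k) • y)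
    rwa [hx₀] at h3
  refine ⟨e, ⟨_, hx₀mem⟩, ?_, ?_, fun σ hσe => ?_⟩
  · exact (addOrderOf_injective (Submodule.subtype (Submodule.torsionBy ℤ (EQ W).Point
      (N : ℤ))).toAddMonoidHom Subtype.val_injective ⟨_, hx₀mem⟩).symm.trans hx₀
  · change (⟨_, hx₀mem⟩ : Tors W N) + f ⟨_, hx₀mem⟩ = _
    have h3 : f ⟨_, hx₀mem⟩ = 0 := by
      refine Subtype.ext ?_
      rw [hf]
      have h4 : (⟨m • ((b₁ : (EQ W).Point) + (2 ^ k) • y), hmem ⟨_, hx₀mem⟩⟩ :
          Submodule.torsionBy ℤ (EQ W).Point ((2 ^ k : ℕ) : ℤ)) = m • b₁ := by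
        refine Subtype.ext ?_
        change m • ((b₁ : (EQ W).Point) + (2 ^ k) • y) = m • (b₁ : (EQ W).Point)
        rw [nsmul_add, ← mul_smul, mul_comm, hNm, ← hy, addOrderOf_nsmul_eq_zero, add_zero]
      have h5 : t b₁ = 0 := by
        rw [ht, hb₁, Matrix.toLin_self, Fin.sum_univ_two]
        change (0 : ZMod (2 ^ k)) • X.bn k 0 + (0 : ZMod (2 ^ k)) • X.bn k 1 = 0
        rw [zero_smul, zero_smul, add_zero]
      have h6 := congrArg t h4
      rw [map_nsmul, h5, smul_zero] at h6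
      exact congrArg Subtype.val h6
    rw [h3, add_zero]
  have hσ : ∀ x : Tors W N, σ • x = e x := fun x => LinearEquiv.congr_fun hσe x
  have hσP : ∀ x : Submodule.torsionBy ℤ
      ((W.map (Int.castRingHom ℚ))⁄(AlgebraicClosure ℚ)).Point N,
      σ • (x : (EQ W).Point) = x + t ⟨m • (x : (EQ W).Point), hmem x⟩ := fun x =>
    congrArg Subtype.val (hσ x)
  -- the matrix at `2`
  have hM2 : Serre.Cg 2 k (X.M σ) (Serre.tU (m : ℤ_[2])) := by
    rw [Tb.cg_iff_map, ← X.map_M σ k]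
    have h1 : galoisRepModuleEnd (K := AlgebraicClosure ℚ) ℚ (W.map (Int.castRingHom ℚ)) (2 ^ k) σ
        = LinearMap.id + (m : ZMod (2 ^ k)) • t := by
      refine LinearMap.ext fun x => Subtype.ext ?_
      have h2 := hσP ⟨x, mem_torsionBy_of_dvd hdk x.2⟩
      have h3 : (⟨m • (x : (EQ W).Point), hmem ⟨x, mem_torsionBy_of_dvd hdk x.2⟩⟩ :
        Submodule.torsionBy ℤ (EQ W).Point ((2 ^ k : ℕ) : ℤ)) = m • x := rfl
      rw [h3, map_nsmul] at h2
      rw [LinearMap.add_apply, LinearMap.smul_apply, LinearMap.id_apply, Nat.cast_smul_eq_nsmul]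
      exact h2
    rw [h1, map_add, map_smul, LinearMap.toMatrix_id, ht, LinearMap.toMatrix_toLin]
    ext i j
    fin_cases i <;> fin_cases j <;> simp [Serre.tU]
  -- the other primes
  have hM : ∀ (p : ℕ) [Fact p.Prime], p ≠ 2 → ∀ Y : Tb W p,
      Serre.Cg p (N.factorization p) (Y.M σ) 1 := by
    intro p hp hp2 Y
    rw [Tb.cg_iff_map, ← Y.map_M σ _, Matrix.map_one _ (_root_.map_zero _) (_root_.map_one _),
      ← LinearMap.toMatrix_one (Y.bn _)]
    congr 1
    refine LinearMap.ext fun x => Subtype.ext ?_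
    have h2 := hσP ⟨x, mem_torsionBy_of_dvd (N.ordProj_dvd p) x.2⟩
    have h3 : (⟨m • (x : (EQ W).Point),
        hmem ⟨x, mem_torsionBy_of_dvd (N.ordProj_dvd p) x.2⟩⟩ :
        Submodule.torsionBy ℤ (EQ W).Point ((2 ^ k : ℕ) : ℤ)) = 0 := by
      refine Subtype.ext ?_
      have h4 : p ^ N.factorization p ∣ m := by
        have h5 : Nat.Coprime (p ^ N.factorization p) (2 ^ k) :=
          Nat.Coprime.pow _ _ ((Nat.coprime_primes hp.out Nat.prime_two).mpr hp2)
        refine h5.dvd_of_dvd_mul_left ?_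
        rw [hNm]
        exact N.ordProj_dvd p
      obtain ⟨c, hc⟩ := h4
      have h6 := (Submodule.mem_torsionBy_iff _ _).1 x.2
      rw [natCast_zsmul] at h6
      change m • (x : (EQ W).Point) = 0
      rw [hc, mul_comm, mul_smul, h6, smul_zero]
    rw [h3, _root_.map_zero] at h2
    have h4 : σ • (x : (EQ W).Point) = x := h2.trans (add_zero _)
    exact h4
  have hmu : FixMu N σ := by
    refine fixMu_of_pow hN fun p hp hpN => ?_
    have : Fact p.Prime := ⟨hp⟩
    rw [fixMu_pow_iff]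
    obtain ⟨Y⟩ := exists_tb (W := W) (p := p) hΔ
    rw [← Y.det_M σ]
    by_cases hp2 : p = 2
    · subst hp2
      have h1 : Serre.Cg 2 k (Y.M σ).det 1 := by
        rw [Y.det_M, ← X.det_M, ← Serre.det_tU (m : ℤ_[2])]
        exact hM2.det
      rw [← hkdef]
      exact h1
    · have h1 := (hM p hp2 Y).det
      rw [Matrix.det_one] at h1
      exact h1
  refine ⟨hmu, fun h3 => ?_⟩
  have h4 : Serre.IsEven (X.M σ) := (isEven_M_iff hΔ X σ).mpr h3
  have h5 : Serre.Cg 2 1 (Serre.tU (m : ℤ_[2])) (Serre.tU 1) := by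
    refine Serre.Cg.tU ?_
    obtain ⟨c, hc⟩ : ∃ c, m = 2 * c + 1 := by
      have : Odd m := Nat.not_even_iff_odd.mp fun h => hm2 (even_iff_two_dvd.mp h)
      exact this
    refine ⟨(c : ℤ_[2]), ?_⟩
    rw [hc]
    push_cast
    ring
  exact Serre.not_isEven_tU (h4.congr ((Serre.Cg.mono hk hM2).trans h5))

/-- **Galois is transitive on the points of order `N`** of a Serre curve, every `N ≥ 1`. -/
theorem SerreHyp.exists_smul_eq (H : SerreHyp W) (hN : N ≠ 0) {x y : Tors W N}
    (hx : addOrderOf x = N) (hy : addOrderOf y = N) : ∃ σ : Γℚ, σ • x = y := by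
  obtain ⟨g, hg⟩ := exists_linearEquiv_apply_eq H.ne hN hx hy
  by_cases hr : g ∈ (torsAut W N).range
  · obtain ⟨σ, rfl⟩ := hr
    exact ⟨σ, hg⟩
  · have hs : ¬ SurjMod W N := fun h => hr (by
      rw [surjMod_iff_range] at h
      rw [h]
      trivial)
    have hnormal : (torsAut W N).range.Normal :=
      Subgroup.normal_of_index_eq_two (H.index_range_torsAut hN hs)
    obtain ⟨δ, hδ, -, hsign⟩ := exists_sqrt_sign H.ne
    rw [H.surjMod_iff hδ hN] at hs
    push Not at hs
    have hxo : addOrderOf (x : (EQ W).Point) = N :=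
      (addOrderOf_injective (Submodule.subtype (Submodule.torsionBy ℤ (EQ W).Point
        (N : ℤ))).toAddMonoidHom Subtype.val_injective x).trans hx
    obtain ⟨e, x₀, hx₀, he, hσ⟩ := exists_transv H.ne hN
      (even_iff_two_dvd.mp (Nat.not_odd_iff_even.mp hs.1)) hxo
    have heR : e ∉ (torsAut W N).range := by
      rintro ⟨σ, hσe⟩
      obtain ⟨h1, h3⟩ := hσ σ hσe
      exact h3 ((hsign σ).mp (hs.2 σ h1))
    obtain ⟨u, hu⟩ := exists_linearEquiv_apply_eq H.ne hN hx₀ hx
    have h3 : u * e * u⁻¹ ∉ (torsAut W N).range := by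
      intro h
      have h4 := hnormal.conj_mem _ h u⁻¹
      have h5 : u⁻¹ * (u * e * u⁻¹) * u⁻¹⁻¹ = e := by group
      rw [h5] at h4
      exact heR h4
    obtain ⟨σ, hσ'⟩ := H.mul_mem_range hN hr h3
    refine ⟨σ, ?_⟩
    have h4 : u⁻¹ x = x₀ := by
      rw [← hu]
      exact u.symm_apply_apply x₀
    have h5 : σ • x = g (u (e (u⁻¹ x))) := LinearEquiv.congr_fun hσ' x
    rw [h5, h4, he, hu, hg]

/-- **The conjugates of a point of order `N`** of a Serre curve are all the points of order `N`. -/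
theorem SerreHyp.exists_smul_eq_of_addOrderOf (H : SerreHyp W) (hN : N ≠ 0)
    {x y : (EQ W).Point} (hx : addOrderOf x = N) (hy : addOrderOf y = N) :
    ∃ σ : Γℚ, σ • x = y := by
  have hm : ∀ {z : (EQ W).Point}, addOrderOf z = N →
      z ∈ Submodule.torsionBy ℤ (EQ W).Point (N : ℤ) := by
    intro z hz
    rw [Submodule.mem_torsionBy_iff, natCast_zsmul, ← hz]
    exact addOrderOf_nsmul_eq_zero z
  have ho : ∀ {z : (EQ W).Point} (hz : addOrderOf z = N),
      addOrderOf (⟨z, hm hz⟩ : Tors W N) = N := fun {z} hz =>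
    (addOrderOf_injective (Submodule.subtype (Submodule.torsionBy ℤ (EQ W).Point
      (N : ℤ))).toAddMonoidHom Subtype.val_injective ⟨z, hm hz⟩).symm.trans hz
  obtain ⟨σ, hσ⟩ := H.exists_smul_eq hN (ho hx) (ho hy)
  exact ⟨σ, congrArg Subtype.val hσ⟩

end Fermat.Agent.Cor

end
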