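import Fermat.Agent.Corollaries.Surj.TateAll
import Fermat.Agent.Corollaries.Surj.FiniteIndex
import Fermat.Agent.Corollaries.Surj.JointAll
import Fermat.Agent.Corollaries.KW.Recip

/-!
# The adelic representation of an elliptic curve over `ℚ` is never surjective (Serre)

`W` a Weierstrass equation over `ℤ` with `Δ ≠ 0`.  The sign of the permutation of the three points
of order two given by `σ ∈ Gal(ℚ̄/ℚ)` is `σ(√Δ)/√Δ` (`exists_sqrt_sign`), and `√Δ` is in the maximal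
abelian extension of `ℚ`, so the sign is determined by the values of the cyclotomic characters of
`σ` (`isEven_of_cyc`).  Hence `Gal(ℚ̄/ℚ) → ∏ Aut(T_p W)`, the product over all primes, is **not**
surjective (`not_surjective_adelicAut`).
-/

set_option autoImplicit false

noncomputable section

open WeierstrassCurve WeierstrassCurve.Affine WeierstrassCurve.Affine.Point Module
open Fermat.Agent.ECRed Fermat.Agent.Tate Fermat.Agent.Classic Fermat.Agent.S30aux
open scoped WeierstrassCurve.Affine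

namespace Fermat.Agent.Cor

local notation "Qbar" => AlgebraicClosure ℚ
local notation "Γℚ" => (AlgebraicClosure ℚ ≃ₐ[ℚ] AlgebraicClosure ℚ)

variable {W : WeierstrassCurve ℤ}

/-- **The sign of the action on the points of order two is the action on `√Δ`.** -/
theorem exists_sqrt_sign (hΔ : W.Δ ≠ 0) : ∃ δ : Qbar, δ ^ 2 = ((W.Δ : ℤ) : Qbar) ∧ δ ≠ 0 ∧
    ∀ σ : Γℚ, σ δ = δ ↔ repP 2 hΔ σ ^ 3 = 1 := by
  obtain ⟨x, y, z, ⟨hxy, hxz, hyz⟩, hd, hroot⟩ := exists_two_roots hΔ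
  have hx0 : psiTwo W x = 0 := by rw [hroot]; ring
  have hy0 : psiTwo W y = 0 := by rw [hroot]; ring
  have hz0 : psiTwo W z = 0 := by rw [hroot]; ring
  have hmem : ∀ t, psiTwo W t = 0 ↔ t = x ∨ t = y ∨ t = z := by
    intro t
    rw [hroot, mul_eq_zero, mul_eq_zero, mul_eq_zero, sub_eq_zero, sub_eq_zero, sub_eq_zero]
    constructor
    · rintro (h | (h | h) | h)
      · norm_num at h
      all_goals tauto
    · tauto
  obtain ⟨δ, hδ⟩ : ∃ δ, δ = 4 * ((x - y) * (x - z) * (y - z)) := ⟨_, rfl⟩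
  have hδ0 : δ ≠ 0 := by
    rw [hδ]
    exact mul_ne_zero (by norm_num) (mul_ne_zero (mul_ne_zero (sub_ne_zero.mpr hxy)
      (sub_ne_zero.mpr hxz)) (sub_ne_zero.mpr hyz))
  have hσδ : ∀ σ : Γℚ, σ δ = δ ∨ σ δ = -δ := by
    intro σ
    have h1 : σ δ ^ 2 = δ ^ 2 := by rw [← map_pow, hδ, hd, map_intCast]
    exact sq_eq_sq_iff_eq_or_eq_neg.mp h1
  have hfix : ∀ σ : Γℚ, repP 2 hΔ σ = 1 ↔ (σ x = x ∧ σ y = y ∧ σ z = z) := by
    intro σ
    rw [repP_eq_one_iff hΔ, forall_smul_iff hΔ]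
    constructor
    · intro h
      exact ⟨h x hx0, h y hy0, h z hz0⟩
    · rintro ⟨h1, h2, h3⟩ t ht
      rcases (hmem t).mp ht with rfl | rfl | rfl
      exacts [h1, h2, h3]
  have hfixδ : ∀ σ : Γℚ, repP 2 hΔ σ = 1 → σ δ = δ := by
    intro σ h
    obtain ⟨h1, h2, h3⟩ := (hfix σ).mp h
    rw [hδ]
    simp only [map_mul, map_sub, map_ofNat, h1, h2, h3]
  -- an element of order two has sign `-1`
  have hneg : ∀ σ : Γℚ, orderOf (repP 2 hΔ σ) = 2 → σ δ = -δ := by
    intro σ hσ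
    have hσ2 : repP 2 hΔ (σ * σ) = 1 := by
      rw [map_mul, ← sq]
      exact orderOf_dvd_iff_pow_eq_one.mp (dvd_of_eq hσ)
    obtain ⟨hx2, hy2, hz2⟩ := (hfix _).mp hσ2
    rw [AlgEquiv.mul_apply] at hx2 hy2 hz2
    have hne : ¬ (σ x = x ∧ σ y = y ∧ σ z = z) := by
      intro h
      rw [(hfix σ).mpr h, orderOf_one] at hσ
      omega
    have hsx := (hmem (σ x)).mp (by rw [← psiTwo_map, hx0, _root_.map_zero])
    have hsy := (hmem (σ y)).mp (by rw [← psiTwo_map, hy0, _root_.map_zero])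
    have hsz := (hmem (σ z)).mp (by rw [← psiTwo_map, hz0, _root_.map_zero])
    have h5 : σ δ = 4 * ((σ x - σ y) * (σ x - σ z) * (σ y - σ z)) := by
      rw [hδ]
      simp only [map_mul, map_sub, map_ofNat]
    rw [h5, hδ]
    rcases hsx with h | h | h
    · rcases hsy with h' | h' | h'
      · exact absurd (σ.injective (h'.trans h.symm)) hxy.symm
      · rcases hsz with h'' | h'' | h''
        · exact absurd (σ.injective (h''.trans h.symm)) hxz.symm
        · exact absurd (σ.injective (h''.trans h'.symm)) hyz.symm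
        · exact absurd ⟨h, h', h''⟩ hne
      · rw [h'] at hy2
        rw [h, h', hy2]
        ring
    · rw [h] at hx2
      rcases hsz with h'' | h'' | h''
      · exact absurd (σ.injective (h''.trans hx2.symm)) hyz.symm
      · exact absurd (σ.injective (h''.trans h.symm)) hxz.symm
      · rw [h, hx2, h'']
        ring
    · rw [h] at hx2
      rcases hsy with h' | h' | h'
      · exact absurd (σ.injective (h'.trans hx2.symm)) hyz
      · rw [h, hx2, h']
        ring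
      · exact absurd (σ.injective (h'.trans h.symm)) hxy.symm
  refine ⟨δ, by rw [hδ, hd], hδ0, fun σ => ?_⟩
  have h3 : repP 2 hΔ (σ * (σ * σ)) = repP 2 hΔ σ ^ 3 := by
    rw [map_mul, map_mul, pow_succ', sq]
  constructor
  · intro h
    refine (pow_three_GL2_two _).resolve_right fun ho => ?_
    rw [← h3] at ho
    have h4 := hneg _ ho
    rw [AlgEquiv.mul_apply, AlgEquiv.mul_apply, h, h, h] at h4
    exact hδ0 (self_eq_neg.mp h4)
  · intro h
    refine (hσδ σ).resolve_right fun hn => ?_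
    have h4 := hfixδ _ (h3.trans h)
    rw [AlgEquiv.mul_apply, AlgEquiv.mul_apply, hn, map_neg, map_neg, hn, map_neg, hn, neg_neg]
      at h4
    exact hδ0 (self_eq_neg.mp h4.symm)

section Mod

variable {p : ℕ} [hp : Fact p.Prime]

/-- `σ` acts trivially on `W[p]` iff its matrix is congruent to `1` modulo `p`. -/
theorem Tb.cg_one_iff (X : Tb W p) {σ : Γℚ} : Serre.Cg p 1 (X.M σ) 1 ↔
    ∀ x : Submodule.torsionBy ℤ
      ((W.map (Int.castRingHom ℚ))⁄(AlgebraicClosure ℚ)).Point ((p : ℕ) : ℤ), σ • x = x := by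
  refine ⟨fun h x => X.smul_eq_of_cg h x, fun h => ?_⟩
  rw [Tb.cg_iff_map, ← X.map_M σ 1, Matrix.map_one _ (_root_.map_zero _) (_root_.map_one _),
    ← LinearMap.toMatrix_one (X.bn 1)]
  congr 1
  refine LinearMap.ext fun x => Subtype.ext ?_
  have hx : ∀ P : (EQ W).Point, P ∈ Submodule.torsionBy ℤ (EQ W).Point ((p ^ 1 : ℕ) : ℤ) →
      P ∈ Submodule.torsionBy ℤ (EQ W).Point ((p : ℕ) : ℤ) := by
    intro P hP
    rwa [pow_one] at hP
  have h2 : σ • (x : (EQ W).Point) = x := congrArg Subtype.val (h ⟨x, hx x x.2⟩)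
  exact h2

end Mod

/-- The matrix at `2` is even iff the cube of the action on `W[2]` is trivial. -/
theorem isEven_M_iff (hΔ : W.Δ ≠ 0) (X : Tb W 2) (σ : Γℚ) :
    Serre.IsEven (X.M σ) ↔ repP 2 hΔ σ ^ 3 = 1 := by
  rw [Serre.IsEven, ← map_pow, ← map_pow, X.cg_one_iff, repP_eq_one_iff hΔ]

/-! ### The cyclotomic characters -/

theorem chi_eq_cyc (p : ℕ) [hp : Fact p.Prime] (σ : Γℚ) :
    KW.Recip.chi ⟨p, hp.out⟩ σ = cyc p σ :=
  KW.Recip.chi_eq (p := ⟨p, hp.out⟩) fun n ζ hζ => cn_spec p n σ ζ hζ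

/-- **Given units `u p ∈ ℤ_p` for all primes `p`, there is `σ ∈ Gal(ℚ̄/ℚ)` with cyclotomic characters
`u p`.** -/
theorem exists_cyc_all (u : ∀ (p : ℕ) [Fact p.Prime], ℤ_[p]ˣ) :
    ∃ σ : Γℚ, ∀ (p : ℕ) [Fact p.Prime], cyc p σ = u p := by
  obtain ⟨σ, hσ⟩ := KW.Recip.cyc_surjective fun p => @u p ⟨p.2⟩
  exact ⟨σ, fun p hp => (chi_eq_cyc p σ).symm.trans (congrFun hσ ⟨p, hp.out⟩)⟩

/-- A square root of an integer is fixed by the elements with trivial cyclotomic characters. -/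
theorem fixed_of_cyc {δ : Qbar} {d : ℤ} (hd : δ ^ 2 = ((d : ℤ) : Qbar)) {σ : Γℚ}
    (h : ∀ (p : ℕ) [Fact p.Prime], cyc p σ = 1) : σ δ = δ := by
  have hσδ : ∀ σ : Γℚ, σ δ = δ ∨ σ δ = -δ := by
    intro σ
    have h1 : σ δ ^ 2 = δ ^ 2 := by rw [← map_pow, hd, map_intCast]
    exact sq_eq_sq_iff_eq_or_eq_neg.mp h1
  obtain ⟨m, hm, hmem⟩ := (KW.commute_iff δ).1 fun σ τ => by
    rcases hσδ σ with h1 | h1 <;> rcases hσδ τ with h2 | h2 <;>
      simp only [h1, h2, map_neg]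
  have h1 : KW.Recip.cyc σ = 1 := by
    funext p
    have : Fact (p : ℕ).Prime := ⟨p.2⟩
    exact (chi_eq_cyc (p : ℕ) σ).trans (h p)
  have h2 := KW.Recip.mem_Fix_of_cyc h1 hm
  have h3 : {ζ : Qbar | ζ ^ m = 1} ⊆ (IntermediateField.fixedField (Subgroup.zpowers σ) :
      IntermediateField ℚ Qbar) := by
    intro ζ hζ
    have h4 : Subgroup.zpowers σ ≤ MulAction.stabilizer Γℚ ζ :=
      Subgroup.zpowers_le.mpr (MulAction.mem_stabilizer_iff.mpr (h2 ζ hζ))
    rintro ⟨τ, hτ⟩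
    exact MulAction.mem_stabilizer_iff.mp (h4 hτ)
  exact (IntermediateField.adjoin_le_iff.mpr h3) hmem ⟨σ, Subgroup.mem_zpowers σ⟩

/-- **An element with trivial cyclotomic characters acts on `W[2]` by an even permutation.** -/
theorem isEven_of_cyc (hΔ : W.Δ ≠ 0) (X : Tb W 2) {σ : Γℚ}
    (h : ∀ (p : ℕ) [Fact p.Prime], cyc p σ = 1) : Serre.IsEven (X.M σ) := by
  obtain ⟨δ, hd, -, hs⟩ := exists_sqrt_sign hΔ
  exact (isEven_M_iff hΔ X σ).mpr ((hs σ).mp (fixed_of_cyc hd h))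

/-! ### Automorphisms of the Tate modules with given matrices -/

section aut

variable {p : ℕ} [hp : Fact p.Prime]

/-- the automorphism of `T_p W` with a given matrix -/
def Tb.aut (X : Tb W p) (g : Matrix (Fin 2) (Fin 2) ℤ_[p]) (hg : IsUnit g.det) :
    Tp W p ≃ₗ[ℤ_[p]] Tp W p :=
  LinearEquiv.ofIsUnitDet (f := Matrix.toLin X.b X.b g) (v := X.b) (v' := X.b) (by
    rwa [LinearMap.toMatrix_toLin])

theorem Tb.toMatrix_aut (X : Tb W p) (g : Matrix (Fin 2) (Fin 2) ℤ_[p]) (hg : IsUnit g.det) :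
    LinearMap.toMatrix X.b X.b (X.aut g hg).toLinearMap = g := by
  have h1 : (X.aut g hg).toLinearMap = Matrix.toLin X.b X.b g := rfl
  rw [h1, LinearMap.toMatrix_toLin]

/-- the matrix of `tateAut` -/
theorem Tb.toMatrix_tateAut (X : Tb W p) (hΔ : W.Δ ≠ 0) (σ : Γℚ) :
    LinearMap.toMatrix X.b X.b (tateAut hΔ p σ).toLinearMap = X.M σ := by
  rw [tateAut_toLinearMap]
  rfl

theorem Tb.tateAut_eq_iff (X : Tb W p) (hΔ : W.Δ ≠ 0) (σ : Γℚ) (e : Tp W p ≃ₗ[ℤ_[p]] Tp W p) :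
    tateAut hΔ p σ = e ↔ X.M σ = LinearMap.toMatrix X.b X.b e.toLinearMap := by
  rw [← X.toMatrix_tateAut hΔ σ]
  constructor
  · rintro rfl
    rfl
  · intro h
    exact LinearEquiv.toLinearMap_injective ((LinearMap.toMatrix X.b X.b).injective h)

end aut

/-- A transvection at `2`, the identity at the other primes. -/
def tvTwo (p : ℕ) [Fact p.Prime] : Matrix (Fin 2) (Fin 2) ℤ_[p] :=
  Serre.tU (if p = 2 then 1 else 0)

theorem det_tvTwo (p : ℕ) [Fact p.Prime] : (tvTwo p).det = 1 := Serre.det_tU _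

/-- **The adelic representation of an elliptic curve over `ℚ` is never surjective**: for every
equation over `ℤ` with `Δ ≠ 0` there are automorphisms `e p` of the Tate modules `T_p W` which are
not the action of one element of `Gal(ℚ̄/ℚ)`. -/
theorem not_surjective_adelicAut (hΔ : W.Δ ≠ 0) :
    ¬ Function.Surjective (adelicAut hΔ fun _ => True) := by
  intro hs
  have hX : ∀ (p : ℕ) [Fact p.Prime], Nonempty (Tb W p) := fun p _ => exists_tb hΔ
  let X : ∀ (p : ℕ) [Fact p.Prime], Tb W p := fun p _ => (hX p).some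
  obtain ⟨σ, hσ⟩ := hs fun p => (X (p : ℕ)).aut (tvTwo (p : ℕ)) (by
    rw [det_tvTwo]
    exact isUnit_one)
  have h1 : ∀ (p : ℕ) [Fact p.Prime], (X p).M σ = tvTwo p := by
    intro p hp
    have h2 : tateAut hΔ p σ = (X p).aut (tvTwo p) (by
      rw [det_tvTwo]
      exact isUnit_one) := congrFun hσ ⟨p, hp.out, trivial⟩
    rw [(X p).tateAut_eq_iff hΔ, (X p).toMatrix_aut] at h2
    exact h2
  have h2 : ∀ (p : ℕ) [Fact p.Prime], cyc p σ = 1 := by
    intro p hp
    refine Units.ext ?_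
    rw [← (X p).det_M σ, h1 p, det_tvTwo, Units.val_one]
  have h3 := isEven_of_cyc hΔ (X 2) h2
  rw [h1 2, tvTwo, if_pos rfl] at h3
  exact Serre.not_isEven_tU h3

end Fermat.Agent.Cor

end
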